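/-
P4-S35, block (S35-0)/(N1), file 0: abstract commutation of transfers.

Complements `P3LR/A/Transfer2.lean`:
* `transfer_eq_of_rep_mem_card` : two systems of pairwise distinct cosets with index sets of the
  same cardinality, each representative of the first lying in a coset of the second, have the same
  transfer;
* `isInj_comp` : composite of systems of pairwise distinct cosets;
* `transfer_comm` : commutation `S_c ∘ S_T' = S_T ∘ S_c` of transfers from coset-level hypotheses;
* `scale` : multiplying all representatives by a central element does not change anything.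
-/
import Mathlib
import Fermat.Agent.P3LR.A.Transfer2

set_option autoImplicit false

namespace Fermat.Agent.P4.TransferComm

open Fermat.Agent.P3LR.A.Transfer2

variable {G Gam Del : Type*} [Group G] [Group Gam] [Group Del]
variable {jΓ : Gam →* G} {jΔ : Del →* G} {ι ι' κ : Type*}

section Card

variable (S : CosetSys₂ jΓ jΔ ι) (S' : CosetSys₂ jΓ jΔ ι') {M : Type*} [CommGroup M]
  [Fintype ι] [Fintype ι']

/-- Variant of `transfer_eq_of_rep_mem`: one of the two membership hypotheses is replaced by an
equality of cardinalities. -/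
theorem transfer_eq_of_rep_mem_card (hS : S.IsInj) (hS' : S'.IsInj)
    (hΔ : Function.Injective jΔ) (hcard : Fintype.card ι' = Fintype.card ι)
    (h : ∀ i' : ι', ∃ (i : ι) (d : Del), S'.rep i' = jΔ d * S.rep i)
    (ψ : Del →* M) : S'.transfer ψ = S.transfer ψ := by
  classical
  choose σ d hσ using h
  have hinj : Function.Injective σ := by
    intro a b hab
    refine hS' a b (d a * (d b)⁻¹) ?_
    rw [hσ a, hσ b, hab, map_mul, map_inv, mul_assoc, inv_mul_cancel_left]
  have hbij : Function.Bijective σ :=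
    (Fintype.bijective_iff_injective_and_card σ).2 ⟨hinj, hcard⟩
  exact CosetSys₂.transfer_eq_of_rep_eq S S' hS hΔ (Equiv.ofBijective σ hbij) d hσ ψ

end Card

section Comm

variable {Eps : Type*} [Group Eps] {jΕ : Eps →* G}

/-- composite of systems of pairwise distinct cosets: if an equality of composite cosets forces
`(S'.rep i')⁻¹ * jΕ e * S'.rep k'` into `jΔ(Del)`, the composite consists of pairwise distinct
cosets. -/
theorem isInj_comp (S : CosetSys₂ jΓ jΔ ι) (S' : CosetSys₂ jΔ jΕ ι') (hS : S.IsInj)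
    (hS' : S'.IsInj)
    (hrange : ∀ (i' k' : ι') (e : Eps) (i k : ι),
      S'.rep i' * S.rep i = jΕ e * (S'.rep k' * S.rep k) →
        ∃ d : Del, (S'.rep i')⁻¹ * jΕ e * S'.rep k' = jΔ d) :
    (S.comp S').IsInj := by
  rintro ⟨i, i'⟩ ⟨k, k'⟩ e hrep
  simp only [CosetSys₂.comp_rep] at hrep
  obtain ⟨d, hd⟩ := hrange i' k' e i k hrep
  have h1 : S.rep i = jΔ d * S.rep k := by
    rw [← hd, mul_assoc, mul_assoc, ← hrep, ← mul_assoc, inv_mul_cancel, one_mul]
  have hik : i = k := hS i k d h1
  subst hik
  have h2 : S'.rep i' = jΕ e * S'.rep k' := by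
    refine mul_right_cancel (b := S.rep i) ?_
    rw [hrep, mul_assoc]
  have : i' = k' := hS' i' k' e h2
  rw [this]

variable {M : Type*} [CommGroup M] [Fintype ι] [Fintype κ]

/-- **Commutation of transfers.** `S_c : Gam ⟶ Del`, `S_T : Gam ⟶ Gam`, `S_T' : Del ⟶ Del`.
If both composites consist of pairwise distinct cosets and every coset of `S_c` followed by `S_T'`
is a coset of `S_T` followed by `S_c`, then `S_c ∘ S_T' = S_T ∘ S_c` on homomorphisms. -/
theorem transfer_comm (S_c : CosetSys₂ jΓ jΔ ι) (S_T : CosetSys₂ jΓ jΓ κ)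
    (S_T' : CosetSys₂ jΔ jΔ κ) (hΔ : Function.Injective jΔ)
    (hI : (S_T.comp S_c).IsInj) (hI' : (S_c.comp S_T').IsInj)
    (hM : ∀ (x : ι) (y : κ), ∃ (x' : ι) (y' : κ) (d : Del),
      S_T'.rep y * S_c.rep x = jΔ d * (S_c.rep x' * S_T.rep y'))
    (ψ : Del →* M) :
    S_c.transfer (S_T'.transfer ψ) = S_T.transfer (S_c.transfer ψ) := by
  rw [← CosetSys₂.transfer_comp, ← CosetSys₂.transfer_comp]
  refine transfer_eq_of_rep_mem_card (S_T.comp S_c) (S_c.comp S_T') hI hI' hΔ ?_ ?_ ψ
  · rw [Fintype.card_prod, Fintype.card_prod, mul_comm]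
  · rintro ⟨x, y⟩
    obtain ⟨x', y', d, h⟩ := hM x y
    exact ⟨(y', x'), d, h⟩

end Comm

end Fermat.Agent.P4.TransferComm
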