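/-
P4-S35, block (S35-0)/(N1), file 1: THE CORESTRICTION `Hom(Γ₀(Nq), M) → Hom(Γ₀(N), M)`, `q ∤ N`
(= push-forward `α_*` along the degeneracy map `X₀(Nq) → X₀(N)`, `z ↦ z`, on the lattice side).

* `mem_Gamma0_mul_iff`, `IsTransversal ρ` (`redMatrix q (ρ x) • ∞ = x`): right transversals
  `Γ₀(N) = ⊔ₓ Γ₀(Nq) ρ_x` indexed by `ℙ¹(𝔽_q)`, adapted to the Hecke permutation;
* `transSys hqN ρ hρ : CosetSys₂ (jGL N) (jGL (N*q)) (OnePoint (ZMod q))` with
  `ρ x * g = transCoc g x * ρ (redMatrix q g • x)`; independence of `ρ`;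
* the explicit transversal `coresRep`, the system `coresSys`, `coresHom`, `coresAdd`,
  `coresAdd_apply`, `coresAdd_comp`, `coresAdd_mem_parHomAdd`, `coresPar`;
* `coresAdd_res` : `cores ∘ res = (q + 1)`;
* (R2) `coresAdd_heckeAdd` : `cores ∘ T_ℓ^{Nq} = T_ℓ^N ∘ cores`, `ℓ ∤ Nq`.
-/
import Mathlib
import Fermat.Agent.N4F.Tors.HeckeHom
import Fermat.Agent.P3LR.A.Transfer2
import Fermat.Agent.P3LR.A.IntMat
import Fermat.Agent.P4.TransferComm

set_option autoImplicit false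

open scoped MatrixGroups

namespace Fermat.Agent.P4.Cores

open Matrix.SpecialLinearGroup CongruenceSubgroup ModularForm
open P2MW.S_ModularForm_heckeT_slash_eq_self_of_mem_Gamma0.ModularForm.HeckeSlashInvariance
open Fermat.Agent.N4F.Tors.HeckeHom Fermat.Agent.P3LR.A.Transfer2 Fermat.Agent.P3LR.A.IntMat
open Fermat.Agent.P4.TransferComm
open scoped OnePoint

/-! ### `Γ₀(Nq) ≤ Γ₀(N)` and the criterion for membership -/

section Membership

variable (N q : ℕ)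

theorem Gamma0_mul_le : Gamma0 (N * q) ≤ Gamma0 N := by
  intro g hg
  rw [Gamma0_mem, ZMod.intCast_zmod_eq_zero_iff_dvd] at hg ⊢
  exact Dvd.dvd.trans ⟨(q : ℤ), by push_cast; ring⟩ hg

/-- the inclusion `Γ₀(Nq) → Γ₀(N)` -/
def incl : ↥(Gamma0 (N * q)) →* ↥(Gamma0 N) := Subgroup.inclusion (Gamma0_mul_le N q)

@[simp] theorem coe_incl (c : ↥(Gamma0 (N * q))) : ((incl N q c : ↥(Gamma0 N)) : SL(2, ℤ)) = c :=
  rfl

theorem jGL_incl (c : ↥(Gamma0 (N * q))) : jGL N (incl N q c) = jGL (N * q) c := rfl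

variable [Fact q.Prime]

/-- For `g ∈ SL(2, ℤ)`: `redMatrix q g` fixes `∞` iff `q ∣ g 1 0`. -/
theorem redMatrix_smul_infty_eq_iff (g : SL(2, ℤ)) :
    redMatrix q g • (∞ : OnePoint (ZMod q)) = ∞ ↔ (q : ℤ) ∣ g 1 0 := by
  rw [OnePoint.smul_infty_eq_self_iff, redMatrix_apply_one_zero,
    ZMod.intCast_zmod_eq_zero_iff_dvd]

variable {N q}

/-- Membership in `Γ₀(Nq)` for elements of `Γ₀(N)`, `q ∤ N`. -/
theorem mem_Gamma0_mul_iff (hqN : ¬ q ∣ N) {g : SL(2, ℤ)} (hg : g ∈ Gamma0 N) :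
    g ∈ Gamma0 (N * q) ↔ redMatrix q g • (∞ : OnePoint (ZMod q)) = ∞ := by
  rw [redMatrix_smul_infty_eq_iff, Gamma0_mem, ZMod.intCast_zmod_eq_zero_iff_dvd]
  have hN : (N : ℤ) ∣ g 1 0 := (ZMod.intCast_zmod_eq_zero_iff_dvd _ _).mp (Gamma0_mem.mp hg)
  have hcop : IsCoprime (N : ℤ) (q : ℤ) := by
    rw [Nat.isCoprime_iff_coprime]
    exact ((Nat.Prime.coprime_iff_not_dvd (Fact.out : q.Prime)).2 hqN).symm
  constructor
  · intro h
    exact Dvd.dvd.trans ⟨(N : ℤ), by push_cast; ring⟩ h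
  · intro h
    have := hcop.mul_dvd hN h
    exact_mod_cast this

theorem mem_Gamma0_mul_of_dvd (hqN : ¬ q ∣ N) {g : SL(2, ℤ)} (hg : g ∈ Gamma0 N)
    (h : (q : ℤ) ∣ g 1 0) : g ∈ Gamma0 (N * q) :=
  (mem_Gamma0_mul_iff hqN hg).2 ((redMatrix_smul_infty_eq_iff q g).2 h)

omit [Fact q.Prime] in
theorem dvd_of_mem_Gamma0_mul {g : SL(2, ℤ)} (hg : g ∈ Gamma0 (N * q)) : (q : ℤ) ∣ g 1 0 := by
  rw [Gamma0_mem, ZMod.intCast_zmod_eq_zero_iff_dvd] at hg
  exact Dvd.dvd.trans ⟨(N : ℤ), by push_cast; ring⟩ hg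

end Membership

/-! ### The coset system of a transversal -/

section Generic

variable {N q : ℕ} [Fact q.Prime]

/-- `ρ : ℙ¹(𝔽_q) → Γ₀(N)` is an adapted right transversal of `Γ₀(Nq)` in `Γ₀(N)`:
`redMatrix q (ρ x) • ∞ = x`. -/
def IsTransversal (ρ : OnePoint (ZMod q) → ↥(Gamma0 N)) : Prop :=
  ∀ x, redMatrix q (ρ x : SL(2, ℤ)) • (∞ : OnePoint (ZMod q)) = x

variable (hqN : ¬ q ∣ N) (ρ : OnePoint (ZMod q) → ↥(Gamma0 N)) (hρ : IsTransversal ρ)

include hqN in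
/-- for `g, h ∈ Γ₀(N)`: `g h⁻¹ ∈ Γ₀(Nq)` iff `g` and `h` send `∞` to the same point. -/
theorem mul_inv_mem_iff (g h : ↥(Gamma0 N)) :
    ((g * h⁻¹ : ↥(Gamma0 N)) : SL(2, ℤ)) ∈ Gamma0 (N * q) ↔
      redMatrix q (g : SL(2, ℤ)) • (∞ : OnePoint (ZMod q)) =
        redMatrix q (h : SL(2, ℤ)) • (∞ : OnePoint (ZMod q)) := by
  set S := heckeSys N q hqN with hS
  rw [mem_Gamma0_mul_iff hqN (g * h⁻¹).2]
  have h1 : redMatrix q ((g * h⁻¹ : ↥(Gamma0 N)) : SL(2, ℤ)) • (∞ : OnePoint (ZMod q)) =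
      S.perm (g * h⁻¹) ∞ := rfl
  rw [h1, S.perm_mul]
  have h2 : S.perm h⁻¹ (S.perm g ∞) = (S.permEquiv h).symm (S.perm g ∞) := rfl
  rw [h2, Equiv.symm_apply_eq]
  rfl

include hqN hρ in
theorem transCoc_mem (g : ↥(Gamma0 N)) (x : OnePoint (ZMod q)) :
    ((ρ x * g * (ρ (redMatrix q (g : SL(2, ℤ)) • x))⁻¹ : ↥(Gamma0 N)) : SL(2, ℤ)) ∈
      Gamma0 (N * q) := by
  rw [mul_inv_mem_iff hqN, hρ]
  have h1 := redMatrix_mul_smul N q hqN (ρ x) g ∞
  rw [h1, hρ]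

/-- the cocycle of the transversal `ρ` -/
def transCoc (g : ↥(Gamma0 N)) (x : OnePoint (ZMod q)) : ↥(Gamma0 (N * q)) :=
  ⟨((ρ x * g * (ρ (redMatrix q (g : SL(2, ℤ)) • x))⁻¹ : ↥(Gamma0 N)) : SL(2, ℤ)),
    transCoc_mem hqN ρ hρ g x⟩

theorem incl_transCoc (g : ↥(Gamma0 N)) (x : OnePoint (ZMod q)) :
    incl N q (transCoc hqN ρ hρ g x) = ρ x * g * (ρ (redMatrix q (g : SL(2, ℤ)) • x))⁻¹ := rfl

/-- **the coset identity** in `Γ₀(N)` -/
theorem rep_mul_eq (g : ↥(Gamma0 N)) (x : OnePoint (ZMod q)) :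
    ρ x * g = incl N q (transCoc hqN ρ hρ g x) * ρ (redMatrix q (g : SL(2, ℤ)) • x) := by
  rw [incl_transCoc, inv_mul_cancel_right]

/-- the coset identity in `SL(2, ℤ)` -/
theorem rep_mul_eq_SL (g : ↥(Gamma0 N)) (x : OnePoint (ZMod q)) :
    (ρ x : SL(2, ℤ)) * (g : SL(2, ℤ)) =
      (transCoc hqN ρ hρ g x : SL(2, ℤ)) * (ρ (redMatrix q (g : SL(2, ℤ)) • x) : SL(2, ℤ)) := by
  have h := congrArg (fun u : ↥(Gamma0 N) => (u : SL(2, ℤ))) (rep_mul_eq hqN ρ hρ g x)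
  exact h

include hqN hρ in
/-- the cosets `Γ₀(Nq) ρ_x` are pairwise distinct -/
theorem rep_inj (x x' : OnePoint (ZMod q)) (d : ↥(Gamma0 (N * q)))
    (h : ρ x = incl N q d * ρ x') : x = x' := by
  have h1 : ((ρ x * (ρ x')⁻¹ : ↥(Gamma0 N)) : SL(2, ℤ)) ∈ Gamma0 (N * q) := by
    rw [h, mul_inv_cancel_right]
    exact d.2
  rw [mul_inv_mem_iff hqN, hρ, hρ] at h1
  exact h1

include hqN hρ in
/-- the cosets `Γ₀(Nq) ρ_x` exhaust `Γ₀(N)` -/
theorem exists_eq_mul (g : ↥(Gamma0 N)) :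
    ∃ (d : ↥(Gamma0 (N * q))) (x : OnePoint (ZMod q)), g = incl N q d * ρ x := by
  set x := redMatrix q (g : SL(2, ℤ)) • (∞ : OnePoint (ZMod q)) with hx
  have h1 : ((g * (ρ x)⁻¹ : ↥(Gamma0 N)) : SL(2, ℤ)) ∈ Gamma0 (N * q) := by
    rw [mul_inv_mem_iff hqN, hρ]
  refine ⟨⟨_, h1⟩, x, ?_⟩
  apply Subtype.ext
  show (g : SL(2, ℤ)) = ((g * (ρ x)⁻¹ : ↥(Gamma0 N)) : SL(2, ℤ)) * (ρ x : SL(2, ℤ))
  simp

include hqN hρ in
/-- `ρ` is a right transversal in the sense of `NormCosets.exists_norm_div` -/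
theorem existsUnique_mul_inv_mem :
    ∀ g ∈ Gamma0 N, ∃! x, g * ((ρ x : ↥(Gamma0 N)) : SL(2, ℤ))⁻¹ ∈ Gamma0 (N * q) := by
  intro g hg
  have key : ∀ x, g * ((ρ x : ↥(Gamma0 N)) : SL(2, ℤ))⁻¹ ∈ Gamma0 (N * q) ↔
      redMatrix q g • (∞ : OnePoint (ZMod q)) = x := by
    intro x
    have := mul_inv_mem_iff hqN ⟨g, hg⟩ (ρ x)
    rw [hρ] at this
    exact this
  exact ⟨_, (key _).2 rfl, fun y hy => ((key y).1 hy).symm⟩

/-- **The coset system of the transversal `ρ`.** -/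
noncomputable def transSys : CosetSys₂ (jGL N) (jGL (N * q)) (OnePoint (ZMod q)) :=
  CosetSys₂.ofInj (jGL_injective (N * q)) (fun x => jGL N (ρ x))
    (fun g x => redMatrix q (g : SL(2, ℤ)) • x) (transCoc hqN ρ hρ)
    (fun g x => by
      rw [← map_mul, rep_mul_eq hqN ρ hρ g x, map_mul, jGL_incl])
    (fun x x' d h => by
      rw [← jGL_incl, ← map_mul] at h
      exact rep_inj hqN ρ hρ x x' d (jGL_injective N h))

@[simp] theorem transSys_rep (x : OnePoint (ZMod q)) :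
    (transSys hqN ρ hρ).rep x = jGL N (ρ x) := rfl

@[simp] theorem transSys_perm (g : ↥(Gamma0 N)) (x : OnePoint (ZMod q)) :
    (transSys hqN ρ hρ).perm g x = redMatrix q (g : SL(2, ℤ)) • x := rfl

@[simp] theorem transSys_coc (g : ↥(Gamma0 N)) (x : OnePoint (ZMod q)) :
    (transSys hqN ρ hρ).coc g x = transCoc hqN ρ hρ g x := rfl

theorem transSys_isInj : (transSys hqN ρ hρ).IsInj :=
  CosetSys₂.isInj_ofInj _ _ _ _ _ _

variable {M : Type*} [CommGroup M]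

/-- **independence of the transversal** -/
theorem transSys_transfer_eq (ρ' : OnePoint (ZMod q) → ↥(Gamma0 N)) (hρ' : IsTransversal ρ')
    (ψ : ↥(Gamma0 (N * q)) →* M) :
    (transSys hqN ρ' hρ').transfer ψ = (transSys hqN ρ hρ).transfer ψ := by
  have hmem : ∀ x, ((ρ' x * (ρ x)⁻¹ : ↥(Gamma0 N)) : SL(2, ℤ)) ∈ Gamma0 (N * q) := by
    intro x
    rw [mul_inv_mem_iff hqN, hρ, hρ']
  refine CosetSys₂.transfer_eq_of_rep_eq _ _ (transSys_isInj hqN ρ hρ) (jGL_injective (N * q))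
    (Equiv.refl _) (fun x => ⟨_, hmem x⟩) (fun x => ?_) ψ
  simp only [transSys_rep, Equiv.refl_apply]
  rw [← jGL_incl, ← map_mul]
  congr 1
  apply Subtype.ext
  show (ρ' x : SL(2, ℤ)) = ((ρ' x * (ρ x)⁻¹ : ↥(Gamma0 N)) : SL(2, ℤ)) * (ρ x : SL(2, ℤ))
  simp

end Generic

/-! ### An explicit transversal -/

section Explicit

variable (N q : ℕ) [Fact q.Prime]

/-- Bezout coefficient: `q * bzD - N * bzB = 1` -/
def bzD : ℤ := Int.gcdA (q : ℤ) (N : ℤ)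

/-- Bezout coefficient: `q * bzD - N * bzB = 1` -/
def bzB : ℤ := -Int.gcdB (q : ℤ) (N : ℤ)

variable {N q}

theorem bz_eq (hqN : ¬ q ∣ N) : (q : ℤ) * bzD N q - (N : ℤ) * bzB N q = 1 := by
  have h := Int.gcd_eq_gcd_ab (q : ℤ) (N : ℤ)
  have hc : Int.gcd (q : ℤ) (N : ℤ) = 1 := by
    rw [Int.gcd_natCast_natCast]
    exact (Nat.Prime.coprime_iff_not_dvd (Fact.out : q.Prime)).2 hqN
  rw [hc] at h
  unfold bzD bzB
  push_cast at h
  linarith

variable (N q)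

/-- the matrix `[1, j + b; N, N j + q d]` -/
def repMat (j : ℤ) : Matrix (Fin 2) (Fin 2) ℤ :=
  !![1, j + bzB N q; (N : ℤ), (N : ℤ) * j + (q : ℤ) * bzD N q]

variable {N q}

theorem det_repMat (hqN : ¬ q ∣ N) (j : ℤ) : (repMat N q j).det = 1 := by
  rw [repMat, Matrix.det_fin_two_of]
  linear_combination bz_eq hqN

/-- `[1, j + b; N, N j + q d] ∈ SL(2, ℤ)` -/
def repSL (hqN : ¬ q ∣ N) (j : ℤ) : SL(2, ℤ) := ⟨repMat N q j, det_repMat hqN j⟩

theorem repSL_mem (hqN : ¬ q ∣ N) (j : ℤ) : repSL hqN j ∈ Gamma0 N := by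
  rw [Gamma0_mem]
  show (((repMat N q j) 1 0 : ℤ) : ZMod N) = 0
  simp [repMat]

/-- **the explicit transversal**: `ρ_∞ = 1`, `ρ_j = [1, j + b; N, N j + q d]` -/
def coresRep (hqN : ¬ q ∣ N) (x : OnePoint (ZMod q)) : ↥(Gamma0 N) :=
  x.elim 1 (fun j => ⟨repSL hqN (j.val : ℤ), repSL_mem hqN _⟩)

@[simp] theorem coresRep_infty (hqN : ¬ q ∣ N) : coresRep hqN (∞ : OnePoint (ZMod q)) = 1 := rfl

theorem coresRep_coe (hqN : ¬ q ∣ N) (j : ZMod q) :
    coresRep hqN (j : OnePoint (ZMod q)) = ⟨repSL hqN (j.val : ℤ), repSL_mem hqN _⟩ := rfl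

theorem isTransversal_coresRep (hqN : ¬ q ∣ N) : IsTransversal (coresRep hqN) := by
  intro x
  induction x using OnePoint.rec with
  | infty =>
    rw [coresRep_infty, redMatrix_smul_infty_eq_iff]
    simp
  | coe j =>
    rw [coresRep_coe]
    have hg10 : (repSL hqN (j.val : ℤ)) 1 0 = (N : ℤ) := rfl
    have hg11 : (repSL hqN (j.val : ℤ)) 1 1 = (N : ℤ) * (j.val : ℤ) + (q : ℤ) * bzD N q := rfl
    have hN0 : ((N : ℕ) : ZMod q) ≠ 0 := by
      intro h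
      exact hqN ((ZMod.natCast_eq_zero_iff N q).mp h)
    rw [OnePoint.smul_infty_eq_ite, redMatrix_apply_one_zero, redMatrix_apply_zero_zero]
    show (if (((repSL hqN (j.val : ℤ)) 1 0 : ℤ) : ZMod q) = 0 then (∞ : OnePoint (ZMod q))
      else (((((repSL hqN (j.val : ℤ)) 1 1 : ℤ) : ZMod q) /
        (((repSL hqN (j.val : ℤ)) 1 0 : ℤ) : ZMod q) : ZMod q) : OnePoint (ZMod q))) = _
    rw [hg10, hg11]
    have h1 : (((N : ℤ) : ZMod q)) = ((N : ℕ) : ZMod q) := by push_cast; rfl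
    rw [h1, if_neg hN0]
    congr 1
    rw [div_eq_iff hN0]
    push_cast
    rw [ZMod.natCast_zmod_val, ZMod.natCast_self, zero_mul, add_zero, mul_comm]

/-- **The corestriction coset system** `Γ₀(N) ⟶ Γ₀(Nq)`. -/
noncomputable def coresSys (hqN : ¬ q ∣ N) :
    CosetSys₂ (jGL N) (jGL (N * q)) (OnePoint (ZMod q)) :=
  transSys hqN (coresRep hqN) (isTransversal_coresRep hqN)

/-- the cocycle of the corestriction system -/
noncomputable def coresCoc (hqN : ¬ q ∣ N) (g : ↥(Gamma0 N)) (x : OnePoint (ZMod q)) :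
    ↥(Gamma0 (N * q)) :=
  transCoc hqN (coresRep hqN) (isTransversal_coresRep hqN) g x

theorem coresRep_mul (hqN : ¬ q ∣ N) (g : ↥(Gamma0 N)) (x : OnePoint (ZMod q)) :
    (coresRep hqN x : SL(2, ℤ)) * (g : SL(2, ℤ)) =
      (coresCoc hqN g x : SL(2, ℤ)) *
        (coresRep hqN (redMatrix q (g : SL(2, ℤ)) • x) : SL(2, ℤ)) :=
  rep_mul_eq_SL hqN _ _ g x

end Explicit

/-! ### The corestriction on homomorphisms -/

section Hom

variable {N q : ℕ} [Fact q.Prime] (hqN : ¬ q ∣ N)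

/-- **The corestriction** `Hom(Γ₀(Nq), M) → Hom(Γ₀(N), M)`:
`(cores ψ)(g) = ∏ₓ ψ (coresCoc g x)`. -/
noncomputable def coresHom {M : Type*} [CommGroup M] :
    (↥(Gamma0 (N * q)) →* M) →* (↥(Gamma0 N) →* M) :=
  (coresSys hqN).transfer

theorem coresHom_apply {M : Type*} [CommGroup M] (ψ : ↥(Gamma0 (N * q)) →* M)
    (g : ↥(Gamma0 N)) :
    coresHom hqN ψ g = ∏ x : OnePoint (ZMod q), ψ (coresCoc hqN g x) := rfl

/-- `cores` computed with an arbitrary adapted transversal -/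
theorem coresHom_eq_transfer {M : Type*} [CommGroup M] (ρ : OnePoint (ZMod q) → ↥(Gamma0 N))
    (hρ : IsTransversal ρ) (ψ : ↥(Gamma0 (N * q)) →* M) :
    coresHom hqN ψ = (transSys hqN ρ hρ).transfer ψ :=
  transSys_transfer_eq hqN ρ hρ _ _ ψ

theorem coresHom_apply_of_isTransversal {M : Type*} [CommGroup M]
    (ρ : OnePoint (ZMod q) → ↥(Gamma0 N)) (hρ : IsTransversal ρ)
    (ψ : ↥(Gamma0 (N * q)) →* M) (g : ↥(Gamma0 N)) :
    coresHom hqN ψ g = ∏ x : OnePoint (ZMod q), ψ (transCoc hqN ρ hρ g x) := by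
  rw [coresHom_eq_transfer hqN ρ hρ]
  rfl

theorem coresHom_comp {M M' : Type*} [CommGroup M] [CommGroup M'] (f : M →* M')
    (ψ : ↥(Gamma0 (N * q)) →* M) : coresHom hqN (f.comp ψ) = f.comp (coresHom hqN ψ) :=
  (coresSys hqN).transfer_comp_hom f ψ

/-- `cores` preserves parabolic homomorphisms -/
theorem coresHom_mem_parHom {M : Type*} [CommGroup M] {ψ : ↥(Gamma0 (N * q)) →* M}
    (hψ : ψ ∈ parHom (N * q) M) : coresHom hqN ψ ∈ parHom N M := by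
  intro g hg
  refine (coresSys hqN).transfer_eq_one_of_mem (parEllSet N) (parEllSet (N * q)) ?_ ψ
    (fun d hd => hψ d hd) hg
  intro g hg n a d h
  exact isParEll_of_conj_pow hg n a h

/-- **`cores ∘ res = q + 1`** -/
theorem coresHom_res {M : Type*} [CommGroup M] (φ : ↥(Gamma0 N) →* M) :
    coresHom hqN (φ.comp (incl N q)) = φ ^ (q + 1) := by
  have h := (coresSys hqN).transfer_comp_of_rep_mem_range (jGL_injective N) (incl N q)
    (fun d => (jGL_incl N q d).symm) (coresRep hqN) (fun x => rfl) φ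
  rw [coresHom, h]
  congr 1
  have h1 : Fintype.card (OnePoint (ZMod q)) = Fintype.card (Option (ZMod q)) := rfl
  rw [h1, Fintype.card_option, ZMod.card]

end Hom

/-! ### Additive twin -/

section Add

variable {N q : ℕ} [Fact q.Prime] (hqN : ¬ q ∣ N)

/-- **The corestriction, additive form** `Hom(Γ₀(Nq), A) → Hom(Γ₀(N), A)`:
`(cores φ)(g) = ∑ₓ φ (coresCoc g x)`. -/
noncomputable def coresAdd {A : Type*} [AddCommGroup A] :
    (Additive ↥(Gamma0 (N * q)) →+ A) →+ (Additive ↥(Gamma0 N) →+ A) where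
  toFun φ := MonoidHom.toAdditiveLeft (coresHom hqN (AddMonoidHom.toMultiplicativeRight φ))
  map_zero' := by
    have h : AddMonoidHom.toMultiplicativeRight (0 : Additive ↥(Gamma0 (N * q)) →+ A) =
        (1 : ↥(Gamma0 (N * q)) →* Multiplicative A) := rfl
    rw [h, map_one]
    rfl
  map_add' φ ψ := by
    have h : AddMonoidHom.toMultiplicativeRight (φ + ψ) =
        AddMonoidHom.toMultiplicativeRight φ * AddMonoidHom.toMultiplicativeRight ψ := rfl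
    rw [h, map_mul]
    rfl

theorem coresAdd_apply {A : Type*} [AddCommGroup A] (φ : Additive ↥(Gamma0 (N * q)) →+ A)
    (g : ↥(Gamma0 N)) :
    coresAdd hqN φ (Additive.ofMul g) =
      ∑ x : OnePoint (ZMod q), φ (Additive.ofMul (coresCoc hqN g x)) := by
  show Multiplicative.toAdd (coresHom hqN (AddMonoidHom.toMultiplicativeRight φ) g) = _
  rw [coresHom_apply, toAdd_prod]
  rfl

theorem coresAdd_apply_of_isTransversal {A : Type*} [AddCommGroup A]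
    (ρ : OnePoint (ZMod q) → ↥(Gamma0 N)) (hρ : IsTransversal ρ)
    (φ : Additive ↥(Gamma0 (N * q)) →+ A) (g : ↥(Gamma0 N)) :
    coresAdd hqN φ (Additive.ofMul g) =
      ∑ x : OnePoint (ZMod q), φ (Additive.ofMul (transCoc hqN ρ hρ g x)) := by
  show Multiplicative.toAdd (coresHom hqN (AddMonoidHom.toMultiplicativeRight φ) g) = _
  rw [coresHom_apply_of_isTransversal hqN ρ hρ, toAdd_prod]
  rfl

theorem coresAdd_comp {A B : Type*} [AddCommGroup A] [AddCommGroup B] (f : A →+ B)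
    (φ : Additive ↥(Gamma0 (N * q)) →+ A) :
    coresAdd hqN (f.comp φ) = f.comp (coresAdd hqN φ) := by
  refine AddMonoidHom.ext fun g => ?_
  obtain ⟨g, rfl⟩ := Additive.ofMul.surjective g
  rw [coresAdd_apply, AddMonoidHom.comp_apply, coresAdd_apply, map_sum]
  rfl

theorem coresAdd_mem_parHomAdd {A : Type*} [AddCommGroup A]
    {φ : Additive ↥(Gamma0 (N * q)) →+ A} (hφ : φ ∈ parHomAdd (N * q) A) :
    coresAdd hqN φ ∈ parHomAdd N A := by
  rw [← toMultiplicativeRight_mem_parHom] at hφ ⊢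
  exact coresHom_mem_parHom hqN hφ

/-- `cores` on parabolic homomorphisms -/
noncomputable def coresPar (A : Type*) [AddCommGroup A] :
    parHomAdd (N * q) A →+ parHomAdd N A where
  toFun φ := ⟨coresAdd hqN φ.1, coresAdd_mem_parHomAdd hqN φ.2⟩
  map_zero' := Subtype.ext (map_zero _)
  map_add' _ _ := Subtype.ext (map_add _ _ _)

@[simp] theorem coe_coresPar {A : Type*} [AddCommGroup A] (φ : parHomAdd (N * q) A) :
    ((coresPar hqN A φ : parHomAdd N A) : Additive ↥(Gamma0 N) →+ A) = coresAdd hqN φ.1 := rfl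

theorem parHomAddMap_coresPar {A B : Type*} [AddCommGroup A] [AddCommGroup B] (f : A →+ B)
    (φ : parHomAdd (N * q) A) :
    parHomAddMap N f (coresPar hqN A φ) = coresPar hqN B (parHomAddMap (N * q) f φ) :=
  Subtype.ext (coresAdd_comp hqN f φ.1).symm

/-- restriction `Hom(Γ₀(N), A) → Hom(Γ₀(Nq), A)` -/
def resAdd {A : Type*} [AddCommGroup A] :
    (Additive ↥(Gamma0 N) →+ A) →+ (Additive ↥(Gamma0 (N * q)) →+ A) where
  toFun φ := φ.comp (MonoidHom.toAdditive (incl N q))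
  map_zero' := rfl
  map_add' _ _ := rfl

omit [Fact q.Prime] in
@[simp] theorem resAdd_apply {A : Type*} [AddCommGroup A] (φ : Additive ↥(Gamma0 N) →+ A)
    (c : ↥(Gamma0 (N * q))) :
    resAdd (q := q) φ (Additive.ofMul c) = φ (Additive.ofMul (incl N q c)) := rfl

/-- **`cores ∘ res = q + 1`**, additive form -/
theorem coresAdd_resAdd {A : Type*} [AddCommGroup A] (φ : Additive ↥(Gamma0 N) →+ A) :
    coresAdd hqN (resAdd φ) = (q + 1) • φ := by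
  refine AddMonoidHom.ext fun g => ?_
  obtain ⟨g, rfl⟩ := Additive.ofMul.surjective g
  have h := congrArg (fun χ : ↥(Gamma0 N) →* Multiplicative A => Multiplicative.toAdd (χ g))
    (coresHom_res hqN (AddMonoidHom.toMultiplicativeRight φ))
  simp only [MonoidHom.pow_apply, toAdd_pow] at h
  rw [AddMonoidHom.smul_apply]
  exact h

end Add

/-! ### (R2): `cores` commutes with the Hecke operators `T_ℓ`, `ℓ ∤ Nq` -/

section Hecke

variable {N q : ℕ} [Fact q.Prime] (hqN : ¬ q ∣ N)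
variable {ℓ : ℕ} [Fact ℓ.Prime]

/-- entries of the integral Hecke representatives -/
theorem hInt_one_zero (x : OnePoint (ZMod ℓ)) : hInt ℓ x 1 0 = 0 := by
  induction x using OnePoint.rec with
  | infty => simp
  | coe j => simp

theorem hInt_zero_zero_dvd (x : OnePoint (ZMod ℓ)) : hInt ℓ x 0 0 ∣ (ℓ : ℤ) := by
  induction x using OnePoint.rec with
  | infty => simp
  | coe j => simp

theorem hInt_one_one_dvd (x : OnePoint (ZMod ℓ)) : hInt ℓ x 1 1 ∣ (ℓ : ℤ) := by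
  induction x using OnePoint.rec with
  | infty => simp
  | coe j => simp

/-- **(H)**: if `β_y g = c β_y'` with `c ∈ Γ₀(Nq)` (and `ℓ ≠ q`), then `q ∣ g 1 0`. -/
theorem dvd_of_heckeRep_mul_eq (hℓq : ℓ ≠ q) (g c : SL(2, ℤ)) (hc : (q : ℤ) ∣ c 1 0)
    (y y' : OnePoint (ZMod ℓ))
    (h : heckeRep ℓ y * mapGL ℝ g = mapGL ℝ c * heckeRep ℓ y') : (q : ℤ) ∣ g 1 0 := by
  rw [heckeRep_eq_glOf, heckeRep_eq_glOf,
    glOf_mul_mapGL_eq_iff (det_hInt_ne_zero ℓ y) (det_hInt_ne_zero ℓ y')] at h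
  have h10 := congrFun (congrFun h 1) 0
  rw [Matrix.mul_apply, Matrix.mul_apply, Fin.sum_univ_two, Fin.sum_univ_two, hInt_one_zero,
    hInt_one_zero, zero_mul, zero_add, mul_zero, add_zero] at h10
  have hq : Prime (q : ℤ) := Nat.prime_iff_prime_int.mp (Fact.out : q.Prime)
  have h1 : (q : ℤ) ∣ hInt ℓ y 1 1 * g 1 0 := by
    have : hInt ℓ y 1 1 * g 1 0 = c 1 0 * hInt ℓ y' 0 0 := h10
    rw [this]
    exact Dvd.dvd.mul_right hc _
  rcases hq.dvd_or_dvd h1 with h2 | h2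
  · exfalso
    have h3 : (q : ℤ) ∣ (ℓ : ℤ) := h2.trans (hInt_one_one_dvd y)
    have h4 : q ∣ ℓ := by exact_mod_cast h3
    exact hℓq ((Nat.prime_dvd_prime_iff_eq (Fact.out : q.Prime) (Fact.out : ℓ.Prime)).mp h4).symm
  · exact h2

variable (hℓN : ¬ ℓ ∣ N) (hℓNq : ¬ ℓ ∣ N * q)

/-- **(R2)** `cores ∘ T_ℓ^{Nq} = T_ℓ^N ∘ cores` on `Hom(Γ₀(Nq), M)`. -/
theorem coresHom_heckeHom {M : Type*} [CommGroup M] (ψ : ↥(Gamma0 (N * q)) →* M) :
    coresHom hqN (heckeHom (N * q) ℓ hℓNq ψ) = heckeHom N ℓ hℓN (coresHom hqN ψ) := by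
  have hℓq : ℓ ≠ q := by
    rintro rfl
    exact hℓNq (dvd_mul_left _ _)
  set ρ := coresRep hqN with hρdef
  have hρ : IsTransversal ρ := isTransversal_coresRep hqN
  set S_T := CosetSys₂.ofCosetSys (jGL_injective N) (heckeSys N ℓ hℓN) with hST
  set S_T' := CosetSys₂.ofCosetSys (jGL_injective (N * q)) (heckeSys (N * q) ℓ hℓNq) with hST'
  have hrepT : ∀ y, S_T.rep y = heckeRep ℓ y := fun _ => rfl
  have hrepT' : ∀ y, S_T'.rep y = heckeRep ℓ y := fun _ => rfl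
  have hrepc : ∀ x, (coresSys hqN).rep x = jGL N (ρ x) := fun _ => rfl
  have key := transfer_comm (coresSys hqN) S_T S_T' (jGL_injective (N * q)) ?_ ?_ ?_ ψ
  · exact key
  · -- the cosets `Γ₀(Nq) ρ_x β_y` are pairwise distinct
    refine isInj_comp S_T (coresSys hqN) (CosetSys₂.isInj_ofCosetSys _ _)
      (transSys_isInj hqN _ _) ?_
    intro x x' e _ _ _
    refine ⟨(ρ x)⁻¹ * incl N q e * ρ x', ?_⟩
    rw [hrepc, hrepc, map_mul, map_mul, map_inv, jGL_incl]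
  · -- the cosets `Γ₀(Nq) β_y ρ_x` are pairwise distinct
    refine isInj_comp (coresSys hqN) S_T' (transSys_isInj hqN _ _)
      (CosetSys₂.isInj_ofCosetSys _ _) ?_
    intro y y' e x x' h
    rw [hrepT', hrepT', hrepc, hrepc] at h
    have h1 : heckeRep ℓ y * mapGL ℝ ((ρ x * (ρ x')⁻¹ : ↥(Gamma0 N)) : SL(2, ℤ)) =
        mapGL ℝ (e : SL(2, ℤ)) * heckeRep ℓ y' := by
      have h2 : mapGL ℝ ((ρ x * (ρ x')⁻¹ : ↥(Gamma0 N)) : SL(2, ℤ)) =
          jGL N (ρ x) * (jGL N (ρ x'))⁻¹ := by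
        rw [← map_inv, ← map_mul]; rfl
      rw [h2, ← mul_assoc, h, jGL_apply]
      group
    have h3 : (q : ℤ) ∣ ((ρ x * (ρ x')⁻¹ : ↥(Gamma0 N)) : SL(2, ℤ)) 1 0 :=
      dvd_of_heckeRep_mul_eq hℓq _ _ (dvd_of_mem_Gamma0_mul e.2) y y' h1
    have h4 : ((ρ x * (ρ x')⁻¹ : ↥(Gamma0 N)) : SL(2, ℤ)) ∈ Gamma0 (N * q) :=
      mem_Gamma0_mul_of_dvd hqN (ρ x * (ρ x')⁻¹).2 h3
    refine ⟨⟨_, h4⟩, ?_⟩
    rw [hrepT', hrepT', jGL_apply, jGL_apply, mul_assoc, ← h1, inv_mul_cancel_left]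
  · -- `β_y ρ_x ∈ Γ₀(Nq) ρ_x' β_y'`
    intro x y
    obtain ⟨d, x', hd⟩ := exists_eq_mul hqN ρ hρ (heckeCoc N ℓ hℓN (ρ x) y)
    refine ⟨x', redMatrix ℓ ((ρ x : ↥(Gamma0 N)) : SL(2, ℤ)) • y, d, ?_⟩
    rw [hrepT', hrepT, hrepc, hrepc, jGL_apply, heckeRep_mul_eq N ℓ hℓN (ρ x) y, hd,
      ← mul_assoc, ← jGL_incl, ← map_mul]
    rfl

/-- **(R2)**, additive form: `cores ∘ T_ℓ^{Nq} = T_ℓ^N ∘ cores` on `Hom(Γ₀(Nq), A)`. -/
theorem coresAdd_heckeAdd {A : Type*} [AddCommGroup A] (φ : Additive ↥(Gamma0 (N * q)) →+ A) :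
    coresAdd hqN (heckeAdd (N * q) ℓ hℓNq φ) = heckeAdd N ℓ hℓN (coresAdd hqN φ) :=
  congrArg MonoidHom.toAdditiveLeft
    (coresHom_heckeHom hqN hℓN hℓNq (AddMonoidHom.toMultiplicativeRight φ))

theorem coresPar_heckePar {A : Type*} [AddCommGroup A] (φ : parHomAdd (N * q) A) :
    coresPar hqN A (heckePar (N * q) ℓ hℓNq A φ) = heckePar N ℓ hℓN A (coresPar hqN A φ) :=
  Subtype.ext (coresAdd_heckeAdd hqN hℓN hℓNq φ.1)

end Hecke

end Fermat.Agent.P4.Cores
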