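/-
P4-S35, block (S35-0)/(N1), file 2: THE ATKIN–LEHNER CONJUGATION OF `Γ₀(Nq)`, `q ∤ N`.

For integers `a b c d` with `q a d - N b c = 1` the matrix `V = [q a, b; N q c, q d]` (of
determinant `q`) normalises `Γ₀(Nq)`: `V g = alFun g V` with `alFun g ∈ Γ₀(Nq)` explicit.

* `alGen`, `alConjMat`, `alGen_mul`, `alFun`, `alHom : ↥(Gamma0 (N*q)) →* ↥(Gamma0 (N*q))`,
  `glOf_alGen_mul`;
* the two special cases `alMat N q = [q d, -b; -N q, q]` (`= diag(1,q) σ⁻¹`) and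
  `alMatW N q = [q, b; N q, q d]` (`= σ diag(q,1)`), with `alMatW * alMat = q`, and the mutually
  inverse homomorphisms `alConj`, `alConjW`.
-/
import Mathlib
import Fermat.Agent.P4.Cores

set_option autoImplicit false
set_option linter.unusedSimpArgs false
set_option linter.unusedSectionVars false

open scoped MatrixGroups

namespace Fermat.Agent.P4.AtkinLehner

open Matrix.SpecialLinearGroup CongruenceSubgroup ModularForm
open P2MW.S_ModularForm_heckeT_slash_eq_self_of_mem_Gamma0.ModularForm.HeckeSlashInvariance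
open Fermat.Agent.N4F.Tors.HeckeHom Fermat.Agent.P3LR.A.Transfer2 Fermat.Agent.P3LR.A.IntMat
open Fermat.Agent.P4.Cores
open scoped OnePoint

/-! ### General Atkin–Lehner type matrices -/

section General

variable (N q : ℕ) (a b c d : ℤ)

/-- the matrix `[q a, b; N q c, q d]` -/
def alGen : MI := !![(q : ℤ) * a, b; (N : ℤ) * q * c, (q : ℤ) * d]

theorem det_alGen (h : (q : ℤ) * a * d - N * b * c = 1) : (alGen N q a b c d).det = q := by
  rw [alGen, Matrix.det_fin_two_of]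
  linear_combination (q : ℤ) * h

/-- the conjugate `V g V⁻¹` of `g` by `V = alGen`, as an explicit integer matrix
(for `q ∣ g 1 0`) -/
def alConjMat (g : MI) : MI :=
  !![(q : ℤ) * d * a * g 0 0 + d * b * g 1 0 - N * c * ((q : ℤ) * a * g 0 1 + b * g 1 1),
      -b * a * g 0 0 - b * b * (g 1 0 / (q : ℤ)) + a * ((q : ℤ) * a * g 0 1 + b * g 1 1);
    (N : ℤ) * q * d * c * g 0 0 + d * d * q * g 1 0 - N * q * c * (N * c * g 0 1 + d * g 1 1),
      -(N : ℤ) * b * c * g 0 0 - b * d * g 1 0 + (q : ℤ) * a * (N * c * g 0 1 + d * g 1 1)]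

variable {N q a b c d}

/-- **`V g = (V g V⁻¹) V`** -/
theorem alGen_mul (h : (q : ℤ) * a * d - N * b * c = 1) (g : MI) (hg : (q : ℤ) ∣ g 1 0) :
    alGen N q a b c d * g = alConjMat N q a b c d g * alGen N q a b c d := by
  have hq : g 1 0 = (q : ℤ) * (g 1 0 / (q : ℤ)) := (Int.mul_ediv_cancel' hg).symm
  ext i j
  fin_cases i <;> fin_cases j
  · simp only [alGen, alConjMat, Matrix.mul_apply, Fin.sum_univ_two, Matrix.of_apply,
      Matrix.cons_val', Matrix.cons_val_zero, Matrix.cons_val_one, Matrix.cons_val_fin_one,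
      Fin.zero_eta, Fin.mk_one]
    linear_combination (-((q : ℤ) * a * g 0 0 + b * g 1 0)) * h - ((N : ℤ) * c * b ^ 2) * hq
  · simp only [alGen, alConjMat, Matrix.mul_apply, Fin.sum_univ_two, Matrix.of_apply,
      Matrix.cons_val', Matrix.cons_val_zero, Matrix.cons_val_one, Matrix.cons_val_fin_one,
      Fin.zero_eta, Fin.mk_one]
    linear_combination (-((q : ℤ) * a * g 0 1 + b * g 1 1)) * h - (d * b ^ 2) * hq
  · simp only [alGen, alConjMat, Matrix.mul_apply, Fin.sum_univ_two, Matrix.of_apply,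
      Matrix.cons_val', Matrix.cons_val_zero, Matrix.cons_val_one, Matrix.cons_val_fin_one,
      Fin.zero_eta, Fin.mk_one]
    linear_combination (-((N : ℤ) * q * c * g 0 0 + q * d * g 1 0)) * h
  · simp only [alGen, alConjMat, Matrix.mul_apply, Fin.sum_univ_two, Matrix.of_apply,
      Matrix.cons_val', Matrix.cons_val_zero, Matrix.cons_val_one, Matrix.cons_val_fin_one,
      Fin.zero_eta, Fin.mk_one]
    linear_combination (-((N : ℤ) * q * c * g 0 1 + q * d * g 1 1)) * h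

end General

/-! ### The conjugation as an endomorphism of `Γ₀(Nq)` -/

section Hom

variable {N q : ℕ} [NeZero q] {a b c d : ℤ}

theorem det_alGen_ne_zero (h : (q : ℤ) * a * d - N * b * c = 1) : (alGen N q a b c d).det ≠ 0 := by
  rw [det_alGen N q a b c d h]
  exact_mod_cast NeZero.ne q

theorem det_alConjMat (h : (q : ℤ) * a * d - N * b * c = 1) (g : MI) (hg : (q : ℤ) ∣ g 1 0) :
    (alConjMat N q a b c d g).det = g.det := by
  have h1 := congrArg Matrix.det (alGen_mul h g hg)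
  rw [Matrix.det_mul, Matrix.det_mul, mul_comm] at h1
  exact (mul_right_cancel₀ (det_alGen_ne_zero h) h1).symm

theorem dvd_of_mem (g : ↥(Gamma0 (N * q))) : ((N : ℤ) * q) ∣ (g : SL(2, ℤ)) 1 0 := by
  have := g.2
  rw [Gamma0_mem, ZMod.intCast_zmod_eq_zero_iff_dvd] at this
  exact_mod_cast this

theorem q_dvd_of_mem (g : ↥(Gamma0 (N * q))) : (q : ℤ) ∣ (g : SL(2, ℤ)) 1 0 :=
  Dvd.dvd.trans ⟨(N : ℤ), by ring⟩ (dvd_of_mem g)

/-- the conjugate of `g ∈ Γ₀(Nq)` as an element of `SL(2, ℤ)` -/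
def alSL (h : (q : ℤ) * a * d - N * b * c = 1) (g : ↥(Gamma0 (N * q))) : SL(2, ℤ) :=
  ⟨alConjMat N q a b c d ((g : SL(2, ℤ)) : MI), by
    rw [det_alConjMat h _ (q_dvd_of_mem g)]
    exact (g : SL(2, ℤ)).det_coe⟩

theorem alSL_mem (h : (q : ℤ) * a * d - N * b * c = 1) (g : ↥(Gamma0 (N * q))) :
    alSL h g ∈ Gamma0 (N * q) := by
  rw [Gamma0_mem, ZMod.intCast_zmod_eq_zero_iff_dvd]
  obtain ⟨k, hk⟩ := dvd_of_mem g
  show (((N * q : ℕ) : ℤ)) ∣ alConjMat N q a b c d ((g : SL(2, ℤ)) : MI) 1 0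
  simp only [alConjMat, Matrix.of_apply, Matrix.cons_val', Matrix.cons_val_zero,
    Matrix.cons_val_one, Matrix.cons_val_fin_one]
  have hk' : ((g : SL(2, ℤ)) : MI) 1 0 = (N : ℤ) * q * k := hk
  rw [hk']
  push_cast
  exact ⟨d * c * ((g : SL(2, ℤ)) : MI) 0 0 + d * d * q * k -
    c * (N * c * ((g : SL(2, ℤ)) : MI) 0 1 + d * ((g : SL(2, ℤ)) : MI) 1 1), by ring⟩

/-- the conjugation `g ↦ V g V⁻¹` on `Γ₀(Nq)` (as a function) -/
def alFun (h : (q : ℤ) * a * d - N * b * c = 1) (g : ↥(Gamma0 (N * q))) : ↥(Gamma0 (N * q)) :=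
  ⟨alSL h g, alSL_mem h g⟩

theorem alGen_mul_coe (h : (q : ℤ) * a * d - N * b * c = 1) (g : ↥(Gamma0 (N * q))) :
    alGen N q a b c d * ((g : SL(2, ℤ)) : MI) =
      ((alFun h g : SL(2, ℤ)) : MI) * alGen N q a b c d :=
  alGen_mul h _ (q_dvd_of_mem g)

/-- **`V g = (V g V⁻¹) V` in `GL₂(ℝ)`** -/
theorem glOf_alGen_mul (h : (q : ℤ) * a * d - N * b * c = 1) (g : ↥(Gamma0 (N * q))) :
    glOf (alGen N q a b c d) * jGL (N * q) g =
      jGL (N * q) (alFun h g) * glOf (alGen N q a b c d) := by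
  rw [jGL_apply, jGL_apply, glOf_mul_mapGL_eq_iff (det_alGen_ne_zero h) (det_alGen_ne_zero h)]
  exact alGen_mul_coe h g

/-- the conjugation `g ↦ V g V⁻¹` as an endomorphism of `Γ₀(Nq)` -/
def alHom (h : (q : ℤ) * a * d - N * b * c = 1) : ↥(Gamma0 (N * q)) →* ↥(Gamma0 (N * q)) where
  toFun := alFun h
  map_one' := by
    apply jGL_injective (N * q)
    have h1 := glOf_alGen_mul h (1 : ↥(Gamma0 (N * q)))
    rw [map_one, mul_one] at h1
    rw [map_one]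
    exact mul_eq_right.mp h1.symm
  map_mul' g g' := by
    apply jGL_injective (N * q)
    have h1 := glOf_alGen_mul h (g * g')
    have h2 := glOf_alGen_mul h g
    have h3 := glOf_alGen_mul h g'
    rw [map_mul, ← mul_assoc, h2, mul_assoc, h3, ← mul_assoc] at h1
    rw [map_mul]
    exact (mul_right_cancel h1).symm

@[simp] theorem alHom_apply (h : (q : ℤ) * a * d - N * b * c = 1) (g : ↥(Gamma0 (N * q))) :
    alHom h g = alFun h g := rfl

end Hom

/-! ### The two Atkin–Lehner matrices attached to the Bezout pair `q d - N b = 1` -/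

section Special

variable (N q : ℕ)

/-- `W* = [q d, -b; -N q, q] = diag(1, q) σ⁻¹` -/
def alMat : MI := alGen N q (bzD N q) (-bzB N q) (-1) 1

/-- `W = [q, b; N q, q d] = σ diag(q, 1)` -/
def alMatW : MI := alGen N q 1 (bzB N q) 1 (bzD N q)

theorem alMat_eq : alMat N q = !![(q : ℤ) * bzD N q, -bzB N q; -((N : ℤ) * q), (q : ℤ)] := by
  simp [alMat, alGen]

theorem alMatW_eq : alMatW N q = !![(q : ℤ), bzB N q; (N : ℤ) * q, (q : ℤ) * bzD N q] := by
  simp [alMatW, alGen]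

variable {N q} [Fact q.Prime]

theorem alMat_h (hqN : ¬ q ∣ N) : (q : ℤ) * bzD N q * 1 - N * (-bzB N q) * (-1) = 1 := by
  linear_combination bz_eq hqN

theorem alMatW_h (hqN : ¬ q ∣ N) : (q : ℤ) * 1 * bzD N q - N * bzB N q * 1 = 1 := by
  linear_combination bz_eq hqN

theorem alMatW_mul_alMat (hqN : ¬ q ∣ N) : alMatW N q * alMat N q = (q : ℤ) • (1 : MI) := by
  rw [alMat_eq, alMatW_eq]
  have h := bz_eq hqN
  ext i j
  fin_cases i <;> fin_cases j <;>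
    simp [Matrix.mul_apply, Fin.sum_univ_two, Matrix.one_apply]
  · linear_combination (q : ℤ) * h
  · ring
  · ring
  · linear_combination (q : ℤ) * h

theorem alMat_mul_alMatW (hqN : ¬ q ∣ N) : alMat N q * alMatW N q = (q : ℤ) • (1 : MI) := by
  rw [alMat_eq, alMatW_eq]
  have h := bz_eq hqN
  ext i j
  fin_cases i <;> fin_cases j <;>
    simp [Matrix.mul_apply, Fin.sum_univ_two, Matrix.one_apply]
  · linear_combination (q : ℤ) * h
  · ring
  · ring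
  · linear_combination (q : ℤ) * h

theorem det_alMat_ne_zero (hqN : ¬ q ∣ N) : (alMat N q).det ≠ 0 :=
  det_alGen_ne_zero (alMat_h hqN)

theorem det_alMatW_ne_zero (hqN : ¬ q ∣ N) : (alMatW N q).det ≠ 0 :=
  det_alGen_ne_zero (alMatW_h hqN)

/-- **the Atkin–Lehner conjugation** `c ↦ W* c W*⁻¹` of `Γ₀(Nq)` -/
def alConj (hqN : ¬ q ∣ N) : ↥(Gamma0 (N * q)) →* ↥(Gamma0 (N * q)) := alHom (alMat_h hqN)

/-- the inverse conjugation `c ↦ W c W⁻¹` -/
def alConjW (hqN : ¬ q ∣ N) : ↥(Gamma0 (N * q)) →* ↥(Gamma0 (N * q)) := alHom (alMatW_h hqN)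

/-- **`W* c = alConj c W*`**, integer matrices -/
theorem alMat_mul (hqN : ¬ q ∣ N) (c : ↥(Gamma0 (N * q))) :
    alMat N q * ((c : SL(2, ℤ)) : MI) = ((alConj hqN c : SL(2, ℤ)) : MI) * alMat N q :=
  alGen_mul_coe (alMat_h hqN) c

theorem alMatW_mul (hqN : ¬ q ∣ N) (c : ↥(Gamma0 (N * q))) :
    alMatW N q * ((c : SL(2, ℤ)) : MI) = ((alConjW hqN c : SL(2, ℤ)) : MI) * alMatW N q :=
  alGen_mul_coe (alMatW_h hqN) c

/-- **`W* c = alConj c W*`** in `GL₂(ℝ)` -/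
theorem glOf_alMat_mul (hqN : ¬ q ∣ N) (c : ↥(Gamma0 (N * q))) :
    glOf (alMat N q) * jGL (N * q) c = jGL (N * q) (alConj hqN c) * glOf (alMat N q) :=
  glOf_alGen_mul (alMat_h hqN) c

theorem glOf_alMatW_mul (hqN : ¬ q ∣ N) (c : ↥(Gamma0 (N * q))) :
    glOf (alMatW N q) * jGL (N * q) c = jGL (N * q) (alConjW hqN c) * glOf (alMatW N q) :=
  glOf_alGen_mul (alMatW_h hqN) c

theorem coe_injective_MI : Function.Injective (fun c : ↥(Gamma0 (N * q)) => ((c : SL(2, ℤ)) : MI)) :=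
  fun _ _ h => Subtype.ext (Subtype.ext h)

theorem alConjW_alConj (hqN : ¬ q ∣ N) (c : ↥(Gamma0 (N * q))) :
    alConjW hqN (alConj hqN c) = c := by
  apply coe_injective_MI
  show ((alConjW hqN (alConj hqN c) : SL(2, ℤ)) : MI) = ((c : SL(2, ℤ)) : MI)
  have hq0 : (q : ℤ) ≠ 0 := by exact_mod_cast (Fact.out : q.Prime).ne_zero
  have h1 : (q : ℤ) • ((c : SL(2, ℤ)) : MI) =
      (q : ℤ) • ((alConjW hqN (alConj hqN c) : SL(2, ℤ)) : MI) := by
    calc (q : ℤ) • ((c : SL(2, ℤ)) : MI) = (alMatW N q * alMat N q) * ((c : SL(2, ℤ)) : MI) := by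
          rw [alMatW_mul_alMat hqN, Matrix.smul_mul, Matrix.one_mul]
      _ = ((alConjW hqN (alConj hqN c) : SL(2, ℤ)) : MI) * (alMatW N q * alMat N q) := by
          rw [Matrix.mul_assoc, alMat_mul hqN, ← Matrix.mul_assoc, alMatW_mul hqN,
            Matrix.mul_assoc]
      _ = _ := by rw [alMatW_mul_alMat hqN, Matrix.mul_smul, Matrix.mul_one]
  exact (smul_right_injective MI hq0 h1).symm

theorem alConj_alConjW (hqN : ¬ q ∣ N) (c : ↥(Gamma0 (N * q))) :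
    alConj hqN (alConjW hqN c) = c := by
  apply coe_injective_MI
  show ((alConj hqN (alConjW hqN c) : SL(2, ℤ)) : MI) = ((c : SL(2, ℤ)) : MI)
  have hq0 : (q : ℤ) ≠ 0 := by exact_mod_cast (Fact.out : q.Prime).ne_zero
  have h1 : (q : ℤ) • ((c : SL(2, ℤ)) : MI) =
      (q : ℤ) • ((alConj hqN (alConjW hqN c) : SL(2, ℤ)) : MI) := by
    calc (q : ℤ) • ((c : SL(2, ℤ)) : MI) = (alMat N q * alMatW N q) * ((c : SL(2, ℤ)) : MI) := by
          rw [alMat_mul_alMatW hqN, Matrix.smul_mul, Matrix.one_mul]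
      _ = ((alConj hqN (alConjW hqN c) : SL(2, ℤ)) : MI) * (alMat N q * alMatW N q) := by
          rw [Matrix.mul_assoc, alMatW_mul hqN, ← Matrix.mul_assoc, alMat_mul hqN,
            Matrix.mul_assoc]
      _ = _ := by rw [alMat_mul_alMatW hqN, Matrix.mul_smul, Matrix.mul_one]
  exact (smul_right_injective MI hq0 h1).symm

/-- the Atkin–Lehner conjugation as an automorphism of `Γ₀(Nq)` -/
def alEquiv (hqN : ¬ q ∣ N) : ↥(Gamma0 (N * q)) ≃* ↥(Gamma0 (N * q)) where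
  toFun := alConj hqN
  invFun := alConjW hqN
  left_inv := alConjW_alConj hqN
  right_inv := alConj_alConjW hqN
  map_mul' := map_mul _

/-- `alConj` preserves parabolic and elliptic elements -/
theorem isParEll_alConj (hqN : ¬ q ∣ N) {c : ↥(Gamma0 (N * q))}
    (hc : IsParEll (c : SL(2, ℤ))) : IsParEll (alConj hqN c : SL(2, ℤ)) := by
  refine isParEll_of_conj_pow hc 1 (glOf (alMat N q)) ?_
  have h := glOf_alMat_mul hqN c
  rw [jGL_apply, jGL_apply] at h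
  rw [pow_one, h, mul_inv_cancel_right]

end Special

/-! ### The Atkin–Lehner conjugation commutes with the Hecke operators `T_ℓ`, `ℓ ∤ Nq` -/

section Decomp

variable (N q : ℕ)

/-- `σ = [1, b; N, q d] ∈ Γ₀(N)` -/
def sigMat : MI := !![1, bzB N q; (N : ℤ), (q : ℤ) * bzD N q]

/-- `σ⁻¹ = [q d, -b; -N, 1]` -/
def sigAdj : MI := !![(q : ℤ) * bzD N q, -bzB N q; -(N : ℤ), 1]

/-- `diag(q, 1)` -/
def etaMat : MI := !![(q : ℤ), 0; 0, 1]

/-- `diag(1, q)` -/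
def dOne : MI := !![1, 0; 0, (q : ℤ)]

/-- `[1, t; 0, 1]` -/
def ttMat (t : ℤ) : MI := !![1, t; 0, 1]

theorem alMatW_eq_mul : alMatW N q = sigMat N q * etaMat q := by
  rw [alMatW_eq, sigMat, etaMat]
  ext i j
  fin_cases i <;> fin_cases j <;> simp [Matrix.mul_apply, Fin.sum_univ_two]

theorem alMat_eq_mul : alMat N q = dOne q * sigAdj N q := by
  rw [alMat_eq, sigAdj, dOne]
  ext i j
  fin_cases i <;> fin_cases j <;> simp [Matrix.mul_apply, Fin.sum_univ_two]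
  ring

variable {N q} [Fact q.Prime]

theorem det_sigMat (hqN : ¬ q ∣ N) : (sigMat N q).det = 1 := by
  rw [sigMat, Matrix.det_fin_two_of]
  linear_combination bz_eq hqN

/-- `σ` as an element of `SL(2, ℤ)` -/
def sigSL (hqN : ¬ q ∣ N) : SL(2, ℤ) := ⟨sigMat N q, det_sigMat hqN⟩

theorem sigSL_mem (hqN : ¬ q ∣ N) : sigSL hqN ∈ Gamma0 N := by
  rw [Gamma0_mem]
  show (((sigMat N q) 1 0 : ℤ) : ZMod N) = 0
  simp [sigMat]

/-- `σ` as an element of `Γ₀(N)` -/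
def sigG (hqN : ¬ q ∣ N) : ↥(Gamma0 N) := ⟨sigSL hqN, sigSL_mem hqN⟩

theorem coe_sigG (hqN : ¬ q ∣ N) : (((sigG hqN : ↥(Gamma0 N)) : SL(2, ℤ)) : MI) = sigMat N q := rfl

theorem coe_sigG_inv (hqN : ¬ q ∣ N) :
    ((((sigG hqN)⁻¹ : ↥(Gamma0 N)) : SL(2, ℤ)) : MI) = sigAdj N q := by
  show (((sigG hqN : ↥(Gamma0 N)) : SL(2, ℤ))⁻¹ : SL(2, ℤ)).1 = _
  rw [Matrix.SpecialLinearGroup.coe_inv, coe_sigG, sigMat, Matrix.adjugate_fin_two_of, sigAdj]

theorem det_ttMat (t : ℤ) : (ttMat t).det = 1 := by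
  rw [ttMat, Matrix.det_fin_two_of]; ring

/-- `[1, t; 0, 1]` as an element of `SL(2, ℤ)` -/
def ttSL (t : ℤ) : SL(2, ℤ) := ⟨ttMat t, det_ttMat t⟩

variable (N) in
theorem ttSL_mem (t : ℤ) : ttSL t ∈ Gamma0 N := by
  rw [Gamma0_mem]
  show (((ttMat t) 1 0 : ℤ) : ZMod N) = 0
  simp [ttMat]

variable (N) in
/-- `[1, t; 0, 1]` as an element of `Γ₀(N)` -/
def ttG (t : ℤ) : ↥(Gamma0 N) := ⟨ttSL t, ttSL_mem N t⟩

theorem coe_ttG (t : ℤ) : (((ttG N t : ↥(Gamma0 N)) : SL(2, ℤ)) : MI) = ttMat t := rfl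

end Decomp

section HeckeConj

variable {ℓ : ℕ} [Fact ℓ.Prime] (q : ℕ)

/-- `diag(q,1) β_y diag(1,q) / q`: `[1, q j; 0, ℓ]` resp. `diag(ℓ, 1)` -/
def dMat (ℓ q : ℕ) (y : OnePoint (ZMod ℓ)) : MI :=
  y.elim !![(ℓ : ℤ), 0; 0, 1] (fun j => !![1, (q : ℤ) * (j.val : ℤ); 0, (ℓ : ℤ)])

/-- multiplication by `q` on `ℙ¹(𝔽_ℓ)` -/
def mOf (ℓ q : ℕ) (y : OnePoint (ZMod ℓ)) : OnePoint (ZMod ℓ) :=
  y.elim ∞ (fun j => (((q * j.val : ℕ) : ZMod ℓ) : OnePoint (ZMod ℓ)))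

/-- the translation exponent -/
def tOf (ℓ q : ℕ) (y : OnePoint (ZMod ℓ)) : ℤ :=
  y.elim 0 (fun j => ((q * j.val / ℓ : ℕ) : ℤ))

theorem eta_mul_hInt_mul_dOne (y : OnePoint (ZMod ℓ)) :
    etaMat q * hInt ℓ y * dOne q = (q : ℤ) • dMat ℓ q y := by
  induction y using OnePoint.rec with
  | infty =>
    show etaMat q * hInt ℓ ∞ * dOne q = (q : ℤ) • !![(ℓ : ℤ), 0; 0, 1]
    rw [hInt_infty, etaMat, dOne]
    ext i j
    fin_cases i <;> fin_cases j <;> simp [Matrix.mul_apply, Fin.sum_univ_two]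
  | coe j =>
    show etaMat q * hInt ℓ j * dOne q = (q : ℤ) • !![1, (q : ℤ) * (j.val : ℤ); 0, (ℓ : ℤ)]
    rw [hInt_coe, etaMat, dOne]
    ext i k
    fin_cases i <;> fin_cases k <;> simp [Matrix.mul_apply, Fin.sum_univ_two]
    · ring
    · ring

theorem dMat_eq (y : OnePoint (ZMod ℓ)) :
    dMat ℓ q y = ttMat (tOf ℓ q y) * hInt ℓ (mOf ℓ q y) := by
  induction y using OnePoint.rec with
  | infty =>
    show !![(ℓ : ℤ), 0; 0, 1] = ttMat 0 * hInt ℓ ∞
    rw [hInt_infty, ttMat]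
    ext i j
    fin_cases i <;> fin_cases j <;> simp [Matrix.mul_apply, Fin.sum_univ_two]
  | coe j =>
    show !![1, (q : ℤ) * (j.val : ℤ); 0, (ℓ : ℤ)] =
      ttMat ((q * j.val / ℓ : ℕ) : ℤ) * hInt ℓ (((q * j.val : ℕ) : ZMod ℓ) : OnePoint (ZMod ℓ))
    rw [hInt_coe, ttMat, ZMod.val_natCast]
    have h := Nat.mod_add_div (q * j.val) ℓ
    have h' : ((q * j.val % ℓ : ℕ) : ℤ) + (ℓ : ℤ) * ((q * j.val / ℓ : ℕ) : ℤ) =
        (q : ℤ) * (j.val : ℤ) := by exact_mod_cast h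
    ext i k
    fin_cases i <;> fin_cases k <;>
      simp only [Matrix.mul_apply, Fin.sum_univ_two, Matrix.of_apply,
        Matrix.cons_val', Matrix.cons_val_zero, Matrix.cons_val_one, Matrix.cons_val_fin_one,
        Fin.zero_eta, Fin.mk_one]
    · ring
    · linear_combination -h'
    · ring
    · ring

theorem dMat_one_zero (y : OnePoint (ZMod ℓ)) : dMat ℓ q y 1 0 = 0 := by
  induction y using OnePoint.rec with
  | infty => simp [dMat]
  | coe j => simp [dMat]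

theorem dvd_dMat_zero_one (y : OnePoint (ZMod ℓ)) : (q : ℤ) ∣ dMat ℓ q y 0 1 := by
  induction y using OnePoint.rec with
  | infty => simp [dMat]
  | coe j => simp [dMat]

end HeckeConj

section ALHecke

variable {N q : ℕ} [Fact q.Prime] (hqN : ¬ q ∣ N) {ℓ : ℕ} [Fact ℓ.Prime] (hℓN : ¬ ℓ ∣ N)

include hqN hℓN in
/-- **AL-membership, integer form**: `W β_y W* = q · d' β_y₁` with `d' ∈ Γ₀(Nq)`. -/
theorem exists_alMatW_mul_hInt_mul_alMat (hℓq : ℓ ≠ q) (y : OnePoint (ZMod ℓ)) :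
    ∃ (y₁ : OnePoint (ZMod ℓ)) (d' : ↥(Gamma0 (N * q))),
      alMatW N q * hInt ℓ y * alMat N q =
        (q : ℤ) • (((d' : SL(2, ℤ)) : MI) * hInt ℓ y₁) := by
  -- the Hecke coset identity at level `N` for `σ⁻¹`
  set y' := mOf ℓ q y with hy'
  set g : ↥(Gamma0 N) := (sigG hqN)⁻¹ with hg
  set c := heckeCoc N ℓ hℓN g y' with hc
  set y₁ := redMatrix ℓ (g : SL(2, ℤ)) • y' with hy₁
  have hH : hInt ℓ y' * sigAdj N q = ((c : SL(2, ℤ)) : MI) * hInt ℓ y₁ := by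
    have h := heckeRep_mul_eq N ℓ hℓN g y'
    rw [heckeRep_eq_glOf, heckeRep_eq_glOf,
      glOf_mul_mapGL_eq_iff (det_hInt_ne_zero ℓ y') (det_hInt_ne_zero ℓ _), hg,
      coe_sigG_inv] at h
    exact h
  -- the candidate, in `Γ₀(N)`
  set k : ↥(Gamma0 N) := sigG hqN * ttG N (tOf ℓ q y) * c with hk
  have hkcoe : ((k : SL(2, ℤ)) : MI) =
      sigMat N q * ttMat (tOf ℓ q y) * ((c : SL(2, ℤ)) : MI) := by
    show (((sigG hqN : ↥(Gamma0 N)) : SL(2, ℤ)) * ((ttG N (tOf ℓ q y) : ↥(Gamma0 N)) : SL(2, ℤ)) *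
      (c : SL(2, ℤ))).1 = _
    rw [Matrix.SpecialLinearGroup.coe_mul, Matrix.SpecialLinearGroup.coe_mul, coe_sigG, coe_ttG]
  have hkH : ((k : SL(2, ℤ)) : MI) * hInt ℓ y₁ = sigMat N q * dMat ℓ q y * sigAdj N q := by
    rw [hkcoe, Matrix.mul_assoc, ← hH, dMat_eq, hy']
    simp only [Matrix.mul_assoc]
  -- upgrade to `Γ₀(Nq)`
  have hq10 : (q : ℤ) ∣ (k : SL(2, ℤ)) 1 0 := by
    have h10 := congrFun (congrFun hkH 1) 0
    obtain ⟨e, he⟩ := dvd_dMat_zero_one (ℓ := ℓ) q y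
    have hR : (sigMat N q * dMat ℓ q y * sigAdj N q) 1 0 =
        (q : ℤ) * ((N : ℤ) * dMat ℓ q y 0 0 * bzD N q - bzD N q * dMat ℓ q y 1 1 * N -
          (N : ℤ) * N * e) := by
      simp only [sigMat, sigAdj, Matrix.mul_apply, Fin.sum_univ_two, Matrix.of_apply,
        Matrix.cons_val', Matrix.cons_val_zero, Matrix.cons_val_one, Matrix.cons_val_fin_one]
      rw [dMat_one_zero, he]
      ring
    have hL : (((k : SL(2, ℤ)) : MI) * hInt ℓ y₁) 1 0 =
        ((k : SL(2, ℤ)) : MI) 1 0 * hInt ℓ y₁ 0 0 := by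
      rw [Matrix.mul_apply, Fin.sum_univ_two, hInt_one_zero, mul_zero, add_zero]
    rw [hL, hR] at h10
    have hqp : Prime (q : ℤ) := Nat.prime_iff_prime_int.mp (Fact.out : q.Prime)
    have h1 : (q : ℤ) ∣ ((k : SL(2, ℤ)) : MI) 1 0 * hInt ℓ y₁ 0 0 := ⟨_, h10⟩
    rcases hqp.dvd_or_dvd h1 with h2 | h2
    · exact h2
    · exfalso
      have h3 : (q : ℤ) ∣ (ℓ : ℤ) := h2.trans (hInt_zero_zero_dvd y₁)
      have h4 : q ∣ ℓ := by exact_mod_cast h3
      exact hℓq ((Nat.prime_dvd_prime_iff_eq (Fact.out : q.Prime) (Fact.out : ℓ.Prime)).mp h4).symm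
  refine ⟨y₁, ⟨(k : SL(2, ℤ)), mem_Gamma0_mul_of_dvd hqN k.2 hq10⟩, ?_⟩
  show alMatW N q * hInt ℓ y * alMat N q = (q : ℤ) • (((k : SL(2, ℤ)) : MI) * hInt ℓ y₁)
  rw [alMatW_eq_mul, alMat_eq_mul, hkH]
  calc sigMat N q * etaMat q * hInt ℓ y * (dOne q * sigAdj N q)
      = sigMat N q * (etaMat q * hInt ℓ y * dOne q) * sigAdj N q := by
        simp only [Matrix.mul_assoc]
    _ = (q : ℤ) • (sigMat N q * dMat ℓ q y * sigAdj N q) := by
        rw [eta_mul_hInt_mul_dOne, Matrix.mul_smul, Matrix.smul_mul]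

include hqN hℓN in
/-- **AL-membership in `GL₂(ℝ)`**: `β_y W* = d W* β_y₁` with `d ∈ Γ₀(Nq)`. -/
theorem exists_heckeRep_mul_glOf_alMat (hℓq : ℓ ≠ q) (y : OnePoint (ZMod ℓ)) :
    ∃ (y₁ : OnePoint (ZMod ℓ)) (d : ↥(Gamma0 (N * q))),
      heckeRep ℓ y * glOf (alMat N q) =
        jGL (N * q) d * (glOf (alMat N q) * heckeRep ℓ y₁) := by
  obtain ⟨y₁, d', h⟩ := exists_alMatW_mul_hInt_mul_alMat hqN hℓN hℓq y
  refine ⟨y₁, alConj hqN d', ?_⟩
  have hq0 : (q : ℤ) ≠ 0 := by exact_mod_cast (Fact.out : q.Prime).ne_zero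
  -- cancel `W`
  have h1 : hInt ℓ y * alMat N q =
      ((alConj hqN d' : SL(2, ℤ)) : MI) * (alMat N q * hInt ℓ y₁) := by
    have h2 : (q : ℤ) • (hInt ℓ y * alMat N q) =
        (q : ℤ) • (((alConj hqN d' : SL(2, ℤ)) : MI) * (alMat N q * hInt ℓ y₁)) := by
      calc (q : ℤ) • (hInt ℓ y * alMat N q)
          = (alMat N q * alMatW N q) * (hInt ℓ y * alMat N q) := by
            rw [alMat_mul_alMatW hqN, Matrix.smul_mul, Matrix.one_mul]
        _ = alMat N q * (alMatW N q * hInt ℓ y * alMat N q) := by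
            simp only [Matrix.mul_assoc]
        _ = (q : ℤ) • (alMat N q * ((d' : SL(2, ℤ)) : MI) * hInt ℓ y₁) := by
            rw [h, Matrix.mul_smul, Matrix.mul_assoc]
        _ = _ := by rw [alMat_mul hqN, Matrix.mul_assoc]
    exact smul_right_injective MI hq0 h2
  have hdet1 : (hInt ℓ y).det ≠ 0 := det_hInt_ne_zero ℓ y
  have hdet2 : (hInt ℓ y₁).det ≠ 0 := det_hInt_ne_zero ℓ y₁
  have hdetW : (alMat N q).det ≠ 0 := det_alMat_ne_zero hqN
  have hdet3 : (alMat N q * hInt ℓ y₁).det ≠ 0 := by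
    rw [Matrix.det_mul]; exact mul_ne_zero hdetW hdet2
  rw [heckeRep_eq_glOf, heckeRep_eq_glOf, ← glOf_mul hdet1 hdetW, ← glOf_mul hdetW hdet2,
    jGL_eq_glOf, ← glOf_mul (det_coe_SL _) hdet3, h1]

variable (hℓNq : ¬ ℓ ∣ N * q)

include hqN in
/-- **`T_ℓ` commutes with the Atkin–Lehner conjugation** on `Hom(Γ₀(Nq), M)`, `ℓ ∤ Nq`. -/
theorem heckeHom_comp_alConj {M : Type*} [CommGroup M] (ψ : ↥(Gamma0 (N * q)) →* M) :
    (heckeHom (N * q) ℓ hℓNq ψ).comp (alConj hqN) =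
      heckeHom (N * q) ℓ hℓNq (ψ.comp (alConj hqN)) := by
  have hℓq : ℓ ≠ q := by
    rintro rfl
    exact hℓNq (dvd_mul_left _ _)
  have hℓN : ¬ ℓ ∣ N := fun h => hℓNq (Dvd.dvd.mul_right h q)
  set a := glOf (alMat N q) with ha
  set Sg : CosetSys₂ (jGL (N * q)) (jGL (N * q)) Unit :=
    CosetSys₂.single a (alConj hqN) (glOf_alMat_mul hqN) with hSg
  set T' := CosetSys₂.ofCosetSys (jGL_injective (N * q)) (heckeSys (N * q) ℓ hℓNq) with hT'
  have hSgI : Sg.IsInj := fun _ _ _ _ => rfl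
  have hT'I : T'.IsInj := CosetSys₂.isInj_ofCosetSys _ _
  have hrepT : ∀ y, T'.rep y = heckeRep ℓ y := fun _ => rfl
  have hrepS : ∀ u, Sg.rep u = a := fun _ => rfl
  have key := Fermat.Agent.P4.TransferComm.transfer_eq_of_rep_mem_card (T'.comp Sg) (Sg.comp T')
    ?_ ?_ (jGL_injective (N * q)) ?_ ?_ ψ
  · rw [CosetSys₂.transfer_comp, CosetSys₂.transfer_comp, CosetSys₂.transfer_single,
      CosetSys₂.transfer_single] at key
    exact key
  · -- the cosets `Γ₀(Nq) W* β_y` are pairwise distinct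
    refine Fermat.Agent.P4.TransferComm.isInj_comp T' Sg hT'I hSgI ?_
    intro _ _ e _ _ _
    refine ⟨alConjW hqN e, ?_⟩
    show a⁻¹ * (jGL (N * q)) e * a = (jGL (N * q)) ((alConjW hqN) e)
    rw [mul_assoc, inv_mul_eq_iff_eq_mul]
    have h := glOf_alMat_mul hqN (alConjW hqN e)
    rw [alConj_alConjW] at h
    exact h.symm
  · -- the cosets `Γ₀(Nq) β_y W*` are pairwise distinct
    refine Fermat.Agent.P4.TransferComm.isInj_comp Sg T' hSgI hT'I ?_
    intro y y' e _ _ h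
    refine ⟨1, ?_⟩
    have h' : T'.rep y * a = (jGL (N * q)) e * T'.rep y' * a := by
      rw [mul_assoc]; exact h
    have h1 := mul_right_cancel h'
    rw [map_one, mul_assoc, ← h1, inv_mul_cancel]
  · rw [Fintype.card_prod, Fintype.card_prod, mul_comm]
  · rintro ⟨u, y⟩
    obtain ⟨y₁, d, h⟩ := exists_heckeRep_mul_glOf_alMat hqN hℓN hℓq y
    exact ⟨(y₁, ()), d, h⟩

end ALHecke

end Fermat.Agent.P4.AtkinLehner
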