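/-
P4-S35, block (S35-0)/(N1), file 3: THE SECOND CORESTRICTION `Hom(Γ₀(Nq), M) → Hom(Γ₀(N), M)`,
`q ∤ N` (= push-forward `β_*` along the degeneracy map `X₀(Nq) → X₀(N)`, `z ↦ q z`, on the lattice
side): `cores_β := cores_α ∘ (Atkin–Lehner conjugation)`.

Coset picture: representatives `W* ρ_x` (`x ∈ ℙ¹(𝔽_q)`, `ρ` the transversal of `Cores.lean`,
`W* = alMat N q = [q d, -b; -N q, q]`), `W* ρ_x g = alConj (coresCoc g x) W* ρ_{x·g}`.

* `coresEtaHom`, `coresEtaAdd`, `coresEtaAdd_apply`, `coresEtaAdd_comp`,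
  `coresEtaAdd_mem_parHomAdd`, `coresEtaPar`;
* (R2) `coresEtaAdd_heckeAdd` : `cores_β ∘ T_ℓ^{Nq} = T_ℓ^N ∘ cores_β`, `ℓ ∤ Nq`;
* `coresEtaSys` : the coset system, `coresEtaHom_eq_transfer`.
-/
import Mathlib
import Fermat.Agent.P4.Cores
import Fermat.Agent.P4.AtkinLehner

set_option autoImplicit false
set_option linter.unusedSectionVars false

open scoped MatrixGroups

namespace Fermat.Agent.P4.CoresEta

open Matrix.SpecialLinearGroup CongruenceSubgroup ModularForm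
open P2MW.S_ModularForm_heckeT_slash_eq_self_of_mem_Gamma0.ModularForm.HeckeSlashInvariance
open Fermat.Agent.N4F.Tors.HeckeHom Fermat.Agent.P3LR.A.Transfer2 Fermat.Agent.P3LR.A.IntMat
open Fermat.Agent.P4.Cores Fermat.Agent.P4.AtkinLehner
open scoped OnePoint

variable {N q : ℕ} [Fact q.Prime] (hqN : ¬ q ∣ N)

/-! ### Multiplicative form -/

section Hom

/-- **The second corestriction** `Hom(Γ₀(Nq), M) → Hom(Γ₀(N), M)`:
`(cores_β ψ)(g) = ∏ₓ ψ (alConj (coresCoc g x))`. -/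
noncomputable def coresEtaHom {M : Type*} [CommGroup M] :
    (↥(Gamma0 (N * q)) →* M) →* (↥(Gamma0 N) →* M) :=
  (coresHom hqN).comp (MonoidHom.compHom' (alConj hqN))

theorem coresEtaHom_eq {M : Type*} [CommGroup M] (ψ : ↥(Gamma0 (N * q)) →* M) :
    coresEtaHom hqN ψ = coresHom hqN (ψ.comp (alConj hqN)) := rfl

theorem coresEtaHom_apply {M : Type*} [CommGroup M] (ψ : ↥(Gamma0 (N * q)) →* M)
    (g : ↥(Gamma0 N)) :
    coresEtaHom hqN ψ g = ∏ x : OnePoint (ZMod q), ψ (alConj hqN (coresCoc hqN g x)) := rfl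

theorem coresEtaHom_comp {M M' : Type*} [CommGroup M] [CommGroup M'] (f : M →* M')
    (ψ : ↥(Gamma0 (N * q)) →* M) :
    coresEtaHom hqN (f.comp ψ) = f.comp (coresEtaHom hqN ψ) := by
  rw [coresEtaHom_eq, coresEtaHom_eq, MonoidHom.comp_assoc, coresHom_comp]

theorem comp_alConj_mem_parHom {M : Type*} [CommGroup M] {ψ : ↥(Gamma0 (N * q)) →* M}
    (hψ : ψ ∈ parHom (N * q) M) : ψ.comp (alConj hqN) ∈ parHom (N * q) M :=
  fun _ hc => hψ _ (isParEll_alConj hqN hc)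

theorem coresEtaHom_mem_parHom {M : Type*} [CommGroup M] {ψ : ↥(Gamma0 (N * q)) →* M}
    (hψ : ψ ∈ parHom (N * q) M) : coresEtaHom hqN ψ ∈ parHom N M :=
  coresHom_mem_parHom hqN (comp_alConj_mem_parHom hqN hψ)

variable {ℓ : ℕ} [Fact ℓ.Prime] (hℓN : ¬ ℓ ∣ N) (hℓNq : ¬ ℓ ∣ N * q)

/-- **(R2) for `cores_β`**: `cores_β ∘ T_ℓ^{Nq} = T_ℓ^N ∘ cores_β`. -/
theorem coresEtaHom_heckeHom {M : Type*} [CommGroup M] (ψ : ↥(Gamma0 (N * q)) →* M) :
    coresEtaHom hqN (heckeHom (N * q) ℓ hℓNq ψ) = heckeHom N ℓ hℓN (coresEtaHom hqN ψ) := by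
  rw [coresEtaHom_eq, coresEtaHom_eq, heckeHom_comp_alConj hqN hℓNq,
    coresHom_heckeHom hqN hℓN hℓNq]

end Hom

/-! ### The coset system -/

section Sys

/-- the representatives `W* ρ_x` of the second corestriction -/
noncomputable def coresEtaRep (x : OnePoint (ZMod q)) : GL (Fin 2) ℝ :=
  glOf (alMat N q) * jGL N (coresRep hqN x)

/-- **the coset identity** `W* ρ_x g = alConj (coresCoc g x) W* ρ_{x·g}` -/
theorem coresEtaRep_mul (g : ↥(Gamma0 N)) (x : OnePoint (ZMod q)) :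
    coresEtaRep hqN x * jGL N g =
      jGL (N * q) (alConj hqN (coresCoc hqN g x)) *
        coresEtaRep hqN (redMatrix q (g : SL(2, ℤ)) • x) := by
  have h := (coresSys hqN).rep_mul g x
  have h1 : jGL N (coresRep hqN x) * jGL N g =
      jGL (N * q) (coresCoc hqN g x) * jGL N (coresRep hqN (redMatrix q (g : SL(2, ℤ)) • x)) := h
  rw [coresEtaRep, coresEtaRep, mul_assoc, h1, ← mul_assoc, glOf_alMat_mul hqN, mul_assoc]

/-- **The coset system of the second corestriction.** -/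
noncomputable def coresEtaSys : CosetSys₂ (jGL N) (jGL (N * q)) (OnePoint (ZMod q)) :=
  CosetSys₂.ofInj (jGL_injective (N * q)) (coresEtaRep hqN)
    (fun g x => redMatrix q (g : SL(2, ℤ)) • x)
    (fun g x => alConj hqN (coresCoc hqN g x)) (coresEtaRep_mul hqN)
    (fun x x' d h => by
      have h1 : jGL N (coresRep hqN x) =
          jGL (N * q) (alConjW hqN d) * jGL N (coresRep hqN x') := by
        have h2 := glOf_alMat_mul hqN (alConjW hqN d)
        rw [alConj_alConjW] at h2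
        rw [coresEtaRep, coresEtaRep, ← mul_assoc, ← h2, mul_assoc] at h
        exact mul_left_cancel h
      exact (transSys_isInj hqN _ (isTransversal_coresRep hqN)) x x' _ h1)

theorem coresEtaSys_isInj : (coresEtaSys hqN).IsInj := CosetSys₂.isInj_ofInj _ _ _ _ _ _

theorem coresEtaHom_eq_transfer {M : Type*} [CommGroup M] (ψ : ↥(Gamma0 (N * q)) →* M) :
    coresEtaHom hqN ψ = (coresEtaSys hqN).transfer ψ := rfl

end Sys

/-! ### Additive twin -/

section Add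

/-- **The second corestriction, additive form**:
`(cores_β φ)(g) = ∑ₓ φ (alConj (coresCoc g x))`. -/
noncomputable def coresEtaAdd {A : Type*} [AddCommGroup A] :
    (Additive ↥(Gamma0 (N * q)) →+ A) →+ (Additive ↥(Gamma0 N) →+ A) where
  toFun φ := coresAdd hqN (φ.comp (MonoidHom.toAdditive (alConj hqN)))
  map_zero' := by rw [AddMonoidHom.zero_comp, map_zero]
  map_add' φ ψ := by rw [AddMonoidHom.add_comp, map_add]

theorem coresEtaAdd_eq {A : Type*} [AddCommGroup A] (φ : Additive ↥(Gamma0 (N * q)) →+ A) :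
    coresEtaAdd hqN φ = coresAdd hqN (φ.comp (MonoidHom.toAdditive (alConj hqN))) := rfl

theorem coresEtaAdd_apply {A : Type*} [AddCommGroup A] (φ : Additive ↥(Gamma0 (N * q)) →+ A)
    (g : ↥(Gamma0 N)) :
    coresEtaAdd hqN φ (Additive.ofMul g) =
      ∑ x : OnePoint (ZMod q), φ (Additive.ofMul (alConj hqN (coresCoc hqN g x))) := by
  rw [coresEtaAdd_eq, coresAdd_apply]
  rfl

theorem coresEtaAdd_comp {A B : Type*} [AddCommGroup A] [AddCommGroup B] (f : A →+ B)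
    (φ : Additive ↥(Gamma0 (N * q)) →+ A) :
    coresEtaAdd hqN (f.comp φ) = f.comp (coresEtaAdd hqN φ) := by
  rw [coresEtaAdd_eq, coresEtaAdd_eq, AddMonoidHom.comp_assoc, coresAdd_comp]

theorem comp_alConj_mem_parHomAdd {A : Type*} [AddCommGroup A]
    {φ : Additive ↥(Gamma0 (N * q)) →+ A} (hφ : φ ∈ parHomAdd (N * q) A) :
    φ.comp (MonoidHom.toAdditive (alConj hqN)) ∈ parHomAdd (N * q) A :=
  fun _ hc => hφ _ (isParEll_alConj hqN hc)

theorem coresEtaAdd_mem_parHomAdd {A : Type*} [AddCommGroup A]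
    {φ : Additive ↥(Gamma0 (N * q)) →+ A} (hφ : φ ∈ parHomAdd (N * q) A) :
    coresEtaAdd hqN φ ∈ parHomAdd N A :=
  coresAdd_mem_parHomAdd hqN (comp_alConj_mem_parHomAdd hqN hφ)

/-- `cores_β` on parabolic homomorphisms -/
noncomputable def coresEtaPar (A : Type*) [AddCommGroup A] :
    parHomAdd (N * q) A →+ parHomAdd N A where
  toFun φ := ⟨coresEtaAdd hqN φ.1, coresEtaAdd_mem_parHomAdd hqN φ.2⟩
  map_zero' := Subtype.ext (map_zero _)
  map_add' _ _ := Subtype.ext (map_add _ _ _)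

@[simp] theorem coe_coresEtaPar {A : Type*} [AddCommGroup A] (φ : parHomAdd (N * q) A) :
    ((coresEtaPar hqN A φ : parHomAdd N A) : Additive ↥(Gamma0 N) →+ A) =
      coresEtaAdd hqN φ.1 := rfl

theorem parHomAddMap_coresEtaPar {A B : Type*} [AddCommGroup A] [AddCommGroup B] (f : A →+ B)
    (φ : parHomAdd (N * q) A) :
    parHomAddMap N f (coresEtaPar hqN A φ) = coresEtaPar hqN B (parHomAddMap (N * q) f φ) :=
  Subtype.ext (coresEtaAdd_comp hqN f φ.1).symm

variable {ℓ : ℕ} [Fact ℓ.Prime] (hℓN : ¬ ℓ ∣ N) (hℓNq : ¬ ℓ ∣ N * q)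

/-- `T_ℓ` commutes with the Atkin–Lehner conjugation, additive form -/
theorem heckeAdd_comp_alConj {A : Type*} [AddCommGroup A]
    (φ : Additive ↥(Gamma0 (N * q)) →+ A) :
    (heckeAdd (N * q) ℓ hℓNq φ).comp (MonoidHom.toAdditive (alConj hqN)) =
      heckeAdd (N * q) ℓ hℓNq (φ.comp (MonoidHom.toAdditive (alConj hqN))) :=
  congrArg MonoidHom.toAdditiveLeft
    (heckeHom_comp_alConj hqN hℓNq (AddMonoidHom.toMultiplicativeRight φ))

/-- **(R2) for `cores_β`**, additive form: `cores_β ∘ T_ℓ^{Nq} = T_ℓ^N ∘ cores_β`, `ℓ ∤ Nq`. -/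
theorem coresEtaAdd_heckeAdd {A : Type*} [AddCommGroup A]
    (φ : Additive ↥(Gamma0 (N * q)) →+ A) :
    coresEtaAdd hqN (heckeAdd (N * q) ℓ hℓNq φ) = heckeAdd N ℓ hℓN (coresEtaAdd hqN φ) := by
  rw [coresEtaAdd_eq, coresEtaAdd_eq, heckeAdd_comp_alConj hqN hℓNq,
    coresAdd_heckeAdd hqN hℓN hℓNq]

theorem coresEtaPar_heckePar {A : Type*} [AddCommGroup A] (φ : parHomAdd (N * q) A) :
    coresEtaPar hqN A (heckePar (N * q) ℓ hℓNq A φ) =
      heckePar N ℓ hℓN A (coresEtaPar hqN A φ) :=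
  Subtype.ext (coresEtaAdd_heckeAdd hqN hℓN hℓNq φ.1)

end Add

end Fermat.Agent.P4.CoresEta
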