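import Mathlib
import Fermat.Agent.P3G.LocalRootsAt

/-!
# P4 (S35), block [P4-C2], abstract core: local roots of a twisted difference `σ f / f ^ m`

Setting of `P3G/UCrit.lean` / `P3G/LocalRootsAt.lean`: a chart `R` (noetherian integrally closed domain
over the discrete valuation ring `O`, fraction field `F ⊇ K = Frac O`), two vertical valuation rings
`V₁ V₂ ⊇ R` of `F` with `𝔪_{V₁} ∩ 𝔪_{V₂} = π W`, `W = V₁ ∩ V₂`.

`σ` is an ARBITRARY field automorphism of `F` preserving `R`, the two valuations and compatible with a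
permutation `τ` of the places of `F / K` (for S35: the coefficientwise action of `φ²`, `φ` a Frobenius
lift).  No triviality on residue fields is assumed.  Instead, at every crossing point `𝔫 ⊇ 𝔓₁ + 𝔓₂`:
`σ 𝔫 = 𝔫`, `σ r ≡ r ^ m mod 𝔫` ("`σ` is the `m`-power Frobenius on the residue field of the fixed
point `𝔫`") and `𝔫 R_𝔫 = 𝔓₁ R_𝔫 + 𝔓₂ R_𝔫` ("node").

For `f = σ h / h / g ^ e` (a first difference, corrected by a `W`-unit `g`) with `f ≡ 1 mod π W` and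
`e ∣ div h`, the twisted difference `σ f / f ^ m` has local `e`-th roots `≡ 1 mod π W` at every closed
point of the special fibre: `PowCover.LocalRoots π W s (σ f / f ^ m) e`.

Main statements:
* `IsUnitAt 𝔫 x`, `IsOneAt 𝔫 x` : `x ∈ F` is a unit of `R_𝔫`, resp. a unit `≡ 1 mod 𝔫 R_𝔫`;
* `exists_glue_crossing`, `exists_glue_oneBranch` : the two Chinese-remainder/gluing lemmas;
* `exists_twistRoot_crossing`, `exists_twistRoot_oneBranch` : the local root at one closed point from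
  "vertical-unit roots" `f = U · B ^ e`;
* `branchNormal_of_surjective` : branch normality (BN) from a surjection onto an integrally closed
  domain with kernel the centre of `V`;
* `localRoots_twist` : the chart-level theorem.
-/

set_option autoImplicit false
set_option linter.unusedSectionVars false
set_option linter.style.haveILetI false

namespace Fermat.Agent.P4.TwistRoots

open Fermat.Agent.P3G.SecondDiff Fermat.Agent.P3G.UCrit Fermat.Agent.P3G.Cover.OfValuations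
open Fermat.Agent.P3G.Assembly.PowCover
open AlgebraicCurve

/-! ### Units of the local ring `R_𝔫`, as elements of the fraction field -/

section UnitAt

variable {F R : Type*} [Field F] [CommRing R] [IsDomain R] [Algebra R F] [IsFractionRing R F]

/-- `x ∈ F` is a unit of the local ring `R_𝔫`: `x = r / a` with `a, r ∉ 𝔫`. -/
def IsUnitAt (𝔫 : Ideal R) (x : F) : Prop :=
  ∃ a r : R, a ∉ 𝔫 ∧ r ∉ 𝔫 ∧ x * algebraMap R F a = algebraMap R F r

/-- `x ∈ F` is a unit of `R_𝔫` congruent to `1` modulo `𝔫 R_𝔫`: `x = r / a` with `a ∉ 𝔫`,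
`r − a ∈ 𝔫`. -/
def IsOneAt (𝔫 : Ideal R) (x : F) : Prop :=
  ∃ a r : R, a ∉ 𝔫 ∧ r - a ∈ 𝔫 ∧ x * algebraMap R F a = algebraMap R F r

/-- The valuation ring `V` passes through `𝔫`: its centre on `R` is contained in `𝔫`. -/
def Through (V : ValuationSubring F) (𝔫 : Ideal R) : Prop :=
  ∀ r : R, algebraMap R F r ∈ V.nonunits → r ∈ 𝔫

omit [IsDomain R] [IsFractionRing R F] in
theorem not_through_iff {V : ValuationSubring F} {𝔫 : Ideal R} :
    ¬ Through V 𝔫 ↔ ∃ r : R, algebraMap R F r ∈ V.nonunits ∧ r ∉ 𝔫 := by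
  unfold Through
  constructor
  · intro h
    obtain ⟨r, hr⟩ := not_forall.1 h
    exact ⟨r, Classical.not_imp.1 hr⟩
  · rintro ⟨r, hr1, hr2⟩ h
    exact hr2 (h r hr1)

variable (𝔫 : Ideal R) [h𝔫 : 𝔫.IsPrime]

omit h𝔫 in
theorem algebraMap_ne_zero_of_notMem {a : R} (ha : a ∉ 𝔫) : algebraMap R F a ≠ 0 := by
  intro h
  have h0 : a = 0 := IsFractionRing.injective R F (by rw [h, map_zero])
  exact ha (h0 ▸ 𝔫.zero_mem)

variable {𝔫}

omit h𝔫 in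
theorem IsUnitAt.ne_zero {x : F} (h : IsUnitAt 𝔫 x) : x ≠ 0 := by
  obtain ⟨a, r, -, hr, hx⟩ := h
  rintro rfl
  rw [zero_mul] at hx
  exact algebraMap_ne_zero_of_notMem 𝔫 hr hx.symm

omit [IsDomain R] [IsFractionRing R F] in
theorem isUnitAt_algebraMap {r : R} (hr : r ∉ 𝔫) : IsUnitAt 𝔫 (algebraMap R F r) :=
  ⟨1, r, fun h => h𝔫.ne_top ((Ideal.eq_top_iff_one _).2 h), hr, by rw [map_one, mul_one]⟩

omit [IsDomain R] [IsFractionRing R F] in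
theorem isUnitAt_one : IsUnitAt 𝔫 (1 : F) := by
  have := isUnitAt_algebraMap (F := F) (𝔫 := 𝔫) (r := 1)
    (fun h => h𝔫.ne_top ((Ideal.eq_top_iff_one _).2 h))
  rwa [map_one] at this

omit [IsDomain R] [IsFractionRing R F] in
theorem IsUnitAt.mul {x y : F} (hx : IsUnitAt 𝔫 x) (hy : IsUnitAt 𝔫 y) : IsUnitAt 𝔫 (x * y) := by
  obtain ⟨a, r, ha, hr, hxa⟩ := hx
  obtain ⟨a', r', ha', hr', hya⟩ := hy
  refine ⟨a * a', r * r', fun h => (h𝔫.mem_or_mem h).elim ha ha',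
    fun h => (h𝔫.mem_or_mem h).elim hr hr', ?_⟩
  rw [map_mul, map_mul, ← hxa, ← hya]
  ring

omit h𝔫 in
theorem IsUnitAt.inv {x : F} (hx : IsUnitAt 𝔫 x) : IsUnitAt 𝔫 x⁻¹ := by
  have hx0 := hx.ne_zero
  obtain ⟨a, r, ha, hr, hxa⟩ := hx
  refine ⟨r, a, hr, ha, ?_⟩
  rw [← hxa]
  field_simp

theorem IsUnitAt.div {x y : F} (hx : IsUnitAt 𝔫 x) (hy : IsUnitAt 𝔫 y) : IsUnitAt 𝔫 (x / y) := by
  rw [div_eq_mul_inv]
  exact hx.mul hy.inv

omit [IsDomain R] [IsFractionRing R F] in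
theorem IsUnitAt.pow {x : F} (hx : IsUnitAt 𝔫 x) (n : ℕ) : IsUnitAt 𝔫 (x ^ n) := by
  induction n with
  | zero => rw [pow_zero]; exact isUnitAt_one
  | succ n ih => rw [pow_succ]; exact ih.mul hx

omit [IsDomain R] [IsFractionRing R F] in
theorem IsOneAt.isUnitAt {x : F} (hx : IsOneAt 𝔫 x) : IsUnitAt 𝔫 x := by
  obtain ⟨a, r, ha, hra, hxa⟩ := hx
  refine ⟨a, r, ha, fun hr => ha ?_, hxa⟩
  have : a = r - (r - a) := by ring
  rw [this]
  exact 𝔫.sub_mem hr hra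

omit [IsDomain R] [IsFractionRing R F] h𝔫 in
/-- An element of `R` outside `𝔫` is a unit of every valuation ring `V ⊇ R` through `𝔫`. -/
theorem valuation_eq_one_of_notMem {V : ValuationSubring F}
    (hV : ∀ r : R, algebraMap R F r ∈ V) (ht : Through V 𝔫) {a : R} (ha : a ∉ 𝔫) :
    V.valuation (algebraMap R F a) = 1 := by
  refine le_antisymm ((V.valuation_le_one_iff _).2 (hV a)) (not_lt.1 fun hlt => ha ?_)
  exact ht a ((V.mem_nonunits_iff).2 hlt)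

omit h𝔫 in
theorem IsUnitAt.valuation_eq_one {V : ValuationSubring F}
    (hV : ∀ r : R, algebraMap R F r ∈ V) (ht : Through V 𝔫) {x : F} (hx : IsUnitAt 𝔫 x) :
    V.valuation x = 1 := by
  obtain ⟨a, r, ha, hr, hxa⟩ := hx
  have h := congrArg V.valuation hxa
  rwa [map_mul, valuation_eq_one_of_notMem hV ht ha, valuation_eq_one_of_notMem hV ht hr,
    mul_one] at h

end UnitAt

/-! ### Principal units and congruences -/

section PU

variable {F : Type*} [Field F] {V : ValuationSubring F}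

/-- `a ≡ b` modulo `𝔪_V` with `b` a unit of `V` gives `a / b ≡ 1`. -/
theorem isPU_div_of_sub {a b : F} (hb : V.valuation b = 1) (hab : V.valuation (a - b) < 1) :
    IsPU V (a / b) := by
  have hb0 : b ≠ 0 := by
    rintro rfl
    rw [map_zero] at hb
    exact zero_ne_one hb
  unfold IsPU
  have h : a / b - 1 = (a - b) * b⁻¹ := by field_simp
  rw [h, map_mul, map_inv₀, hb, inv_one, mul_one]
  exact hab

/-- A valuation-preserving automorphism preserves principal units. -/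
theorem isPU_map (σ : F ≃+* F) (hval : ∀ b, V.valuation (σ b) = V.valuation b) {x : F}
    (hx : IsPU V x) : IsPU V (σ x) := by
  unfold IsPU at *
  have h : σ x - 1 = σ (x - 1) := by rw [map_sub, map_one]
  rw [h, hval]
  exact hx

/-- `σ x / x ^ m` of a principal unit is a principal unit. -/
theorem isPU_twist (σ : F ≃+* F) (hval : ∀ b, V.valuation (σ b) = V.valuation b) (m : ℕ) {x : F}
    (hx : IsPU V x) : IsPU V (σ x / x ^ m) :=
  (isPU_map σ hval hx).div (hx.pow m)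

theorem valuation_add_eq_one_of_lt {a b : F} (ha : V.valuation a < 1) (hb : V.valuation b = 1) :
    V.valuation (a + b) = 1 := by
  rw [add_comm, ← hb]
  exact Valuation.map_add_eq_of_lt_left _ (by rw [hb]; exact ha)

end PU

/-! ### The two gluing lemmas -/

section Glue

variable {F R : Type*} [Field F] [CommRing R] [IsDomain R] [Algebra R F] [IsFractionRing R F]
variable {𝔫 : Ideal R} [h𝔫 : 𝔫.IsPrime] {V₁ V₂ : ValuationSubring F}

/-- **Gluing at a node.**  If `𝔫 R_𝔫 = 𝔓₁ R_𝔫 + 𝔓₂ R_𝔫` (`𝔓ᵢ` the centres of `V₁ V₂`, both through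
`𝔫`), two units `ξ₁ ξ₂ ≡ 1 mod 𝔫` of `R_𝔫` glue: there is a unit `ξ` of `R_𝔫` with `ξ ≡ ξᵢ` modulo
`𝔪_{Vᵢ}`. -/
theorem exists_glue_crossing (hV₁ : ∀ r : R, algebraMap R F r ∈ V₁)
    (hV₂ : ∀ r : R, algebraMap R F r ∈ V₂) (ht₁ : Through V₁ 𝔫) (ht₂ : Through V₂ 𝔫)
    (hnode : ∀ r ∈ 𝔫, ∃ c p₁ p₂ : R, c ∉ 𝔫 ∧ algebraMap R F p₁ ∈ V₁.nonunits ∧
      algebraMap R F p₂ ∈ V₂.nonunits ∧ c * r = p₁ + p₂)
    {ξ₁ ξ₂ : F} (h₁ : IsOneAt 𝔫 ξ₁) (h₂ : IsOneAt 𝔫 ξ₂) :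
    ∃ ξ : F, IsUnitAt 𝔫 ξ ∧ IsPU V₁ (ξ / ξ₁) ∧ IsPU V₂ (ξ / ξ₂) := by
  have hu₁ := h₁.isUnitAt
  have hu₂ := h₂.isUnitAt
  obtain ⟨D₁, N₁, hD₁, hND₁, hξ₁⟩ := h₁
  obtain ⟨D₂, N₂, hD₂, hND₂, hξ₂⟩ := h₂
  have hN₁ : N₁ ∉ 𝔫 := fun h => hD₁ (by
    have : D₁ = N₁ - (N₁ - D₁) := by ring
    rw [this]; exact 𝔫.sub_mem h hND₁)
  have hmem : N₁ * D₂ - N₂ * D₁ ∈ 𝔫 := by
    have : N₁ * D₂ - N₂ * D₁ = (N₁ - D₁) * D₂ - (N₂ - D₂) * D₁ := by ring
    rw [this]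
    exact 𝔫.sub_mem (𝔫.mul_mem_right _ hND₁) (𝔫.mul_mem_right _ hND₂)
  obtain ⟨c, p₁, p₂, hc, hp₁, hp₂, hcp⟩ := hnode _ hmem
  have hp₁𝔫 : p₁ ∈ 𝔫 := ht₁ p₁ hp₁
  have hcD : c * D₁ * D₂ ∉ 𝔫 := fun h =>
    (h𝔫.mem_or_mem h).elim (fun h' => (h𝔫.mem_or_mem h').elim hc hD₁) hD₂
  have hnum : c * N₁ * D₂ - p₁ ∉ 𝔫 := fun h => by
    have h' : c * N₁ * D₂ ∈ 𝔫 := by
      have : c * N₁ * D₂ = (c * N₁ * D₂ - p₁) + p₁ := by ring
      rw [this]; exact 𝔫.add_mem h hp₁𝔫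
    exact (h𝔫.mem_or_mem h').elim (fun h'' => (h𝔫.mem_or_mem h'').elim hc hN₁) hD₂
  have hcD0 : algebraMap R F (c * D₁ * D₂) ≠ 0 := algebraMap_ne_zero_of_notMem 𝔫 hcD
  have hD₁0 : algebraMap R F D₁ ≠ 0 := algebraMap_ne_zero_of_notMem 𝔫 hD₁
  have hD₂0 : algebraMap R F D₂ ≠ 0 := algebraMap_ne_zero_of_notMem 𝔫 hD₂
  have hc0 : algebraMap R F c ≠ 0 := algebraMap_ne_zero_of_notMem 𝔫 hc
  set ξ : F := algebraMap R F (c * N₁ * D₂ - p₁) / algebraMap R F (c * D₁ * D₂) with hξ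
  have hξu : IsUnitAt 𝔫 ξ := (isUnitAt_algebraMap hnum).div (isUnitAt_algebraMap hcD)
  have hvden₁ : V₁.valuation (algebraMap R F (c * D₁ * D₂)) = 1 :=
    valuation_eq_one_of_notMem hV₁ ht₁ hcD
  have hvden₂ : V₂.valuation (algebraMap R F (c * D₁ * D₂)) = 1 :=
    valuation_eq_one_of_notMem hV₂ ht₂ hcD
  have e₁ : ξ₁ = algebraMap R F N₁ / algebraMap R F D₁ := by
    rw [← hξ₁]; field_simp
  have e₂ : ξ₂ = algebraMap R F N₂ / algebraMap R F D₂ := by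
    rw [← hξ₂]; field_simp
  have hcpF : algebraMap R F c * (algebraMap R F N₁ * algebraMap R F D₂ -
      algebraMap R F N₂ * algebraMap R F D₁) = algebraMap R F p₁ + algebraMap R F p₂ := by
    have := congrArg (algebraMap R F) hcp
    simpa only [map_mul, map_sub, map_add] using this
  have d₁ : ξ - ξ₁ = -(algebraMap R F p₁) / algebraMap R F (c * D₁ * D₂) := by
    rw [hξ, e₁]
    simp only [map_mul, map_sub]
    field_simp
    ring
  have d₂ : ξ - ξ₂ = algebraMap R F p₂ / algebraMap R F (c * D₁ * D₂) := by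
    rw [hξ, e₂]
    simp only [map_mul, map_sub]
    field_simp
    linear_combination hcpF
  refine ⟨ξ, hξu, isPU_div_of_sub (hu₁.valuation_eq_one hV₁ ht₁) ?_,
    isPU_div_of_sub (hu₂.valuation_eq_one hV₂ ht₂) ?_⟩
  · rw [d₁, map_div₀, hvden₁, div_one, Valuation.map_neg]
    exact (V₁.mem_nonunits_iff).1 hp₁
  · rw [d₂, map_div₀, hvden₂, div_one]
    exact (V₂.mem_nonunits_iff).1 hp₂

/-- **Chinese remainder at a one-branch point.**  `V₁` passes through `𝔫`, `V₂` does not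
(`e₂ ∈ 𝔓₂ ∖ 𝔫`), `ε ∈ 𝔓₁ ∖ 𝔓₂`, `V₂ = R_{𝔓₂}`.  For a unit `ξ₁` of `R_𝔫` and a unit `T` of `V₂` there
is a unit `ξ` of `R_𝔫` with `ξ ≡ ξ₁` modulo `𝔪_{V₁}` and `ξ ≡ T` modulo `𝔪_{V₂}`. -/
theorem exists_glue_oneBranch (hV₁ : ∀ r : R, algebraMap R F r ∈ V₁)
    (hV₂ : ∀ r : R, algebraMap R F r ∈ V₂) (ht₁ : Through V₁ 𝔫)
    {e₂ ε : R} (he₂ : algebraMap R F e₂ ∈ V₂.nonunits) (he₂𝔫 : e₂ ∉ 𝔫)
    (hε₁ : algebraMap R F ε ∈ V₁.nonunits) (hε₂ : algebraMap R F ε ∉ V₂.nonunits)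
    (hloc₂ : ∀ x ∈ V₂, ∃ a d : R, algebraMap R F d ∉ V₂.nonunits ∧
      x * algebraMap R F d = algebraMap R F a)
    {ξ₁ T : F} (h₁ : IsUnitAt 𝔫 ξ₁) (hT : V₂.valuation T = 1) :
    ∃ ξ : F, IsUnitAt 𝔫 ξ ∧ IsPU V₁ (ξ / ξ₁) ∧ IsPU V₂ (ξ / T) := by
  have hu₁ := h₁
  obtain ⟨D, N, hD, hN, hξ₁⟩ := h₁
  have hTV : T ∈ V₂ := (V₂.valuation_le_one_iff T).1 hT.le
  obtain ⟨n₁, n₂, hn₂, hTn⟩ := hloc₂ T hTV
  have hvone : ∀ r : R, algebraMap R F r ∉ V₂.nonunits → V₂.valuation (algebraMap R F r) = 1 :=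
    fun r hr => le_antisymm ((V₂.valuation_le_one_iff _).2 (hV₂ r))
      (not_lt.1 fun hlt => hr ((V₂.mem_nonunits_iff).2 hlt))
  have hvn₂ : V₂.valuation (algebraMap R F n₂) = 1 := hvone n₂ hn₂
  have hvn₁ : V₂.valuation (algebraMap R F n₁) = 1 := by
    rw [← hTn, map_mul, hT, hvn₂, mul_one]
  have hvε : V₂.valuation (algebraMap R F ε) = 1 := hvone ε hε₂
  have hε𝔫 : ε ∈ 𝔫 := ht₁ ε hε₁
  have hnum : e₂ * N + ε * n₁ ∉ 𝔫 := fun h => by
    have h' : e₂ * N ∈ 𝔫 := by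
      have : e₂ * N = (e₂ * N + ε * n₁) - ε * n₁ := by ring
      rw [this]; exact 𝔫.sub_mem h (𝔫.mul_mem_right _ hε𝔫)
    exact (h𝔫.mem_or_mem h').elim he₂𝔫 hN
  have hden : e₂ * D + ε * n₂ ∉ 𝔫 := fun h => by
    have h' : e₂ * D ∈ 𝔫 := by
      have : e₂ * D = (e₂ * D + ε * n₂) - ε * n₂ := by ring
      rw [this]; exact 𝔫.sub_mem h (𝔫.mul_mem_right _ hε𝔫)
    exact (h𝔫.mem_or_mem h').elim he₂𝔫 hD
  have hden0 : algebraMap R F (e₂ * D + ε * n₂) ≠ 0 := algebraMap_ne_zero_of_notMem 𝔫 hden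
  have hD0 : algebraMap R F D ≠ 0 := algebraMap_ne_zero_of_notMem 𝔫 hD
  have hn₂0 : algebraMap R F n₂ ≠ 0 := by
    intro h0
    rw [h0, map_zero] at hvn₂
    exact zero_ne_one hvn₂
  set ξ : F := algebraMap R F (e₂ * N + ε * n₁) / algebraMap R F (e₂ * D + ε * n₂) with hξ
  have hξu : IsUnitAt 𝔫 ξ := (isUnitAt_algebraMap hnum).div (isUnitAt_algebraMap hden)
  have e₁ : ξ₁ = algebraMap R F N / algebraMap R F D := by
    rw [← hξ₁]; field_simp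
  have eT : T = algebraMap R F n₁ / algebraMap R F n₂ := by
    rw [← hTn]; field_simp
  have d₁ : ξ - ξ₁ = algebraMap R F ε * algebraMap R F (n₁ * D - n₂ * N) /
      (algebraMap R F (e₂ * D + ε * n₂) * algebraMap R F D) := by
    rw [hξ, e₁]
    simp only [map_mul, map_sub, map_add] at hden0 ⊢
    field_simp
    ring
  have d₂ : ξ - T = algebraMap R F e₂ * algebraMap R F (N * n₂ - n₁ * D) /
      (algebraMap R F (e₂ * D + ε * n₂) * algebraMap R F n₂) := by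
    rw [hξ, eT]
    simp only [map_mul, map_sub, map_add] at hden0 ⊢
    field_simp
    ring
  have hvden₁ : V₁.valuation (algebraMap R F (e₂ * D + ε * n₂)) = 1 :=
    valuation_eq_one_of_notMem hV₁ ht₁ hden
  have hvD₁ : V₁.valuation (algebraMap R F D) = 1 := valuation_eq_one_of_notMem hV₁ ht₁ hD
  have hvden₂ : V₂.valuation (algebraMap R F (e₂ * D + ε * n₂)) = 1 := by
    rw [map_add]
    refine valuation_add_eq_one_of_lt ?_ ?_
    · rw [map_mul, map_mul]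
      have h1 := (V₂.mem_nonunits_iff).1 he₂
      have h2 := (V₂.valuation_le_one_iff _).2 (hV₂ D)
      calc V₂.valuation (algebraMap R F e₂) * V₂.valuation (algebraMap R F D)
          ≤ V₂.valuation (algebraMap R F e₂) * 1 := by gcongr
        _ < 1 := by rw [mul_one]; exact h1
    · rw [map_mul, map_mul, hvε, hvn₂, mul_one]
  refine ⟨ξ, hξu, isPU_div_of_sub (hu₁.valuation_eq_one hV₁ ht₁) ?_, isPU_div_of_sub hT ?_⟩
  · rw [d₁, map_div₀, map_mul, map_mul, hvden₁, hvD₁, mul_one, div_one]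
    have h1 := (V₁.mem_nonunits_iff).1 hε₁
    have h2 := (V₁.valuation_le_one_iff _).2 (hV₁ (n₁ * D - n₂ * N))
    calc V₁.valuation (algebraMap R F ε) * V₁.valuation (algebraMap R F (n₁ * D - n₂ * N))
        ≤ V₁.valuation (algebraMap R F ε) * 1 := by gcongr
      _ < 1 := by rw [mul_one]; exact h1
  · rw [d₂, map_div₀, map_mul, map_mul, hvden₂, hvn₂, mul_one, div_one]
    have h1 := (V₂.mem_nonunits_iff).1 he₂
    have h2 := (V₂.valuation_le_one_iff _).2 (hV₂ (N * n₂ - n₁ * D))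
    calc V₂.valuation (algebraMap R F e₂) * V₂.valuation (algebraMap R F (N * n₂ - n₁ * D))
        ≤ V₂.valuation (algebraMap R F e₂) * 1 := by gcongr
      _ < 1 := by rw [mul_one]; exact h1

end Glue

/-! ### The local root of a twisted difference at one closed point (vertical part) -/

section Twist

variable {F R : Type*} [Field F] [CommRing R] [IsDomain R] [Algebra R F] [IsFractionRing R F]
variable {V₁ V₂ : ValuationSubring F}
variable (σ : F ≃+* F) (ρ : R ≃+* R) (hρ : ∀ r : R, algebraMap R F (ρ r) = σ (algebraMap R F r))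

include hρ in
omit [IsDomain R] [IsFractionRing R F] in
/-- `σ` maps the units of `R_{σ⁻¹𝔫}` to units of `R_𝔫`. -/
theorem IsUnitAt.map {𝔫 : Ideal R} {x : F} (hx : IsUnitAt (𝔫.comap (ρ : R →+* R)) x) :
    IsUnitAt 𝔫 (σ x) := by
  obtain ⟨a, r, ha, hr, hxa⟩ := hx
  refine ⟨ρ a, ρ r, fun h => ha (Ideal.mem_comap.2 h), fun h => hr (Ideal.mem_comap.2 h), ?_⟩
  rw [hρ, hρ, ← map_mul, hxa]

include hρ in
/-- At a `σ`-fixed point `𝔫` where `σ` induces the `m`-th power map on the residue field, the twisted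
difference `σ y / y ^ m` of a unit `y` of `R_𝔫` is `≡ 1 mod 𝔫`. -/
theorem isOneAt_twist {𝔫 : Ideal R} [h𝔫 : 𝔫.IsPrime] (hfix : ∀ r : R, ρ r ∈ 𝔫 ↔ r ∈ 𝔫) (m : ℕ)
    (hfrob : ∀ r : R, ρ r - r ^ m ∈ 𝔫) {y : F} (hy : IsUnitAt 𝔫 y) :
    IsOneAt 𝔫 (σ y / y ^ m) := by
  have hy0 := hy.ne_zero
  obtain ⟨a, r, ha, hr, hya⟩ := hy
  have hρa : ρ a ∉ 𝔫 := fun h => ha ((hfix a).1 h)
  have hrm : r ^ m ∉ 𝔫 := fun h => hr (h𝔫.mem_of_pow_mem m h)
  have ha0 : algebraMap R F a ≠ 0 := algebraMap_ne_zero_of_notMem 𝔫 ha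
  have hr0 : algebraMap R F r ≠ 0 := algebraMap_ne_zero_of_notMem 𝔫 hr
  have hρa0 : algebraMap R F (ρ a) ≠ 0 := algebraMap_ne_zero_of_notMem 𝔫 hρa
  refine ⟨ρ a * r ^ m, ρ r * a ^ m, fun h => (h𝔫.mem_or_mem h).elim hρa hrm, ?_, ?_⟩
  · have : ρ r * a ^ m - ρ a * r ^ m = (ρ r - r ^ m) * a ^ m - (ρ a - a ^ m) * r ^ m := by ring
    rw [this]
    exact 𝔫.sub_mem (𝔫.mul_mem_right _ (hfrob r)) (𝔫.mul_mem_right _ (hfrob a))
  · have h1 : σ y * algebraMap R F (ρ a) = algebraMap R F (ρ r) := by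
      rw [hρ, hρ, ← map_mul, hya]
    have h2 : y ^ m * algebraMap R F a ^ m = algebraMap R F r ^ m := by
      rw [← mul_pow, hya]
    rw [map_mul, map_mul, map_pow, map_pow, ← h1, ← h2]
    field_simp

include hρ in
/-- **The local root at a crossing point.**  `𝔫 ⊇ 𝔓₁ + 𝔓₂` a `σ`-fixed node with Frobenius `m`;
`f ≡ 1` on both components and `f = U · B ^ e` with `U` a unit of `R_𝔫`.  Then
`σ f / f ^ m = (unit of R_𝔫) · η ^ e` with `η ≡ 1` on both components. -/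
theorem exists_twistRoot_crossing {𝔫 : Ideal R} [h𝔫 : 𝔫.IsPrime]
    (hV₁ : ∀ r : R, algebraMap R F r ∈ V₁) (hV₂ : ∀ r : R, algebraMap R F r ∈ V₂)
    (ht₁ : Through V₁ 𝔫) (ht₂ : Through V₂ 𝔫)
    (hval₁ : ∀ b, V₁.valuation (σ b) = V₁.valuation b)
    (hval₂ : ∀ b, V₂.valuation (σ b) = V₂.valuation b)
    (hfix : ∀ r : R, ρ r ∈ 𝔫 ↔ r ∈ 𝔫) (m : ℕ) (hfrob : ∀ r : R, ρ r - r ^ m ∈ 𝔫)
    (hnode : ∀ r ∈ 𝔫, ∃ c p₁ p₂ : R, c ∉ 𝔫 ∧ algebraMap R F p₁ ∈ V₁.nonunits ∧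
      algebraMap R F p₂ ∈ V₂.nonunits ∧ c * r = p₁ + p₂)
    (e : ℕ)
    (hBN₁ : ∀ x : F, (∃ y, IsUnitAt 𝔫 y ∧ IsPU V₁ (x ^ e / y)) → ∃ y, IsUnitAt 𝔫 y ∧ IsPU V₁ (x / y))
    (hBN₂ : ∀ x : F, (∃ y, IsUnitAt 𝔫 y ∧ IsPU V₂ (x ^ e / y)) → ∃ y, IsUnitAt 𝔫 y ∧ IsPU V₂ (x / y))
    {f B : F} (hf₁ : IsPU V₁ f) (hf₂ : IsPU V₂ f) (hB0 : B ≠ 0) (hU : IsUnitAt 𝔫 (f / B ^ e)) :
    ∃ η : F, η ≠ 0 ∧ IsUnitAt 𝔫 (σ f / f ^ m / η ^ e) ∧ IsPU V₁ η ∧ IsPU V₂ η := by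
  have hf0 : f ≠ 0 := hf₁.ne_zero
  have hBe0 : B ^ e ≠ 0 := pow_ne_zero e hB0
  have hcomap : 𝔫.comap (ρ : R →+* R) = 𝔫 := by
    ext r
    rw [Ideal.mem_comap]
    exact hfix r
  have hy : IsUnitAt 𝔫 (f / B ^ e)⁻¹ := hU.inv
  have hBy : B ^ e / (f / B ^ e)⁻¹ = f := by field_simp
  obtain ⟨y₁, hy₁, hBy₁⟩ := hBN₁ B ⟨_, hy, by rw [hBy]; exact hf₁⟩
  obtain ⟨y₂, hy₂, hBy₂⟩ := hBN₂ B ⟨_, hy, by rw [hBy]; exact hf₂⟩
  have hy₁0 := hy₁.ne_zero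
  have hy₂0 := hy₂.ne_zero
  have hσB0 : σ B ≠ 0 := (map_ne_zero σ).2 hB0
  have hσy₁0 : σ y₁ ≠ 0 := (map_ne_zero σ).2 hy₁0
  have hσy₂0 : σ y₂ ≠ 0 := (map_ne_zero σ).2 hy₂0
  -- the branch units
  have hξ₁ : IsOneAt 𝔫 (σ y₁ / y₁ ^ m) := isOneAt_twist σ ρ hρ hfix m hfrob hy₁
  have hξ₂ : IsOneAt 𝔫 (σ y₂ / y₂ ^ m) := isOneAt_twist σ ρ hρ hfix m hfrob hy₂
  have hT₁ : IsPU V₁ (σ B / B ^ m / (σ y₁ / y₁ ^ m)) := by
    have h := isPU_twist σ hval₁ m hBy₁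
    have e1 : σ (B / y₁) / (B / y₁) ^ m = σ B / B ^ m / (σ y₁ / y₁ ^ m) := by
      rw [map_div₀, div_pow]
      field_simp
    rwa [e1] at h
  have hT₂ : IsPU V₂ (σ B / B ^ m / (σ y₂ / y₂ ^ m)) := by
    have h := isPU_twist σ hval₂ m hBy₂
    have e1 : σ (B / y₂) / (B / y₂) ^ m = σ B / B ^ m / (σ y₂ / y₂ ^ m) := by
      rw [map_div₀, div_pow]
      field_simp
    rwa [e1] at h
  obtain ⟨ξ, hξu, hξ1, hξ2⟩ := exists_glue_crossing hV₁ hV₂ ht₁ ht₂ hnode hξ₁ hξ₂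
  have hξ0 := hξu.ne_zero
  have hTne : σ B / B ^ m ≠ 0 := div_ne_zero hσB0 (pow_ne_zero m hB0)
  refine ⟨σ B / B ^ m / ξ, div_ne_zero hTne hξ0, ?_, ?_, ?_⟩
  · have hσU : IsUnitAt 𝔫 (σ (f / B ^ e)) := IsUnitAt.map σ ρ hρ (by rw [hcomap]; exact hU)
    have h := (hσU.div (hU.pow m)).mul (hξu.pow e)
    have e1 : σ (f / B ^ e) / (f / B ^ e) ^ m * ξ ^ e =
        σ f / f ^ m / (σ B / B ^ m / ξ) ^ e := by
      rw [map_div₀, map_pow, div_pow, div_pow, div_pow]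
      have h1 : (σ B) ^ e ≠ 0 := pow_ne_zero e hσB0
      have h2 : (B ^ e) ^ m ≠ 0 := pow_ne_zero m hBe0
      have h3 : (B ^ m) ^ e = (B ^ e) ^ m := by rw [← pow_mul, ← pow_mul, mul_comm]
      rw [h3]
      field_simp
    rwa [e1] at h
  · have h := hT₁.div hξ1
    have e1 : σ B / B ^ m / (σ y₁ / y₁ ^ m) / (ξ / (σ y₁ / y₁ ^ m)) = σ B / B ^ m / ξ := by
      have : σ y₁ / y₁ ^ m ≠ 0 := div_ne_zero hσy₁0 (pow_ne_zero m hy₁0)
      field_simp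
    rwa [e1] at h
  · have h := hT₂.div hξ2
    have e1 : σ B / B ^ m / (σ y₂ / y₂ ^ m) / (ξ / (σ y₂ / y₂ ^ m)) = σ B / B ^ m / ξ := by
      have : σ y₂ / y₂ ^ m ≠ 0 := div_ne_zero hσy₂0 (pow_ne_zero m hy₂0)
      field_simp
    rwa [e1] at h

include hρ in
/-- **The local root at a one-branch point.**  `V₁` passes through `𝔫`, `V₂` does not; `𝔫' = σ⁻¹𝔫`;
`f ≡ 1` on both components, `f = U · B ^ e` at `𝔫` and `f = U' · B' ^ e` at `𝔫'`, with `B B'` units of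
`V₂`.  Then `σ f / f ^ m = (unit of R_𝔫) · η ^ e` with `η ≡ 1` on both components. -/
theorem exists_twistRoot_oneBranch {𝔫 : Ideal R} [h𝔫 : 𝔫.IsPrime]
    (hV₁ : ∀ r : R, algebraMap R F r ∈ V₁) (hV₂ : ∀ r : R, algebraMap R F r ∈ V₂)
    (ht₁ : Through V₁ 𝔫)
    (hval₁ : ∀ b, V₁.valuation (σ b) = V₁.valuation b)
    (hval₂ : ∀ b, V₂.valuation (σ b) = V₂.valuation b)
    {e₂ ε : R} (he₂ : algebraMap R F e₂ ∈ V₂.nonunits) (he₂𝔫 : e₂ ∉ 𝔫)
    (hε₁ : algebraMap R F ε ∈ V₁.nonunits) (hε₂ : algebraMap R F ε ∉ V₂.nonunits)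
    (hloc₂ : ∀ x ∈ V₂, ∃ a d : R, algebraMap R F d ∉ V₂.nonunits ∧
      x * algebraMap R F d = algebraMap R F a)
    (m e : ℕ)
    (hBN : ∀ x : F, (∃ y, IsUnitAt 𝔫 y ∧ IsPU V₁ (x ^ e / y)) → ∃ y, IsUnitAt 𝔫 y ∧ IsPU V₁ (x / y))
    (hBN' : ∀ x : F, (∃ y, IsUnitAt (𝔫.comap (ρ : R →+* R)) y ∧ IsPU V₁ (x ^ e / y)) →
      ∃ y, IsUnitAt (𝔫.comap (ρ : R →+* R)) y ∧ IsPU V₁ (x / y))
    {f B B' : F} (hf₁ : IsPU V₁ f) (hB0 : B ≠ 0) (hB'0 : B' ≠ 0)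
    (hBv : V₂.valuation B = 1) (hB'v : V₂.valuation B' = 1)
    (hU : IsUnitAt 𝔫 (f / B ^ e)) (hU' : IsUnitAt (𝔫.comap (ρ : R →+* R)) (f / B' ^ e)) :
    ∃ η : F, η ≠ 0 ∧ IsUnitAt 𝔫 (σ f / f ^ m / η ^ e) ∧ IsPU V₁ η ∧ IsPU V₂ η := by
  have hf0 : f ≠ 0 := hf₁.ne_zero
  have hBe0 : B ^ e ≠ 0 := pow_ne_zero e hB0
  have hB'e0 : B' ^ e ≠ 0 := pow_ne_zero e hB'0
  have hBy : B ^ e / (f / B ^ e)⁻¹ = f := by field_simp
  have hB'y : B' ^ e / (f / B' ^ e)⁻¹ = f := by field_simp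
  obtain ⟨y, hy, hByy⟩ := hBN B ⟨_, hU.inv, by rw [hBy]; exact hf₁⟩
  obtain ⟨y', hy', hB'y'⟩ := hBN' B' ⟨_, hU'.inv, by rw [hB'y]; exact hf₁⟩
  have hy0 := hy.ne_zero
  have hy'0 := hy'.ne_zero
  have hσB'0 : σ B' ≠ 0 := (map_ne_zero σ).2 hB'0
  have hσy'0 : σ y' ≠ 0 := (map_ne_zero σ).2 hy'0
  have hξ₁ : IsUnitAt 𝔫 (σ y' / y ^ m) := (IsUnitAt.map σ ρ hρ hy').div (hy.pow m)
  have hT₁ : IsPU V₁ (σ B' / B ^ m / (σ y' / y ^ m)) := by
    have h := (isPU_map σ hval₁ hB'y').div (hByy.pow m)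
    have e1 : σ (B' / y') / (B / y) ^ m = σ B' / B ^ m / (σ y' / y ^ m) := by
      rw [map_div₀, div_pow]
      field_simp
    rwa [e1] at h
  have hTv : V₂.valuation (σ B' / B ^ m) = 1 := by
    rw [map_div₀, hval₂, hB'v, map_pow, hBv, one_pow, div_one]
  obtain ⟨ξ, hξu, hξ1, hξ2⟩ :=
    exists_glue_oneBranch hV₁ hV₂ ht₁ he₂ he₂𝔫 hε₁ hε₂ hloc₂ hξ₁ hTv
  have hξ0 := hξu.ne_zero
  have hTne : σ B' / B ^ m ≠ 0 := div_ne_zero hσB'0 (pow_ne_zero m hB0)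
  refine ⟨σ B' / B ^ m / ξ, div_ne_zero hTne hξ0, ?_, ?_, ?_⟩
  · have hσU : IsUnitAt 𝔫 (σ (f / B' ^ e)) := IsUnitAt.map σ ρ hρ hU'
    have h := (hσU.div (hU.pow m)).mul (hξu.pow e)
    have e1 : σ (f / B' ^ e) / (f / B ^ e) ^ m * ξ ^ e =
        σ f / f ^ m / (σ B' / B ^ m / ξ) ^ e := by
      rw [map_div₀, map_pow, div_pow, div_pow, div_pow]
      have h1 : (σ B') ^ e ≠ 0 := pow_ne_zero e hσB'0
      have h2 : (B ^ e) ^ m ≠ 0 := pow_ne_zero m hBe0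
      have h3 : (B ^ m) ^ e = (B ^ e) ^ m := by rw [← pow_mul, ← pow_mul, mul_comm]
      rw [h3]
      field_simp
    rwa [e1] at h
  · have h := hT₁.div hξ1
    have e1 : σ B' / B ^ m / (σ y' / y ^ m) / (ξ / (σ y' / y ^ m)) = σ B' / B ^ m / ξ := by
      have : σ y' / y ^ m ≠ 0 := div_ne_zero hσy'0 (pow_ne_zero m hy0)
      field_simp
    rwa [e1] at h
  · have h := hξ2.inv
    rwa [inv_div] at h

end Twist

/-! ### Branch normality from a surjection onto an integrally closed domain -/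

section BranchNormal

variable {F R : Type*} [Field F] [CommRing R] [IsDomain R] [Algebra R F] [IsFractionRing R F]

/-- **(BN).**  `θ : R → Rb` surjective onto an integrally closed domain with kernel the centre of
`V`, `V = R_𝔓`.  If `x ^ e` is congruent modulo `𝔪_V` to a unit of `R_𝔫` (`𝔫 ⊇ 𝔓`), so is `x`. -/
theorem branchNormal_of_surjective {Rb : Type*} [CommRing Rb] [IsDomain Rb] [IsIntegrallyClosed Rb]
    (θ : R →+* Rb) (hθ : Function.Surjective θ) (V : ValuationSubring F)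
    (hV : ∀ r : R, algebraMap R F r ∈ V)
    (hker : ∀ r : R, θ r = 0 ↔ algebraMap R F r ∈ V.nonunits)
    (hloc : ∀ x ∈ V, ∃ a d : R, algebraMap R F d ∉ V.nonunits ∧
      x * algebraMap R F d = algebraMap R F a)
    (𝔫 : Ideal R) [h𝔫 : 𝔫.IsPrime] (ht : Through V 𝔫) {e : ℕ} (he : e ≠ 0) (x : F)
    (hx : ∃ y, IsUnitAt 𝔫 y ∧ IsPU V (x ^ e / y)) : ∃ y, IsUnitAt 𝔫 y ∧ IsPU V (x / y) := by
  obtain ⟨y, hy, hxy⟩ := hx
  have hvy : V.valuation y = 1 := hy.valuation_eq_one hV ht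
  have hy0 := hy.ne_zero
  have hvone : ∀ r : R, algebraMap R F r ∉ V.nonunits → V.valuation (algebraMap R F r) = 1 :=
    fun r hr => le_antisymm ((V.valuation_le_one_iff _).2 (hV r))
      (not_lt.1 fun hlt => hr ((V.mem_nonunits_iff).2 hlt))
  have hvxe : V.valuation (x ^ e) = 1 := by
    have h := hxy.valuation_eq_one
    rwa [map_div₀, hvy, div_one] at h
  have hvx : V.valuation x = 1 := by
    rw [map_pow] at hvxe
    exact (pow_eq_one_iff.1 hvxe).resolve_right he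
  have hxV : x ∈ V := (V.valuation_le_one_iff x).1 hvx.le
  obtain ⟨n, d, hd, hxd⟩ := hloc x hxV
  obtain ⟨a, r, ha, hr, hya⟩ := hy
  have hvd : V.valuation (algebraMap R F d) = 1 := hvone d hd
  have hva : V.valuation (algebraMap R F a) = 1 := valuation_eq_one_of_notMem hV ht ha
  have hvr : V.valuation (algebraMap R F r) = 1 := valuation_eq_one_of_notMem hV ht hr
  have hd0 : algebraMap R F d ≠ 0 := by
    intro h0; rw [h0, map_zero] at hvd; exact zero_ne_one hvd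
  have ha0 : algebraMap R F a ≠ 0 := algebraMap_ne_zero_of_notMem 𝔫 ha
  have hr0 : algebraMap R F r ≠ 0 := algebraMap_ne_zero_of_notMem 𝔫 hr
  -- the congruence `n^e a ≡ d^e r` modulo the centre
  have hcong : θ (n ^ e * a - d ^ e * r) = 0 := by
    rw [hker, V.mem_nonunits_iff]
    have h1 : algebraMap R F (n ^ e * a - d ^ e * r) =
        (x ^ e / y - 1) * (algebraMap R F d ^ e * algebraMap R F r) := by
      rw [map_sub, map_mul, map_mul, map_pow, map_pow, ← hxd, ← hya]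
      field_simp
      ring
    rw [h1, map_mul, map_mul, map_pow, hvd, one_pow, hvr, mul_one, mul_one]
    exact hxy
  have hcong' : θ n ^ e * θ a = θ d ^ e * θ r := by
    have := hcong
    rwa [map_sub, map_mul, map_mul, map_pow, map_pow, sub_eq_zero] at this
  have hθd : θ d ≠ 0 := fun h => hd ((hker d).1 h)
  -- `θ d ∣ θ a * θ n`
  have hdvd : θ d ∣ θ a * θ n := by
    rw [← IsIntegrallyClosed.pow_dvd_pow_iff he]
    refine ⟨θ a ^ (e - 1) * θ r, ?_⟩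
    have hae : θ a ^ e = θ a ^ (e - 1) * θ a := by
      rw [← pow_succ, Nat.sub_add_cancel (Nat.one_le_iff_ne_zero.2 he)]
    calc (θ a * θ n) ^ e = θ a ^ (e - 1) * (θ n ^ e * θ a) := by rw [mul_pow, hae]; ring
      _ = θ d ^ e * (θ a ^ (e - 1) * θ r) := by rw [hcong']; ring
  obtain ⟨β, hβ⟩ := hdvd
  obtain ⟨n', rfl⟩ := hθ β
  have hn' : n' ∉ 𝔫 := by
    intro hn'
    have h1 : θ (n' ^ e - a ^ (e - 1) * r) = 0 := by
      have hae : θ a ^ e = θ a ^ (e - 1) * θ a := by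
        rw [← pow_succ, Nat.sub_add_cancel (Nat.one_le_iff_ne_zero.2 he)]
      have h2 : θ d ^ e * θ n' ^ e = θ d ^ e * (θ a ^ (e - 1) * θ r) := by
        calc θ d ^ e * θ n' ^ e = (θ a * θ n) ^ e := by rw [hβ, mul_pow]
          _ = θ a ^ (e - 1) * (θ n ^ e * θ a) := by rw [mul_pow, hae]; ring
          _ = θ d ^ e * (θ a ^ (e - 1) * θ r) := by rw [hcong']; ring
      have h3 := mul_left_cancel₀ (pow_ne_zero e hθd) h2
      rw [map_sub, map_pow, map_mul, map_pow, h3, sub_self]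
    have h4 : n' ^ e - a ^ (e - 1) * r ∈ 𝔫 := ht _ ((hker _).1 h1)
    have h5 : a ^ (e - 1) * r ∈ 𝔫 := by
      have : a ^ (e - 1) * r = n' ^ e - (n' ^ e - a ^ (e - 1) * r) := by ring
      rw [this]
      exact 𝔫.sub_mem (𝔫.pow_mem_of_mem hn' e (Nat.pos_of_ne_zero he)) h4
    exact (h𝔫.mem_or_mem h5).elim (fun h => ha (h𝔫.mem_of_pow_mem _ h)) hr
  have hyu : IsUnitAt 𝔫 (algebraMap R F n' / algebraMap R F a) :=
    (isUnitAt_algebraMap hn').div (isUnitAt_algebraMap ha)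
  refine ⟨_, hyu, isPU_div_of_sub (hyu.valuation_eq_one hV ht) ?_⟩
  have h1 : θ (n * a - n' * d) = 0 := by
    rw [map_sub, map_mul, map_mul, mul_comm (θ n) (θ a), hβ]
    ring
  have h2 := (V.mem_nonunits_iff).1 ((hker _).1 h1)
  have h3 : x - algebraMap R F n' / algebraMap R F a =
      algebraMap R F (n * a - n' * d) / (algebraMap R F d * algebraMap R F a) := by
    rw [map_sub, map_mul, map_mul, ← hxd]
    field_simp
  rw [h3, map_div₀, map_mul, hvd, hva, mul_one, div_one]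
  exact h2

end BranchNormal

/-! ### Horizontal part: places centred at a closed point -/

section Horizontal

variable {O K F R : Type*}
  [CommRing O] [IsDomain O] [IsDiscreteValuationRing O]
  [Field K] [Algebra O K] [IsFractionRing O K]
  [Field F] [Algebra K F] [Algebra O F] [IsScalarTower O K F]
  [CommRing R] [IsDomain R] [IsNoetherianRing R]
  [Algebra R F] [IsFractionRing R F] [Algebra O R] [IsScalarTower O R F]

omit [IsNoetherianRing R] in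
theorem ordMul_place : OrdMul (fun (Q : Place K F) (x : F) => Q.ord x) :=
  fun Q _ _ hf hg => Q.ord_mul hf hg

omit [IsDomain O] [IsDiscreteValuationRing O] [IsNoetherianRing R] [Algebra O R]
  [IsScalarTower O R F] [Algebra O F] [IsScalarTower O K F] [Algebra O K] [IsFractionRing O K] in
/-- An element of `R` outside `𝔫` has order `0` at every place centred at `𝔫`. -/
theorem ord_eq_zero_of_notMem {𝔫 : Ideal R} {Q : Place K F} (hQ : Q ∈ centredSet K 𝔫) {a : R}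
    (ha : a ∉ 𝔫) : Q.ord (algebraMap R F a) = 0 := by
  have ha0 : algebraMap R F a ≠ 0 := algebraMap_ne_zero_of_notMem 𝔫 ha
  have h1 : 0 ≤ Q.ord (algebraMap R F a) :=
    (Fermat.Agent.S24.PlaceExtend.mem_iff_ord_nonneg Q ha0).1 (hQ.1 a)
  rcases h1.lt_or_eq with h | h
  · exact absurd (hQ.2 a (Fermat.Agent.S24.PlaceExtend.mem_nonunits_of_ord_pos Q ha0 h)) ha
  · exact h.symm

omit [IsDomain O] [IsDiscreteValuationRing O] [IsNoetherianRing R] [Algebra O R]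
  [IsScalarTower O R F] [Algebra O F] [IsScalarTower O K F] [Algebra O K] [IsFractionRing O K] in
theorem IsUnitAt.ord_eq_zero {𝔫 : Ideal R} {Q : Place K F} (hQ : Q ∈ centredSet K 𝔫) {x : F}
    (hx : IsUnitAt 𝔫 x) : Q.ord x = 0 := by
  have hx0 := hx.ne_zero
  obtain ⟨a, r, ha, hr, hxa⟩ := hx
  have h := congrArg Q.ord hxa
  rw [Q.ord_mul hx0 (algebraMap_ne_zero_of_notMem 𝔫 ha), ord_eq_zero_of_notMem hQ ha,
    ord_eq_zero_of_notMem hQ hr, add_zero] at h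
  exact h

omit [IsDomain O] [IsDiscreteValuationRing O] [IsNoetherianRing R] [Algebra O R]
  [IsScalarTower O R F] [Algebra O F] [IsScalarTower O K F] [Algebra O K] [IsFractionRing O K] in
/-- `τ⁻¹` maps the places centred at `𝔫` to the places centred at `σ⁻¹ 𝔫`. -/
theorem symm_mem_centredSet {σ : F ≃+* F} {ρ : R ≃+* R}
    (hρ : ∀ r : R, algebraMap R F (ρ r) = σ (algebraMap R F r)) {τ : Equiv.Perm (Place K F)}
    (hτ : Compat (fun (Q : Place K F) (x : F) => Q.ord x) σ τ) {𝔫 : Ideal R} {Q : Place K F}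
    (hQ : Q ∈ centredSet K 𝔫) : τ.symm Q ∈ centredSet K (𝔫.comap (ρ : R →+* R)) := by
  have hinj : Function.Injective (algebraMap R F) := IsFractionRing.injective R F
  have key : ∀ r : R, r ≠ 0 →
      (τ.symm Q).ord (algebraMap R F r) = Q.ord (algebraMap R F (ρ r)) := by
    intro r _
    rw [hρ]
    exact (hτ.ord_map Q (algebraMap R F r)).symm
  refine ⟨fun r => ?_, fun r hr => ?_⟩
  · by_cases hr0 : r = 0
    · rw [hr0, map_zero]; exact zero_mem _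
    · have hr0F : algebraMap R F r ≠ 0 := fun h => hr0 (hinj (by rw [h, map_zero]))
      have hρr0 : algebraMap R F (ρ r) ≠ 0 := fun h =>
        hr0 (ρ.injective (by rw [map_zero]; exact hinj (by rw [h, map_zero])))
      rw [Fermat.Agent.S24.PlaceExtend.mem_iff_ord_nonneg _ hr0F, key r hr0]
      exact (Fermat.Agent.S24.PlaceExtend.mem_iff_ord_nonneg Q hρr0).1 (hQ.1 (ρ r))
  · by_cases hr0 : r = 0
    · rw [hr0]; exact Ideal.zero_mem _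
    · have hr0F : algebraMap R F r ≠ 0 := fun h => hr0 (hinj (by rw [h, map_zero]))
      have hρr0 : algebraMap R F (ρ r) ≠ 0 := fun h =>
        hr0 (ρ.injective (by rw [map_zero]; exact hinj (by rw [h, map_zero])))
      have h1 := Fermat.Agent.S24.PlaceExtend.ord_pos_of_mem_nonunits _ hr0F hr
      rw [key r hr0] at h1
      exact Ideal.mem_comap.2
        (hQ.2 (ρ r) (Fermat.Agent.S24.PlaceExtend.mem_nonunits_of_ord_pos Q hρr0 h1))

omit [IsDomain O] [IsDiscreteValuationRing O] [IsNoetherianRing R] [Algebra O R]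
  [IsScalarTower O R F] [Algebra O F] [IsScalarTower O K F] [Algebra O K] [IsFractionRing O K]
  [IsDomain R] [IsFractionRing R F] in
/-- **Local generator of a divisor.**  `D = div h / e` near `𝔫`, with (Loc-P) at the places of the
support of `h` centred at `𝔫`: there is `β ≠ 0` with `ord_Q β = D Q` for every place `Q` centred at
`𝔫`. -/
theorem exists_generator {h : F} {e : ℕ} (S₀ : Finset (Place K F))
    (hS₀ : ∀ Q : Place K F, Q.ord h ≠ 0 → Q ∈ S₀) (𝔫 : Ideal R)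
    (hLocP : ∀ Q ∈ centredSet K 𝔫, Q.ord h ≠ 0 →
      ∃ b : F, b ≠ 0 ∧ Q.ord b = 1 ∧ ∀ Q' ∈ centredSet K 𝔫, Q' ≠ Q → Q'.ord b = 0) :
    ∃ β : F, β ≠ 0 ∧ ∀ Q ∈ centredSet K 𝔫, Q.ord β = Q.ord h / (e : ℤ) := by
  classical
  set C : Set (Place K F) := centredSet K 𝔫 with hCdef
  let S : Finset (Place K F) := S₀.filter (fun Q => Q ∈ C ∧ Q.ord h ≠ 0)
  let D : Place K F → ℤ := fun Q => Q.ord h / (e : ℤ)
  have hSmem : ∀ P ∈ S, P ∈ C ∧ P.ord h ≠ 0 := fun P hP => (Finset.mem_filter.1 hP).2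
  have hD : ∀ P ∈ C, P ∉ S → D P = 0 := by
    intro P hPC hPS
    have h0 : P.ord h = 0 := by
      by_contra hne
      exact hPS (Finset.mem_filter.2 ⟨hS₀ P hne, hPC, hne⟩)
    show P.ord h / (e : ℤ) = 0
    rw [h0, Int.zero_ediv]
  choose! b hb0 hb1 hb2 using fun (P : Place K F) (hP : P ∈ C ∧ P.ord h ≠ 0) => hLocP P hP.1 hP.2
  refine ⟨∏ P ∈ S, b P ^ D P, ?_, ?_⟩
  · exact Finset.prod_ne_zero_iff.2 fun P hP => zpow_ne_zero _ (hb0 P (hSmem P hP))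
  · intro Q hQ
    rw [OrdMul.prod_zpow (ord := fun (Q : Place K F) (x : F) => Q.ord x) ordMul_place Q S b D
      fun P hP => hb0 P (hSmem P hP)]
    have h1 : ∑ P ∈ S, D P * Q.ord (b P) = ∑ P ∈ S, if Q = P then D P else 0 := by
      refine Finset.sum_congr rfl fun P hP => ?_
      split_ifs with hQP
      · rw [hQP, hb1 P (hSmem P hP), mul_one]
      · rw [hb2 P (hSmem P hP) Q hQ hQP, mul_zero]
    rw [h1, Finset.sum_ite_eq]
    split_ifs with hmem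
    · rfl
    · exact (hD Q hQ hmem).symm

omit [IsDomain O] [IsDiscreteValuationRing O] [IsNoetherianRing R]
  [IsScalarTower O R F] [Algebra O F] [IsScalarTower O K F] [Algebra O K] [IsFractionRing O K] in
/-- **Vertical normalisation at a one-branch point.**  `V` passes through `𝔫`, `V'` does not
(`e₂ ∈ 𝔓' ∖ 𝔫`); both are discrete with uniformiser `π`.  Every `B₀ ≠ 0` can be multiplied by
`π ^ a (e₂² + π) ^ b` (a unit of `R_𝔫` up to a constant) so as to become a unit of `V` and of `V'`,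
without changing its orders at the places centred at `𝔫`. -/
theorem exists_normalise {π : O} (V V' : ValuationSubring F)
    (hV : ∀ r : R, algebraMap R F r ∈ V)
    (hπ0 : algebraMap R F (algebraMap O R π) ≠ 0)
    (hunif' : ∀ x, V'.valuation x < 1 →
      V'.valuation x ≤ V'.valuation (algebraMap R F (algebraMap O R π)))
    (hdisc : ∀ x : F, x ≠ 0 →
      ∃ n : ℤ, V.valuation x = V.valuation (algebraMap R F (algebraMap O R π)) ^ n)
    (hdisc' : ∀ x : F, x ≠ 0 →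
      ∃ n : ℤ, V'.valuation x = V'.valuation (algebraMap R F (algebraMap O R π)) ^ n)
    (hconst : ∀ Q : Place K F, Q.ord (algebraMap R F (algebraMap O R π)) = 0)
    {𝔫 : Ideal R} [h𝔫 : 𝔫.IsPrime] (hπ𝔫 : algebraMap O R π ∈ 𝔫) (ht : Through V 𝔫) {e₂ : R}
    (he₂ : algebraMap R F e₂ ∈ V'.nonunits) (he₂𝔫 : e₂ ∉ 𝔫) {B₀ : F} (hB₀ : B₀ ≠ 0) :
    ∃ B : F, B ≠ 0 ∧ V.valuation B = 1 ∧ V'.valuation B = 1 ∧
      ∀ Q ∈ centredSet K 𝔫, Q.ord B = Q.ord B₀ := by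
  set ϖ : F := algebraMap R F (algebraMap O R π) with hϖdef
  have hz𝔫 : e₂ ^ 2 + algebraMap O R π ∉ 𝔫 := fun h => by
    have h' : e₂ ^ 2 ∈ 𝔫 := by
      have : e₂ ^ 2 = (e₂ ^ 2 + algebraMap O R π) - algebraMap O R π := by ring
      rw [this]; exact 𝔫.sub_mem h hπ𝔫
    exact he₂𝔫 (h𝔫.mem_of_pow_mem 2 h')
  set z : F := algebraMap R F (e₂ ^ 2 + algebraMap O R π) with hzdef
  have hz0 : z ≠ 0 := algebraMap_ne_zero_of_notMem 𝔫 hz𝔫
  have hvz : V.valuation z = 1 := valuation_eq_one_of_notMem hV ht hz𝔫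
  have hvϖ' : V'.valuation ϖ ≠ 0 := (map_ne_zero _).2 hπ0
  have hvz' : V'.valuation z = V'.valuation ϖ := by
    have h1 : V'.valuation (algebraMap R F e₂) < 1 := (V'.mem_nonunits_iff).1 he₂
    have h2 := hunif' _ h1
    have h3 : V'.valuation (algebraMap R F e₂ ^ 2) < V'.valuation ϖ := by
      rw [map_pow]
      calc V'.valuation (algebraMap R F e₂) ^ 2
          = V'.valuation (algebraMap R F e₂) * V'.valuation (algebraMap R F e₂) := sq _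
        _ ≤ V'.valuation ϖ * V'.valuation (algebraMap R F e₂) := by gcongr
        _ < V'.valuation ϖ * 1 := (mul_lt_mul_iff_of_pos_left (zero_lt_iff.2 hvϖ')).mpr h1
        _ = V'.valuation ϖ := mul_one _
    rw [hzdef, map_add, map_pow, add_comm]
    exact Valuation.map_add_eq_of_lt_left _ h3
  obtain ⟨k₁, hk₁⟩ := hdisc B₀ hB₀
  have hB₁0 : B₀ * ϖ ^ (-k₁) ≠ 0 := mul_ne_zero hB₀ (zpow_ne_zero _ hπ0)
  obtain ⟨k₂, hk₂⟩ := hdisc' _ hB₁0
  have hvϖ : V.valuation ϖ ≠ 0 := (map_ne_zero _).2 hπ0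
  refine ⟨B₀ * ϖ ^ (-k₁) * z ^ (-k₂), mul_ne_zero hB₁0 (zpow_ne_zero _ hz0), ?_, ?_, ?_⟩
  · rw [map_mul, map_mul, map_zpow₀, map_zpow₀, hvz, one_zpow, mul_one, hk₁, ← zpow_add₀ hvϖ,
      add_neg_cancel, zpow_zero]
  · rw [map_mul, map_zpow₀ _ z, hvz', hk₂, ← zpow_add₀ hvϖ', add_neg_cancel, zpow_zero]
  · intro Q hQ
    rw [Q.ord_mul hB₁0 (zpow_ne_zero _ hz0), Q.ord_mul hB₀ (zpow_ne_zero _ hπ0), Q.ord_zpow,
      Q.ord_zpow, hconst Q, ord_eq_zero_of_notMem hQ hz𝔫]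
    ring

end Horizontal

/-! ### The local root at a closed point of a chart -/

section Main

variable {O K F R : Type*}
  [CommRing O] [IsDomain O] [IsDiscreteValuationRing O]
  [Field K] [Algebra O K] [IsFractionRing O K]
  [Field F] [Algebra K F] [Algebra O F] [IsScalarTower O K F]
  [CommRing R] [IsDomain R] [IsNoetherianRing R]
  [Algebra R F] [IsFractionRing R F] [Algebra O R] [IsScalarTower O R F]

/-- The vertical hypotheses on a chart `R` with two vertical valuation rings `V₁ V₂`: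
`R ⊆ V₁ ∩ V₂`, `𝔪_{V₁} ∩ 𝔪_{V₂} ∩ R = π R` (reduced fibre), both `Vᵢ` are discrete with uniformiser
`π` and equal to the localisation of `R` at their centre, and the two centres are incomparable. -/
structure Setup (R : Type*) [CommRing R] [Algebra R F] [Algebra O R] (π : O)
    (V₁ V₂ : ValuationSubring F) : Prop where
  mem₁ : ∀ r : R, algebraMap R F r ∈ V₁
  mem₂ : ∀ r : R, algebraMap R F r ∈ V₂
  pi₁ : algebraMap R F (algebraMap O R π) ∈ V₁.nonunits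
  pi₂ : algebraMap R F (algebraMap O R π) ∈ V₂.nonunits
  sat : ∀ r : R, algebraMap R F r ∈ V₁.nonunits → algebraMap R F r ∈ V₂.nonunits →
    algebraMap O R π ∣ r
  unif₁ : ∀ x, V₁.valuation x < 1 →
    V₁.valuation x ≤ V₁.valuation (algebraMap R F (algebraMap O R π))
  unif₂ : ∀ x, V₂.valuation x < 1 →
    V₂.valuation x ≤ V₂.valuation (algebraMap R F (algebraMap O R π))
  disc₁ : ∀ x : F, x ≠ 0 →
    ∃ n : ℤ, V₁.valuation x = V₁.valuation (algebraMap R F (algebraMap O R π)) ^ n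
  disc₂ : ∀ x : F, x ≠ 0 →
    ∃ n : ℤ, V₂.valuation x = V₂.valuation (algebraMap R F (algebraMap O R π)) ^ n
  loc₁ : ∀ x ∈ V₁, ∃ a d : R, algebraMap R F d ∉ V₁.nonunits ∧
    x * algebraMap R F d = algebraMap R F a
  loc₂ : ∀ x ∈ V₂, ∃ a d : R, algebraMap R F d ∉ V₂.nonunits ∧
    x * algebraMap R F d = algebraMap R F a
  sep₁₂ : ∃ ε : R, algebraMap R F ε ∈ V₁.nonunits ∧ algebraMap R F ε ∉ V₂.nonunits
  sep₂₁ : ∃ ε : R, algebraMap R F ε ∈ V₂.nonunits ∧ algebraMap R F ε ∉ V₁.nonunits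

/-- Branch normality of the component `V` at all closed points of the special fibre: if `x ^ e` is
congruent modulo `𝔪_V` to a unit of `R_𝔫`, so is `x`. -/
def BranchNormal (R : Type*) [CommRing R] [Algebra R F] [Algebra O R] (π : O)
    (V : ValuationSubring F) (e : ℕ) : Prop :=
  ∀ 𝔫 : Ideal R, 𝔫.IsMaximal → algebraMap O R π ∈ 𝔫 → Through V 𝔫 →
    ∀ x : F, (∃ y, IsUnitAt 𝔫 y ∧ IsPU V (x ^ e / y)) → ∃ y, IsUnitAt 𝔫 y ∧ IsPU V (x / y)

/-- The crossing points are fixed by `ρ`, which induces the `m`-th power map on their residue fields,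
and they are nodes: `𝔫 R_𝔫 = 𝔓₁ R_𝔫 + 𝔓₂ R_𝔫`. -/
def CrossingFrob (ρ : R ≃+* R) (m : ℕ) (V₁ V₂ : ValuationSubring F) : Prop :=
  ∀ 𝔫 : Ideal R, 𝔫.IsMaximal → Through V₁ 𝔫 → Through V₂ 𝔫 →
    (∀ r : R, ρ r ∈ 𝔫 ↔ r ∈ 𝔫) ∧ (∀ r : R, ρ r - r ^ m ∈ 𝔫) ∧
    ∀ r ∈ 𝔫, ∃ c p₁ p₂ : R, c ∉ 𝔫 ∧ algebraMap R F p₁ ∈ V₁.nonunits ∧
      algebraMap R F p₂ ∈ V₂.nonunits ∧ c * r = p₁ + p₂

variable {π : O} {V₁ V₂ : ValuationSubring F}

omit [IsDomain O] [IsDiscreteValuationRing O] [Field K] [Algebra O K] [IsFractionRing O K]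
  [Algebra K F] [IsScalarTower O K F] [IsDomain R] [IsNoetherianRing R] [IsFractionRing R F]
  [IsScalarTower O R F] [Algebra O F] in
theorem Setup.symm (hS : Setup R π V₁ V₂) : Setup R π V₂ V₁ :=
  ⟨hS.mem₂, hS.mem₁, hS.pi₂, hS.pi₁, fun r h2 h1 => hS.sat r h1 h2, hS.unif₂, hS.unif₁, hS.disc₂,
    hS.disc₁, hS.loc₂, hS.loc₁, hS.sep₂₁, hS.sep₁₂⟩

omit [IsDomain O] [IsDiscreteValuationRing O] [Field K] [Algebra O K] [IsFractionRing O K]
  [Algebra K F] [IsScalarTower O K F] [IsDomain R] [IsNoetherianRing R] [IsFractionRing R F]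
  [IsScalarTower O R F] [Algebra O F] in
theorem nonunits_mul_mem {V : ValuationSubring F} {x y : F} (hx : x ∈ V.nonunits) (hy : y ∈ V) :
    x * y ∈ V.nonunits := by
  rw [V.mem_nonunits_iff] at hx ⊢
  have h2 := (V.valuation_le_one_iff _).2 hy
  rw [map_mul]
  calc V.valuation x * V.valuation y ≤ V.valuation x * 1 := by gcongr
    _ < 1 := by rw [mul_one]; exact hx

omit [IsDomain O] [IsDiscreteValuationRing O] [Field K] [Algebra O K] [IsFractionRing O K]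
  [Algebra K F] [IsScalarTower O K F] [IsDomain R] [IsNoetherianRing R] [IsFractionRing R F]
  [IsScalarTower O R F] [Algebra O F] in
/-- Every closed point of the special fibre lies on one of the two components. -/
theorem Setup.through_or (hS : Setup R π V₁ V₂) {𝔫 : Ideal R} [h𝔫 : 𝔫.IsPrime]
    (hπ𝔫 : algebraMap O R π ∈ 𝔫) : Through V₁ 𝔫 ∨ Through V₂ 𝔫 := by
  by_contra hcon
  rw [not_or] at hcon
  obtain ⟨h1, h2⟩ := hcon
  obtain ⟨e₁, he₁, he₁𝔫⟩ := not_through_iff.1 h1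
  obtain ⟨e₂, he₂, he₂𝔫⟩ := not_through_iff.1 h2
  have hdvd : algebraMap O R π ∣ e₁ * e₂ := by
    refine hS.sat _ ?_ ?_
    · rw [map_mul]; exact nonunits_mul_mem he₁ (hS.mem₁ e₂)
    · rw [map_mul, mul_comm]; exact nonunits_mul_mem he₂ (hS.mem₂ e₁)
  have hmem : e₁ * e₂ ∈ 𝔫 := by
    obtain ⟨c, hc⟩ := hdvd
    rw [hc]; exact 𝔫.mul_mem_right _ hπ𝔫
  exact (h𝔫.mem_or_mem hmem).elim he₁𝔫 he₂𝔫

omit [IsDomain O] [IsDiscreteValuationRing O] [Field K] [Algebra O K] [IsFractionRing O K]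
  [Algebra K F] [IsScalarTower O K F] [IsDomain R] [IsNoetherianRing R] [IsFractionRing R F]
  [IsScalarTower O R F] [Algebra O F] in
/-- `π ∈ σ⁻¹ 𝔫` as soon as `π ∈ 𝔫`. -/
theorem Setup.pi_mem_comap (hS : Setup R π V₁ V₂) {σ : F ≃+* F} {ρ : R ≃+* R}
    (hρ : ∀ r : R, algebraMap R F (ρ r) = σ (algebraMap R F r))
    (hval₁ : ∀ b, V₁.valuation (σ b) = V₁.valuation b)
    (hval₂ : ∀ b, V₂.valuation (σ b) = V₂.valuation b) {𝔫 : Ideal R}
    (hπ𝔫 : algebraMap O R π ∈ 𝔫) : algebraMap O R π ∈ 𝔫.comap (ρ : R →+* R) := by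
  rw [Ideal.mem_comap]
  have hdvd : algebraMap O R π ∣ ρ (algebraMap O R π) := by
    refine hS.sat _ ?_ ?_
    · rw [hρ, V₁.mem_nonunits_iff, hval₁]; exact (V₁.mem_nonunits_iff).1 hS.pi₁
    · rw [hρ, V₂.mem_nonunits_iff, hval₂]; exact (V₂.mem_nonunits_iff).1 hS.pi₂
  obtain ⟨c, hc⟩ := hdvd
  show ρ (algebraMap O R π) ∈ 𝔫
  rw [hc]; exact 𝔫.mul_mem_right _ hπ𝔫

omit [IsDomain O] [IsDiscreteValuationRing O] [Field K] [Algebra O K] [IsFractionRing O K]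
  [Algebra K F] [IsScalarTower O K F] [IsDomain R] [IsNoetherianRing R] [IsFractionRing R F]
  [IsScalarTower O R F] [Algebra O F] [Algebra O R] in
/-- `σ⁻¹` preserves the property of lying on the component `V`. -/
theorem through_comap {V : ValuationSubring F} {σ : F ≃+* F} {ρ : R ≃+* R}
    (hρ : ∀ r : R, algebraMap R F (ρ r) = σ (algebraMap R F r))
    (hval : ∀ b, V.valuation (σ b) = V.valuation b) {𝔫 : Ideal R} (ht : Through V 𝔫) :
    Through V (𝔫.comap (ρ : R →+* R)) := by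
  intro r hr
  rw [Ideal.mem_comap]
  refine ht (ρ r) ?_
  rw [hρ, V.mem_nonunits_iff, hval]
  exact (V.mem_nonunits_iff).1 hr

variable [IsIntegrallyClosed R]

/-- **Vertical-unit roots.**  For `f = σ h / h / g ^ e` with `e ∣ div h`, `g` a unit of `V₁` and `V₂`
and `f ≡ 1` on both components: at every closed point `𝔫` of the special fibre
`f = U · B ^ e` with `U` a unit of `R_𝔫` and `B` a unit of `V₁` and of `V₂`. -/
theorem exists_vunit_root (hπ : Irreducible π) (hS : Setup R π V₁ V₂)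
    {σ : F ≃+* F} {ρ : R ≃+* R} (hρ : ∀ r : R, algebraMap R F (ρ r) = σ (algebraMap R F r))
    (hval₁ : ∀ b, V₁.valuation (σ b) = V₁.valuation b)
    (hval₂ : ∀ b, V₂.valuation (σ b) = V₂.valuation b)
    {τ : Equiv.Perm (Place K F)} (hτ : Compat (fun (Q : Place K F) (x : F) => Q.ord x) σ τ)
    (hfix : ∀ 𝔫 : Ideal R, 𝔫.IsMaximal → Through V₁ 𝔫 → Through V₂ 𝔫 → ∀ r : R, ρ r ∈ 𝔫 ↔ r ∈ 𝔫)
    (hconst : ∀ Q : Place K F, Q.ord (algebraMap R F (algebraMap O R π)) = 0)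
    {h g : F} {e : ℕ} (hh0 : h ≠ 0) (S₀ : Finset (Place K F))
    (hS₀ : ∀ Q : Place K F, Q.ord h ≠ 0 → Q ∈ S₀) (hdiv : ∀ Q : Place K F, (e : ℤ) ∣ Q.ord h)
    (hLocP : ∀ 𝔫 : Ideal R, 𝔫.IsMaximal → algebraMap O R π ∈ 𝔫 →
      ∀ Q ∈ centredSet K 𝔫, Q.ord h ≠ 0 →
        ∃ b : F, b ≠ 0 ∧ Q.ord b = 1 ∧ ∀ Q' ∈ centredSet K 𝔫, Q' ≠ Q → Q'.ord b = 0)
    (hg₁ : V₁.valuation g = 1) (hg₂ : V₂.valuation g = 1)
    (hf₁ : IsPU V₁ (σ h / h / g ^ e)) (hf₂ : IsPU V₂ (σ h / h / g ^ e))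
    (𝔫 : Ideal R) (h𝔫 : 𝔫.IsMaximal) (hπ𝔫 : algebraMap O R π ∈ 𝔫) :
    ∃ B : F, B ≠ 0 ∧ V₁.valuation B = 1 ∧ V₂.valuation B = 1 ∧
      IsUnitAt 𝔫 (σ h / h / g ^ e / B ^ e) := by
  classical
  haveI : 𝔫.IsPrime := h𝔫.isPrime
  have hg0 : g ≠ 0 := by
    rintro rfl; rw [map_zero] at hg₁; exact zero_ne_one hg₁
  have hσh0 : σ h ≠ 0 := (map_ne_zero σ).2 hh0
  have hπ0 : algebraMap R F (algebraMap O R π) ≠ 0 := by
    intro h0
    have h1 : algebraMap O R π = 0 := IsFractionRing.injective R F (by rw [h0, map_zero])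
    have h2 : algebraMap O F π = 0 := by
      rw [IsScalarTower.algebraMap_apply O R F, h1, map_zero]
    rw [IsScalarTower.algebraMap_apply O K F] at h2
    have h3 : algebraMap O K π = 0 := (algebraMap K F).injective (by rw [h2, map_zero])
    exact hπ.ne_zero (IsFractionRing.injective O K (by rw [h3, map_zero]))
  -- generators of `D = div h / e` at all closed points
  have hex : ∀ 𝔪 : Ideal R, ∃ β : F, 𝔪.IsMaximal → algebraMap O R π ∈ 𝔪 →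
      β ≠ 0 ∧ ∀ Q ∈ centredSet K 𝔪, Q.ord β = Q.ord h / (e : ℤ) := by
    intro 𝔪
    by_cases hm : 𝔪.IsMaximal ∧ algebraMap O R π ∈ 𝔪
    · obtain ⟨β, hβ0, hβ⟩ := exists_generator (e := e) S₀ hS₀ 𝔪 (hLocP 𝔪 hm.1 hm.2)
      exact ⟨β, fun _ _ => ⟨hβ0, hβ⟩⟩
    · exact ⟨1, fun h1 h2 => absurd ⟨h1, h2⟩ hm⟩
  choose β hβ using hex
  set 𝔫' : Ideal R := 𝔫.comap (ρ : R →+* R) with h𝔫'def
  have h𝔫' : 𝔫'.IsMaximal := Ideal.comap_isMaximal_of_equiv ρ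
  have hπ𝔫' : algebraMap O R π ∈ 𝔫' := hS.pi_mem_comap hρ hval₁ hval₂ hπ𝔫
  obtain ⟨hβ0, hβord⟩ := hβ 𝔫 h𝔫 hπ𝔫
  obtain ⟨hβ'0, hβ'ord⟩ := hβ 𝔫' h𝔫' hπ𝔫'
  have hDe : ∀ Q : Place K F, (e : ℤ) * (Q.ord h / (e : ℤ)) = Q.ord h :=
    fun Q => Int.mul_ediv_cancel' (hdiv Q)
  set B₀ : F := σ (β 𝔫') / β 𝔫 / g with hB₀def
  have hσβ'0 : σ (β 𝔫') ≠ 0 := (map_ne_zero σ).2 hβ'0
  have hB₀0 : B₀ ≠ 0 := div_ne_zero (div_ne_zero hσβ'0 hβ0) hg0
  have hB₀ord : ∀ Q ∈ centredSet K 𝔫, Q.ord B₀ =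
      (τ.symm Q).ord h / (e : ℤ) - Q.ord h / (e : ℤ) - Q.ord g := by
    intro Q hQ
    have h1 : Q.ord (σ (β 𝔫')) = (τ.symm Q).ord h / (e : ℤ) := by
      have h2 : Q.ord (σ (β 𝔫')) = (τ.symm Q).ord (β 𝔫') := hτ.ord_map Q (β 𝔫')
      rw [h2]
      exact hβ'ord _ (symm_mem_centredSet hρ hτ hQ)
    rw [hB₀def, div_eq_mul_inv, Q.ord_mul (div_ne_zero hσβ'0 hβ0) (inv_ne_zero hg0), Q.ord_inv,
      div_eq_mul_inv, Q.ord_mul hσβ'0 (inv_ne_zero hβ0), Q.ord_inv, h1, hβord Q hQ]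
    ring
  have hf0 : σ h / h / g ^ e ≠ 0 := hf₁.ne_zero
  have hford : ∀ Q ∈ centredSet K 𝔫, Q.ord (σ h / h / g ^ e) = (e : ℤ) * Q.ord B₀ := by
    intro Q hQ
    have h1 : Q.ord (σ h) = (τ.symm Q).ord h := hτ.ord_map Q h
    rw [hB₀ord Q hQ, div_eq_mul_inv, Q.ord_mul (div_ne_zero hσh0 hh0) (inv_ne_zero (pow_ne_zero e hg0)),
      Q.ord_inv, div_eq_mul_inv, Q.ord_mul hσh0 (inv_ne_zero hh0), Q.ord_inv, h1, ← zpow_natCast,
      Q.ord_zpow, mul_sub, mul_sub, hDe, hDe]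
    ring
  -- the normalised generator
  have hB : ∃ B : F, B ≠ 0 ∧ V₁.valuation B = 1 ∧ V₂.valuation B = 1 ∧
      ∀ Q ∈ centredSet K 𝔫, Q.ord B = Q.ord B₀ := by
    by_cases ht₁ : Through V₁ 𝔫
    · by_cases ht₂ : Through V₂ 𝔫
      · have heq : 𝔫' = 𝔫 := by
          ext r
          rw [h𝔫'def, Ideal.mem_comap]
          exact hfix 𝔫 h𝔫 ht₁ ht₂ r
        have hββ : β 𝔫' = β 𝔫 := by rw [heq]
        refine ⟨B₀, hB₀0, ?_, ?_, fun Q _ => rfl⟩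
        · rw [hB₀def, hββ, map_div₀, map_div₀, hval₁, hg₁, div_one,
            div_self ((map_ne_zero _).2 hβ0)]
        · rw [hB₀def, hββ, map_div₀, map_div₀, hval₂, hg₂, div_one,
            div_self ((map_ne_zero _).2 hβ0)]
      · obtain ⟨e₂, he₂, he₂𝔫⟩ := not_through_iff.1 ht₂
        exact exists_normalise (K := K) V₁ V₂ hS.mem₁ hπ0 hS.unif₂ hS.disc₁ hS.disc₂ hconst hπ𝔫 ht₁
          he₂ he₂𝔫 hB₀0
    · have ht₂ : Through V₂ 𝔫 := (hS.through_or hπ𝔫).resolve_left ht₁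
      obtain ⟨e₁, he₁, he₁𝔫⟩ := not_through_iff.1 ht₁
      obtain ⟨B, hB0, hB2, hB1, hBord⟩ :=
        exists_normalise (K := K) V₂ V₁ hS.mem₂ hπ0 hS.unif₁ hS.disc₂ hS.disc₁ hconst hπ𝔫 ht₂
          he₁ he₁𝔫 hB₀0
      exact ⟨B, hB0, hB1, hB2, hBord⟩
  obtain ⟨B, hB0, hB1, hB2, hBord⟩ := hB
  refine ⟨B, hB0, hB1, hB2, ?_⟩
  have hBe0 : B ^ e ≠ 0 := pow_ne_zero e hB0
  have hx0 : σ h / h / g ^ e / B ^ e ≠ 0 := div_ne_zero hf0 hBe0
  have hV : ∀ (i : Bool) (r : R),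
      algebraMap R F r ∈ Fermat.Agent.P3G.LocalRootsAt.fam V₁ V₂ i := by
    intro i r; cases i
    · exact hS.mem₂ r
    · exact hS.mem₁ r
  have hϖV : ∀ i : Bool, algebraMap R F (algebraMap O R π) ∈
      (Fermat.Agent.P3G.LocalRootsAt.fam V₁ V₂ i).nonunits := by
    intro i; cases i
    · exact hS.pi₂
    · exact hS.pi₁
  have hsat : ∀ r : R, (∀ i : Bool, algebraMap R F r ∈
      (Fermat.Agent.P3G.LocalRootsAt.fam V₁ V₂ i).nonunits) → algebraMap O R π ∣ r :=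
    fun r hr => hS.sat r (hr true) (hr false)
  exact hcrit_strong (K := K) (Fermat.Agent.P3G.LocalRootsAt.fam V₁ V₂) hV hπ hϖV hsat 𝔫 _ hx0
    (fun Q hQ => by
      rw [div_eq_mul_inv, Q.ord_mul hf0 (inv_ne_zero hBe0), Q.ord_inv, hford Q hQ,
        ← zpow_natCast, Q.ord_zpow, hBord Q hQ]
      ring)
    (fun i => by
      cases i
      · show V₂.valuation _ = 1
        rw [map_div₀, hf₂.valuation_eq_one, map_pow, hB2, one_pow, div_one]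
      · show V₁.valuation _ = 1
        rw [map_div₀, hf₁.valuation_eq_one, map_pow, hB1, one_pow, div_one])

/-- **The local root of a twisted difference at a closed point.**  `f = σ h / h / g ^ e` with
`e ∣ div h`, `g` a unit of `V₁` and `V₂`, `f ≡ 1` on both components; (Loc-P) at the support of `h`;
branch normality; Frobenius-fixed nodes at the crossing points.  Then at every closed point `𝔫` of the
special fibre `σ f / f ^ m = (unit of R_𝔫) · η ^ e` with `η ≡ 1` on both components. -/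
theorem exists_twistRoot_at (hπ : Irreducible π) (hS : Setup R π V₁ V₂)
    {σ : F ≃+* F} {ρ : R ≃+* R} (hρ : ∀ r : R, algebraMap R F (ρ r) = σ (algebraMap R F r))
    (hval₁ : ∀ b, V₁.valuation (σ b) = V₁.valuation b)
    (hval₂ : ∀ b, V₂.valuation (σ b) = V₂.valuation b)
    {τ : Equiv.Perm (Place K F)} (hτ : Compat (fun (Q : Place K F) (x : F) => Q.ord x) σ τ)
    (m e : ℕ) (hBN₁ : BranchNormal R π V₁ e) (hBN₂ : BranchNormal R π V₂ e)
    (hcross : CrossingFrob ρ m V₁ V₂)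
    (hconst : ∀ Q : Place K F, Q.ord (algebraMap R F (algebraMap O R π)) = 0)
    {h g : F} (hh0 : h ≠ 0) (S₀ : Finset (Place K F))
    (hS₀ : ∀ Q : Place K F, Q.ord h ≠ 0 → Q ∈ S₀) (hdiv : ∀ Q : Place K F, (e : ℤ) ∣ Q.ord h)
    (hLocP : ∀ 𝔫 : Ideal R, 𝔫.IsMaximal → algebraMap O R π ∈ 𝔫 →
      ∀ Q ∈ centredSet K 𝔫, Q.ord h ≠ 0 →
        ∃ b : F, b ≠ 0 ∧ Q.ord b = 1 ∧ ∀ Q' ∈ centredSet K 𝔫, Q' ≠ Q → Q'.ord b = 0)
    (hg₁ : V₁.valuation g = 1) (hg₂ : V₂.valuation g = 1)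
    (hf₁ : IsPU V₁ (σ h / h / g ^ e)) (hf₂ : IsPU V₂ (σ h / h / g ^ e))
    (𝔫 : Ideal R) (h𝔫 : 𝔫.IsMaximal) (hπ𝔫 : algebraMap O R π ∈ 𝔫) :
    ∃ η : F, η ≠ 0 ∧
      IsUnitAt 𝔫 (σ (σ h / h / g ^ e) / (σ h / h / g ^ e) ^ m / η ^ e) ∧ IsPU V₁ η ∧ IsPU V₂ η := by
  haveI : 𝔫.IsPrime := h𝔫.isPrime
  have hroot := exists_vunit_root (K := K) hπ hS hρ hval₁ hval₂ hτ
    (fun 𝔪 h𝔪 h1 h2 => (hcross 𝔪 h𝔪 h1 h2).1) hconst hh0 S₀ hS₀ hdiv hLocP hg₁ hg₂ hf₁ hf₂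
  have h𝔫' : (𝔫.comap (ρ : R →+* R)).IsMaximal := Ideal.comap_isMaximal_of_equiv ρ
  have hπ𝔫' : algebraMap O R π ∈ 𝔫.comap (ρ : R →+* R) := hS.pi_mem_comap hρ hval₁ hval₂ hπ𝔫
  obtain ⟨B, hB0, hB1, hB2, hU⟩ := hroot 𝔫 h𝔫 hπ𝔫
  obtain ⟨B', hB'0, hB'1, hB'2, hU'⟩ := hroot _ h𝔫' hπ𝔫'
  by_cases ht₁ : Through V₁ 𝔫
  · by_cases ht₂ : Through V₂ 𝔫
    · obtain ⟨hfix, hfrob, hnode⟩ := hcross 𝔫 h𝔫 ht₁ ht₂
      exact exists_twistRoot_crossing σ ρ hρ hS.mem₁ hS.mem₂ ht₁ ht₂ hval₁ hval₂ hfix m hfrob hnode e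
        (hBN₁ 𝔫 h𝔫 hπ𝔫 ht₁) (hBN₂ 𝔫 h𝔫 hπ𝔫 ht₂) hf₁ hf₂ hB0 hU
    · obtain ⟨e₂, he₂, he₂𝔫⟩ := not_through_iff.1 ht₂
      obtain ⟨ε, hε₁, hε₂⟩ := hS.sep₁₂
      exact exists_twistRoot_oneBranch σ ρ hρ hS.mem₁ hS.mem₂ ht₁ hval₁ hval₂ he₂ he₂𝔫 hε₁ hε₂
        hS.loc₂ m e (hBN₁ 𝔫 h𝔫 hπ𝔫 ht₁) (hBN₁ _ h𝔫' hπ𝔫' (through_comap hρ hval₁ ht₁)) hf₁ hB0 hB'0
        hB2 hB'2 hU hU'
  · have ht₂ : Through V₂ 𝔫 := (hS.through_or hπ𝔫).resolve_left ht₁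
    obtain ⟨e₁, he₁, he₁𝔫⟩ := not_through_iff.1 ht₁
    obtain ⟨ε, hε₂, hε₁⟩ := hS.sep₂₁
    obtain ⟨η, hη0, hηU, hη2, hη1⟩ :=
      exists_twistRoot_oneBranch σ ρ hρ hS.mem₂ hS.mem₁ ht₂ hval₂ hval₁ he₁ he₁𝔫 hε₂ hε₁
        hS.loc₁ m e (hBN₂ 𝔫 h𝔫 hπ𝔫 ht₂) (hBN₂ _ h𝔫' hπ𝔫' (through_comap hρ hval₂ ht₂)) hf₂ hB0 hB'0
        hB1 hB'1 hU hU'
    exact ⟨η, hη0, hηU, hη1, hη2⟩

end Main

/-! ### The chart-level theorem -/

section Chart

open Fermat.Agent.N4.Chart Fermat.Agent.N4.IntClosure IntermediateField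
open Fermat.Agent.P3G.Cover.Lift
open Fermat.Agent.N4.Cover.Main (isFractionRing_chartAlg isIntegrallyClosed_chartAlg)
open Fermat.Agent.P3G.LocalRootsAt (fam algebraMap_chart_mem pi_mem_nonunits sat_chart
  valuation_le_pi)

universe u

variable {O K₀ : Type*} [CommRing O] [IsDomain O] [IsDiscreteValuationRing O]
  [Field K₀] [CharZero K₀] [Algebra O K₀] [IsFractionRing O K₀]
variable {F₀ : Type u} [Field F₀] [Algebra K₀ F₀] [Algebra O F₀] [IsScalarTower O K₀ F₀]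

omit [CharZero K₀] [IsDomain O] [IsDiscreteValuationRing O] in
/-- Places of `F₀ / K₀` are trivial on the nonzero constants of `O`. -/
theorem ord_algebraMap_eq_zero (Q : Place K₀ F₀) {a : O} (ha : a ≠ 0) :
    Q.ord (algebraMap O F₀ a) = 0 := by
  rw [IsScalarTower.algebraMap_apply O K₀ F₀]
  have hc : algebraMap O K₀ a ≠ 0 := fun h0 =>
    ha (IsFractionRing.injective O K₀ (by rw [h0, map_zero]))
  have hu : IsUnit (⟨algebraMap K₀ F₀ (algebraMap O K₀ a), Q.algebraMap_mem' _⟩ :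
      Q.toValuationSubring) := by
    refine isUnit_iff_exists_inv.mpr
      ⟨⟨algebraMap K₀ F₀ (algebraMap O K₀ a)⁻¹, Q.algebraMap_mem' _⟩, ?_⟩
    apply Subtype.ext
    show algebraMap K₀ F₀ (algebraMap O K₀ a) * algebraMap K₀ F₀ (algebraMap O K₀ a)⁻¹ = 1
    rw [← map_mul, mul_inv_cancel₀ hc, map_one]
  exact Q.ord_coe_unit hu.unit

/-- The `Setup` of a chart from `TwoVal`, the semi-Gauss property and the three extra vertical
facts (discreteness, `Vᵢ = R_{𝔓ᵢ}`, incomparable centres). -/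
theorem setup_chart (s : F₀) {π : O} {W : Subring F₀} {V₁ V₂ : ValuationSubring F₀}
    (hT : TwoVal π W V₁ V₂) (hW : IsSemiGaussRing W (algebraMap O (chartAlg O F₀ {s}) π))
    (hdisc₁ : ∀ x : F₀, x ≠ 0 → ∃ n : ℤ, V₁.valuation x = V₁.valuation (algebraMap O F₀ π) ^ n)
    (hdisc₂ : ∀ x : F₀, x ≠ 0 → ∃ n : ℤ, V₂.valuation x = V₂.valuation (algebraMap O F₀ π) ^ n)
    (hloc₁ : ∀ x ∈ V₁, ∃ a d : chartAlg O F₀ {s},
      algebraMap (chartAlg O F₀ {s}) F₀ d ∉ V₁.nonunits ∧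
        x * algebraMap (chartAlg O F₀ {s}) F₀ d = algebraMap (chartAlg O F₀ {s}) F₀ a)
    (hloc₂ : ∀ x ∈ V₂, ∃ a d : chartAlg O F₀ {s},
      algebraMap (chartAlg O F₀ {s}) F₀ d ∉ V₂.nonunits ∧
        x * algebraMap (chartAlg O F₀ {s}) F₀ d = algebraMap (chartAlg O F₀ {s}) F₀ a)
    (hsep₁₂ : ∃ ε : chartAlg O F₀ {s}, algebraMap (chartAlg O F₀ {s}) F₀ ε ∈ V₁.nonunits ∧
      algebraMap (chartAlg O F₀ {s}) F₀ ε ∉ V₂.nonunits)
    (hsep₂₁ : ∃ ε : chartAlg O F₀ {s}, algebraMap (chartAlg O F₀ {s}) F₀ ε ∈ V₂.nonunits ∧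
      algebraMap (chartAlg O F₀ {s}) F₀ ε ∉ V₁.nonunits) :
    Setup (chartAlg O F₀ {s}) π V₁ V₂ where
  mem₁ := fun r => ((hT.mem_iff _).1 (hW.le r)).1
  mem₂ := fun r => ((hT.mem_iff _).1 (hW.le r)).2
  pi₁ := hT.pi_mem₁
  pi₂ := hT.pi_mem₂
  sat := fun r h1 h2 => by
    obtain ⟨w, hw, hrw⟩ := hT.exists_eq_mul h1 h2
    exact hW.sat r ⟨w, hw, by rw [hrw]; rfl⟩
  unif₁ := fun x hx => valuation_le_pi hT true x hx
  unif₂ := fun x hx => valuation_le_pi hT false x hx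
  disc₁ := hdisc₁
  disc₂ := hdisc₂
  loc₁ := hloc₁
  loc₂ := hloc₂
  sep₁₂ := hsep₁₂
  sep₂₁ := hsep₂₁

/-- **Local roots of a twisted difference.**  Setting of `P3G/LocalRootsAt.lean`; `σ` an arbitrary
automorphism of `F₀` preserving the chart (`ρ`), the two vertical valuations and compatible with a
permutation `τ` of the places; `f = σ h / h / g ^ e` with `e ∣ div h`, `g` a unit of `V₁` and `V₂`,
`f ≡ 1 mod π W`; (Loc-P) at the support of `h`; branch normality; Frobenius-fixed nodes at the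
crossing points.  Then `σ f / f ^ m` has local `e`-th roots `≡ 1 mod π W` at every closed point of the
special fibre of the chart. -/
theorem localRoots_twist (s : F₀) (hs : Transcendental K₀ s) [FiniteDimensional K₀⟮s⟯ F₀]
    {π : O} (hπ : Irreducible π) {W : Subring F₀} {V₁ V₂ : ValuationSubring F₀}
    (hT : TwoVal π W V₁ V₂) (hS : Setup (chartAlg O F₀ {s}) π V₁ V₂)
    (σ : F₀ ≃+* F₀) (ρ : chartAlg O F₀ {s} ≃+* chartAlg O F₀ {s})
    (hρ : ∀ r : chartAlg O F₀ {s},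
      algebraMap (chartAlg O F₀ {s}) F₀ (ρ r) = σ (algebraMap (chartAlg O F₀ {s}) F₀ r))
    (hval₁ : ∀ b, V₁.valuation (σ b) = V₁.valuation b)
    (hval₂ : ∀ b, V₂.valuation (σ b) = V₂.valuation b)
    {τ : Equiv.Perm (Place K₀ F₀)}
    (hτ : Compat (fun (Q : Place K₀ F₀) (x : F₀) => Q.ord x) σ τ)
    (m e : ℕ) (hBN₁ : BranchNormal (chartAlg O F₀ {s}) π V₁ e)
    (hBN₂ : BranchNormal (chartAlg O F₀ {s}) π V₂ e) (hcross : CrossingFrob ρ m V₁ V₂)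
    {h g : F₀} (hh0 : h ≠ 0) (S₀ : Finset (Place K₀ F₀))
    (hS₀ : ∀ Q : Place K₀ F₀, Q.ord h ≠ 0 → Q ∈ S₀)
    (hdiv : ∀ Q : Place K₀ F₀, (e : ℤ) ∣ Q.ord h)
    (hLocP : ∀ 𝔫 : Ideal (chartAlg O F₀ {s}), 𝔫.IsMaximal →
      algebraMap O (chartAlg O F₀ {s}) π ∈ 𝔫 →
      ∀ Q ∈ centredSet K₀ 𝔫, Q.ord h ≠ 0 →
        ∃ b : F₀, b ≠ 0 ∧ Q.ord b = 1 ∧ ∀ Q' ∈ centredSet K₀ 𝔫, Q' ≠ Q → Q'.ord b = 0)
    (hg₁ : V₁.valuation g = 1) (hg₂ : V₂.valuation g = 1)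
    (hf : ∃ w ∈ W, σ h / h / g ^ e - 1 = algebraMap O F₀ π * w) :
    LocalRoots π W s (σ (σ h / h / g ^ e) / (σ h / h / g ^ e) ^ m) e := by
  haveI : IsFractionRing (chartAlg O F₀ {s}) F₀ := isFractionRing_chartAlg (O := O) (K₀ := K₀) s hs
  haveI : IsIntegrallyClosed (chartAlg O F₀ {s}) :=
    isIntegrallyClosed_chartAlg (O := O) (K₀ := K₀) s hs
  haveI : IsNoetherianRing (chartAlg O F₀ {s}) := isNoetherianRing_chartAlg (O := O) (K := K₀) s hs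
  obtain ⟨w, hw, hfw⟩ := hf
  have hf₁ : IsPU V₁ (σ h / h / g ^ e) := by
    rw [isPU_iff_mem_nonunits, hfw]
    exact nonunits_mul_mem hT.pi_mem₁ (hT.mem₁ hw)
  have hf₂ : IsPU V₂ (σ h / h / g ^ e) := by
    rw [isPU_iff_mem_nonunits, hfw]
    exact nonunits_mul_mem hT.pi_mem₂ (hT.mem₂ hw)
  have hconst : ∀ Q : Place K₀ F₀,
      Q.ord (algebraMap (chartAlg O F₀ {s}) F₀ (algebraMap O (chartAlg O F₀ {s}) π)) = 0 :=
    fun Q => by
      show Q.ord (algebraMap O F₀ π) = 0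
      exact ord_algebraMap_eq_zero Q hπ.ne_zero
  intro 𝔫 h𝔫 hπ𝔫
  obtain ⟨η, hη0, hηU, hη1, hη2⟩ := exists_twistRoot_at (K := K₀) hπ hS hρ hval₁ hval₂ hτ m e
    hBN₁ hBN₂ hcross hconst hh0 S₀ hS₀ hdiv hLocP hg₁ hg₂ hf₁ hf₂ 𝔫 h𝔫 hπ𝔫
  refine ⟨η, hη0, ?_, ?_⟩
  · obtain ⟨a, r, ha, hr, har⟩ := hηU
    refine ⟨a, r, ha, hr, ?_⟩
    have hηe : η ^ e ≠ 0 := pow_ne_zero e hη0
    rw [← har]
    field_simp
  · exact hT.exists_eq_mul hη1.sub_one_mem_nonunits hη2.sub_one_mem_nonunits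

end Chart

end Fermat.Agent.P4.TwistRoots
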