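import Mathlib
import Fermat.Agent.P4.TwistRoots

/-!
# P4 (S35), block [P4-C2]: generic providers for the hypotheses of `P4/TwistRoots.lean`

* `loc_of_minimal`, `disc_of_minimal` : for a noetherian integrally closed chart `R` and a valuation
  ring `V ⊇ R` of `Frac R` whose centre `𝔓` is a minimal prime over `ϖ R`: `V = R_𝔓`
  (Krull's Hauptidealsatz + `P3G.Krull`), and `V` is discrete with uniformiser `ϖ` as soon as
  `𝔪_V = ϖ V`;
* `centre_mem_minimalPrimes` : the centre of `V₁` is minimal over `π R` when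
  `𝔪_{V₁} ∩ 𝔪_{V₂} ∩ R = π R` and the centre of `V₂` is not contained in it;
* `setup_of_sep`, `setup_chart_of_sep` : the `Setup` of `TwistRoots` from `TwoVal` + semi-Gauss +
  the two separating elements only;
* `restrictEquiv` : the restriction `ρ` of an automorphism `σ` of `F` to a `σ`-stable subalgebra;
* `crossingFrob_of_frob` : `CrossingFrob` from (FP) and (node) (the fixed-point clause is automatic);
* `branchNormal_of_theta` : `BranchNormal` from a surjection onto an integrally closed domain.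
-/

set_option autoImplicit false
set_option linter.unusedSectionVars false
set_option linter.style.haveILetI false

namespace Fermat.Agent.P4.TwistSetup

open Fermat.Agent.P4.TwistRoots
open Fermat.Agent.N4.Cover.Globalize Fermat.Agent.P3G.Krull
open Fermat.Agent.P3G.SecondDiff Fermat.Agent.P3G.Assembly.PowCover

/-! ### `V = R_𝔓` and discreteness from minimality of the centre -/

section LocDisc

variable {F R : Type*} [Field F] [CommRing R] [IsDomain R] [IsNoetherianRing R]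
  [IsIntegrallyClosed R] [Algebra R F] [IsFractionRing R F]

/-- A prime minimal over a nonzero principal ideal of a noetherian integrally closed domain is a
DVR-prime. -/
theorem isDiscreteValuationRing_locAt_of_mem_minimalPrimes {ϖ : R} (𝔓 : Ideal R) [𝔓.IsPrime]
    (hϖ0 : ϖ ≠ 0) (hmin : 𝔓 ∈ (Ideal.span {ϖ}).minimalPrimes) :
    IsDiscreteValuationRing (locAt (F := F) 𝔓) := by
  have hϖ𝔓 : ϖ ∈ 𝔓 := hmin.1.2 (Ideal.subset_span rfl)
  have h0 : 𝔓 ≠ ⊥ := fun h => hϖ0 (by rw [h, Ideal.mem_bot] at hϖ𝔓; exact hϖ𝔓)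
  have hht : 𝔓.height ≤ 1 :=
    Ideal.height_le_one_of_isPrincipal_of_mem_minimalPrimes (Ideal.span {ϖ}) 𝔓 hmin
  refine isDiscreteValuationRing_locAt_of_minimal 𝔓 h0 ?_
  intro 𝔮 h𝔮 h𝔮0 hle
  haveI := h𝔮
  by_contra hne
  have hlt : 𝔮 < 𝔓 := lt_of_le_of_ne hle hne
  have h1 := Ideal.height_add_one_le_of_lt_of_isPrime hlt
  have h2 : 𝔮.height + 1 ≤ 1 := h1.trans hht
  have h3 : 𝔮.height = 0 := by
    have h4 : 𝔮.height + 1 ≤ 0 + 1 := by simpa using h2
    exact le_antisymm ((ENat.add_le_add_iff_right (by simp)).1 h4) (by simp)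
  exact h𝔮0 (Ideal.height_eq_zero_iff_eq_bot.1 h3)

variable (V : ValuationSubring F) (hV : ∀ r : R, algebraMap R F r ∈ V)

/-- `V = R_𝔓` for a valuation ring `V ⊇ R` whose centre is minimal over `ϖ R`. -/
theorem loc_of_minimal {ϖ : R} (hϖ0 : ϖ ≠ 0)
    (hmin : vCentre V hV ∈ (Ideal.span {ϖ}).minimalPrimes) :
    ∀ x ∈ V, ∃ a d : R, algebraMap R F d ∉ V.nonunits ∧
      x * algebraMap R F d = algebraMap R F a := by
  have hdvr := isDiscreteValuationRing_locAt_of_mem_minimalPrimes (F := F) (vCentre V hV) hϖ0 hmin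
  intro x hx
  have hxL := (mem_valuationSubring_iff_mem_locAt V hV (vCentre V hV) rfl hdvr x).1 hx
  obtain ⟨a, d, hd, hxd⟩ := (mem_locAt_iff (vCentre V hV) x).1 hxL
  exact ⟨a, d, fun h => hd ((mem_vCentre_iff V hV).2 h), hxd⟩

/-- `V` is discrete with uniformiser `ϖ` when its centre is minimal over `ϖ R` and `𝔪_V = ϖ V`. -/
theorem disc_of_minimal {ϖ : R} (hϖ0 : ϖ ≠ 0)
    (hmin : vCentre V hV ∈ (Ideal.span {ϖ}).minimalPrimes)
    (hunif : ∀ x, V.valuation x < 1 → V.valuation x ≤ V.valuation (algebraMap R F ϖ)) :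
    ∀ x : F, x ≠ 0 → ∃ n : ℤ, V.valuation x = V.valuation (algebraMap R F ϖ) ^ n := by
  have hdvr := isDiscreteValuationRing_locAt_of_mem_minimalPrimes (F := F) (vCentre V hV) hϖ0 hmin
  have hVL := mem_valuationSubring_iff_mem_locAt V hV (vCentre V hV) rfl hdvr
  set L := locAt (F := F) (vCentre V hV) with hL
  haveI := hdvr
  have hϖ𝔓 : ϖ ∈ vCentre V hV := hmin.1.2 (Ideal.subset_span rfl)
  have hϖV : V.valuation (algebraMap R F ϖ) < 1 :=
    (V.mem_nonunits_iff).1 ((mem_vCentre_iff V hV).1 hϖ𝔓)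
  obtain ⟨t, ht⟩ := IsDiscreteValuationRing.exists_irreducible L
  have htV : (t : F) ∈ V := (hVL _).2 t.2
  have ht0 : (t : F) ≠ 0 := fun h => ht.ne_zero (Subtype.ext h)
  -- units of `L` have valuation one
  have hunit : ∀ u : Lˣ, V.valuation ((u : L) : F) = 1 := by
    intro u
    have h1 : ((u : L) : F) ∈ V := (hVL _).2 (u : L).2
    have h2 : (((u⁻¹ : Lˣ) : L) : F) ∈ V := (hVL _).2 ((u⁻¹ : Lˣ) : L).2
    have h3 : ((u : L) : F) * (((u⁻¹ : Lˣ) : L) : F) = 1 := by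
      have h := u.mul_inv
      have h' : (((u : L) * ((u⁻¹ : Lˣ) : L) : L) : F) = ((1 : L) : F) := by rw [h]
      rw [Subalgebra.coe_mul, Subalgebra.coe_one] at h'
      exact h'
    have h4 := congrArg V.valuation h3
    rw [map_mul, map_one] at h4
    have h5 := (V.valuation_le_one_iff _).2 h1
    have h6 := (V.valuation_le_one_iff _).2 h2
    refine le_antisymm h5 ?_
    by_contra hlt
    rw [not_le] at hlt
    have : V.valuation ((u : L) : F) * V.valuation (((u⁻¹ : Lˣ) : L) : F) < 1 := by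
      calc V.valuation ((u : L) : F) * V.valuation (((u⁻¹ : Lˣ) : L) : F)
          ≤ V.valuation ((u : L) : F) * 1 := by gcongr
        _ < 1 := by rw [mul_one]; exact hlt
    rw [h4] at this
    exact lt_irrefl _ this
  -- `v t = v ϖ`
  have htlt : V.valuation (t : F) < 1 := by
    refine lt_of_le_of_ne ((V.valuation_le_one_iff _).2 htV) ?_
    intro h1
    have h2 : (t : F)⁻¹ ∈ V := by
      rw [← V.valuation_le_one_iff, map_inv₀, h1, inv_one]
    have h3 : (t : F)⁻¹ ∈ L := (hVL _).1 h2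
    have : IsUnit t := by
      refine isUnit_iff_exists_inv.2 ⟨⟨(t : F)⁻¹, h3⟩, Subtype.ext ?_⟩
      show (t : F) * (t : F)⁻¹ = 1
      exact mul_inv_cancel₀ ht0
    exact ht.not_isUnit this
  have hϖL : algebraMap R F ϖ ∈ L := (hVL _).1 (hV ϖ)
  have htϖ : V.valuation (t : F) = V.valuation (algebraMap R F ϖ) := by
    refine le_antisymm (hunif _ htlt) ?_
    -- `ϖ` is a nonunit of `L`, hence a multiple of `t`
    have hnu : (⟨algebraMap R F ϖ, hϖL⟩ : L) ∈ IsLocalRing.maximalIdeal L := by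
      rw [IsLocalRing.mem_maximalIdeal, mem_nonunits_iff]
      intro hu
      have := hunit hu.unit
      rw [IsUnit.unit_spec] at this
      exact absurd this hϖV.ne
    rw [(IsDiscreteValuationRing.irreducible_iff_uniformizer t).1 ht,
      Ideal.mem_span_singleton] at hnu
    obtain ⟨c, hc⟩ := hnu
    have hc' : algebraMap R F ϖ = (t : F) * (c : F) := by
      have := congrArg Subtype.val hc
      simpa using this
    rw [hc', map_mul]
    have hcV := (V.valuation_le_one_iff _).2 ((hVL _).2 c.2)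
    calc V.valuation (t : F) * V.valuation (c : F) ≤ V.valuation (t : F) * 1 := by gcongr
      _ = V.valuation (t : F) := mul_one _
  have key : ∀ x : F, x ≠ 0 → x ∈ V →
      ∃ n : ℕ, V.valuation x = V.valuation (algebraMap R F ϖ) ^ n := by
    intro x hx0 hxV
    have hxL : x ∈ L := (hVL _).1 hxV
    have hx0' : (⟨x, hxL⟩ : L) ≠ 0 := fun h => hx0 (congrArg Subtype.val h)
    obtain ⟨n, u, hu⟩ := IsDiscreteValuationRing.eq_unit_mul_pow_irreducible hx0' ht
    refine ⟨n, ?_⟩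
    have h1 : x = ((u : L) : F) * (t : F) ^ n := by
      have := congrArg Subtype.val hu
      simpa using this
    rw [h1, map_mul, map_pow, hunit u, one_mul, htϖ]
  intro x hx0
  rcases V.mem_or_inv_mem x with h | h
  · obtain ⟨n, hn⟩ := key x hx0 h
    exact ⟨n, by rw [hn, zpow_natCast]⟩
  · obtain ⟨n, hn⟩ := key x⁻¹ (inv_ne_zero hx0) h
    refine ⟨-n, ?_⟩
    rw [map_inv₀] at hn
    rw [zpow_neg, zpow_natCast, ← hn, inv_inv]

end LocDisc

/-! ### The `Setup` from the two separating elements -/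

section Sep

variable {O F R : Type*} [CommRing O] [Field F]
  [CommRing R] [IsDomain R] [IsNoetherianRing R] [IsIntegrallyClosed R]
  [Algebra R F] [IsFractionRing R F] [Algebra O R]

omit [IsNoetherianRing R] [IsIntegrallyClosed R] [IsFractionRing R F] [Algebra O R] [CommRing O] in
/-- The centre of `V₁` is minimal over `ϖ R` when `𝔪_{V₁} ∩ 𝔪_{V₂} ∩ R ⊆ ϖ R` and the centre of
`V₂` is not contained in the centre of `V₁`. -/
theorem centre_mem_minimalPrimes {ϖ : R} (V₁ V₂ : ValuationSubring F)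
    (hV₁ : ∀ r : R, algebraMap R F r ∈ V₁) (hV₂ : ∀ r : R, algebraMap R F r ∈ V₂)
    (hϖ₁ : algebraMap R F ϖ ∈ V₁.nonunits)
    (hsat : ∀ r : R, algebraMap R F r ∈ V₁.nonunits → algebraMap R F r ∈ V₂.nonunits → ϖ ∣ r)
    (hsep₂₁ : ∃ ε : R, algebraMap R F ε ∈ V₂.nonunits ∧ algebraMap R F ε ∉ V₁.nonunits) :
    vCentre V₁ hV₁ ∈ (Ideal.span {ϖ}).minimalPrimes := by
  obtain ⟨ε, hε₂, hε₁⟩ := hsep₂₁
  refine ⟨⟨inferInstance, ?_⟩, ?_⟩
  · rw [Ideal.span_le, Set.singleton_subset_iff]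
    exact (mem_vCentre_iff V₁ hV₁).2 hϖ₁
  · rintro 𝔮 ⟨h𝔮, hle⟩ h𝔮le r hr
    have hr₁ : algebraMap R F r ∈ V₁.nonunits := (mem_vCentre_iff V₁ hV₁).1 hr
    have hdvd : ϖ ∣ r * ε := by
      refine hsat _ ?_ ?_
      · rw [map_mul]; exact nonunits_mul_mem hr₁ (hV₁ ε)
      · rw [map_mul, mul_comm]; exact nonunits_mul_mem hε₂ (hV₂ r)
    have hmem : r * ε ∈ 𝔮 := by
      obtain ⟨c, hc⟩ := hdvd
      rw [hc]
      exact 𝔮.mul_mem_right _ (hle (Ideal.subset_span rfl))
    rcases h𝔮.mem_or_mem hmem with h | h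
    · exact h
    · exact absurd ((mem_vCentre_iff V₁ hV₁).1 (h𝔮le h)) hε₁

variable {π : O} {V₁ V₂ : ValuationSubring F}

/-- **The `Setup` of `TwistRoots` from the separating elements**: `loc` and `disc` are automatic for
a noetherian integrally closed chart. -/
theorem setup_of_sep (hπ0 : algebraMap O R π ≠ 0)
    (hV₁ : ∀ r : R, algebraMap R F r ∈ V₁) (hV₂ : ∀ r : R, algebraMap R F r ∈ V₂)
    (hπ₁ : algebraMap R F (algebraMap O R π) ∈ V₁.nonunits)
    (hπ₂ : algebraMap R F (algebraMap O R π) ∈ V₂.nonunits)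
    (hsat : ∀ r : R, algebraMap R F r ∈ V₁.nonunits → algebraMap R F r ∈ V₂.nonunits →
      algebraMap O R π ∣ r)
    (hunif₁ : ∀ x, V₁.valuation x < 1 →
      V₁.valuation x ≤ V₁.valuation (algebraMap R F (algebraMap O R π)))
    (hunif₂ : ∀ x, V₂.valuation x < 1 →
      V₂.valuation x ≤ V₂.valuation (algebraMap R F (algebraMap O R π)))
    (hsep₁₂ : ∃ ε : R, algebraMap R F ε ∈ V₁.nonunits ∧ algebraMap R F ε ∉ V₂.nonunits)
    (hsep₂₁ : ∃ ε : R, algebraMap R F ε ∈ V₂.nonunits ∧ algebraMap R F ε ∉ V₁.nonunits) :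
    Setup R π V₁ V₂ := by
  have hmin₁ := centre_mem_minimalPrimes V₁ V₂ hV₁ hV₂ hπ₁ hsat hsep₂₁
  have hmin₂ := centre_mem_minimalPrimes V₂ V₁ hV₂ hV₁ hπ₂ (fun r h2 h1 => hsat r h1 h2) hsep₁₂
  exact
    { mem₁ := hV₁
      mem₂ := hV₂
      pi₁ := hπ₁
      pi₂ := hπ₂
      sat := hsat
      unif₁ := hunif₁
      unif₂ := hunif₂
      disc₁ := disc_of_minimal V₁ hV₁ hπ0 hmin₁ hunif₁
      disc₂ := disc_of_minimal V₂ hV₂ hπ0 hmin₂ hunif₂
      loc₁ := loc_of_minimal V₁ hV₁ hπ0 hmin₁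
      loc₂ := loc_of_minimal V₂ hV₂ hπ0 hmin₂
      sep₁₂ := hsep₁₂
      sep₂₁ := hsep₂₁ }

end Sep

/-! ### Chart level, restriction of the automorphism, `CrossingFrob`, `BranchNormal` -/

section Chart

open Fermat.Agent.N4.Chart Fermat.Agent.N4.IntClosure IntermediateField
open Fermat.Agent.P3G.Cover.Lift
open Fermat.Agent.N4.Cover.Main (isFractionRing_chartAlg isIntegrallyClosed_chartAlg)
open Fermat.Agent.P3G.LocalRootsAt (valuation_le_pi)

universe u

variable {O K₀ : Type*} [CommRing O] [IsDomain O] [IsDiscreteValuationRing O]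
  [Field K₀] [CharZero K₀] [Algebra O K₀] [IsFractionRing O K₀]
variable {F₀ : Type u} [Field F₀] [Algebra K₀ F₀] [Algebra O F₀] [IsScalarTower O K₀ F₀]

/-- The `Setup` of a chart from `TwoVal`, the semi-Gauss property and the two separating
elements. -/
theorem setup_chart_of_sep (s : F₀) (hs : Transcendental K₀ s) [FiniteDimensional K₀⟮s⟯ F₀]
    {π : O} (hπ : Irreducible π) {W : Subring F₀} {V₁ V₂ : ValuationSubring F₀}
    (hT : TwoVal π W V₁ V₂) (hW : IsSemiGaussRing W (algebraMap O (chartAlg O F₀ {s}) π))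
    (hsep₁₂ : ∃ ε : chartAlg O F₀ {s}, algebraMap (chartAlg O F₀ {s}) F₀ ε ∈ V₁.nonunits ∧
      algebraMap (chartAlg O F₀ {s}) F₀ ε ∉ V₂.nonunits)
    (hsep₂₁ : ∃ ε : chartAlg O F₀ {s}, algebraMap (chartAlg O F₀ {s}) F₀ ε ∈ V₂.nonunits ∧
      algebraMap (chartAlg O F₀ {s}) F₀ ε ∉ V₁.nonunits) :
    Setup (chartAlg O F₀ {s}) π V₁ V₂ := by
  haveI : IsFractionRing (chartAlg O F₀ {s}) F₀ := isFractionRing_chartAlg (O := O) (K₀ := K₀) s hs
  haveI : IsIntegrallyClosed (chartAlg O F₀ {s}) :=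
    isIntegrallyClosed_chartAlg (O := O) (K₀ := K₀) s hs
  haveI : IsNoetherianRing (chartAlg O F₀ {s}) := isNoetherianRing_chartAlg (O := O) (K := K₀) s hs
  have hπ0 : algebraMap O (chartAlg O F₀ {s}) π ≠ 0 := by
    intro h1
    have h2 : algebraMap O F₀ π = 0 := by
      have := congrArg (algebraMap (chartAlg O F₀ {s}) F₀) h1
      rwa [map_zero] at this
    rw [IsScalarTower.algebraMap_apply O K₀ F₀] at h2
    have h3 : algebraMap O K₀ π = 0 := (algebraMap K₀ F₀).injective (by rw [h2, map_zero])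
    exact hπ.ne_zero (IsFractionRing.injective O K₀ (by rw [h3, map_zero]))
  refine setup_of_sep hπ0 (fun r => ((hT.mem_iff _).1 (hW.le r)).1)
    (fun r => ((hT.mem_iff _).1 (hW.le r)).2) hT.pi_mem₁ hT.pi_mem₂ ?_
    (fun x hx => valuation_le_pi hT true x hx) (fun x hx => valuation_le_pi hT false x hx)
    hsep₁₂ hsep₂₁
  intro r h1 h2
  obtain ⟨w, hw, hrw⟩ := hT.exists_eq_mul h1 h2
  exact hW.sat r ⟨w, hw, by rw [hrw]; rfl⟩

end Chart

section Restrict

variable {O F : Type*} [CommRing O] [Field F] [Algebra O F]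

/-- The restriction of an automorphism `σ` of `F` to a subalgebra `R` with `σ R = R`. -/
def restrictEquiv (R : Subalgebra O F) (σ : F ≃+* F) (h1 : ∀ x ∈ R, σ x ∈ R)
    (h2 : ∀ x ∈ R, σ.symm x ∈ R) : R ≃+* R where
  toFun x := ⟨σ (x : F), h1 x x.2⟩
  invFun x := ⟨σ.symm (x : F), h2 x x.2⟩
  left_inv x := Subtype.ext (σ.symm_apply_apply (x : F))
  right_inv x := Subtype.ext (σ.apply_symm_apply (x : F))
  map_mul' x y := Subtype.ext (map_mul σ (x : F) (y : F))
  map_add' x y := Subtype.ext (map_add σ (x : F) (y : F))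

@[simp] theorem coe_restrictEquiv (R : Subalgebra O F) (σ : F ≃+* F) (h1 : ∀ x ∈ R, σ x ∈ R)
    (h2 : ∀ x ∈ R, σ.symm x ∈ R) (r : R) : ((restrictEquiv R σ h1 h2 r : R) : F) = σ (r : F) := rfl

theorem algebraMap_restrictEquiv (R : Subalgebra O F) (σ : F ≃+* F) (h1 : ∀ x ∈ R, σ x ∈ R)
    (h2 : ∀ x ∈ R, σ.symm x ∈ R) (r : R) :
    algebraMap R F (restrictEquiv R σ h1 h2 r) = σ (algebraMap R F r) := rfl

end Restrict

section Providers

variable {O F R : Type*} [CommRing O] [Field F] [CommRing R] [IsDomain R] [Algebra R F]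
  [IsFractionRing R F] [Algebra O R]

omit [IsDomain R] [IsFractionRing R F] in
/-- `CrossingFrob` from (FP) and (node): a point with `ρ r ≡ r ^ m` (`m ≠ 0`) is `ρ`-fixed. -/
theorem crossingFrob_of_frob (ρ : R ≃+* R) {m : ℕ} (hm : m ≠ 0) (V₁ V₂ : ValuationSubring F)
    (hFP : ∀ 𝔫 : Ideal R, 𝔫.IsMaximal → Through V₁ 𝔫 → Through V₂ 𝔫 → ∀ r : R, ρ r - r ^ m ∈ 𝔫)
    (hnode : ∀ 𝔫 : Ideal R, 𝔫.IsMaximal → Through V₁ 𝔫 → Through V₂ 𝔫 →
      ∀ r ∈ 𝔫, ∃ c p₁ p₂ : R, c ∉ 𝔫 ∧ algebraMap R F p₁ ∈ V₁.nonunits ∧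
        algebraMap R F p₂ ∈ V₂.nonunits ∧ c * r = p₁ + p₂) :
    CrossingFrob ρ m V₁ V₂ := by
  intro 𝔫 h𝔫 ht₁ ht₂
  haveI : 𝔫.IsPrime := h𝔫.isPrime
  refine ⟨fun r => ?_, hFP 𝔫 h𝔫 ht₁ ht₂, hnode 𝔫 h𝔫 ht₁ ht₂⟩
  have h := hFP 𝔫 h𝔫 ht₁ ht₂ r
  constructor
  · intro hρ
    have : r ^ m ∈ 𝔫 := by
      have e : r ^ m = ρ r - (ρ r - r ^ m) := by ring
      rw [e]; exact 𝔫.sub_mem hρ h
    exact Ideal.IsPrime.mem_of_pow_mem inferInstance m this
  · intro hr
    have e : ρ r = (ρ r - r ^ m) + r ^ m := by ring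
    rw [e]
    exact 𝔫.add_mem h (𝔫.pow_mem_of_mem hr m (Nat.pos_of_ne_zero hm))

/-- `BranchNormal` from a surjection `θ : R → Rb` onto an integrally closed domain whose kernel is the
centre of `V`, `V = R_𝔓` (e.g. `θᵢ` of a `CrossingData`, `Rb` Dedekind). -/
theorem branchNormal_of_theta {Rb : Type*} [CommRing Rb] [IsDomain Rb] [IsIntegrallyClosed Rb]
    (θ : R →+* Rb) (hθ : Function.Surjective θ) (V : ValuationSubring F)
    (hV : ∀ r : R, algebraMap R F r ∈ V)
    (hker : ∀ r : R, θ r = 0 ↔ algebraMap R F r ∈ V.nonunits)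
    (hloc : ∀ x ∈ V, ∃ a d : R, algebraMap R F d ∉ V.nonunits ∧
      x * algebraMap R F d = algebraMap R F a) (π : O) {e : ℕ} (he : e ≠ 0) :
    BranchNormal R π V e := by
  intro 𝔫 h𝔫 _ ht x hx
  haveI : 𝔫.IsPrime := h𝔫.isPrime
  exact branchNormal_of_surjective θ hθ V hV hker hloc 𝔫 ht he x hx

end Providers

end Fermat.Agent.P4.TwistSetup
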