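/-
P4-S35, concrete inputs of `TwistRoots.localRoots_twist` (helper17): **the two vertical valuation
rings are the localisations of the chart at their centres** (`hloc_i`), and the centres are
incomparable.

`S` noetherian normal domain with fraction field `F`, `V₁ V₂ : ValuationSubring F` containing `S`,
`𝔓_i := vCentre V_i = 𝔪_{V_i} ∩ S`, `b ∈ 𝔓₁ ∩ 𝔓₂` nonzero with `𝔓₁ ∩ 𝔓₂ ⊆ b S` (the saturation `hsat`
of `P3G/Krull` (K3-V), `b = ϖ`).  If `𝔓₂ ⊄ 𝔓₁` then `𝔓₁ = (b : a)` for any `a ∈ 𝔓₂ ∖ 𝔓₁`, hence `𝔓₁` is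
a DVR-prime (`Krull.isDiscreteValuationRing_locAt_col`) and `V₁ = S_{𝔓₁}`
(`Krull.mem_valuationSubring_iff_mem_locAt`).

* `vCentre_eq_col`, `isDiscreteValuationRing_locAt_vCentre`, `mem_iff_mem_locAt_vCentre` (`hloc`);
* `exists_frac_of_mem` : every `y ∈ V₁` is `a / d` with `a d ∈ S`, `d ∉ 𝔓₁`;
* `not_le_of_surjective` : incomparability of `𝔓₁ = ker θ₁`, `𝔓₂ = ker θ₂` from surjections onto
  one-dimensional domains that are not fields (`Ring.DimensionLEOne`, e.g. Dedekind) and `𝔓₁ ≠ 𝔓₂`;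
* `vCentre_ne_of_ne` : `V₁ ≠ V₂` (both archimedean/discrete is not needed: DVR-primes) gives
  `𝔓₁ ≠ 𝔓₂` once one of them is known to be the localisation.
-/
import Mathlib
import Fermat.Agent.P3G.Krull

set_option autoImplicit false
set_option linter.unusedSectionVars false
set_option linter.style.haveILetI false
set_option linter.style.longLine false

namespace Fermat.Agent.P4.VertCentre

open Fermat.Agent.N4.Cover.Globalize Fermat.Agent.P3G.Krull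

variable {S F : Type*} [CommRing S] [IsDomain S] [IsNoetherianRing S] [Field F] [Algebra S F]
  [IsFractionRing S F]

/-- **The centre of `V₁` is a colon ideal** `(b : a)`, `a ∈ 𝔓₂ ∖ 𝔓₁`. -/
theorem vCentre_eq_col (V₁ V₂ : ValuationSubring F)
    (hV₁ : ∀ s : S, algebraMap S F s ∈ V₁) (hV₂ : ∀ s : S, algebraMap S F s ∈ V₂)
    {b : S} (hb₁ : algebraMap S F b ∈ V₁.nonunits)
    (hsat : ∀ s : S, algebraMap S F s ∈ V₁.nonunits → algebraMap S F s ∈ V₂.nonunits → b ∣ s)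
    {a : S} (ha₂ : algebraMap S F a ∈ V₂.nonunits) (ha₁ : algebraMap S F a ∉ V₁.nonunits) :
    vCentre V₁ hV₁ = col b a := by
  ext s
  rw [mem_vCentre_iff, mem_col_iff]
  constructor
  · intro hs
    have h1 : algebraMap S F (s * a) ∈ V₁.nonunits := by
      rw [map_mul]
      have := (mem_vCentre_iff V₁ hV₁).2 hs
      exact (mem_vCentre_iff V₁ hV₁).1 ((vCentre V₁ hV₁).mul_mem_right a this)
        |> fun h => by rwa [map_mul] at h
    have h2 : algebraMap S F (s * a) ∈ V₂.nonunits := by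
      have := (mem_vCentre_iff V₂ hV₂).2 ha₂
      exact (mem_vCentre_iff V₂ hV₂).1 ((vCentre V₂ hV₂).mul_mem_left s this)
    obtain ⟨r, hr⟩ := hsat _ h1 h2
    exact ⟨r, hr⟩
  · rintro ⟨r, hr⟩
    have hb : b ∈ vCentre V₁ hV₁ := (mem_vCentre_iff V₁ hV₁).2 hb₁
    have hmem : s * a ∈ vCentre V₁ hV₁ := by rw [hr]; exact (vCentre V₁ hV₁).mul_mem_right r hb
    rcases (vCentre_isPrime V₁ hV₁).mem_or_mem hmem with h | h
    · exact (mem_vCentre_iff V₁ hV₁).1 h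
    · exact absurd ((mem_vCentre_iff V₁ hV₁).1 h) ha₁

variable [IsIntegrallyClosed S]

/-- **The centre of `V₁` is a DVR-prime.** -/
theorem isDiscreteValuationRing_locAt_vCentre (V₁ V₂ : ValuationSubring F)
    (hV₁ : ∀ s : S, algebraMap S F s ∈ V₁) (hV₂ : ∀ s : S, algebraMap S F s ∈ V₂)
    {b : S} (hb0 : b ≠ 0) (hb₁ : algebraMap S F b ∈ V₁.nonunits)
    (hsat : ∀ s : S, algebraMap S F s ∈ V₁.nonunits → algebraMap S F s ∈ V₂.nonunits → b ∣ s)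
    {a : S} (ha₂ : algebraMap S F a ∈ V₂.nonunits) (ha₁ : algebraMap S F a ∉ V₁.nonunits) :
    IsDiscreteValuationRing (locAt (F := F) (vCentre V₁ hV₁)) := by
  have heq := vCentre_eq_col V₁ V₂ hV₁ hV₂ hb₁ hsat ha₂ ha₁
  haveI hprime : (col b a).IsPrime := heq ▸ vCentre_isPrime V₁ hV₁
  have key : IsDiscreteValuationRing (locAt (F := F) (col b a)) :=
    isDiscreteValuationRing_locAt_col (F := F) hb0
  have hgen : ∀ (𝔭 : Ideal S) [𝔭.IsPrime], 𝔭 = col b a →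
      IsDiscreteValuationRing (locAt (F := F) 𝔭) := by
    intro 𝔭 _ h𝔭
    subst h𝔭
    exact key
  exact hgen _ heq

/-- **`hloc`: `V₁ = S_{𝔓₁}`.** -/
theorem mem_iff_mem_locAt_vCentre (V₁ V₂ : ValuationSubring F)
    (hV₁ : ∀ s : S, algebraMap S F s ∈ V₁) (hV₂ : ∀ s : S, algebraMap S F s ∈ V₂)
    {b : S} (hb0 : b ≠ 0) (hb₁ : algebraMap S F b ∈ V₁.nonunits)
    (hsat : ∀ s : S, algebraMap S F s ∈ V₁.nonunits → algebraMap S F s ∈ V₂.nonunits → b ∣ s)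
    {a : S} (ha₂ : algebraMap S F a ∈ V₂.nonunits) (ha₁ : algebraMap S F a ∉ V₁.nonunits)
    (y : F) : y ∈ V₁ ↔ y ∈ locAt (F := F) (vCentre V₁ hV₁) :=
  mem_valuationSubring_iff_mem_locAt V₁ hV₁ (vCentre V₁ hV₁) rfl
    (isDiscreteValuationRing_locAt_vCentre V₁ V₂ hV₁ hV₂ hb0 hb₁ hsat ha₂ ha₁) y

/-- **Fraction form of `hloc`**: every `y ∈ V₁` is `a / d` with `d ∉ 𝔓₁`. -/
theorem exists_frac_of_mem (V₁ V₂ : ValuationSubring F)
    (hV₁ : ∀ s : S, algebraMap S F s ∈ V₁) (hV₂ : ∀ s : S, algebraMap S F s ∈ V₂)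
    {b : S} (hb0 : b ≠ 0) (hb₁ : algebraMap S F b ∈ V₁.nonunits)
    (hsat : ∀ s : S, algebraMap S F s ∈ V₁.nonunits → algebraMap S F s ∈ V₂.nonunits → b ∣ s)
    {a : S} (ha₂ : algebraMap S F a ∈ V₂.nonunits) (ha₁ : algebraMap S F a ∉ V₁.nonunits)
    {y : F} (hy : y ∈ V₁) :
    ∃ n d : S, algebraMap S F d ∉ V₁.nonunits ∧ y * algebraMap S F d = algebraMap S F n := by
  obtain ⟨n, d, hd, h⟩ := (mem_locAt_iff (vCentre V₁ hV₁) y).1
    ((mem_iff_mem_locAt_vCentre V₁ V₂ hV₁ hV₂ hb0 hb₁ hsat ha₂ ha₁ y).1 hy)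
  exact ⟨n, d, fun h' => hd ((mem_vCentre_iff V₁ hV₁).2 h'), h⟩

/-! ### The two centres are different and incomparable -/

/-- If the two centres coincide they are `b S`, a principal prime, and `V₁ = V₂`. -/
theorem vCentre_ne_of_ne (V₁ V₂ : ValuationSubring F)
    (hV₁ : ∀ s : S, algebraMap S F s ∈ V₁) (hV₂ : ∀ s : S, algebraMap S F s ∈ V₂)
    {b : S} (hb0 : b ≠ 0) (hb₁ : algebraMap S F b ∈ V₁.nonunits)
    (hsat : ∀ s : S, algebraMap S F s ∈ V₁.nonunits → algebraMap S F s ∈ V₂.nonunits → b ∣ s)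
    (hne : V₁ ≠ V₂) : vCentre V₁ hV₁ ≠ vCentre V₂ hV₂ := by
  intro heq
  apply hne
  have h1 : vCentre V₁ hV₁ = Ideal.span {b} := by
    apply le_antisymm
    · intro s hs
      have hs1 := (mem_vCentre_iff V₁ hV₁).1 hs
      have hs2 := (mem_vCentre_iff V₂ hV₂).1 (heq ▸ hs)
      exact Ideal.mem_span_singleton.2 (hsat s hs1 hs2)
    · rw [Ideal.span_singleton_le_iff_mem]; exact (mem_vCentre_iff V₁ hV₁).2 hb₁
  have h2 : vCentre V₂ hV₂ = Ideal.span {b} := heq ▸ h1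
  haveI hI : (Ideal.span {b} : Ideal S).IsPrime := h1 ▸ vCentre_isPrime V₁ hV₁
  have hbp : Prime b := (Ideal.span_singleton_prime hb0).1 hI
  have hdvr : IsDiscreteValuationRing (locAt (F := F) (Ideal.span {b})) :=
    isDiscreteValuationRing_locAt_span (F := F) hbp
  ext y
  rw [mem_valuationSubring_iff_mem_locAt V₁ hV₁ _ h1 hdvr y,
    mem_valuationSubring_iff_mem_locAt V₂ hV₂ _ h2 hdvr y]

omit [IsNoetherianRing S] [IsIntegrallyClosed S] [IsDomain S] in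
/-- Two surjections onto one-dimensional domains, the second not a field: `ker θ₁ ≤ ker θ₂` forces
equality. -/
theorem ker_eq_of_le {B₁ B₂ : Type*} [CommRing B₁] [IsDomain B₁] [Ring.DimensionLEOne B₁]
    [CommRing B₂] [IsDomain B₂] (θ₁ : S →+* B₁) (θ₂ : S →+* B₂)
    (hθ₁ : Function.Surjective θ₁) (hθ₂ : Function.Surjective θ₂) (hB₂ : ¬ IsField B₂)
    (hle : RingHom.ker θ₁ ≤ RingHom.ker θ₂) : RingHom.ker θ₁ = RingHom.ker θ₂ := by
  apply le_antisymm hle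
  haveI hk2 : (RingHom.ker θ₂).IsPrime := RingHom.ker_isPrime θ₂
  have hprime : ((RingHom.ker θ₂).map θ₁).IsPrime :=
    Ideal.map_isPrime_of_surjective hθ₁ hle
  have hcomap : ((RingHom.ker θ₂).map θ₁).comap θ₁ = RingHom.ker θ₂ := by
    rw [Ideal.comap_map_of_surjective' θ₁ hθ₁, sup_eq_left]
    exact hle
  by_cases hbot : (RingHom.ker θ₂).map θ₁ = ⊥
  · intro x hx
    have : θ₁ x ∈ (RingHom.ker θ₂).map θ₁ := Ideal.mem_map_of_mem θ₁ hx
    rw [hbot, Ideal.mem_bot] at this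
    exact this
  · exfalso
    have hmax : ((RingHom.ker θ₂).map θ₁).IsMaximal :=
      Ring.DimensionLEOne.maximalOfPrime hbot hprime
    have hmax2 : (RingHom.ker θ₂).IsMaximal := by
      rw [← hcomap]; exact Ideal.comap_isMaximal_of_surjective θ₁ hθ₁
    apply hB₂
    have hf : IsField (S ⧸ RingHom.ker θ₂) :=
      (Ideal.Quotient.maximal_ideal_iff_isField_quotient _).1 hmax2
    exact (RingHom.quotientKerEquivOfSurjective hθ₂).symm.toMulEquiv.isField hf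

/-- **Incomparability of the two centres**, from surjections `θ_i : S → B_i` with `ker θ_i = 𝔓_i`
onto one-dimensional domains which are not fields (e.g. `Crossing.CrossingData.surj₁/surj₂` onto a
Dedekind domain), and `V₁ ≠ V₂`. -/
theorem not_le_vCentre (V₁ V₂ : ValuationSubring F)
    (hV₁ : ∀ s : S, algebraMap S F s ∈ V₁) (hV₂ : ∀ s : S, algebraMap S F s ∈ V₂)
    {b : S} (hb0 : b ≠ 0) (hb₁ : algebraMap S F b ∈ V₁.nonunits)
    (hsat : ∀ s : S, algebraMap S F s ∈ V₁.nonunits → algebraMap S F s ∈ V₂.nonunits → b ∣ s)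
    (hne : V₁ ≠ V₂)
    {B₁ B₂ : Type*} [CommRing B₁] [IsDomain B₁] [Ring.DimensionLEOne B₁]
    [CommRing B₂] [IsDomain B₂] [Ring.DimensionLEOne B₂] (θ₁ : S →+* B₁) (θ₂ : S →+* B₂)
    (hθ₁ : Function.Surjective θ₁) (hθ₂ : Function.Surjective θ₂)
    (hB₁ : ¬ IsField B₁) (hB₂ : ¬ IsField B₂)
    (hk₁ : ∀ s : S, θ₁ s = 0 ↔ algebraMap S F s ∈ V₁.nonunits)
    (hk₂ : ∀ s : S, θ₂ s = 0 ↔ algebraMap S F s ∈ V₂.nonunits) :
    (∃ a : S, algebraMap S F a ∈ V₂.nonunits ∧ algebraMap S F a ∉ V₁.nonunits) ∧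
      (∃ a : S, algebraMap S F a ∈ V₁.nonunits ∧ algebraMap S F a ∉ V₂.nonunits) := by
  have hker₁ : RingHom.ker θ₁ = vCentre V₁ hV₁ := by
    ext s; rw [RingHom.mem_ker, hk₁, mem_vCentre_iff]
  have hker₂ : RingHom.ker θ₂ = vCentre V₂ hV₂ := by
    ext s; rw [RingHom.mem_ker, hk₂, mem_vCentre_iff]
  have hcne := vCentre_ne_of_ne V₁ V₂ hV₁ hV₂ hb0 hb₁ hsat hne
  constructor
  · by_contra hcon
    have hle : RingHom.ker θ₂ ≤ RingHom.ker θ₁ := by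
      intro s hs
      rw [RingHom.mem_ker, hk₂] at hs
      rw [RingHom.mem_ker, hk₁]
      by_contra h1
      exact hcon ⟨s, hs, h1⟩
    have := ker_eq_of_le θ₂ θ₁ hθ₂ hθ₁ hB₁ hle
    exact hcne (by rw [← hker₁, ← hker₂, this])
  · by_contra hcon
    have hle : RingHom.ker θ₁ ≤ RingHom.ker θ₂ := by
      intro s hs
      rw [RingHom.mem_ker, hk₁] at hs
      rw [RingHom.mem_ker, hk₂]
      by_contra h2
      exact hcon ⟨s, hs, h2⟩
    have := ker_eq_of_le θ₁ θ₂ hθ₁ hθ₂ hB₂ hle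
    exact hcne (by rw [← hker₁, ← hker₂, this])

/-- **The full `hloc` package for both components** from the inputs available at a level:
two different vertical valuation rings `V₁ ≠ V₂ ⊇ S`, saturation `𝔓₁ ∩ 𝔓₂ ⊆ b S`, and the two
reductions `θ_i` onto one-dimensional non-fields with `ker θ_i = 𝔓_i`. -/
theorem hloc_both (V₁ V₂ : ValuationSubring F)
    (hV₁ : ∀ s : S, algebraMap S F s ∈ V₁) (hV₂ : ∀ s : S, algebraMap S F s ∈ V₂)
    {b : S} (hb0 : b ≠ 0) (hb₁ : algebraMap S F b ∈ V₁.nonunits)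
    (hb₂ : algebraMap S F b ∈ V₂.nonunits)
    (hsat : ∀ s : S, algebraMap S F s ∈ V₁.nonunits → algebraMap S F s ∈ V₂.nonunits → b ∣ s)
    (hne : V₁ ≠ V₂)
    {B₁ B₂ : Type*} [CommRing B₁] [IsDomain B₁] [Ring.DimensionLEOne B₁]
    [CommRing B₂] [IsDomain B₂] [Ring.DimensionLEOne B₂] (θ₁ : S →+* B₁) (θ₂ : S →+* B₂)
    (hθ₁ : Function.Surjective θ₁) (hθ₂ : Function.Surjective θ₂)
    (hB₁ : ¬ IsField B₁) (hB₂ : ¬ IsField B₂)
    (hk₁ : ∀ s : S, θ₁ s = 0 ↔ algebraMap S F s ∈ V₁.nonunits)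
    (hk₂ : ∀ s : S, θ₂ s = 0 ↔ algebraMap S F s ∈ V₂.nonunits) :
    (IsDiscreteValuationRing (locAt (F := F) (vCentre V₁ hV₁)) ∧
      ∀ y : F, y ∈ V₁ ↔ y ∈ locAt (F := F) (vCentre V₁ hV₁)) ∧
    (IsDiscreteValuationRing (locAt (F := F) (vCentre V₂ hV₂)) ∧
      ∀ y : F, y ∈ V₂ ↔ y ∈ locAt (F := F) (vCentre V₂ hV₂)) := by
  obtain ⟨⟨a, ha₂, ha₁⟩, ⟨a', ha'₁, ha'₂⟩⟩ := not_le_vCentre V₁ V₂ hV₁ hV₂ hb0 hb₁ hsat hne
    θ₁ θ₂ hθ₁ hθ₂ hB₁ hB₂ hk₁ hk₂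
  have hsat' : ∀ s : S, algebraMap S F s ∈ V₂.nonunits → algebraMap S F s ∈ V₁.nonunits → b ∣ s :=
    fun s h2 h1 => hsat s h1 h2
  exact ⟨⟨isDiscreteValuationRing_locAt_vCentre V₁ V₂ hV₁ hV₂ hb0 hb₁ hsat ha₂ ha₁,
      mem_iff_mem_locAt_vCentre V₁ V₂ hV₁ hV₂ hb0 hb₁ hsat ha₂ ha₁⟩,
    ⟨isDiscreteValuationRing_locAt_vCentre V₂ V₁ hV₂ hV₁ hb0 hb₂ hsat' ha'₁ ha'₂,
      mem_iff_mem_locAt_vCentre V₂ V₁ hV₂ hV₁ hb0 hb₂ hsat' ha'₁ ha'₂⟩⟩

end Fermat.Agent.P4.VertCentre
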