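/-
P4-S35 (helper17): **`TwistRoots.Setup` and both `BranchNormal`s of a chart from the two reductions
`θ_i`** — helper8's `TwistSetup.setup_chart_of_sep` with the two separating elements DERIVED
(`VertCentre.not_le_vCentre`: `V₁ ≠ V₂`, `θ_i : chartAlg O F₀ {s} → B_i` surjective onto
one-dimensional domains which are not fields, `ker θ_i = 𝔪_{V_i} ∩ R`; e.g.
`Crossing.CrossingData.surj₁/surj₂` onto the Dedekind domain `RbarFin`).  Works on a chart without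
crossing points as well.
-/
import Mathlib
import Fermat.Agent.P4.TwistSetup
import Fermat.Agent.P4.VertCentre

set_option autoImplicit false
set_option linter.unusedSectionVars false
set_option linter.style.haveILetI false
set_option linter.style.longLine false

namespace Fermat.Agent.P4.SetupOfTheta

open Fermat.Agent.N4.Chart Fermat.Agent.N4.IntClosure IntermediateField
open Fermat.Agent.P3G.Cover.Lift Fermat.Agent.P3G.Assembly.PowCover
open Fermat.Agent.N4.Cover.Main (isFractionRing_chartAlg isIntegrallyClosed_chartAlg)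
open Fermat.Agent.P4.TwistRoots Fermat.Agent.P4.VertCentre
open AlgebraicCurve

universe u

variable {O K₀ : Type*} [CommRing O] [IsDomain O] [IsDiscreteValuationRing O]
  [Field K₀] [CharZero K₀] [Algebra O K₀] [IsFractionRing O K₀]
variable {F₀ : Type u} [Field F₀] [Algebra K₀ F₀] [Algebra O F₀] [IsScalarTower O K₀ F₀]

/-- The two separating elements of a chart from the two reductions. -/
theorem sep_chart_of_theta (s : F₀) (hs : Transcendental K₀ s) [FiniteDimensional K₀⟮s⟯ F₀]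
    {π : O} (hπ : Irreducible π) {W : Subring F₀} {V₁ V₂ : ValuationSubring F₀}
    (hT : TwoVal π W V₁ V₂) (hW : IsSemiGaussRing W (algebraMap O (chartAlg O F₀ {s}) π))
    (hne : V₁ ≠ V₂)
    {B₁ B₂ : Type*} [CommRing B₁] [IsDomain B₁] [Ring.DimensionLEOne B₁]
    [CommRing B₂] [IsDomain B₂] [Ring.DimensionLEOne B₂]
    (θ₁ : chartAlg O F₀ {s} →+* B₁) (θ₂ : chartAlg O F₀ {s} →+* B₂)
    (hθ₁ : Function.Surjective θ₁) (hθ₂ : Function.Surjective θ₂)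
    (hB₁ : ¬ IsField B₁) (hB₂ : ¬ IsField B₂)
    (hk₁ : ∀ r : chartAlg O F₀ {s}, θ₁ r = 0 ↔
      algebraMap (chartAlg O F₀ {s}) F₀ r ∈ V₁.nonunits)
    (hk₂ : ∀ r : chartAlg O F₀ {s}, θ₂ r = 0 ↔
      algebraMap (chartAlg O F₀ {s}) F₀ r ∈ V₂.nonunits) :
    (∃ ε : chartAlg O F₀ {s}, algebraMap (chartAlg O F₀ {s}) F₀ ε ∈ V₁.nonunits ∧
      algebraMap (chartAlg O F₀ {s}) F₀ ε ∉ V₂.nonunits) ∧
    (∃ ε : chartAlg O F₀ {s}, algebraMap (chartAlg O F₀ {s}) F₀ ε ∈ V₂.nonunits ∧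
      algebraMap (chartAlg O F₀ {s}) F₀ ε ∉ V₁.nonunits) := by
  haveI : IsFractionRing (chartAlg O F₀ {s}) F₀ := isFractionRing_chartAlg (O := O) (K₀ := K₀) s hs
  haveI : IsIntegrallyClosed (chartAlg O F₀ {s}) :=
    isIntegrallyClosed_chartAlg (O := O) (K₀ := K₀) s hs
  haveI : IsNoetherianRing (chartAlg O F₀ {s}) := isNoetherianRing_chartAlg (O := O) (K := K₀) s hs
  have hV₁ : ∀ r : chartAlg O F₀ {s}, algebraMap (chartAlg O F₀ {s}) F₀ r ∈ V₁ :=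
    fun r => ((hT.mem_iff _).1 (hW.le r)).1
  have hV₂ : ∀ r : chartAlg O F₀ {s}, algebraMap (chartAlg O F₀ {s}) F₀ r ∈ V₂ :=
    fun r => ((hT.mem_iff _).1 (hW.le r)).2
  have hinjO : Function.Injective (algebraMap O F₀) := by
    rw [IsScalarTower.algebraMap_eq O K₀ F₀]
    exact (algebraMap K₀ F₀).injective.comp (IsFractionRing.injective O K₀)
  have hb0 : algebraMap O (chartAlg O F₀ {s}) π ≠ 0 := by
    intro h0
    have : algebraMap O F₀ π = 0 := by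
      have := congrArg (algebraMap (chartAlg O F₀ {s}) F₀) h0
      simpa using this
    exact hπ.ne_zero (hinjO (by rw [this, map_zero]))
  have hsat : ∀ r : chartAlg O F₀ {s}, algebraMap (chartAlg O F₀ {s}) F₀ r ∈ V₁.nonunits →
      algebraMap (chartAlg O F₀ {s}) F₀ r ∈ V₂.nonunits →
        algebraMap O (chartAlg O F₀ {s}) π ∣ r := by
    intro r h1 h2
    obtain ⟨w, hw, hrw⟩ := hT.exists_eq_mul h1 h2
    exact hW.sat r ⟨w, hw, by rw [hrw]; rfl⟩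
  obtain ⟨h21, h12⟩ := not_le_vCentre V₁ V₂ hV₁ hV₂ hb0 hT.pi_mem₁ hsat hne
    θ₁ θ₂ hθ₁ hθ₂ hB₁ hB₂ hk₁ hk₂
  exact ⟨h12, h21⟩

/-- **`Setup` of a chart from the two reductions.** -/
theorem setup_chart_of_theta (s : F₀) (hs : Transcendental K₀ s) [FiniteDimensional K₀⟮s⟯ F₀]
    {π : O} (hπ : Irreducible π) {W : Subring F₀} {V₁ V₂ : ValuationSubring F₀}
    (hT : TwoVal π W V₁ V₂) (hW : IsSemiGaussRing W (algebraMap O (chartAlg O F₀ {s}) π))
    (hne : V₁ ≠ V₂)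
    {B₁ B₂ : Type*} [CommRing B₁] [IsDomain B₁] [Ring.DimensionLEOne B₁]
    [CommRing B₂] [IsDomain B₂] [Ring.DimensionLEOne B₂]
    (θ₁ : chartAlg O F₀ {s} →+* B₁) (θ₂ : chartAlg O F₀ {s} →+* B₂)
    (hθ₁ : Function.Surjective θ₁) (hθ₂ : Function.Surjective θ₂)
    (hB₁ : ¬ IsField B₁) (hB₂ : ¬ IsField B₂)
    (hk₁ : ∀ r : chartAlg O F₀ {s}, θ₁ r = 0 ↔
      algebraMap (chartAlg O F₀ {s}) F₀ r ∈ V₁.nonunits)
    (hk₂ : ∀ r : chartAlg O F₀ {s}, θ₂ r = 0 ↔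
      algebraMap (chartAlg O F₀ {s}) F₀ r ∈ V₂.nonunits) :
    Setup (chartAlg O F₀ {s}) π V₁ V₂ := by
  obtain ⟨h12, h21⟩ := sep_chart_of_theta (K₀ := K₀) s hs hπ hT hW hne θ₁ θ₂ hθ₁ hθ₂ hB₁ hB₂ hk₁ hk₂
  exact Fermat.Agent.P4.TwistSetup.setup_chart_of_sep (K₀ := K₀) s hs hπ hT hW h12 h21

/-- **`Setup` + both `BranchNormal`s of a chart from the two reductions** (`B_i` Dedekind, not
fields). -/
theorem setup_branchNormal_chart_of_theta (s : F₀) (hs : Transcendental K₀ s)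
    [FiniteDimensional K₀⟮s⟯ F₀]
    {π : O} (hπ : Irreducible π) {W : Subring F₀} {V₁ V₂ : ValuationSubring F₀}
    (hT : TwoVal π W V₁ V₂) (hW : IsSemiGaussRing W (algebraMap O (chartAlg O F₀ {s}) π))
    (hne : V₁ ≠ V₂)
    {B₁ B₂ : Type*} [CommRing B₁] [IsDedekindDomain B₁]
    [CommRing B₂] [IsDedekindDomain B₂]
    (θ₁ : chartAlg O F₀ {s} →+* B₁) (θ₂ : chartAlg O F₀ {s} →+* B₂)
    (hθ₁ : Function.Surjective θ₁) (hθ₂ : Function.Surjective θ₂)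
    (hB₁ : ¬ IsField B₁) (hB₂ : ¬ IsField B₂)
    (hk₁ : ∀ r : chartAlg O F₀ {s}, θ₁ r = 0 ↔
      algebraMap (chartAlg O F₀ {s}) F₀ r ∈ V₁.nonunits)
    (hk₂ : ∀ r : chartAlg O F₀ {s}, θ₂ r = 0 ↔
      algebraMap (chartAlg O F₀ {s}) F₀ r ∈ V₂.nonunits) {e : ℕ} (he : e ≠ 0) :
    Setup (chartAlg O F₀ {s}) π V₁ V₂ ∧ BranchNormal (chartAlg O F₀ {s}) π V₁ e ∧
      BranchNormal (chartAlg O F₀ {s}) π V₂ e := by
  haveI : IsFractionRing (chartAlg O F₀ {s}) F₀ := isFractionRing_chartAlg (O := O) (K₀ := K₀) s hs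
  have hS := setup_chart_of_theta (K₀ := K₀) s hs hπ hT hW hne θ₁ θ₂ hθ₁ hθ₂ hB₁ hB₂ hk₁ hk₂
  exact ⟨hS,
    Fermat.Agent.P4.TwistSetup.branchNormal_of_theta θ₁ hθ₁ V₁ hS.mem₁ hk₁ hS.loc₁ π he,
    Fermat.Agent.P4.TwistSetup.branchNormal_of_theta θ₂ hθ₂ V₂ hS.mem₂ hk₂ hS.loc₂ π he⟩

end Fermat.Agent.P4.SetupOfTheta
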