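/-
P4-S35, block P4-C2L(b), chart at infinity (helper29; mirror of `P4/BranchNormalLevel.lean`):
**`TwistRoots.Setup` and both `TwistRoots.BranchNormal`s for the chart at infinity
`Rinf K (N ℓ) O` of the level `N ℓ`**, with `V₁ = gaussVS K (N ℓ) O` and `V₂ = S₂.V`.

helper17's `SetupOfTheta.setup_branchNormal_chart_of_theta` fed with the two reductions of
helper19's `TwoComponentsInfFinal.crossingData_inf` (corestricted to the Dedekind domain
`RbarInf K N O`), helper12's `FibreSatBridge.twoVal / semiM` and the two kernel descriptions.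

* `res_thetaInf_eq_zero_iff`, `res_theta2InfS_eq_zero_iff` : `θᵢ r = 0 ↔ r ∈ 𝔪_{Vᵢ}`;
* `setup_branchNormal_inf` : `Setup ∧ BranchNormal V₁ e ∧ BranchNormal V₂ e`;
* `setup_inf`, `branchNormal₁_inf`, `branchNormal₂_inf` : the three components.
-/
import Mathlib
import Fermat.Agent.P3G.TwoComponentsInfFinal
import Fermat.Agent.P3G.FibreSatBridge
import Fermat.Agent.P4.SetupOfTheta

set_option autoImplicit false
set_option linter.unusedSectionVars false
set_option linter.style.haveILetI false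

open ModularCurve Fermat.Agent.S28.Gauss Fermat.Agent.N4.Setting Fermat.Agent.N4.FibreEmbedding
open Fermat.Agent.N4.Chart
open Fermat.Agent.N4F.E.DegreeLevelRaise Fermat.Agent.N4F.E.GaussDVR AlgebraicCurve Polynomial
open Fermat.Agent.N4F.E IsLocalRing Fermat.Agent.P3G.RbarInf Fermat.Agent.P3G.TwoComponentsInf
open Fermat.Agent.P3G.TwoComponentsInfFinal Fermat.Agent.P3G Fermat.Agent.P4
open IntermediateField

noncomputable section

namespace Fermat.Agent.P4.BranchNormalLevelInf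

variable (K : Type) [Field K] [CharZero K] (N : ℕ) [NeZero N] (ℓ : ℕ) [Fact ℓ.Prime]
  (O : Subring K) [IsDiscreteValuationRing ↥O] [IsFractionRing ↥O K]
  [CharP (IsLocalRing.ResidueField ↥O) ℓ] [PerfectRing (IsLocalRing.ResidueField ↥O) ℓ]

set_option quotPrecheck false in
local notation "κ" => IsLocalRing.ResidueField ↥O

set_option synthInstance.maxHeartbeats 400000

variable (hN : IsUnit ((N : ℕ) : ↥O)) (ι : K →+* ℂ) (hℓN : ¬ ℓ ∣ N)
  (hprime : (fibreIdeal K N O (Rfin K N O)).IsPrime)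
  (hprimeInf : (fibreIdeal K N O (Rinf K N O)).IsPrime)
  (hsmoothInf : IsDedekindDomain (↥(Rinf K N O) ⧸ fibreIdeal K N O (Rinf K N O)))
  (hA2 : ∀ x : ↥(gaussSubalgebra K N O),
    theta K N O x ∈ modularFunctionFieldFullC (IsLocalRing.ResidueField ↥O) N)
  (S₂ : FibreTwo.SecondVal K N ℓ O)
  {ϖ : ↥O} (hϖ : Irreducible ϖ)

include hN ι hℓN hprimeInf hsmoothInf hA2 in
/-- `hker₁`: the Gauss reduction of `r` vanishes iff `r ∈ 𝔪_{V₁}`. -/
theorem res_thetaInf_eq_zero_iff (r : ↥(Rinf K (N * ℓ) O)) :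
    CrossingLaurent.res (RbarInf K N O) (thetaInf K (N * ℓ) O)
        (thetaInf_mem_rbar K N ℓ O hN ι hℓN hprimeInf hsmoothInf hA2 S₂) r = 0 ↔
      algebraMap ↥(Rinf K (N * ℓ) O) (FF K (N * ℓ)) r ∈ (gaussVS K (N * ℓ) O).nonunits := by
  have h1 : CrossingLaurent.res (RbarInf K N O) (thetaInf K (N * ℓ) O)
      (thetaInf_mem_rbar K N ℓ O hN ι hℓN hprimeInf hsmoothInf hA2 S₂) r = 0 ↔
      thetaInf K (N * ℓ) O r = 0 := by
    rw [← RingHom.mem_ker, CrossingLaurent.ker_res, RingHom.mem_ker]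
  rw [h1, thetaInf_apply]
  exact (FibreTwo.mem_nonunits_gaussVS_iff K (N * ℓ) O _).symm

include hN hprimeInf hsmoothInf hA2 in
/-- `hker₂`: the second reduction of `r` vanishes iff `r ∈ 𝔪_{V₂}`. -/
theorem res_theta2InfS_eq_zero_iff (r : ↥(Rinf K (N * ℓ) O)) :
    CrossingLaurent.res (RbarInf K N O) (theta2InfS K N ℓ O S₂)
        (theta2InfS_mem_rbar K N ℓ O hN hprimeInf hsmoothInf hA2 S₂) r = 0 ↔
      algebraMap ↥(Rinf K (N * ℓ) O) (FF K (N * ℓ)) r ∈ S₂.V.nonunits := by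
  have h1 : CrossingLaurent.res (RbarInf K N O) (theta2InfS K N ℓ O S₂)
      (theta2InfS_mem_rbar K N ℓ O hN hprimeInf hsmoothInf hA2 S₂) r = 0 ↔
      theta2InfS K N ℓ O S₂ r = 0 := by
    rw [← RingHom.mem_ker, CrossingLaurent.ker_res, RingHom.mem_ker]
  rw [h1, theta2InfS_apply]
  exact S₂.ev_eq_zero_iff _

include hN ι hℓN hprime hprimeInf hsmoothInf hA2 hϖ in
/-- **`Setup` and both `BranchNormal`s for the chart at infinity of level `N ℓ`.** -/
theorem setup_branchNormal_inf {e : ℕ} (he : e ≠ 0) :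
    TwistRoots.Setup (↥(Rinf K (N * ℓ) O)) ϖ (gaussVS K (N * ℓ) O) S₂.V ∧
      TwistRoots.BranchNormal (↥(Rinf K (N * ℓ) O)) ϖ (gaussVS K (N * ℓ) O) e ∧
      TwistRoots.BranchNormal (↥(Rinf K (N * ℓ) O)) ϖ S₂.V e := by
  haveI := Fermat.Agent.N4.ModPolySetting.finiteDimensional_FF K (N * ℓ)
  have hj := Fermat.Agent.N4.FFAlgebraic.transcendental_jF K (N * ℓ)
  have hjinv : Transcendental K (jF K (N * ℓ))⁻¹ := fun h => hj (by simpa using h.inv)
  haveI : FiniteDimensional K⟮(jF K (N * ℓ))⁻¹⟯ (FF K (N * ℓ)) := by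
    rw [Fermat.Agent.N4.Cover.Main.adjoin_inv_eq]; infer_instance
  haveI : IsDedekindDomain ↥(RbarInf K N O) :=
    isDedekindDomain_RbarInf K N O hprimeInf hsmoothInf
  have hB := FibreIdent.betaOut_of_secondVal K N ℓ O S₂
  have hD := crossingData_inf K N ℓ O hN ι hℓN hprime hprimeInf hsmoothInf hA2 S₂
  exact SetupOfTheta.setup_branchNormal_chart_of_theta (O := ↥O) (K₀ := K)
    (F₀ := FF K (N * ℓ)) (jF K (N * ℓ))⁻¹ hjinv
    hϖ (FibreSatBridge.twoVal K N ℓ O ι hℓN hprime hB S₂ hϖ)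
    (FibreSatBridge.semiM K N ℓ O ι hℓN hprime hB S₂ hprimeInf hϖ) (Ne.symm S₂.ne_gauss)
    _ _ hD.surj₁ hD.surj₂ (not_isField_RbarInf K N O hprimeInf)
    (not_isField_RbarInf K N O hprimeInf)
    (res_thetaInf_eq_zero_iff K N ℓ O hN ι hℓN hprimeInf hsmoothInf hA2 S₂)
    (res_theta2InfS_eq_zero_iff K N ℓ O hN hprimeInf hsmoothInf hA2 S₂) he

include hN ι hℓN hprime hprimeInf hsmoothInf hA2 hϖ in
theorem setup_inf :
    TwistRoots.Setup (↥(Rinf K (N * ℓ) O)) ϖ (gaussVS K (N * ℓ) O) S₂.V :=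
  (setup_branchNormal_inf K N ℓ O hN ι hℓN hprime hprimeInf hsmoothInf hA2 S₂ hϖ one_ne_zero).1

include hN ι hℓN hprime hprimeInf hsmoothInf hA2 hϖ in
theorem branchNormal₁_inf {e : ℕ} (he : e ≠ 0) :
    TwistRoots.BranchNormal (↥(Rinf K (N * ℓ) O)) ϖ (gaussVS K (N * ℓ) O) e := by
  obtain ⟨S₂⟩ := FibreTwo.nonempty_secondVal K N ℓ O ι hℓN hprime hA2
  exact (setup_branchNormal_inf K N ℓ O hN ι hℓN hprime hprimeInf hsmoothInf hA2 S₂ hϖ he).2.1

include hN ι hℓN hprime hprimeInf hsmoothInf hA2 hϖ in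
theorem branchNormal₂_inf {e : ℕ} (he : e ≠ 0) :
    TwistRoots.BranchNormal (↥(Rinf K (N * ℓ) O)) ϖ S₂.V e :=
  (setup_branchNormal_inf K N ℓ O hN ι hℓN hprime hprimeInf hsmoothInf hA2 S₂ hϖ he).2.2

end Fermat.Agent.P4.BranchNormalLevelInf
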