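import Mathlib
import Fermat.Agent.P3G.GammaV2
import Fermat.Agent.P3G.ResidueRational

/-!
# P4-S35, block (Q1) (helper5): the Frobenius-lift package at a stable level

`A ⊂ Q̄` a valuation subring over `q`, `τ ∈ Gal(Q̄/ℚ)` in the decomposition group of `A` inducing
`x ↦ x ^ m` on the residue field of `A` (`IsPowFrob A τ m`; a Frobenius lift `φ` has `m = q`, and
`φ ^ k` has `m = q ^ k`).  `K` a `Γ`-stable level, `O_K = baseRing A K` a discrete valuation ring
with residue field `κ`, `τ_M = levelFF K hK M τ` the coefficientwise action on `F_K(M)`.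

* `IsPowFrob`, `IsPowFrob.mul`, `IsPowFrob.pow`, `isPowFrob_of_isFrobeniusAt`;
* `resMap K hK hτ : κ →+* κ` the endomorphism of the residue field induced by `τ ∈ D_A`;
  `resMap_apply_of_isPowFrob : resMap … c = c ^ m`, `resMap_eq_frobenius`,
  `resMap_eq_iterateFrobenius`;
* `V₁` (Gauss): `theta_levelFF_smul_decomp : θ (τ x) = coeffMap (resMap τ) (θ x)` for all of `D_A`,
  `theta_levelFF_smul_frobenius(_pow)`;
* `V₂` (helper15's `FibreTwo.SecondVal`): `ev_levelFF_smul_decomp`,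
  `ev_levelFF_smul_frobenius(_pow)`;
* charts: `sub_pow_mem_of_rational` (abstract (FP)), `levelFF_sub_pow_mem_chart` : at a `τ`-fixed
  closed point `𝔫 ∋ ϖ` of a chart, `τ r - r ^ m ∈ 𝔫`.
-/

set_option autoImplicit false
set_option linter.unusedSectionVars false
set_option linter.style.haveILetI false

open AlgebraicCurve ModularCurve
open Fermat.Agent.N4.BigDVR Fermat.Agent.N4.FrobDensity Fermat.Agent.N4.Setting
open Fermat.Agent.N4.Chart Fermat.Agent.N4.FibreEmbedding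
open Fermat.Agent.N4F.C Fermat.Agent.N4F.C.Levels Fermat.Agent.N4F.C.LevelCharts
open Fermat.Agent.N4F.C.CoeffAut Fermat.Agent.N4F.C.Galois Fermat.Agent.N4F.C.LevelTheta
open Fermat.Agent.N4F.E.DegreeLevelRaise Fermat.Agent.N4F.E.GaussDVR
open Fermat.Agent.S28.Gauss

namespace Fermat.Agent.P4.FrobLevel

open Fermat.Agent.P3G.Gamma Fermat.Agent.P3G.GammaTame Fermat.Agent.P3G.GammaAut
open Fermat.Agent.P3G.GammaGauss Fermat.Agent.P3G.GammaLevelMaps Fermat.Agent.P3G.FibreTwo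
open Fermat.Agent.P3G.GammaV2

local notation "Γ" => (AlgebraicClosure ℚ ≃ₐ[ℚ] AlgebraicClosure ℚ)

/-! ### Abstract: nonunits of a valuation subring -/

section Nonunits

variable {F : Type*} [Field F] (W : ValuationSubring F)

theorem add_mem_nonunits {x y : F} (hx : x ∈ W.nonunits) (hy : y ∈ W.nonunits) :
    x + y ∈ W.nonunits := by
  rw [ValuationSubring.mem_nonunits_iff] at hx hy ⊢
  exact lt_of_le_of_lt (Valuation.map_add _ _ _) (max_lt hx hy)

theorem sub_mem_nonunits {x y : F} (hx : x ∈ W.nonunits) (hy : y ∈ W.nonunits) :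
    x - y ∈ W.nonunits := by
  rw [ValuationSubring.mem_nonunits_iff] at hx hy ⊢
  exact lt_of_le_of_lt (Valuation.map_sub _ _ _) (max_lt hx hy)

theorem mul_mem_nonunits_left {x y : F} (hx : x ∈ W.nonunits) (hy : y ∈ W) :
    x * y ∈ W.nonunits := by
  rw [ValuationSubring.mem_nonunits_iff] at hx ⊢
  rw [map_mul]
  exact mul_lt_one_of_lt_of_le hx ((W.valuation_le_one_iff _).mpr hy)

theorem mem_of_mem_nonunits {x : F} (hx : x ∈ W.nonunits) : x ∈ W := by
  rw [ValuationSubring.mem_nonunits_iff] at hx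
  exact (W.valuation_le_one_iff _).mp hx.le

/-- `a ≡ b` modulo the maximal ideal implies `a ^ k ≡ b ^ k`. -/
theorem pow_sub_pow_mem_nonunits {a b : F} (ha : a ∈ W) (hb : b ∈ W) (h : a - b ∈ W.nonunits)
    (k : ℕ) : a ^ k - b ^ k ∈ W.nonunits := by
  induction k with
  | zero =>
    rw [pow_zero, pow_zero, sub_self]
    exact Fermat.Agent.P3G.LocVS.zero_mem_nonunits W
  | succ k ih =>
    have e : a ^ (k + 1) - b ^ (k + 1) = (a ^ k - b ^ k) * a + (a - b) * b ^ k := by ring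
    rw [e]
    exact add_mem_nonunits W (mul_mem_nonunits_left W ih ha)
      (mul_mem_nonunits_left W h (pow_mem hb k))

end Nonunits

/-! ### Power-Frobenius elements of the decomposition group -/

section PowFrob

variable {A : ValuationSubring Qb}

/-- `τ` lies in the decomposition group of `A` and induces `x ↦ x ^ m` on its residue field. -/
def IsPowFrob (A : ValuationSubring Qb) (τ : Γ) (m : ℕ) : Prop :=
  τ ∈ A.decompositionSubgroup ℚ ∧ ∀ x ∈ A, τ x - x ^ m ∈ A.nonunits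

theorem IsPowFrob.mem_decomp {τ : Γ} {m : ℕ} (h : IsPowFrob A τ m) :
    τ ∈ A.decompositionSubgroup ℚ := h.1

/-- A Frobenius element at `q` is a power-Frobenius element with `m = q`. -/
theorem isPowFrob_of_isFrobeniusAt {φ : Γ} {q : ℕ} (hφ : A.IsFrobeniusAt φ q) :
    IsPowFrob A φ q :=
  ⟨hφ.mem_decompositionSubgroup, fun _ hx => sub_pow_mem_nonunits_of_isFrobeniusAt hφ hx⟩

theorem isPowFrob_one : IsPowFrob A (1 : Γ) 1 := by
  refine ⟨one_mem _, fun x _ => ?_⟩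
  rw [pow_one]
  show x - x ∈ A.nonunits
  rw [sub_self]
  exact Fermat.Agent.P3G.LocVS.zero_mem_nonunits A

theorem IsPowFrob.mul {σ τ : Γ} {m n : ℕ} (hσ : IsPowFrob A σ m) (hτ : IsPowFrob A τ n) :
    IsPowFrob A (σ * τ) (m * n) := by
  refine ⟨mul_mem hσ.1 hτ.1, fun x hx => ?_⟩
  have e : (σ * τ) x - x ^ (m * n) = σ (τ x - x ^ n) + (σ (x ^ n) - (x ^ n) ^ m) := by
    rw [AlgEquiv.mul_apply, map_sub, mul_comm m n, pow_mul]
    ring
  rw [e]
  exact add_mem_nonunits A ((apply_mem_nonunits_iff_of_mem_decomp hσ.1).mpr (hτ.2 x hx))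
    (hσ.2 _ (pow_mem hx n))

theorem IsPowFrob.pow {σ : Γ} {m : ℕ} (hσ : IsPowFrob A σ m) (k : ℕ) :
    IsPowFrob A (σ ^ k) (m ^ k) := by
  induction k with
  | zero => simpa using isPowFrob_one (A := A)
  | succ k ih =>
    rw [pow_succ, pow_succ]
    exact ih.mul hσ

/-- The `k`-th power of a Frobenius element at `q` induces `x ↦ x ^ (q ^ k)`. -/
theorem isPowFrob_pow_of_isFrobeniusAt {φ : Γ} {q : ℕ} (hφ : A.IsFrobeniusAt φ q) (k : ℕ) :
    IsPowFrob A (φ ^ k) (q ^ k) :=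
  (isPowFrob_of_isFrobeniusAt hφ).pow k

end PowFrob

/-! ### The induced endomorphism of the residue field of a stable level -/

section Level

variable (K : IntermediateField ℚ Qb) (hK : ∀ (τ : Γ) (x : Qb), x ∈ K → τ x ∈ K)
  {A : ValuationSubring Qb} [IsDiscreteValuationRing ↥(baseRing A K)]

set_option quotPrecheck false in
local notation "κ" => IsLocalRing.ResidueField ↥(baseRing A K)

theorem mem_maximalIdeal_baseRing {a : ↥(baseRing A K)}
    (h : (a : Lvl K) ∈ (tr A (Lvl K)).nonunits) :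
    a ∈ IsLocalRing.maximalIdeal ↥(baseRing A K) := by
  rw [IsLocalRing.mem_maximalIdeal, mem_nonunits_iff]
  intro hu
  obtain ⟨z, hz⟩ := isUnit_iff_exists_inv.mp hu
  have h1 : (a : Lvl K) * (z : Lvl K) = 1 := congrArg Subtype.val hz
  rw [ValuationSubring.mem_nonunits_iff] at h
  have hz1 : (tr A (Lvl K)).valuation (z : Lvl K) ≤ 1 :=
    (ValuationSubring.valuation_le_one_iff _ _).mpr z.2
  have h2 := congrArg (tr A (Lvl K)).valuation h1
  rw [map_mul, map_one] at h2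
  exact absurd h2 (ne_of_lt (mul_lt_one_of_lt_of_le h hz1))

theorem coe_mem_nonunits_of_mem_maximalIdeal {a : ↥(baseRing A K)}
    (h : a ∈ IsLocalRing.maximalIdeal ↥(baseRing A K)) :
    (a : Lvl K) ∈ (tr A (Lvl K)).nonunits := by
  rw [ValuationSubring.mem_nonunits_iff_or]
  by_cases h0 : (a : Lvl K) = 0
  · exact Or.inl h0
  · right
    intro hinv
    rw [IsLocalRing.mem_maximalIdeal, mem_nonunits_iff] at h
    apply h
    refine isUnit_iff_exists_inv.mpr ⟨⟨(a : Lvl K)⁻¹, hinv⟩, Subtype.ext ?_⟩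
    show (a : Lvl K) * (a : Lvl K)⁻¹ = 1
    exact mul_inv_cancel₀ h0

/-- **The endomorphism of the residue field `κ` of `O_K` induced by `τ ∈ D_A`.** -/
noncomputable def resMap {τ : Γ} (hτ : τ ∈ A.decompositionSubgroup ℚ) : κ →+* κ :=
  IsLocalRing.ResidueField.map
    ((baseAut K hK hτ : ↥(baseRing A K) ≃+* ↥(baseRing A K)) :
      ↥(baseRing A K) →+* ↥(baseRing A K))

theorem resMap_residue {τ : Γ} (hτ : τ ∈ A.decompositionSubgroup ℚ) (a : ↥(baseRing A K)) :
    resMap K hK hτ (IsLocalRing.residue ↥(baseRing A K) a) =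
      IsLocalRing.residue ↥(baseRing A K) (baseAut K hK hτ a) :=
  IsLocalRing.ResidueField.map_residue _ a

/-- For a power-Frobenius element: `τ w ≡ w ^ m` modulo the maximal ideal of `A ∩ K`. -/
theorem levelAut_sub_pow_mem_nonunits {τ : Γ} {m : ℕ} (hτ : IsPowFrob A τ m) {w : Lvl K}
    (hw : w ∈ tr A (Lvl K)) : levelAut K hK τ w - w ^ m ∈ (tr A (Lvl K)).nonunits := by
  rw [mem_tr_nonunits_iff, map_sub, algebraMap_levelAut, map_pow]
  exact hτ.2 _ ((mem_tr_iff A (Lvl K)).mp hw)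

theorem baseAut_sub_pow_mem_maximalIdeal {τ : Γ} {m : ℕ} (hτ : IsPowFrob A τ m)
    (a : ↥(baseRing A K)) :
    baseAut K hK hτ.1 a - a ^ m ∈ IsLocalRing.maximalIdeal ↥(baseRing A K) :=
  mem_maximalIdeal_baseRing K (levelAut_sub_pow_mem_nonunits K hK hτ a.2)

/-- **A power-Frobenius element induces `c ↦ c ^ m` on `κ`.** -/
theorem resMap_apply_of_isPowFrob {τ : Γ} {m : ℕ} (hτ : IsPowFrob A τ m) (c : κ) :
    resMap K hK hτ.1 c = c ^ m := by
  obtain ⟨a, rfl⟩ := IsLocalRing.residue_surjective c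
  rw [resMap_residue, ← map_pow, ← sub_eq_zero, ← map_sub, IsLocalRing.residue_eq_zero_iff]
  exact baseAut_sub_pow_mem_maximalIdeal K hK hτ a

/-- **A Frobenius element at `q` induces the Frobenius endomorphism of `κ`.** -/
theorem resMap_eq_frobenius {φ : Γ} {q : ℕ} [Fact q.Prime] [CharP κ q]
    (hφ : A.IsFrobeniusAt φ q) :
    resMap K hK hφ.mem_decompositionSubgroup = frobenius κ q :=
  RingHom.ext fun c => by
    rw [resMap_apply_of_isPowFrob K hK (isPowFrob_of_isFrobeniusAt hφ) c, frobenius_def]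

/-- The `k`-th power of a Frobenius element at `q` induces the `k`-fold Frobenius of `κ`. -/
theorem resMap_eq_iterateFrobenius {φ : Γ} {q : ℕ} [Fact q.Prime] [CharP κ q]
    (hφ : A.IsFrobeniusAt φ q) (k : ℕ) :
    resMap K hK (isPowFrob_pow_of_isFrobeniusAt hφ k).1 = iterateFrobenius κ q k :=
  RingHom.ext fun c => by
    rw [resMap_apply_of_isPowFrob K hK (isPowFrob_pow_of_isFrobeniusAt hφ k) c,
      iterateFrobenius_def]

/-! ### The Gauss valuation `V₁` -/

variable (N : ℕ) [NeZero N]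

/-- **`θ (τ x) = τ̄ (θ x)` coefficientwise, for `τ` in the decomposition group.** -/
theorem theta_levelFF_smul_decomp {τ : Γ} (hτ : τ ∈ A.decompositionSubgroup ℚ)
    (x : gaussSubalgebra (Lvl K) N (baseRing A K)) :
    theta (Lvl K) N (baseRing A K)
        ⟨levelFF K hK N τ • (x : FF (Lvl K) N),
          levelFF_smul_mem_gaussSubalgebra K hK N hτ x.2⟩ =
      coeffMap (resMap K hK hτ) (theta (Lvl K) N (baseRing A K) x) := by
  rw [theta_apply, theta_apply]
  exact gaussRed_coeffMap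
    ((baseAut K hK hτ : ↥(baseRing A K) ≃+* ↥(baseRing A K)) : ↥(baseRing A K) →+* ↥(baseRing A K))
    ((levelAut K hK τ : Lvl K ≃+* Lvl K) : Lvl K →+* Lvl K) (algebraMap_comp_baseAut K hK hτ)
    ⟨((x : FF (Lvl K) N) : LaurentSeries (Lvl K)), x.2⟩

/-- **A Frobenius element acts on the Gauss reduction by the coefficientwise Frobenius.** -/
theorem theta_levelFF_smul_frobenius {φ : Γ} {q : ℕ} [Fact q.Prime] [CharP κ q]
    (hφ : A.IsFrobeniusAt φ q) (x : gaussSubalgebra (Lvl K) N (baseRing A K)) :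
    theta (Lvl K) N (baseRing A K)
        ⟨levelFF K hK N φ • (x : FF (Lvl K) N),
          levelFF_smul_mem_gaussSubalgebra K hK N hφ.mem_decompositionSubgroup x.2⟩ =
      coeffMap (frobenius κ q) (theta (Lvl K) N (baseRing A K) x) := by
  rw [theta_levelFF_smul_decomp K hK N hφ.mem_decompositionSubgroup x, resMap_eq_frobenius K hK hφ]

/-- The same for the `k`-th power of a Frobenius element. -/
theorem theta_levelFF_smul_frobenius_pow {φ : Γ} {q : ℕ} [Fact q.Prime] [CharP κ q]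
    (hφ : A.IsFrobeniusAt φ q) (k : ℕ) (x : gaussSubalgebra (Lvl K) N (baseRing A K)) :
    theta (Lvl K) N (baseRing A K)
        ⟨levelFF K hK N (φ ^ k) • (x : FF (Lvl K) N),
          levelFF_smul_mem_gaussSubalgebra K hK N (isPowFrob_pow_of_isFrobeniusAt hφ k).1 x.2⟩ =
      coeffMap (iterateFrobenius κ q k) (theta (Lvl K) N (baseRing A K) x) := by
  rw [theta_levelFF_smul_decomp K hK N (isPowFrob_pow_of_isFrobeniusAt hφ k).1 x,
    resMap_eq_iterateFrobenius K hK hφ k]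

end Level

/-! ### `V₁` and `V₂`: the power map on the residue fields -/

section Vertical

variable (K : IntermediateField ℚ Qb) (hK : ∀ (τ : Γ) (x : Qb), x ∈ K → τ x ∈ K)
  (N : ℕ) [NeZero N] {A : ValuationSubring Qb} [IsDiscreteValuationRing ↥(baseRing A K)]

set_option quotPrecheck false in
local notation "κ" => IsLocalRing.ResidueField ↥(baseRing A K)

/-- The Gauss reduction vanishes exactly on the nonunits of the Gauss valuation subring. -/
theorem theta_eq_zero_iff_mem_nonunits {x : FF (Lvl K) N}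
    (hx : x ∈ gaussSubalgebra (Lvl K) N (baseRing A K)) :
    theta (Lvl K) N (baseRing A K) ⟨x, hx⟩ = 0 ↔
      x ∈ (gaussVS (Lvl K) N (baseRing A K)).nonunits :=
  (mem_nonunits_gaussVS_iff (Lvl K) N (baseRing A K) hx).symm

variable (ℓ : ℕ) [hℓ : Fact ℓ.Prime] (S : SecondVal (Lvl K) N ℓ (baseRing A K))

/-- **`ev₂ (τ y) = τ̄ (ev₂ y)` coefficientwise, for `τ` in the decomposition group.** -/
theorem ev_levelFF_smul_decomp {τ : Γ} (hτ : τ ∈ A.decompositionSubgroup ℚ) (y : ↥S.V) :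
    S.ev ⟨SemilinearAut.toRingAut (levelFF K hK (N * ℓ) τ) (y : FF (Lvl K) (N * ℓ)),
        (secondVal_stable K hK N ℓ S hτ _).mpr y.2⟩ =
      coeffMap (resMap K hK hτ) (S.ev y) := by
  obtain ⟨a, ha⟩ := S.deg_one (y : FF (Lvl K) (N * ℓ)) y.2
  have hstab := secondVal_stable K hK N ℓ S hτ
  set σ := SemilinearAut.toRingAut (levelFF K hK (N * ℓ) τ) with hσ
  have hβa : betaF (Lvl K) N ℓ (a : FF (Lvl K) N) ∈ S.V := S.beta_mem _ a.2
  have hn : (y : FF (Lvl K) (N * ℓ)) - betaF (Lvl K) N ℓ (a : FF (Lvl K) N) ∈ S.V :=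
    sub_mem y.2 hβa
  -- `ev y = θ a`
  have hevn : S.ev ⟨_, hn⟩ = 0 := (S.ev_eq_zero_iff ⟨_, hn⟩).mpr ha
  have hy : S.ev y = theta (Lvl K) N (baseRing A K) a := by
    have e : y = ⟨_, hn⟩ + ⟨_, hβa⟩ := by
      apply Subtype.ext
      show (y : FF (Lvl K) (N * ℓ)) = ((y : FF (Lvl K) (N * ℓ)) -
        betaF (Lvl K) N ℓ (a : FF (Lvl K) N)) + betaF (Lvl K) N ℓ (a : FF (Lvl K) N)
      ring
    rw [e, map_add, hevn, zero_add, S.ev_beta _ a.2]
  -- `ev (σ y) = θ (τ a)`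
  have hτa : levelFF K hK N τ • (a : FF (Lvl K) N) ∈ gaussSubalgebra (Lvl K) N (baseRing A K) :=
    levelFF_smul_mem_gaussSubalgebra K hK N hτ a.2
  have hσβ : σ (betaF (Lvl K) N ℓ (a : FF (Lvl K) N)) =
      betaF (Lvl K) N ℓ (levelFF K hK N τ • (a : FF (Lvl K) N)) :=
    levelFF_smul_betaF K hK N ℓ τ _
  have hσn : σ ((y : FF (Lvl K) (N * ℓ)) - betaF (Lvl K) N ℓ (a : FF (Lvl K) N)) ∈
      S.V.nonunits := apply_mem_nonunits_of_stable S.V σ hstab ha
  have hσnV : σ ((y : FF (Lvl K) (N * ℓ)) - betaF (Lvl K) N ℓ (a : FF (Lvl K) N)) ∈ S.V :=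
    (hstab _).mpr hn
  have hβτa : betaF (Lvl K) N ℓ (levelFF K hK N τ • (a : FF (Lvl K) N)) ∈ S.V :=
    S.beta_mem _ hτa
  have hevσn : S.ev ⟨_, hσnV⟩ = 0 := (S.ev_eq_zero_iff ⟨_, hσnV⟩).mpr hσn
  have e2 : (⟨σ (y : FF (Lvl K) (N * ℓ)), (hstab _).mpr y.2⟩ : ↥S.V) =
      ⟨_, hσnV⟩ + ⟨_, hβτa⟩ := by
    apply Subtype.ext
    show σ (y : FF (Lvl K) (N * ℓ)) = σ ((y : FF (Lvl K) (N * ℓ)) -
      betaF (Lvl K) N ℓ (a : FF (Lvl K) N)) + betaF (Lvl K) N ℓ (levelFF K hK N τ • (a : FF (Lvl K) N))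
    rw [map_sub, hσβ]
    ring
  rw [e2, map_add, hevσn, zero_add, S.ev_beta _ hτa, hy]
  exact theta_levelFF_smul_decomp K hK N hτ a

/-- **A Frobenius element acts on the second reduction by the coefficientwise Frobenius.** -/
theorem ev_levelFF_smul_frobenius {φ : Γ} {q : ℕ} [Fact q.Prime] [CharP κ q]
    (hφ : A.IsFrobeniusAt φ q) (y : ↥S.V) :
    S.ev ⟨SemilinearAut.toRingAut (levelFF K hK (N * ℓ) φ) (y : FF (Lvl K) (N * ℓ)),
        (secondVal_stable K hK N ℓ S hφ.mem_decompositionSubgroup _).mpr y.2⟩ =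
      coeffMap (frobenius κ q) (S.ev y) := by
  rw [ev_levelFF_smul_decomp K hK N ℓ S hφ.mem_decompositionSubgroup y,
    resMap_eq_frobenius K hK hφ]

/-- The same for the `k`-th power of a Frobenius element. -/
theorem ev_levelFF_smul_frobenius_pow {φ : Γ} {q : ℕ} [Fact q.Prime] [CharP κ q]
    (hφ : A.IsFrobeniusAt φ q) (k : ℕ) (y : ↥S.V) :
    S.ev ⟨SemilinearAut.toRingAut (levelFF K hK (N * ℓ) (φ ^ k)) (y : FF (Lvl K) (N * ℓ)),
        (secondVal_stable K hK N ℓ S (isPowFrob_pow_of_isFrobeniusAt hφ k).1 _).mpr y.2⟩ =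
      coeffMap (iterateFrobenius κ q k) (S.ev y) := by
  rw [ev_levelFF_smul_decomp K hK N ℓ S (isPowFrob_pow_of_isFrobeniusAt hφ k).1 y,
    resMap_eq_iterateFrobenius K hK hφ k]

end Vertical

/-! ### Closed points of a chart fixed by `τ`: the hypothesis (FP) -/

section FixedPointAbstract

variable {O F : Type*} [CommRing O] [Field F] [Algebra O F]

/-- **(FP), abstract form.**  `R ⊆ F` an `O`-subalgebra stable under `σ`, `𝔫` a `σ`-stable ideal
of `R` with `O → R ⧸ 𝔫` surjective, such that `σ a ≡ a ^ m` modulo `𝔫` for the constants `a : O`.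
Then `σ r ≡ r ^ m` modulo `𝔫` for every `r : R`. -/
theorem sub_pow_mem_of_rational (R : Subalgebra O F) (𝔫 : Ideal R) (σ : F ≃+* F) (m : ℕ)
    (hσR : ∀ r ∈ R, σ r ∈ R)
    (hres : ∀ x : R, ∃ a : O, x - algebraMap O R a ∈ 𝔫)
    (hσO : ∀ a : O, ∃ b : R, b ∈ 𝔫 ∧
      σ (algebraMap O F a) - (algebraMap O F a) ^ m = (b : F))
    (hσ𝔫 : ∀ r : R, r ∈ 𝔫 → (⟨σ r, hσR r r.2⟩ : R) ∈ 𝔫) (r : R) :
    (⟨σ r, hσR r r.2⟩ : R) - r ^ m ∈ 𝔫 := by
  obtain ⟨a, ha⟩ := hres r
  obtain ⟨b, hb, hab⟩ := hσO a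
  have h3 : r ^ m - (algebraMap O R a) ^ m ∈ 𝔫 :=
    Ideal.mem_of_dvd 𝔫 (sub_dvd_pow_sub_pow r (algebraMap O R a) m) ha
  have h1 := hσ𝔫 _ ha
  have e : (⟨σ r, hσR r r.2⟩ : R) - r ^ m =
      (⟨σ ((r - algebraMap O R a : R) : F), hσR _ (r - algebraMap O R a : R).2⟩ : R) + b -
        (r ^ m - (algebraMap O R a) ^ m) := by
    apply Subtype.ext
    show σ (r : F) - (r : F) ^ m = σ ((r : F) - algebraMap O F a) + (b : F) -
      ((r : F) ^ m - (algebraMap O F a) ^ m)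
    rw [← hab, map_sub]
    ring
  rw [e]
  exact 𝔫.sub_mem (𝔫.add_mem h1 hb) h3

end FixedPointAbstract

section FixedPoint

variable (K : IntermediateField ℚ Qb) (hK : ∀ (τ : Γ) (x : Qb), x ∈ K → τ x ∈ K)
  (N : ℕ) [NeZero N] {A : ValuationSubring Qb} [IsDiscreteValuationRing ↥(baseRing A K)]
  [IsAlgClosed (IsLocalRing.ResidueField ↥(baseRing A K))]

/-- The decomposition group preserves a chart with `τ`-invariant generator. -/
theorem levelFF_apply_mem_chart {τ : Γ} (hτ : τ ∈ A.decompositionSubgroup ℚ) (s : FF (Lvl K) N)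
    (hs : levelFF K hK N τ • s = s) {x : FF (Lvl K) N}
    (hx : x ∈ chartAlg ↥(baseRing A K) (FF (Lvl K) N) {s}) :
    SemilinearAut.toRingAut (levelFF K hK N τ) x ∈
      chartAlg ↥(baseRing A K) (FF (Lvl K) N) {s} :=
  levelFF_smul_mem_chartAlg K hK N hτ (S := {s}) (fun u hu => by
    rw [Set.mem_singleton_iff] at hu
    rw [hu, hs]) hx

/-- **(FP) at a `τ`-fixed closed point of a chart of level `K`.**  `s` a `τ`-invariant chart
generator (`s = j` or `j⁻¹`), `𝔫 ∋ ϖ` a maximal ideal of `R = chartAlg O_K F_K {s}` stable under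
`τ`, `τ` a power-Frobenius element: then `τ r ≡ r ^ m` modulo `𝔫` for all `r : R`. -/
theorem levelFF_sub_pow_mem_chart {τ : Γ} {m : ℕ} (hτ : IsPowFrob A τ m) (s : FF (Lvl K) N)
    (hs : levelFF K hK N τ • s = s)
    (𝔫 : Ideal (chartAlg ↥(baseRing A K) (FF (Lvl K) N) {s})) [𝔫.IsMaximal]
    {ϖ : ↥(baseRing A K)} (hϖ : Irreducible ϖ)
    (hϖ𝔫 : algebraMap ↥(baseRing A K) (chartAlg ↥(baseRing A K) (FF (Lvl K) N) {s}) ϖ ∈ 𝔫)
    (hfix : ∀ r : chartAlg ↥(baseRing A K) (FF (Lvl K) N) {s}, r ∈ 𝔫 →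
      (⟨SemilinearAut.toRingAut (levelFF K hK N τ) (r : FF (Lvl K) N),
        levelFF_apply_mem_chart K hK N hτ.1 s hs r.2⟩ :
        chartAlg ↥(baseRing A K) (FF (Lvl K) N) {s}) ∈ 𝔫)
    (r : chartAlg ↥(baseRing A K) (FF (Lvl K) N) {s}) :
    (⟨SemilinearAut.toRingAut (levelFF K hK N τ) (r : FF (Lvl K) N),
        levelFF_apply_mem_chart K hK N hτ.1 s hs r.2⟩ :
        chartAlg ↥(baseRing A K) (FF (Lvl K) N) {s}) - r ^ m ∈ 𝔫 := by
  refine sub_pow_mem_of_rational (chartAlg ↥(baseRing A K) (FF (Lvl K) N) {s}) 𝔫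
    (SemilinearAut.toRingAut (levelFF K hK N τ)) m
    (fun x hx => levelFF_apply_mem_chart K hK N hτ.1 s hs hx)
    (Fermat.Agent.P3G.ResidueRational.exists_sub_algebraMap_mem_chart_of_irreducible hϖ s 𝔫 hϖ𝔫)
    (fun a => ?_) hfix r
  have h1 := baseAut_sub_pow_mem_maximalIdeal K hK hτ a
  rw [hϖ.maximalIdeal_eq, Ideal.mem_span_singleton'] at h1
  obtain ⟨c, hc⟩ := h1
  refine ⟨algebraMap ↥(baseRing A K) (chartAlg ↥(baseRing A K) (FF (Lvl K) N) {s}) (c * ϖ),
    ?_, ?_⟩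
  · rw [map_mul]
    exact Ideal.mul_mem_left _ _ hϖ𝔫
  · rw [hc]
    have h2 := levelFF_smul_algebraMap_base K hK N hτ.1 a
    show (SemilinearAut.toRingAut (levelFF K hK N τ) : FF (Lvl K) N →+* FF (Lvl K) N)
        (algebraMap ↥(baseRing A K) (FF (Lvl K) N) a) - _ = _
    rw [h2, ← map_pow, ← map_sub]
    rfl

end FixedPoint

end Fermat.Agent.P4.FrobLevel
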