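/-
P4-S35, block [P4-C2-loc] (helper29): **node gluing and the local corrector at a closed point**.

Setting (abstract; to be instantiated with a chart `R = chartAlg O F₀ {s}` of the level `N q`, the two
vertical valuation rings `V₁ V₂` of `F = F₀`, their centres `𝔓₁ 𝔓₂` on `R` and a closed point `𝔫` of
the special fibre):

* `R` a commutative ring, `F` a field, `[Algebra R F]`, `V₁ V₂ : ValuationSubring F` containing the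
  image of `R`, `𝔓ᵢ = {r | r ∈ 𝔪_{Vᵢ}}`, `𝔫` a prime ideal of `R`;
* "`y ∈ F` is a unit at `𝔫`" is always the datum `y * d = a` with `a d : R`, `a ∉ 𝔫`, `d ∉ 𝔫`
  (the shape of `PowCover.LocalRoots`).

Contents.

* ring level: `exists_glue_of_mem_sup` (seminormality of a node: `R/(𝔓₁ ∩ 𝔓₂)` is the fibre product),
  `exists_glue_node` (fraction form at a crossing point, hypothesis `(node)`:
  `∀ r ∈ 𝔫, ∃ c ∉ 𝔫, c r ∈ 𝔓₁ + 𝔓₂`), `exists_glue_branch` (a point on the branch `𝔓₁` only: ANY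
  residue on the other branch can be prescribed), `node_of_span`, `node_of_crossingData`;
* VALUE-1: `frob_mul_sub_mem`, `frob_notMem`, `frob_mem_iff` for `σ : R → R` with
  `σ r ≡ r ^ m mod 𝔫`;
* field level: `exists_corrector_node`, `exists_corrector_branch`, and the packaged local roots
  `exists_localRoot_node` (`η = (σ B / B ^ m) / ξ ≡ 1` on both `Vᵢ`, `ξ` a unit at `𝔫`),
  `exists_localRoot_branch`;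
* (f) `map_map_mem_iff` : an endomorphism `Φ` of the chart acting on the first residue ring as the
  inverse of the `ψ` of `Crossing.CrossingData` satisfies `Φ² 𝔫 = 𝔫` at every crossing point.
-/
import Mathlib
import Fermat.Agent.P3G.Crossing

set_option autoImplicit false

namespace Fermat.Agent.P4.NodeGlue

open Ideal

/-! ### Ring level -/

section Ring

variable {R : Type*} [CommRing R]

/-- **Seminormality of a node**: two elements which agree modulo `𝔓₁ + 𝔓₂` are the two residues of one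
element. -/
theorem exists_glue_of_mem_sup {𝔓₁ 𝔓₂ : Ideal R} {x₁ x₂ : R} (h : x₁ - x₂ ∈ 𝔓₁ ⊔ 𝔓₂) :
    ∃ ξ : R, ξ - x₁ ∈ 𝔓₁ ∧ ξ - x₂ ∈ 𝔓₂ := by
  obtain ⟨p₁, hp₁, p₂, hp₂, he⟩ := Submodule.mem_sup.1 h
  refine ⟨x₁ - p₁, ?_, ?_⟩
  · have : x₁ - p₁ - x₁ = -p₁ := by ring
    rw [this]
    exact 𝔓₁.neg_mem hp₁
  · have : x₁ - p₁ - x₂ = p₂ := by linear_combination -he
    rw [this]
    exact hp₂

/-- **Gluing at a crossing point, fraction form.**  `(node)`: locally at `𝔫` every element of `𝔫` lies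
in `𝔓₁ + 𝔓₂`.  Two fractions `a₁/d₁`, `a₂/d₂` (denominators outside `𝔫`) with the same value at `𝔫`
are the residues on the two branches of one fraction `N/D`, `D ∉ 𝔫`; and `N ∉ 𝔫` if `a₁ ∉ 𝔫`. -/
theorem exists_glue_node {𝔓₁ 𝔓₂ 𝔫 : Ideal R} [h𝔫 : 𝔫.IsPrime] (h1 : 𝔓₁ ≤ 𝔫)
    (hnode : ∀ r ∈ 𝔫, ∃ c, c ∉ 𝔫 ∧ ∃ p₁ ∈ 𝔓₁, ∃ p₂ ∈ 𝔓₂, c * r = p₁ + p₂)
    {a₁ d₁ a₂ d₂ : R} (hd₁ : d₁ ∉ 𝔫) (hd₂ : d₂ ∉ 𝔫) (ha₁ : a₁ ∉ 𝔫)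
    (h : a₁ * d₂ - a₂ * d₁ ∈ 𝔫) :
    ∃ N D : R, N ∉ 𝔫 ∧ D ∉ 𝔫 ∧ N * d₁ - D * a₁ ∈ 𝔓₁ ∧ N * d₂ - D * a₂ ∈ 𝔓₂ := by
  obtain ⟨c, hc, p₁, hp₁, p₂, hp₂, he⟩ := hnode _ h
  refine ⟨c * a₁ * d₂ - p₁, c * d₁ * d₂, ?_, ?_, ?_, ?_⟩
  · intro hN
    have h2 : c * a₁ * d₂ ∈ 𝔫 := by
      have := 𝔫.add_mem hN (h1 hp₁)
      rwa [sub_add_cancel] at this
    rcases h𝔫.mem_or_mem h2 with h3 | h3
    · rcases h𝔫.mem_or_mem h3 with h4 | h4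
      · exact hc h4
      · exact ha₁ h4
    · exact hd₂ h3
  · intro hD
    rcases h𝔫.mem_or_mem hD with h3 | h3
    · rcases h𝔫.mem_or_mem h3 with h4 | h4
      · exact hc h4
      · exact hd₁ h4
    · exact hd₂ h3
  · have : (c * a₁ * d₂ - p₁) * d₁ - c * d₁ * d₂ * a₁ = -(d₁ * p₁) := by ring
    rw [this]
    exact 𝔓₁.neg_mem (𝔓₁.mul_mem_left _ hp₁)
  · have : (c * a₁ * d₂ - p₁) * d₂ - c * d₁ * d₂ * a₂ = d₂ * p₂ := by linear_combination d₂ * he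
    rw [this]
    exact 𝔓₂.mul_mem_left _ hp₂

/-- **Gluing at a point of the branch `𝔓₁` only** (`𝔓₂ ⊄ 𝔫`): ANY fraction `a₂/d₂` of the other
branch (`a₂ d₂ ∉ 𝔓₂`) and any fraction `a₁/d₁` which is a unit at `𝔫` are the two residues of one
fraction `N/D`, with `N D ∉ 𝔫` and `N D ∉ 𝔓₂`.  No compatibility condition. -/
theorem exists_glue_branch {𝔓₁ 𝔓₂ 𝔫 : Ideal R} [h𝔫 : 𝔫.IsPrime] [h₂ : 𝔓₂.IsPrime] (h1 : 𝔓₁ ≤ 𝔫)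
    {e₁ e₂ : R} (he₁ : e₁ ∈ 𝔓₁) (he₁' : e₁ ∉ 𝔓₂) (he₂ : e₂ ∈ 𝔓₂) (he₂' : e₂ ∉ 𝔫)
    {a₁ d₁ a₂ d₂ : R} (ha₁ : a₁ ∉ 𝔫) (hd₁ : d₁ ∉ 𝔫) (ha₂ : a₂ ∉ 𝔓₂) (hd₂ : d₂ ∉ 𝔓₂) :
    ∃ N D : R, N ∉ 𝔫 ∧ D ∉ 𝔫 ∧ N ∉ 𝔓₂ ∧ D ∉ 𝔓₂ ∧
      N * d₁ - D * a₁ ∈ 𝔓₁ ∧ N * d₂ - D * a₂ ∈ 𝔓₂ := by
  have key𝔫 : ∀ x y : R, x ∉ 𝔫 → e₂ * x + e₁ * y ∉ 𝔫 := by
    intro x y hx hmem
    have h2 : e₂ * x ∈ 𝔫 := by
      have := 𝔫.sub_mem hmem (h1 (𝔓₁.mul_mem_right y he₁))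
      rwa [add_sub_cancel_right] at this
    rcases h𝔫.mem_or_mem h2 with h3 | h3
    · exact he₂' h3
    · exact hx h3
  have key₂ : ∀ x y : R, y ∉ 𝔓₂ → e₂ * x + e₁ * y ∉ 𝔓₂ := by
    intro x y hy hmem
    have h2 : e₁ * y ∈ 𝔓₂ := by
      have := 𝔓₂.sub_mem hmem (𝔓₂.mul_mem_right x he₂)
      rwa [add_sub_cancel_left] at this
    rcases h₂.mem_or_mem h2 with h3 | h3
    · exact he₁' h3
    · exact hy h3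
  refine ⟨e₂ * a₁ + e₁ * a₂, e₂ * d₁ + e₁ * d₂, key𝔫 _ _ ha₁, key𝔫 _ _ hd₁, key₂ _ _ ha₂,
    key₂ _ _ hd₂, ?_, ?_⟩
  · have : (e₂ * a₁ + e₁ * a₂) * d₁ - (e₂ * d₁ + e₁ * d₂) * a₁ = (a₂ * d₁ - d₂ * a₁) * e₁ := by
      ring
    rw [this]
    exact 𝔓₁.mul_mem_left _ he₁
  · have : (e₂ * a₁ + e₁ * a₂) * d₂ - (e₂ * d₁ + e₁ * d₂) * a₂ = (a₁ * d₂ - d₁ * a₂) * e₂ := by
      ring
    rw [this]
    exact 𝔓₂.mul_mem_left _ he₂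

/-- `(node)` from local generators: if `𝔫` is generated, locally at `𝔫`, by elements of
`𝔓₁ ∪ 𝔓₂` (e.g. `u ∈ 𝔓₂`, `v ∈ 𝔓₁`, `ϖ ∈ 𝔓₁`), then every `r ∈ 𝔫` is locally in `𝔓₁ + 𝔓₂`. -/
theorem node_of_span {𝔓₁ 𝔓₂ 𝔫 : Ideal R} (T : Set R) (hT : ∀ t ∈ T, t ∈ 𝔓₁ ∨ t ∈ 𝔓₂)
    (hgen : ∀ m ∈ 𝔫, ∃ s : R, s ∉ 𝔫 ∧ s * m ∈ Ideal.span T) :
    ∀ r ∈ 𝔫, ∃ c, c ∉ 𝔫 ∧ ∃ p₁ ∈ 𝔓₁, ∃ p₂ ∈ 𝔓₂, c * r = p₁ + p₂ := by
  intro r hr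
  obtain ⟨s, hs, hsr⟩ := hgen r hr
  refine ⟨s, hs, ?_⟩
  have hle : Ideal.span T ≤ 𝔓₁ ⊔ 𝔓₂ := by
    rw [Ideal.span_le]
    intro t ht
    rcases hT t ht with h | h
    · exact (le_sup_left : 𝔓₁ ≤ 𝔓₁ ⊔ 𝔓₂) h
    · exact (le_sup_right : 𝔓₂ ≤ 𝔓₁ ⊔ 𝔓₂) h
  obtain ⟨p₁, hp₁, p₂, hp₂, he⟩ := Submodule.mem_sup.1 (hle hsr)
  exact ⟨p₁, hp₁, p₂, hp₂, he.symm⟩

end Ring

/-! ### `(node)` and (f) from `Crossing.CrossingData` -/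

section Crossing

open Fermat.Agent.P3G.Crossing

variable {RM R Rb : Type*} [CommRing RM] [CommRing R] [CommRing Rb]
  {ℓ : ℕ} {α β : RM → R} {θ : RM →+* Rb} {θ₁ θ₂ : R →+* Rb} {ψ : Rb ≃+* Rb}

/-- `(node)` at a crossing point of a chart carrying `Crossing.CrossingData`. -/
theorem node_of_crossingData [IsDedekindDomain Rb] (D : CrossingData ℓ α β θ θ₁ θ₂ ψ)
    (𝔫 : Ideal R) [h𝔫 : 𝔫.IsMaximal]
    (hk1 : RingHom.ker θ₁ ≤ 𝔫) (hk2 : RingHom.ker θ₂ ≤ 𝔫) (hbot : 𝔫.map θ₁ ≠ ⊥)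
    {ϖ : R} (hϖ : RingHom.ker θ₁ ⊓ RingHom.ker θ₂ ≤ Ideal.span {ϖ})
    (hϖ1 : ϖ ∈ RingHom.ker θ₁) :
    ∀ r ∈ 𝔫, ∃ c, c ∉ 𝔫 ∧ ∃ p₁ ∈ RingHom.ker θ₁, ∃ p₂ ∈ RingHom.ker θ₂, c * r = p₁ + p₂ := by
  obtain ⟨z₁, -, z₂, -, z₁', -, z₂', -, u, v, -, -, -, -, hu2, hv1, -, -, -, -, -, hgen⟩ :=
    exists_crossing_coordinates D 𝔫 hk1 hk2 ⊤ (fun y => by
      obtain ⟨z, hz⟩ := D.surj y
      exact ⟨z, Subring.mem_top z, hz⟩) hbot hϖ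
  refine node_of_span {u, v, ϖ} ?_ hgen
  intro t ht
  simp only [Set.mem_insert_iff, Set.mem_singleton_iff] at ht
  rcases ht with rfl | rfl | rfl
  · exact Or.inr hu2
  · exact Or.inl hv1
  · exact Or.inl hϖ1

/-- **(f) `Φ²` fixes every crossing point.**  `Φ : R → R` any map with `ψ ∘ θ₁ ∘ Φ = θ₁`
(for `Φ` a Frobenius lift: `θ₁ ∘ Φ = Fr_c ∘ θ₁` and `ψ = Fr_c⁻¹`).  Only `θ₁` is needed. -/
theorem map_map_mem_iff (D : CrossingData ℓ α β θ θ₁ θ₂ ψ) (𝔫 : Ideal R) [h𝔫 : 𝔫.IsMaximal]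
    (hk1 : RingHom.ker θ₁ ≤ 𝔫) (hk2 : RingHom.ker θ₂ ≤ 𝔫)
    (Φ : R → R) (hΦ : ∀ r, ψ (θ₁ (Φ r)) = θ₁ r) (r : R) : Φ (Φ r) ∈ 𝔫 ↔ r ∈ 𝔫 := by
  rw [← map_mem_map_iff θ₁ D.surj₁ 𝔫 hk1 (Φ (Φ r)), D.mem_mx_iff 𝔫 hk1 hk2, hΦ,
    D.mem_my_iff 𝔫 hk1 hk2, hΦ, map_mem_map_iff θ₁ D.surj₁ 𝔫 hk1]

/-- The same with the second residue map. -/
theorem map_map_mem_iff' (D : CrossingData ℓ α β θ θ₁ θ₂ ψ) (𝔫 : Ideal R) [h𝔫 : 𝔫.IsMaximal]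
    (hk1 : RingHom.ker θ₁ ≤ 𝔫) (hk2 : RingHom.ker θ₂ ≤ 𝔫)
    (Φ : R → R) (hΦ : ∀ r, ψ (θ₂ (Φ r)) = θ₂ r) (r : R) : Φ (Φ r) ∈ 𝔫 ↔ r ∈ 𝔫 := by
  rw [← map_mem_map_iff θ₂ D.surj₂ 𝔫 hk2 (Φ (Φ r)), D.mem_my_iff 𝔫 hk1 hk2, hΦ,
    D.mem_mx_iff 𝔫 hk1 hk2, hΦ, map_mem_map_iff θ₂ D.surj₂ 𝔫 hk2]

end Crossing

/-! ### VALUE-1 -/

section Frob

variable {R : Type*} [CommRing R] {𝔫 : Ideal R} (σ : R → R) {m : ℕ}
  (hFP : ∀ r, σ r - r ^ m ∈ 𝔫)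

include hFP in
/-- For `σ ≡ (·)^m` modulo `𝔫`: the fraction `σ(a/d) / (a/d)^m = (σ a · d^m)/(σ d · a^m)` has value
`1` at `𝔫`. -/
theorem frob_mul_sub_mem (a d : R) : σ a * d ^ m - σ d * a ^ m ∈ 𝔫 := by
  have : σ a * d ^ m - σ d * a ^ m = (σ a - a ^ m) * d ^ m - (σ d - d ^ m) * a ^ m := by ring
  rw [this]
  exact 𝔫.sub_mem (𝔫.mul_mem_right _ (hFP a)) (𝔫.mul_mem_right _ (hFP d))

include hFP in
theorem frob_notMem [h𝔫 : 𝔫.IsPrime] {a : R} (ha : a ∉ 𝔫) : σ a ∉ 𝔫 := by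
  intro h
  have : a ^ m ∈ 𝔫 := by
    have := 𝔫.sub_mem h (hFP a)
    rwa [sub_sub_cancel] at this
  exact ha (h𝔫.mem_of_pow_mem _ this)

include hFP in
theorem frob_mem_iff [h𝔫 : 𝔫.IsPrime] (hm : m ≠ 0) (r : R) : σ r ∈ 𝔫 ↔ r ∈ 𝔫 := by
  constructor
  · intro h
    by_contra hr
    exact frob_notMem σ hFP hr h
  · intro hr
    have h1 : r ^ m ∈ 𝔫 := 𝔫.pow_mem_of_mem hr m (Nat.pos_of_ne_zero hm)
    have := 𝔫.add_mem (hFP r) h1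
    rwa [sub_add_cancel] at this

end Frob

/-! ### Valuation lemmas -/

section Val

variable {F : Type*} [Field F] (V : ValuationSubring F)

theorem nu_iff {x : F} : x ∈ V.nonunits ↔ V.valuation x < 1 := V.mem_nonunits_iff

theorem nu_add' {x y : F} (hx : x ∈ V.nonunits) (hy : y ∈ V.nonunits) : x + y ∈ V.nonunits := by
  rw [nu_iff] at hx hy ⊢
  exact Valuation.map_add_lt _ hx hy

theorem nu_neg' {x : F} (hx : x ∈ V.nonunits) : -x ∈ V.nonunits := by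
  rw [nu_iff] at hx ⊢
  rwa [Valuation.map_neg]

theorem nu_sub' {x y : F} (hx : x ∈ V.nonunits) (hy : y ∈ V.nonunits) : x - y ∈ V.nonunits := by
  rw [sub_eq_add_neg]
  exact nu_add' V hx (nu_neg' V hy)

theorem nu_mul_left {x y : F} (hx : V.valuation x ≤ 1) (hy : y ∈ V.nonunits) :
    x * y ∈ V.nonunits := by
  rw [nu_iff] at hy ⊢
  rw [map_mul, mul_comm]
  exact mul_lt_one_of_lt_of_le hy hx

/-- If `z ≡ y` and `y` is a unit then `z` is a unit. -/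
theorem val_eq_one_of_sub {z y : F} (hy : V.valuation y = 1) (h : z - y ∈ V.nonunits) :
    V.valuation z = 1 := by
  rw [nu_iff] at h
  have h1 : V.valuation (z - y) < V.valuation y := by rwa [hy]
  have h2 := Valuation.map_add_eq_of_lt_left V.valuation h1
  rw [add_sub_cancel, hy] at h2
  exact h2

/-- Fractions: if `ξ D = N`, `y d = a` with `D d` units and `N d − D a ∈ 𝔪` then `ξ ≡ y`. -/
theorem sub_mem_of_cross {ξ y N D a d : F} (hξ : ξ * D = N) (hy : y * d = a)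
    (hD : V.valuation D = 1) (hd : V.valuation d = 1) (h : N * d - D * a ∈ V.nonunits) :
    ξ - y ∈ V.nonunits := by
  rw [nu_iff] at h ⊢
  have he : (ξ - y) * (D * d) = N * d - D * a := by rw [← hξ, ← hy]; ring
  have h3 : V.valuation ((ξ - y) * (D * d)) = V.valuation (ξ - y) := by
    rw [map_mul, map_mul, hD, hd, mul_one, mul_one]
  rw [← h3, he]
  exact h

/-- Congruent numerators and congruent unit denominators give congruent quotients. -/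
theorem div_sub_div_mem {x x' z z' : F} (hx' : V.valuation x' ≤ 1) (hz' : V.valuation z' = 1)
    (hx : x - x' ∈ V.nonunits) (hz : z - z' ∈ V.nonunits) : x / z - x' / z' ∈ V.nonunits := by
  have hzv : V.valuation z = 1 := val_eq_one_of_sub V hz' hz
  have hz0 : z ≠ 0 := fun h => by rw [h, map_zero] at hzv; exact zero_ne_one hzv
  have hz'0 : z' ≠ 0 := fun h => by rw [h, map_zero] at hz'; exact zero_ne_one hz'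
  have he : x / z - x' / z' = ((x - x') * z' - x' * (z - z')) * (z * z')⁻¹ := by
    field_simp
    ring
  have hnum : (x - x') * z' - x' * (z - z') ∈ V.nonunits := by
    refine nu_sub' V ?_ (nu_mul_left V hx' hz)
    rw [mul_comm]
    exact nu_mul_left V hz'.le hx
  rw [he, mul_comm]
  refine nu_mul_left V ?_ hnum
  rw [map_inv₀, map_mul, hzv, hz', mul_one, inv_one]

/-- `t ≡ y ≡ ξ`, `y` a unit: `t / ξ ≡ 1`. -/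
theorem div_sub_one_mem {t ξ y : F} (hy : V.valuation y = 1) (ht : t - y ∈ V.nonunits)
    (hξ : ξ - y ∈ V.nonunits) : t / ξ - 1 ∈ V.nonunits := by
  have hξv : V.valuation ξ = 1 := val_eq_one_of_sub V hy hξ
  have hξ0 : ξ ≠ 0 := fun h => by rw [h, map_zero] at hξv; exact zero_ne_one hξv
  have he : t / ξ - 1 = ξ⁻¹ * ((t - y) - (ξ - y)) := by
    field_simp
    ring
  rw [he]
  refine nu_mul_left V ?_ (nu_sub' V ht hξ)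
  rw [map_inv₀, hξv, inv_one]

end Val

/-! ### Field level: correctors and local roots -/

section Field

variable {R F : Type*} [CommRing R] [Field F] [Algebra R F]
  (V₁ V₂ : ValuationSubring F) {𝔓₁ 𝔓₂ 𝔫 : Ideal R}

/-- An element of `R` outside the centre of `V` is a unit of `V`. -/
theorem val_eq_one_of_notMem (V : ValuationSubring F) {𝔓 : Ideal R}
    (hV : ∀ r : R, algebraMap R F r ∈ V)
    (h𝔓 : ∀ r : R, r ∈ 𝔓 ↔ algebraMap R F r ∈ V.nonunits) {r : R} (hr : r ∉ 𝔓) :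
    V.valuation (algebraMap R F r) = 1 := by
  have h1 : V.valuation (algebraMap R F r) ≤ 1 := (V.valuation_le_one_iff _).2 (hV r)
  have h2 : ¬ V.valuation (algebraMap R F r) < 1 := fun h =>
    hr ((h𝔓 r).2 ((nu_iff V).2 h))
  exact le_antisymm h1 (not_lt.1 h2)

variable (hV₁ : ∀ r : R, algebraMap R F r ∈ V₁) (hV₂ : ∀ r : R, algebraMap R F r ∈ V₂)
  (h𝔓₁ : ∀ r : R, r ∈ 𝔓₁ ↔ algebraMap R F r ∈ V₁.nonunits)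
  (h𝔓₂ : ∀ r : R, r ∈ 𝔓₂ ↔ algebraMap R F r ∈ V₂.nonunits)

include hV₁ hV₂ h𝔓₁ h𝔓₂ in
/-- **The corrector at a crossing point**: two units at `𝔫`, `y₁ = a₁/d₁` and `y₂ = a₂/d₂`, with the
same value at `𝔫` are the residues on `V₁` and `V₂` of one unit `ξ = N/D` at `𝔫`. -/
theorem exists_corrector_node [h𝔫 : 𝔫.IsPrime] (h1 : 𝔓₁ ≤ 𝔫) (h2 : 𝔓₂ ≤ 𝔫)
    (hnode : ∀ r ∈ 𝔫, ∃ c, c ∉ 𝔫 ∧ ∃ p₁ ∈ 𝔓₁, ∃ p₂ ∈ 𝔓₂, c * r = p₁ + p₂)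
    {y₁ y₂ : F} {a₁ d₁ a₂ d₂ : R} (hy₁ : y₁ * algebraMap R F d₁ = algebraMap R F a₁)
    (hy₂ : y₂ * algebraMap R F d₂ = algebraMap R F a₂)
    (hd₁ : d₁ ∉ 𝔫) (hd₂ : d₂ ∉ 𝔫) (ha₁ : a₁ ∉ 𝔫) (h : a₁ * d₂ - a₂ * d₁ ∈ 𝔫) :
    ∃ (ξ : F) (N D : R), N ∉ 𝔫 ∧ D ∉ 𝔫 ∧ ξ * algebraMap R F D = algebraMap R F N ∧
      ξ - y₁ ∈ V₁.nonunits ∧ ξ - y₂ ∈ V₂.nonunits := by
  obtain ⟨N, D, hN, hD, hc₁, hc₂⟩ := exists_glue_node h1 hnode hd₁ hd₂ ha₁ h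
  have hD1 := val_eq_one_of_notMem V₁ hV₁ h𝔓₁ (fun h' => hD (h1 h'))
  have hD2 := val_eq_one_of_notMem V₂ hV₂ h𝔓₂ (fun h' => hD (h2 h'))
  have hD0 : algebraMap R F D ≠ 0 := fun h0 => by
    rw [h0, map_zero] at hD1; exact zero_ne_one hD1
  refine ⟨algebraMap R F N / algebraMap R F D, N, D, hN, hD, div_mul_cancel₀ _ hD0, ?_, ?_⟩
  · refine sub_mem_of_cross V₁ (div_mul_cancel₀ _ hD0) hy₁ hD1
      (val_eq_one_of_notMem V₁ hV₁ h𝔓₁ (fun h' => hd₁ (h1 h'))) ?_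
    rw [← map_mul, ← map_mul, ← map_sub]
    exact (h𝔓₁ _).1 hc₁
  · refine sub_mem_of_cross V₂ (div_mul_cancel₀ _ hD0) hy₂ hD2
      (val_eq_one_of_notMem V₂ hV₂ h𝔓₂ (fun h' => hd₂ (h2 h'))) ?_
    rw [← map_mul, ← map_mul, ← map_sub]
    exact (h𝔓₂ _).1 hc₂

include hV₁ hV₂ h𝔓₁ h𝔓₂ in
/-- **The corrector at a point of the branch `𝔓₁` only**: a unit `y₁ = a₁/d₁` at `𝔫` and ANY unit
`y₂ = a₂/d₂` of `V₂` (`a₂ d₂ ∉ 𝔓₂`) are the residues on `V₁` and `V₂` of one unit `ξ = N/D` at `𝔫`. -/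
theorem exists_corrector_branch [h𝔫 : 𝔫.IsPrime] [h₂ : 𝔓₂.IsPrime] (h1 : 𝔓₁ ≤ 𝔫)
    {e₁ e₂ : R} (he₁ : e₁ ∈ 𝔓₁) (he₁' : e₁ ∉ 𝔓₂) (he₂ : e₂ ∈ 𝔓₂) (he₂' : e₂ ∉ 𝔫)
    {y₁ y₂ : F} {a₁ d₁ a₂ d₂ : R} (hy₁ : y₁ * algebraMap R F d₁ = algebraMap R F a₁)
    (hy₂ : y₂ * algebraMap R F d₂ = algebraMap R F a₂)
    (ha₁ : a₁ ∉ 𝔫) (hd₁ : d₁ ∉ 𝔫) (ha₂ : a₂ ∉ 𝔓₂) (hd₂ : d₂ ∉ 𝔓₂) :
    ∃ (ξ : F) (N D : R), N ∉ 𝔫 ∧ D ∉ 𝔫 ∧ ξ * algebraMap R F D = algebraMap R F N ∧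
      ξ - y₁ ∈ V₁.nonunits ∧ ξ - y₂ ∈ V₂.nonunits := by
  obtain ⟨N, D, hN, hD, -, hD2', hc₁, hc₂⟩ :=
    exists_glue_branch h1 he₁ he₁' he₂ he₂' ha₁ hd₁ ha₂ hd₂
  have hD1 := val_eq_one_of_notMem V₁ hV₁ h𝔓₁ (fun h' => hD (h1 h'))
  have hD2 := val_eq_one_of_notMem V₂ hV₂ h𝔓₂ hD2'
  have hD0 : algebraMap R F D ≠ 0 := fun h0 => by
    rw [h0, map_zero] at hD1; exact zero_ne_one hD1
  refine ⟨algebraMap R F N / algebraMap R F D, N, D, hN, hD, div_mul_cancel₀ _ hD0, ?_, ?_⟩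
  · refine sub_mem_of_cross V₁ (div_mul_cancel₀ _ hD0) hy₁ hD1
      (val_eq_one_of_notMem V₁ hV₁ h𝔓₁ (fun h' => hd₁ (h1 h'))) ?_
    rw [← map_mul, ← map_mul, ← map_sub]
    exact (h𝔓₁ _).1 hc₁
  · refine sub_mem_of_cross V₂ (div_mul_cancel₀ _ hD0) hy₂ hD2
      (val_eq_one_of_notMem V₂ hV₂ h𝔓₂ hd₂) ?_
    rw [← map_mul, ← map_mul, ← map_sub]
    exact (h𝔓₂ _).1 hc₂

include hV₁ hV₂ h𝔓₁ h𝔓₂ in
/-- **Local root at a point of the branch `𝔓₁` only.**  `t` a unit of `V₁` and `V₂` whose residue on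
`V₁` is a unit at `𝔫` (`t ≡ a₁/d₁`) and which is a fraction `a₂/d₂` prime to `𝔓₂`: there is a unit
`N/D` at `𝔫` such that `η := t · D / N` is `≡ 1` on both `V₁` and `V₂`. -/
theorem exists_localRoot_branch [h𝔫 : 𝔫.IsPrime] [h₂ : 𝔓₂.IsPrime] (h1 : 𝔓₁ ≤ 𝔫)
    {e₁ e₂ : R} (he₁ : e₁ ∈ 𝔓₁) (he₁' : e₁ ∉ 𝔓₂) (he₂ : e₂ ∈ 𝔓₂) (he₂' : e₂ ∉ 𝔫)
    {t y₁ : F} {a₁ d₁ a₂ d₂ : R} (hy₁ : y₁ * algebraMap R F d₁ = algebraMap R F a₁)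
    (ht₁ : t - y₁ ∈ V₁.nonunits)
    (ht₂ : t * algebraMap R F d₂ = algebraMap R F a₂)
    (ha₁ : a₁ ∉ 𝔫) (hd₁ : d₁ ∉ 𝔫) (ha₂ : a₂ ∉ 𝔓₂) (hd₂ : d₂ ∉ 𝔓₂) :
    ∃ (η : F) (N D : R), N ∉ 𝔫 ∧ D ∉ 𝔫 ∧ η * algebraMap R F N = t * algebraMap R F D ∧
      η - 1 ∈ V₁.nonunits ∧ η - 1 ∈ V₂.nonunits := by
  obtain ⟨ξ, N, D, hN, hD, hξ, hξ₁, hξ₂⟩ := exists_corrector_branch V₁ V₂ hV₁ hV₂ h𝔓₁ h𝔓₂ h1
    he₁ he₁' he₂ he₂' hy₁ ht₂ ha₁ hd₁ ha₂ hd₂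
  have hva₁ := val_eq_one_of_notMem V₁ hV₁ h𝔓₁ (fun h' => ha₁ (h1 h'))
  have hvd₁ := val_eq_one_of_notMem V₁ hV₁ h𝔓₁ (fun h' => hd₁ (h1 h'))
  have hva₂ := val_eq_one_of_notMem V₂ hV₂ h𝔓₂ ha₂
  have hvd₂ := val_eq_one_of_notMem V₂ hV₂ h𝔓₂ hd₂
  have hvy₁ : V₁.valuation y₁ = 1 := by
    have := congrArg V₁.valuation hy₁
    rwa [map_mul, hvd₁, hva₁, mul_one] at this
  have hvt₂ : V₂.valuation t = 1 := by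
    have := congrArg V₂.valuation ht₂
    rwa [map_mul, hvd₂, hva₂, mul_one] at this
  have hvξ₁ : V₁.valuation ξ = 1 := val_eq_one_of_sub V₁ hvy₁ hξ₁
  have hξ0 : ξ ≠ 0 := fun h0 => by rw [h0, map_zero] at hvξ₁; exact zero_ne_one hvξ₁
  have hN0 : algebraMap R F N ≠ 0 := by
    have hvN := val_eq_one_of_notMem V₁ hV₁ h𝔓₁ (fun h' => hN (h1 h'))
    intro h0
    rw [h0, map_zero] at hvN
    exact zero_ne_one hvN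
  refine ⟨t / ξ, N, D, hN, hD, ?_, div_sub_one_mem V₁ hvy₁ ht₁ hξ₁, ?_⟩
  · rw [← hξ]
    field_simp
  · have h0 : t - t ∈ V₂.nonunits := by
      rw [sub_self, nu_iff, map_zero]
      exact zero_lt_one
    exact div_sub_one_mem V₂ hvt₂ h0 hξ₂

variable (σ : R → R) {m : ℕ} (hFP : ∀ r, σ r - r ^ m ∈ 𝔫)
  (σF : F →+* F) (hσ : ∀ r : R, σF (algebraMap R F r) = algebraMap R F (σ r))
  (hσV₁ : ∀ x ∈ V₁.nonunits, σF x ∈ V₁.nonunits) (hσV₂ : ∀ x ∈ V₂.nonunits, σF x ∈ V₂.nonunits)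

include hV₁ hV₂ h𝔓₁ h𝔓₂ hFP hσ hσV₁ hσV₂ in
/-- **Local root at a crossing point** (`σ`-fixed, `σ ≡ (·)^m` on the residue field of `𝔫`).
`B ∈ F` with residues `y₁ = a₁/d₁` on `V₁` and `y₂ = a₂/d₂` on `V₂`, both units at `𝔫`.  Then
`σ B / B ^ m` has residues `σ yᵢ / yᵢ ^ m` of value `1` at `𝔫`, these glue to a unit `N/D` at `𝔫`, and
`η := (σ B / B ^ m) · D / N` is `≡ 1` on both `V₁` and `V₂`. -/
theorem exists_localRoot_node [h𝔫 : 𝔫.IsPrime] (h1 : 𝔓₁ ≤ 𝔫) (h2 : 𝔓₂ ≤ 𝔫)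
    (hnode : ∀ r ∈ 𝔫, ∃ c, c ∉ 𝔫 ∧ ∃ p₁ ∈ 𝔓₁, ∃ p₂ ∈ 𝔓₂, c * r = p₁ + p₂)
    {B y₁ y₂ : F} {a₁ d₁ a₂ d₂ : R} (hy₁ : y₁ * algebraMap R F d₁ = algebraMap R F a₁)
    (hy₂ : y₂ * algebraMap R F d₂ = algebraMap R F a₂)
    (ha₁ : a₁ ∉ 𝔫) (hd₁ : d₁ ∉ 𝔫) (ha₂ : a₂ ∉ 𝔫) (hd₂ : d₂ ∉ 𝔫)
    (hB₁ : B - y₁ ∈ V₁.nonunits) (hB₂ : B - y₂ ∈ V₂.nonunits) :
    ∃ (η : F) (N D : R), N ∉ 𝔫 ∧ D ∉ 𝔫 ∧
      η * algebraMap R F N = σF B / B ^ m * algebraMap R F D ∧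
      η - 1 ∈ V₁.nonunits ∧ η - 1 ∈ V₂.nonunits := by
  -- the two twisted residues as fractions
  have hfrac : ∀ {y : F} {a d : R}, y * algebraMap R F d = algebraMap R F a →
      algebraMap R F a ≠ 0 → algebraMap R F d ≠ 0 → algebraMap R F (σ d) ≠ 0 →
      σF y / y ^ m * algebraMap R F (σ d * a ^ m) = algebraMap R F (σ a * d ^ m) := by
    intro y a d hy ha0 hd0 hσd0
    have hy0 : y ≠ 0 := by
      intro h0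
      rw [h0, zero_mul] at hy
      exact ha0 hy.symm
    have h3 : σF y * algebraMap R F (σ d) = algebraMap R F (σ a) := by
      rw [← hσ, ← hσ, ← map_mul, hy]
    rw [map_mul, map_mul, map_pow, map_pow, ← hy, ← h3]
    field_simp
    ring
  have hne : ∀ (V : ValuationSubring F) {𝔓 : Ideal R} (_ : ∀ r : R, algebraMap R F r ∈ V)
      (_ : ∀ r : R, r ∈ 𝔓 ↔ algebraMap R F r ∈ V.nonunits) (_ : 𝔓 ≤ 𝔫) {r : R}, r ∉ 𝔫 →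
      V.valuation (algebraMap R F r) = 1 := fun V 𝔓 hV h𝔓 hle r hr =>
    val_eq_one_of_notMem V hV h𝔓 (fun h' => hr (hle h'))
  have hne0 : ∀ {r : R}, r ∉ 𝔫 → algebraMap R F r ≠ 0 := by
    intro r hr h0
    have := hne V₁ hV₁ h𝔓₁ h1 hr
    rw [h0, map_zero] at this
    exact zero_ne_one this
  have hσa₁ := frob_notMem σ hFP ha₁
  have hσd₁ := frob_notMem σ hFP hd₁
  have hσa₂ := frob_notMem σ hFP ha₂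
  have hσd₂ := frob_notMem σ hFP hd₂
  have hpow : ∀ {r : R}, r ∉ 𝔫 → r ^ m ∉ 𝔫 := fun hr h' => hr (h𝔫.mem_of_pow_mem _ h')
  have hmul : ∀ {r s : R}, r ∉ 𝔫 → s ∉ 𝔫 → r * s ∉ 𝔫 := fun hr hs h' =>
    (h𝔫.mem_or_mem h').elim hr hs
  have hξ₁ := hfrac hy₁ (hne0 ha₁) (hne0 hd₁) (hne0 hσd₁)
  have hξ₂ := hfrac hy₂ (hne0 ha₂) (hne0 hd₂) (hne0 hσd₂)
  -- same value at `𝔫`
  have hsame : (σ a₁ * d₁ ^ m) * (σ d₂ * a₂ ^ m) - (σ a₂ * d₂ ^ m) * (σ d₁ * a₁ ^ m) ∈ 𝔫 := by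
    have e1 := frob_mul_sub_mem σ hFP a₁ d₁
    have e2 := frob_mul_sub_mem σ hFP a₂ d₂
    have : (σ a₁ * d₁ ^ m) * (σ d₂ * a₂ ^ m) - (σ a₂ * d₂ ^ m) * (σ d₁ * a₁ ^ m) =
        (σ a₁ * d₁ ^ m - σ d₁ * a₁ ^ m) * (σ d₂ * a₂ ^ m) -
          (σ a₂ * d₂ ^ m - σ d₂ * a₂ ^ m) * (σ d₁ * a₁ ^ m) := by ring
    rw [this]
    exact 𝔫.sub_mem (𝔫.mul_mem_right _ e1) (𝔫.mul_mem_right _ e2)
  obtain ⟨ξ, N, D, hN, hD, hξ, hc₁, hc₂⟩ := exists_corrector_node V₁ V₂ hV₁ hV₂ h𝔓₁ h𝔓₂ h1 h2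
    hnode hξ₁ hξ₂ (hmul hσd₁ (hpow ha₁)) (hmul hσd₂ (hpow ha₂)) (hmul hσa₁ (hpow hd₁)) hsame
  -- `σ B / B ^ m ≡ σ yᵢ / yᵢ ^ m` on `Vᵢ`
  have hcong : ∀ (V : ValuationSubring F) {𝔓 : Ideal R} (_ : ∀ r : R, algebraMap R F r ∈ V)
      (_ : ∀ r : R, r ∈ 𝔓 ↔ algebraMap R F r ∈ V.nonunits) (_ : 𝔓 ≤ 𝔫)
      (_ : ∀ x ∈ V.nonunits, σF x ∈ V.nonunits) {y : F} {a d : R},
      y * algebraMap R F d = algebraMap R F a → a ∉ 𝔫 → d ∉ 𝔫 → B - y ∈ V.nonunits →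
      V.valuation (σF y / y ^ m) = 1 ∧ σF B / B ^ m - σF y / y ^ m ∈ V.nonunits := by
    intro V 𝔓 hV h𝔓 hle hσV y a d hy ha hd hB
    have hvy : V.valuation y = 1 := by
      have := congrArg V.valuation hy
      rwa [map_mul, hne V hV h𝔓 hle hd, hne V hV h𝔓 hle ha, mul_one] at this
    have hvσy : V.valuation (σF y) = 1 := by
      have h3 : σF y * algebraMap R F (σ d) = algebraMap R F (σ a) := by
        rw [← hσ, ← hσ, ← map_mul, hy]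
      have := congrArg V.valuation h3
      rwa [map_mul, hne V hV h𝔓 hle (frob_notMem σ hFP hd),
        hne V hV h𝔓 hle (frob_notMem σ hFP ha), mul_one] at this
    have hvym : V.valuation (y ^ m) = 1 := by rw [map_pow, hvy, one_pow]
    refine ⟨by rw [map_div₀, hvσy, hvym, div_one], ?_⟩
    refine div_sub_div_mem V hvσy.le hvym ?_ ?_
    · rw [← map_sub]
      exact hσV _ hB
    · -- `B ^ m - y ^ m = (B - y) * (geometric sum)`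
      have hvB : V.valuation B = 1 := val_eq_one_of_sub V hvy hB
      have hgeom := (Commute.all B y).geom_sum₂_mul m
      rw [← hgeom]
      refine nu_mul_left V ?_ hB
      refine Valuation.map_sum_le _ (fun i _ => ?_)
      rw [map_mul, map_pow, map_pow, hvB, hvy, one_pow, one_pow, one_mul]
  obtain ⟨hu₁, hq₁⟩ := hcong V₁ hV₁ h𝔓₁ h1 hσV₁ hy₁ ha₁ hd₁ hB₁
  obtain ⟨hu₂, hq₂⟩ := hcong V₂ hV₂ h𝔓₂ h2 hσV₂ hy₂ ha₂ hd₂ hB₂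
  have hvξ₁ : V₁.valuation ξ = 1 := val_eq_one_of_sub V₁ hu₁ hc₁
  have hξ0 : ξ ≠ 0 := fun h0 => by rw [h0, map_zero] at hvξ₁; exact zero_ne_one hvξ₁
  refine ⟨σF B / B ^ m / ξ, N, D, hN, hD, ?_, div_sub_one_mem V₁ hu₁ hq₁ hc₁,
    div_sub_one_mem V₂ hu₂ hq₂ hc₂⟩
  rw [← hξ]
  field_simp

end Field

end Fermat.Agent.P4.NodeGlue
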