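import Mathlib
import Fermat.Agent.P4.FrobLevel
import Fermat.Agent.P4.NodeGlue
import Fermat.Agent.P4.TwistRoots
import Fermat.Agent.P3G.TwoComponentsFinal
import Fermat.Agent.P3G.TwoComponentsInfFinal

/-!
# P4-S35, block (Q1)/(Q3) glue (helper5): `TwistRoots.CrossingFrob` at a stable good level

`K` a `Γ`-stable level, `O_K = baseRing A K` a discrete valuation ring with algebraically closed
residue field `κ`, `φ` a Frobenius element at `A | q`.

* `chartAut K hK M hτ s hs` : the automorphism of the chart `chartAlg O_K F_K(M) {s}` (`s` a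
  Galois-invariant generator) induced by `τ ∈ D_A`; `rfinAut`, `rinfAut`;
* `crossingFrob_of_crossingData` : **generic** — for a chart carrying `Crossing.CrossingData` whose
  two residue maps `θ₁ θ₂` have the centres of `V₁ V₂` as kernels and on which a Frobenius element
  acts through `ψ⁻¹` (`ψ (θ₁ (Φ r)) = θ₁ r`): the square of the Frobenius fixes every crossing point,
  induces the `q²`-power map on its residue field, and the crossing points are nodes, i.e.
  `TwistRoots.CrossingFrob (chartAut (φ ^ 2)) (q ^ 2) V₁ V₂`;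
* `thetaFin_rfinAut`, `theta2S_rfinAut`, `thetaInf_rinfAut`, `theta2InfS_rinfAut` : a Frobenius
  element acts on the four chart reductions through `CrossingLaurent.Fr`;
* `crossingFrob_fin`, `crossingFrob_inf` : the two charts of level `N q`, with `V₁` = Gauss,
  `V₂ = S₂.V`, and ANY automorphism `ρ` of the chart restricting `levelFF (φ ^ 2)`.
-/

set_option autoImplicit false
set_option linter.unusedSectionVars false
set_option linter.style.haveILetI false

open AlgebraicCurve ModularCurve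
open Fermat.Agent.N4.BigDVR Fermat.Agent.N4.FrobDensity Fermat.Agent.N4.Setting
open Fermat.Agent.N4.Chart Fermat.Agent.N4.FibreEmbedding
open Fermat.Agent.N4F.C Fermat.Agent.N4F.C.Levels Fermat.Agent.N4F.C.LevelCharts
open Fermat.Agent.N4F.C.CoeffAut Fermat.Agent.N4F.C.Galois Fermat.Agent.N4F.C.LevelTheta
open Fermat.Agent.N4F.E.DegreeLevelRaise Fermat.Agent.N4F.E.GaussDVR
open Fermat.Agent.S28.Gauss

namespace Fermat.Agent.P4.CrossingFrobLevel

open Fermat.Agent.P3G.Gamma Fermat.Agent.P3G.GammaTame Fermat.Agent.P3G.GammaAut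
open Fermat.Agent.P3G.GammaGauss Fermat.Agent.P3G.GammaLevelMaps Fermat.Agent.P3G.FibreTwo
open Fermat.Agent.P3G.GammaV2 Fermat.Agent.P3G.Crossing Fermat.Agent.P3G
open Fermat.Agent.P4.FrobLevel Fermat.Agent.P4.TwistRoots Fermat.Agent.P4.NodeGlue

local notation "Γ" => (AlgebraicClosure ℚ ≃ₐ[ℚ] AlgebraicClosure ℚ)

/-! ### The automorphism of a chart induced by the decomposition group -/

section ChartAut

variable (K : IntermediateField ℚ Qb) (hK : ∀ (τ : Γ) (x : Qb), x ∈ K → τ x ∈ K)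
  (M : ℕ) [NeZero M] {A : ValuationSubring Qb}

theorem smul_mem_chart {τ : Γ} (hτ : τ ∈ A.decompositionSubgroup ℚ) (s : FF (Lvl K) M)
    (hs : ∀ σ : Γ, levelFF K hK M σ • s = s) {x : FF (Lvl K) M}
    (hx : x ∈ chartAlg ↥(baseRing A K) (FF (Lvl K) M) {s}) :
    levelFF K hK M τ • x ∈ chartAlg ↥(baseRing A K) (FF (Lvl K) M) {s} :=
  levelFF_smul_mem_chartAlg K hK M hτ (S := {s}) (fun u hu => by
    rw [Set.mem_singleton_iff] at hu
    rw [hu, hs]) hx

/-- **The automorphism of the chart `chartAlg O_K F_K(M) {s}` induced by `τ ∈ D_A`.** -/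
noncomputable def chartAut {τ : Γ} (hτ : τ ∈ A.decompositionSubgroup ℚ) (s : FF (Lvl K) M)
    (hs : ∀ σ : Γ, levelFF K hK M σ • s = s) :
    ↥(chartAlg ↥(baseRing A K) (FF (Lvl K) M) {s}) ≃+*
      ↥(chartAlg ↥(baseRing A K) (FF (Lvl K) M) {s}) where
  toFun r := ⟨levelFF K hK M τ • (r : FF (Lvl K) M), smul_mem_chart K hK M hτ s hs r.2⟩
  invFun r := ⟨levelFF K hK M τ⁻¹ • (r : FF (Lvl K) M),
    smul_mem_chart K hK M (inv_mem hτ) s hs r.2⟩
  left_inv r := Subtype.ext (levelFF_inv_smul_smul K hK M τ _)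
  right_inv r := Subtype.ext (by
    show levelFF K hK M τ • levelFF K hK M τ⁻¹ • (r : FF (Lvl K) M) = r
    rw [map_inv, smul_inv_smul])
  map_mul' x y := Subtype.ext (smul_mul' _ _ _)
  map_add' x y := Subtype.ext (smul_add _ _ _)

@[simp] theorem coe_chartAut {τ : Γ} (hτ : τ ∈ A.decompositionSubgroup ℚ) (s : FF (Lvl K) M)
    (hs : ∀ σ : Γ, levelFF K hK M σ • s = s)
    (r : ↥(chartAlg ↥(baseRing A K) (FF (Lvl K) M) {s})) :
    ((chartAut K hK M hτ s hs r : ↥(chartAlg ↥(baseRing A K) (FF (Lvl K) M) {s})) :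
      FF (Lvl K) M) = levelFF K hK M τ • (r : FF (Lvl K) M) := rfl

/-- `hρ` of `TwistRoots.localRoots_twist`. -/
theorem algebraMap_chartAut {τ : Γ} (hτ : τ ∈ A.decompositionSubgroup ℚ) (s : FF (Lvl K) M)
    (hs : ∀ σ : Γ, levelFF K hK M σ • s = s)
    (r : ↥(chartAlg ↥(baseRing A K) (FF (Lvl K) M) {s})) :
    algebraMap ↥(chartAlg ↥(baseRing A K) (FF (Lvl K) M) {s}) (FF (Lvl K) M)
        (chartAut K hK M hτ s hs r) =
      SemilinearAut.toRingAut (levelFF K hK M τ)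
        (algebraMap ↥(chartAlg ↥(baseRing A K) (FF (Lvl K) M) {s}) (FF (Lvl K) M) r) := rfl

theorem chartAut_mul {σ τ : Γ} (hσ : σ ∈ A.decompositionSubgroup ℚ)
    (hτ : τ ∈ A.decompositionSubgroup ℚ) (s : FF (Lvl K) M)
    (hs : ∀ σ : Γ, levelFF K hK M σ • s = s)
    (r : ↥(chartAlg ↥(baseRing A K) (FF (Lvl K) M) {s})) :
    chartAut K hK M (mul_mem hσ hτ) s hs r =
      chartAut K hK M hσ s hs (chartAut K hK M hτ s hs r) :=
  Subtype.ext (by
    show levelFF K hK M (σ * τ) • (r : FF (Lvl K) M) =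
      levelFF K hK M σ • levelFF K hK M τ • (r : FF (Lvl K) M)
    rw [map_mul, mul_smul])

theorem chartAut_sq {φ : Γ} (hφ : φ ∈ A.decompositionSubgroup ℚ)
    (h2 : φ ^ 2 ∈ A.decompositionSubgroup ℚ) (s : FF (Lvl K) M)
    (hs : ∀ σ : Γ, levelFF K hK M σ • s = s)
    (r : ↥(chartAlg ↥(baseRing A K) (FF (Lvl K) M) {s})) :
    chartAut K hK M h2 s hs r = chartAut K hK M hφ s hs (chartAut K hK M hφ s hs r) :=
  Subtype.ext (by
    show levelFF K hK M (φ ^ 2) • (r : FF (Lvl K) M) =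
      levelFF K hK M φ • levelFF K hK M φ • (r : FF (Lvl K) M)
    rw [sq, map_mul, mul_smul])

/-- The automorphism of the finite chart. -/
noncomputable abbrev rfinAut {τ : Γ} (hτ : τ ∈ A.decompositionSubgroup ℚ) :
    ↥(Rfin (Lvl K) M (baseRing A K)) ≃+* ↥(Rfin (Lvl K) M (baseRing A K)) :=
  chartAut K hK M hτ (jF (Lvl K) M) (fun σ => levelFF_smul_jF K hK M σ)

/-- The automorphism of the chart at infinity. -/
noncomputable abbrev rinfAut {τ : Γ} (hτ : τ ∈ A.decompositionSubgroup ℚ) :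
    ↥(Rinf (Lvl K) M (baseRing A K)) ≃+* ↥(Rinf (Lvl K) M (baseRing A K)) :=
  chartAut K hK M hτ (jF (Lvl K) M)⁻¹ (fun σ => levelFF_smul_jF_inv K hK M σ)

end ChartAut

/-! ### `CrossingFrob` from `Crossing.CrossingData` -/

section Generic

variable (K : IntermediateField ℚ Qb) (hK : ∀ (τ : Γ) (x : Qb), x ∈ K → τ x ∈ K)
  (M : ℕ) [NeZero M] {A : ValuationSubring Qb} [IsDiscreteValuationRing ↥(baseRing A K)]
  [IsAlgClosed (IsLocalRing.ResidueField ↥(baseRing A K))]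

/-- **`CrossingFrob` from `Crossing.CrossingData`.**  `R = chartAlg O_K F_K(M) {s}` with two residue
maps `θ₁ θ₂ : R → Rb` (part of a `CrossingData`, `Rb` a Dedekind domain which is not a field) whose
kernels are the centres of `V₁ V₂` and satisfy (V) `ker θ₁ ⊓ ker θ₂ ≤ (ϖ)`; `φ` a Frobenius element
acting on `θ₁` through `ψ⁻¹`.  Then `φ²` fixes the crossing points, is the `q²`-power map on their
residue fields, and the crossing points are nodes. -/
theorem crossingFrob_of_crossingData {q : ℕ} {φ : Γ} (hφ : A.IsFrobeniusAt φ q)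
    (s : FF (Lvl K) M) (hs : ∀ σ : Γ, levelFF K hK M σ • s = s)
    {RM Rb : Type*} [CommRing RM] [CommRing Rb] [IsDedekindDomain Rb] (hfield : ¬ IsField Rb)
    {ℓ : ℕ} {α β : RM → ↥(chartAlg ↥(baseRing A K) (FF (Lvl K) M) {s})} {θ : RM →+* Rb}
    {θ₁ θ₂ : ↥(chartAlg ↥(baseRing A K) (FF (Lvl K) M) {s}) →+* Rb} {ψ : Rb ≃+* Rb}
    (D : CrossingData ℓ α β θ θ₁ θ₂ ψ)
    (V₁ V₂ : ValuationSubring (FF (Lvl K) M))
    (hker₁ : ∀ r : ↥(chartAlg ↥(baseRing A K) (FF (Lvl K) M) {s}),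
      θ₁ r = 0 ↔ (r : FF (Lvl K) M) ∈ V₁.nonunits)
    (hker₂ : ∀ r : ↥(chartAlg ↥(baseRing A K) (FF (Lvl K) M) {s}),
      θ₂ r = 0 ↔ (r : FF (Lvl K) M) ∈ V₂.nonunits)
    {ϖ : ↥(baseRing A K)} (hϖ : Irreducible ϖ)
    (hV : RingHom.ker θ₁ ⊓ RingHom.ker θ₂ =
      Ideal.span {algebraMap ↥(baseRing A K) ↥(chartAlg ↥(baseRing A K) (FF (Lvl K) M) {s}) ϖ})
    (hΦ : ∀ r, ψ (θ₁ (chartAut K hK M hφ.mem_decompositionSubgroup s hs r)) = θ₁ r)
    (ρ : ↥(chartAlg ↥(baseRing A K) (FF (Lvl K) M) {s}) ≃+*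
      ↥(chartAlg ↥(baseRing A K) (FF (Lvl K) M) {s}))
    (hρ : ∀ r, ((ρ r : ↥(chartAlg ↥(baseRing A K) (FF (Lvl K) M) {s})) : FF (Lvl K) M) =
      levelFF K hK M (φ ^ 2) • (r : FF (Lvl K) M)) :
    CrossingFrob ρ (q ^ 2) V₁ V₂ := by
  have hτ2 := (isPowFrob_pow_of_isFrobeniusAt hφ 2).1
  have hρ' : ρ = chartAut K hK M hτ2 s hs := RingEquiv.ext fun r => Subtype.ext (hρ r)
  subst hρ'
  intro 𝔫 h𝔫 hT1 hT2
  haveI := h𝔫
  have hk1 : RingHom.ker θ₁ ≤ 𝔫 := fun r hr => hT1 r ((hker₁ r).1 hr)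
  have hk2 : RingHom.ker θ₂ ≤ 𝔫 := fun r hr => hT2 r ((hker₂ r).1 hr)
  have hϖ1 : algebraMap ↥(baseRing A K) ↥(chartAlg ↥(baseRing A K) (FF (Lvl K) M) {s}) ϖ ∈
      RingHom.ker θ₁ := (hV.ge (Ideal.mem_span_singleton_self _)).1
  have hfix : ∀ r, chartAut K hK M hτ2 s hs r ∈ 𝔫 ↔ r ∈ 𝔫 := by
    intro r
    rw [chartAut_sq K hK M hφ.mem_decompositionSubgroup hτ2 s hs r]
    exact map_map_mem_iff D 𝔫 hk1 hk2 _ hΦ r
  have hϖ𝔫 : algebraMap ↥(baseRing A K) ↥(chartAlg ↥(baseRing A K) (FF (Lvl K) M) {s}) ϖ ∈ 𝔫 :=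
    hk1 hϖ1
  refine ⟨hfix, ?_, ?_⟩
  · intro r
    exact levelFF_sub_pow_mem_chart K hK M (isPowFrob_pow_of_isFrobeniusAt hφ 2) s (hs _) 𝔫 hϖ hϖ𝔫
      (fun x hx => (hfix x).2 hx) r
  · intro r hr
    have hbot : 𝔫.map θ₁ ≠ ⊥ := by
      haveI := isMaximal_map θ₁ D.surj₁ 𝔫 hk1
      exact Ring.ne_bot_of_isMaximal_of_not_isField inferInstance hfield
    obtain ⟨c, hc, p₁, hp₁, p₂, hp₂, he⟩ :=
      node_of_crossingData D 𝔫 hk1 hk2 hbot hV.le hϖ1 r hr
    exact ⟨c, p₁, p₂, hc, (hker₁ p₁).1 hp₁, (hker₂ p₂).1 hp₂, he⟩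

end Generic

/-! ### The two charts of level `N q` -/

section Charts

open Fermat.Agent.P3G.RbarFin Fermat.Agent.P3G.RbarInf Fermat.Agent.P3G.TwoComponents
open Fermat.Agent.P3G.TwoComponentsFinal Fermat.Agent.P3G.TwoComponentsInfFinal

variable (K : IntermediateField ℚ Qb) (hK : ∀ (τ : Γ) (x : Qb), x ∈ K → τ x ∈ K)
  (N : ℕ) [NeZero N] (q : ℕ) [Fact q.Prime] {A : ValuationSubring Qb}
  [IsDiscreteValuationRing ↥(baseRing A K)]
  [IsAlgClosed (IsLocalRing.ResidueField ↥(baseRing A K))]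
  [CharP (IsLocalRing.ResidueField ↥(baseRing A K)) q]
  [PerfectRing (IsLocalRing.ResidueField ↥(baseRing A K)) q]
  (hN : IsUnit ((N : ℕ) : ↥(baseRing A K))) (ι : Lvl K →+* ℂ) (hqN : ¬ q ∣ N)
  (hprime : (fibreIdeal (Lvl K) N (baseRing A K) (Rfin (Lvl K) N (baseRing A K))).IsPrime)
  (hsmooth : IsDedekindDomain (↥(Rfin (Lvl K) N (baseRing A K)) ⧸
    fibreIdeal (Lvl K) N (baseRing A K) (Rfin (Lvl K) N (baseRing A K))))
  (hprimeInf : (fibreIdeal (Lvl K) N (baseRing A K) (Rinf (Lvl K) N (baseRing A K))).IsPrime)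
  (hsmoothInf : IsDedekindDomain (↥(Rinf (Lvl K) N (baseRing A K)) ⧸
    fibreIdeal (Lvl K) N (baseRing A K) (Rinf (Lvl K) N (baseRing A K))))
  (hA2 : ∀ x : ↥(gaussSubalgebra (Lvl K) N (baseRing A K)),
    theta (Lvl K) N (baseRing A K) x ∈
      modularFunctionFieldFullC (IsLocalRing.ResidueField ↥(baseRing A K)) N)
  (S₂ : FibreTwo.SecondVal (Lvl K) N q (baseRing A K))
  {ϖ : ↥(baseRing A K)} (hϖ : Irreducible ϖ)

/-- A Frobenius element acts on the Gauss reduction of the finite chart through `Fr`. -/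
theorem thetaFin_rfinAut {φ : Γ} (hφ : A.IsFrobeniusAt φ q) (M : ℕ) [NeZero M]
    (r : ↥(Rfin (Lvl K) M (baseRing A K))) :
    thetaFin (Lvl K) M (baseRing A K) (rfinAut K hK M hφ.mem_decompositionSubgroup r) =
      CrossingLaurent.Fr (IsLocalRing.ResidueField ↥(baseRing A K)) q
        (thetaFin (Lvl K) M (baseRing A K) r) :=
  theta_levelFF_smul_frobenius K hK M hφ ⟨(r : FF (Lvl K) M),
    chartAlg_le_gaussSubalgebra (Lvl K) M (baseRing A K)
      (sFin_le_gauss (Lvl K) M (baseRing A K)) r.2⟩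

/-- A Frobenius element acts on the Gauss reduction of the chart at infinity through `Fr`. -/
theorem thetaInf_rinfAut {φ : Γ} (hφ : A.IsFrobeniusAt φ q) (M : ℕ) [NeZero M]
    (r : ↥(Rinf (Lvl K) M (baseRing A K))) :
    thetaInf (Lvl K) M (baseRing A K) (rinfAut K hK M hφ.mem_decompositionSubgroup r) =
      CrossingLaurent.Fr (IsLocalRing.ResidueField ↥(baseRing A K)) q
        (thetaInf (Lvl K) M (baseRing A K) r) :=
  theta_levelFF_smul_frobenius K hK M hφ ⟨(r : FF (Lvl K) M),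
    chartAlg_le_gaussSubalgebra (Lvl K) M (baseRing A K)
      (sInf_le_gauss (Lvl K) M (baseRing A K)) r.2⟩

/-- A Frobenius element acts on the second reduction of the finite chart through `Fr`. -/
theorem theta2S_rfinAut {φ : Γ} (hφ : A.IsFrobeniusAt φ q)
    (r : ↥(Rfin (Lvl K) (N * q) (baseRing A K))) :
    theta2S (Lvl K) N q (baseRing A K) S₂
        (rfinAut K hK (N * q) hφ.mem_decompositionSubgroup r) =
      CrossingLaurent.Fr (IsLocalRing.ResidueField ↥(baseRing A K)) q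
        (theta2S (Lvl K) N q (baseRing A K) S₂ r) := by
  rw [theta2S_apply, theta2S_apply]
  exact ev_levelFF_smul_frobenius K hK N q S₂ hφ
    ⟨(r : FF (Lvl K) (N * q)), SecondValBridge.Rfin_le_V (Lvl K) N q (baseRing A K) S₂ r.2⟩

/-- A Frobenius element acts on the second reduction of the chart at infinity through `Fr`. -/
theorem theta2InfS_rinfAut {φ : Γ} (hφ : A.IsFrobeniusAt φ q)
    (r : ↥(Rinf (Lvl K) (N * q) (baseRing A K))) :
    theta2InfS (Lvl K) N q (baseRing A K) S₂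
        (rinfAut K hK (N * q) hφ.mem_decompositionSubgroup r) =
      CrossingLaurent.Fr (IsLocalRing.ResidueField ↥(baseRing A K)) q
        (theta2InfS (Lvl K) N q (baseRing A K) S₂ r) := by
  rw [theta2InfS_apply, theta2InfS_apply]
  exact ev_levelFF_smul_frobenius K hK N q S₂ hφ
    ⟨(r : FF (Lvl K) (N * q)), SecondValBridge.Rinf_le_V (Lvl K) N q (baseRing A K) S₂ r.2⟩

include hN ι hqN hprime hsmooth hA2 hϖ in
/-- **`CrossingFrob` for the finite chart of level `N q`**: `φ²` fixes every crossing point of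
`Rfin (Lvl K) (N q) O_K`, induces the `q²`-power map on its residue field, and the crossing points
are nodes.  `ρ` is ANY ring automorphism of the chart restricting `levelFF (φ ^ 2)` (e.g.
`rfinAut`, or `TwistSetup.restrictEquiv`). -/
theorem crossingFrob_fin {φ : Γ} (hφ : A.IsFrobeniusAt φ q)
    (ρ : ↥(Rfin (Lvl K) (N * q) (baseRing A K)) ≃+* ↥(Rfin (Lvl K) (N * q) (baseRing A K)))
    (hρ : ∀ r, ((ρ r : ↥(Rfin (Lvl K) (N * q) (baseRing A K))) : FF (Lvl K) (N * q)) =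
      levelFF K hK (N * q) (φ ^ 2) • (r : FF (Lvl K) (N * q))) :
    CrossingFrob ρ (q ^ 2) (gaussVS (Lvl K) (N * q) (baseRing A K)) S₂.V := by
  haveI := isDedekindDomain_RbarFin (Lvl K) N (baseRing A K) hprime hsmooth
  refine crossingFrob_of_crossingData K hK (N * q) hφ (jF (Lvl K) (N * q))
    (fun σ => levelFF_smul_jF K hK (N * q) σ)
    (not_isField_RbarFin (Lvl K) N (baseRing A K) hprime)
    (crossingData_fin (Lvl K) N q (baseRing A K) hN ι hqN hprime hsmooth hA2 S₂)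
    (gaussVS (Lvl K) (N * q) (baseRing A K)) S₂.V ?_ ?_ hϖ
    (ker_inf_ker_eq_fin (Lvl K) N q (baseRing A K) hN ι hqN hprime hsmooth hA2 S₂ hϖ) ?_ ρ hρ
  · intro r
    rw [← RingHom.mem_ker, CrossingLaurent.ker_res, RingHom.mem_ker, thetaFin_apply]
    exact (mem_nonunits_gaussVS_iff (Lvl K) (N * q) (baseRing A K) _).symm
  · intro r
    rw [← RingHom.mem_ker, CrossingLaurent.ker_res, RingHom.mem_ker, theta2S_apply]
    exact S₂.ev_eq_zero_iff _
  · intro r
    apply Subtype.ext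
    rw [CrossingLaurent.coe_psi]
    calc CrossingLaurent.FrInv (IsLocalRing.ResidueField ↥(baseRing A K)) q
          (thetaFin (Lvl K) (N * q) (baseRing A K)
            (rfinAut K hK (N * q) hφ.mem_decompositionSubgroup r))
        = CrossingLaurent.FrInv (IsLocalRing.ResidueField ↥(baseRing A K)) q
            (CrossingLaurent.Fr (IsLocalRing.ResidueField ↥(baseRing A K)) q
              (thetaFin (Lvl K) (N * q) (baseRing A K) r)) :=
          congrArg _ (thetaFin_rfinAut K hK q hφ (N * q) r)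
      _ = thetaFin (Lvl K) (N * q) (baseRing A K) r := CrossingLaurent.FrInv_Fr _ q _

include hN ι hqN hprime hprimeInf hsmoothInf hA2 hϖ in
/-- **`CrossingFrob` for the chart at infinity of level `N q`.** -/
theorem crossingFrob_inf {φ : Γ} (hφ : A.IsFrobeniusAt φ q)
    (ρ : ↥(Rinf (Lvl K) (N * q) (baseRing A K)) ≃+* ↥(Rinf (Lvl K) (N * q) (baseRing A K)))
    (hρ : ∀ r, ((ρ r : ↥(Rinf (Lvl K) (N * q) (baseRing A K))) : FF (Lvl K) (N * q)) =
      levelFF K hK (N * q) (φ ^ 2) • (r : FF (Lvl K) (N * q))) :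
    CrossingFrob ρ (q ^ 2) (gaussVS (Lvl K) (N * q) (baseRing A K)) S₂.V := by
  haveI := isDedekindDomain_RbarInf (Lvl K) N (baseRing A K) hprimeInf hsmoothInf
  refine crossingFrob_of_crossingData K hK (N * q) hφ (jF (Lvl K) (N * q))⁻¹
    (fun σ => levelFF_smul_jF_inv K hK (N * q) σ)
    (not_isField_RbarInf (Lvl K) N (baseRing A K) hprimeInf)
    (crossingData_inf (Lvl K) N q (baseRing A K) hN ι hqN hprime hprimeInf hsmoothInf hA2 S₂)
    (gaussVS (Lvl K) (N * q) (baseRing A K)) S₂.V ?_ ?_ hϖ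
    (ker_inf_ker_eq_inf (Lvl K) N q (baseRing A K) hN ι hqN hprime hprimeInf hsmoothInf hA2 S₂
      hϖ) ?_ ρ hρ
  · intro r
    rw [← RingHom.mem_ker, CrossingLaurent.ker_res, RingHom.mem_ker, thetaInf_apply]
    exact (mem_nonunits_gaussVS_iff (Lvl K) (N * q) (baseRing A K) _).symm
  · intro r
    rw [← RingHom.mem_ker, CrossingLaurent.ker_res, RingHom.mem_ker, theta2InfS_apply]
    exact S₂.ev_eq_zero_iff _
  · intro r
    apply Subtype.ext
    rw [CrossingLaurent.coe_psi]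
    calc CrossingLaurent.FrInv (IsLocalRing.ResidueField ↥(baseRing A K)) q
          (thetaInf (Lvl K) (N * q) (baseRing A K)
            (rinfAut K hK (N * q) hφ.mem_decompositionSubgroup r))
        = CrossingLaurent.FrInv (IsLocalRing.ResidueField ↥(baseRing A K)) q
            (CrossingLaurent.Fr (IsLocalRing.ResidueField ↥(baseRing A K)) q
              (thetaInf (Lvl K) (N * q) (baseRing A K) r)) :=
          congrArg _ (thetaInf_rinfAut K hK q hφ (N * q) r)
      _ = thetaInf (Lvl K) (N * q) (baseRing A K) r := CrossingLaurent.FrInv_Fr _ q _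

end Charts

end Fermat.Agent.P4.CrossingFrobLevel
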