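/-
P4-S35, block P4-C2L(b), finite chart (helper29): **`TwistRoots.Setup` and both `TwistRoots.BranchNormal`s
for the finite chart `Rfin K (N ℓ) O` of the level `N ℓ`**, with `V₁ = gaussVS K (N ℓ) O` and
`V₂ = S₂.V` (the second vertical valuation ring of a `FibreTwo.SecondVal`).

This is helper17's `SetupOfTheta.setup_branchNormal_chart_of_theta` fed with the two reductions
`θ₁ = ` Gauss reduction, `θ₂ = S₂.ev` of helper13's `TwoComponentsFinal.crossingData_fin`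
(corestricted to the Dedekind domain `RbarFin K N O`), helper12's `FibreSatBridge.twoVal / semiP`
and the two kernel descriptions `hker₁`, `hker₂`.

* `res_thetaFin_eq_zero_iff`, `res_theta2S_eq_zero_iff` : `θᵢ r = 0 ↔ r ∈ 𝔪_{Vᵢ}`;
* `setup_branchNormal_fin` : `Setup ∧ BranchNormal V₁ e ∧ BranchNormal V₂ e`;
* `setup_fin`, `branchNormal₁_fin`, `branchNormal₂_fin` : the three components.
-/
import Mathlib
import Fermat.Agent.P3G.TwoComponentsFinal
import Fermat.Agent.P3G.FibreSatBridge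
import Fermat.Agent.P4.SetupOfTheta

set_option autoImplicit false
set_option linter.unusedSectionVars false
set_option linter.style.haveILetI false

open ModularCurve Fermat.Agent.S28.Gauss Fermat.Agent.N4.Setting Fermat.Agent.N4.FibreEmbedding
open Fermat.Agent.N4.Chart
open Fermat.Agent.N4F.E.DegreeLevelRaise Fermat.Agent.N4F.E.GaussDVR AlgebraicCurve Polynomial
open Fermat.Agent.N4F.E IsLocalRing Fermat.Agent.P3G.RbarFin Fermat.Agent.P3G.TwoComponents
open Fermat.Agent.P3G.TwoComponentsFinal Fermat.Agent.P3G Fermat.Agent.P4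

noncomputable section

namespace Fermat.Agent.P4.BranchNormalLevel

variable (K : Type) [Field K] [CharZero K] (N : ℕ) [NeZero N] (ℓ : ℕ) [Fact ℓ.Prime]
  (O : Subring K) [IsDiscreteValuationRing ↥O] [IsFractionRing ↥O K]
  [CharP (IsLocalRing.ResidueField ↥O) ℓ] [PerfectRing (IsLocalRing.ResidueField ↥O) ℓ]

set_option quotPrecheck false in
local notation "κ" => IsLocalRing.ResidueField ↥O

set_option synthInstance.maxHeartbeats 400000

variable (hN : IsUnit ((N : ℕ) : ↥O)) (ι : K →+* ℂ) (hℓN : ¬ ℓ ∣ N)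
  (hprime : (fibreIdeal K N O (Rfin K N O)).IsPrime)
  (hsmooth : IsDedekindDomain (↥(Rfin K N O) ⧸ fibreIdeal K N O (Rfin K N O)))
  (hA2 : ∀ x : ↥(gaussSubalgebra K N O),
    theta K N O x ∈ modularFunctionFieldFullC (IsLocalRing.ResidueField ↥O) N)
  (S₂ : FibreTwo.SecondVal K N ℓ O)
  {ϖ : ↥O} (hϖ : Irreducible ϖ)

include hN ι hℓN hprime hsmooth hA2 in
/-- `hker₁`: the Gauss reduction of `r` vanishes iff `r ∈ 𝔪_{V₁}`. -/
theorem res_thetaFin_eq_zero_iff (r : ↥(Rfin K (N * ℓ) O)) :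
    CrossingLaurent.res (RbarFin K N O) (thetaFin K (N * ℓ) O)
        (thetaFin_mem_rbar K N ℓ O hN ι hℓN hprime hsmooth hA2 S₂) r = 0 ↔
      algebraMap ↥(Rfin K (N * ℓ) O) (FF K (N * ℓ)) r ∈ (gaussVS K (N * ℓ) O).nonunits := by
  have h1 : CrossingLaurent.res (RbarFin K N O) (thetaFin K (N * ℓ) O)
      (thetaFin_mem_rbar K N ℓ O hN ι hℓN hprime hsmooth hA2 S₂) r = 0 ↔
      thetaFin K (N * ℓ) O r = 0 := by
    rw [← RingHom.mem_ker, CrossingLaurent.ker_res, RingHom.mem_ker]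
  rw [h1, thetaFin_apply]
  exact (FibreTwo.mem_nonunits_gaussVS_iff K (N * ℓ) O _).symm

include hN hprime hsmooth hA2 in
/-- `hker₂`: the second reduction of `r` vanishes iff `r ∈ 𝔪_{V₂}`. -/
theorem res_theta2S_eq_zero_iff (r : ↥(Rfin K (N * ℓ) O)) :
    CrossingLaurent.res (RbarFin K N O) (theta2S K N ℓ O S₂)
        (theta2S_mem_rbar K N ℓ O hN hprime hsmooth hA2 S₂) r = 0 ↔
      algebraMap ↥(Rfin K (N * ℓ) O) (FF K (N * ℓ)) r ∈ S₂.V.nonunits := by
  have h1 : CrossingLaurent.res (RbarFin K N O) (theta2S K N ℓ O S₂)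
      (theta2S_mem_rbar K N ℓ O hN hprime hsmooth hA2 S₂) r = 0 ↔
      theta2S K N ℓ O S₂ r = 0 := by
    rw [← RingHom.mem_ker, CrossingLaurent.ker_res, RingHom.mem_ker]
  rw [h1, theta2S_apply]
  exact S₂.ev_eq_zero_iff _

include hN ι hℓN hprime hsmooth hA2 hϖ in
/-- **`Setup` and both `BranchNormal`s for the finite chart of level `N ℓ`.** -/
theorem setup_branchNormal_fin {e : ℕ} (he : e ≠ 0) :
    TwistRoots.Setup (↥(Rfin K (N * ℓ) O)) ϖ (gaussVS K (N * ℓ) O) S₂.V ∧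
      TwistRoots.BranchNormal (↥(Rfin K (N * ℓ) O)) ϖ (gaussVS K (N * ℓ) O) e ∧
      TwistRoots.BranchNormal (↥(Rfin K (N * ℓ) O)) ϖ S₂.V e := by
  haveI := Fermat.Agent.N4.ModPolySetting.finiteDimensional_FF K (N * ℓ)
  haveI : IsDedekindDomain ↥(RbarFin K N O) := isDedekindDomain_RbarFin K N O hprime hsmooth
  have hB := FibreIdent.betaOut_of_secondVal K N ℓ O S₂
  have hD := crossingData_fin K N ℓ O hN ι hℓN hprime hsmooth hA2 S₂
  exact SetupOfTheta.setup_branchNormal_chart_of_theta (O := ↥O) (K₀ := K)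
    (F₀ := FF K (N * ℓ)) (jF K (N * ℓ)) (Fermat.Agent.N4.FFAlgebraic.transcendental_jF K (N * ℓ))
    hϖ (FibreSatBridge.twoVal K N ℓ O ι hℓN hprime hB S₂ hϖ)
    (FibreSatBridge.semiP K N ℓ O ι hℓN hprime hB S₂ hϖ) (Ne.symm S₂.ne_gauss)
    _ _ hD.surj₁ hD.surj₂ (not_isField_RbarFin K N O hprime) (not_isField_RbarFin K N O hprime)
    (res_thetaFin_eq_zero_iff K N ℓ O hN ι hℓN hprime hsmooth hA2 S₂)
    (res_theta2S_eq_zero_iff K N ℓ O hN hprime hsmooth hA2 S₂) he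

include hN ι hℓN hprime hsmooth hA2 hϖ in
theorem setup_fin :
    TwistRoots.Setup (↥(Rfin K (N * ℓ) O)) ϖ (gaussVS K (N * ℓ) O) S₂.V :=
  (setup_branchNormal_fin K N ℓ O hN ι hℓN hprime hsmooth hA2 S₂ hϖ one_ne_zero).1

include hN ι hℓN hprime hsmooth hA2 hϖ in
theorem branchNormal₁_fin {e : ℕ} (he : e ≠ 0) :
    TwistRoots.BranchNormal (↥(Rfin K (N * ℓ) O)) ϖ (gaussVS K (N * ℓ) O) e := by
  obtain ⟨S₂⟩ := FibreTwo.nonempty_secondVal K N ℓ O ι hℓN hprime hA2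
  exact (setup_branchNormal_fin K N ℓ O hN ι hℓN hprime hsmooth hA2 S₂ hϖ he).2.1

include hN ι hℓN hprime hsmooth hA2 hϖ in
theorem branchNormal₂_fin {e : ℕ} (he : e ≠ 0) :
    TwistRoots.BranchNormal (↥(Rfin K (N * ℓ) O)) ϖ S₂.V e :=
  (setup_branchNormal_fin K N ℓ O hN ι hℓN hprime hsmooth hA2 S₂ hϖ he).2.2

end Fermat.Agent.P4.BranchNormalLevel
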