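/-
P4-S35, top of the geometric chain (helper11): THE FUNCTION-FIELD FORM OF THE BAD-PRIME
EICHLER–SHIMURA RELATION ON THE `q`-NEW PART.

For `q ∤ N`, a Frobenius lift `φ` at a place `A | q`, and a list `l = [(e₁, a₁), …, (e_r, a_r)]` the
relation is
      `(φ^{e₁} − a₁) ∘ ⋯ ∘ (φ^{e_r} − a_r) x = 0`
for every `x ∈ J_0(N q)[p^k]` (`p ≠ q`) whose two push-forwards to `J_0(N)` vanish.
(`l = [(2, q²), (2, 1), (2, 1)]` is `(φ² − q²)(φ² − 1)² x = 0`, `l = [(2, q²), (2, 1)]` is
`(φ² − q²)(φ² − 1) x = 0`; the LAST entry of the list is applied FIRST.)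

* generic: twisted differences `twDiv g a D = g D − a D`, `twFn g a f = g f / f ^ a`, their lists,
  `IsDivOf.twL`, `twPicL_mk`, `twPicL_eq_zero_of_root`; norms along an embedding `normAlong`,
  `IsDivOf.normAlong` (push-forward of a principal divisor = divisor of the norm);
* `FrobStepAt N q l` : the prime-degree Kummer form — only functions occur in it, in exactly the
  shape in which the cover theorem `no_split_cover` is applied (clone of `P3G.GeomStep.GeomStepAt`);
* `frobRootAt_of_step` : induction on the exponent;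
* `relation_of_root`, `relation_of_step` : the relation on `J_0(N q)` (divisor-level hypotheses
  "every representative has principal push-forwards"), `relation_of_step_alphaPush` with
  `P3G.AuxPrime.alphaPush`.
-/
import Mathlib
import Fermat.Agent.P3G.GeomStep
import Fermat.Agent.P3G.AuxPrime

set_option autoImplicit false
set_option linter.unusedSectionVars false
set_option linter.dupNamespace false
set_option linter.style.haveILetI false

open ModularCurve AlgebraicCurve

noncomputable section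

namespace Fermat.Agent.P4.FrobStep

open Fermat.Agent.P3G.GammaDict

/-! ### Generic part: twisted differences -/

section Generic

variable {K F : Type*} [Field K] [Field F] [Algebra K F]

theorem IsDivOf.zpow {f : F} {D : Divisor K F} (hf : IsDivOf f D) (a : ℤ) :
    IsDivOf (f ^ a) (a • D) := by
  refine ⟨zpow_ne_zero a hf.1, fun v => ?_⟩
  rw [Finsupp.smul_apply, hf.2 v, v.ord_zpow, smul_eq_mul]

variable (g : SemilinearAut K F) (a : ℤ)

/-- The twisted difference `g D − a D` of a divisor of degree `0`. -/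
def twDiv (D : Divisor.degZero (K := K) (F := F)) : Divisor.degZero (K := K) (F := F) :=
  SemilinearAut.degZeroSMulHom g D - a • D

@[simp] theorem coe_twDiv (D : Divisor.degZero (K := K) (F := F)) :
    (twDiv g a D : Divisor K F) = g • (D : Divisor K F) - a • (D : Divisor K F) := rfl

/-- The twisted difference `g f / f ^ a` of a function. -/
def twFn (f : F) : F := (g • f) / f ^ a

theorem twFn_def (f : F) : twFn g a f = (g • f) / f ^ a := rfl

theorem smul_ne_zero' {f : F} (hf : f ≠ 0) : g • f ≠ 0 := by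
  intro h
  have h1 : g • f = g • (0 : F) := by rw [h, smul_zero]
  exact hf (MulAction.injective g h1)

theorem twFn_ne_zero {f : F} (hf : f ≠ 0) : twFn g a f ≠ 0 :=
  div_ne_zero (smul_ne_zero' g hf) (zpow_ne_zero a hf)

theorem IsDivOf.tw {m : ℕ} {f : F} {D : Divisor.degZero (K := K) (F := F)}
    (hf : IsDivOf f (m • (D : Divisor K F))) :
    IsDivOf (twFn g a f) (m • (twDiv g a D : Divisor K F)) := by
  have h1 := (hf.smul g).div (IsDivOf.zpow hf a)
  rw [coe_twDiv, smul_sub, ← smul_nsmul_divisor, smul_comm m a]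
  exact h1

/-- The class of a twisted difference. -/
theorem tw_mk (D : Divisor.degZero (K := K) (F := F)) :
    g • Pic0.mk D - a • Pic0.mk D = Pic0.mk (twDiv g a D) := by
  rw [SemilinearAut.pic0_smul_mk]
  have h : a • Pic0.mk D = Pic0.mk (a • D) := (QuotientAddGroup.mk_zsmul _ D a).symm
  rw [h]
  rfl

/-! #### Lists of twisted differences (the last entry is applied first) -/

/-- Iterated twisted difference of a divisor. -/
def twDivL (ops : List (SemilinearAut K F × ℤ)) (D : Divisor.degZero (K := K) (F := F)) :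
    Divisor.degZero (K := K) (F := F) :=
  ops.foldr (fun o E => twDiv o.1 o.2 E) D

/-- Iterated twisted difference of a function. -/
def twFnL (ops : List (SemilinearAut K F × ℤ)) (f : F) : F :=
  ops.foldr (fun o h => twFn o.1 o.2 h) f

/-- Iterated twisted difference of a divisor class. -/
def twPicL (ops : List (SemilinearAut K F × ℤ)) (x : Pic0 K F) : Pic0 K F :=
  ops.foldr (fun o y => o.1 • y - o.2 • y) x

@[simp] theorem twDivL_nil (D : Divisor.degZero (K := K) (F := F)) : twDivL [] D = D := rfl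

@[simp] theorem twDivL_cons (o : SemilinearAut K F × ℤ) (ops : List (SemilinearAut K F × ℤ))
    (D : Divisor.degZero (K := K) (F := F)) :
    twDivL (o :: ops) D = twDiv o.1 o.2 (twDivL ops D) := rfl

@[simp] theorem twFnL_nil (f : F) : twFnL ([] : List (SemilinearAut K F × ℤ)) f = f := rfl

@[simp] theorem twFnL_cons (o : SemilinearAut K F × ℤ) (ops : List (SemilinearAut K F × ℤ))
    (f : F) : twFnL (o :: ops) f = twFn o.1 o.2 (twFnL ops f) := rfl

@[simp] theorem twPicL_nil (x : Pic0 K F) : twPicL ([] : List (SemilinearAut K F × ℤ)) x = x := rfl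

@[simp] theorem twPicL_cons (o : SemilinearAut K F × ℤ) (ops : List (SemilinearAut K F × ℤ))
    (x : Pic0 K F) : twPicL (o :: ops) x = o.1 • twPicL ops x - o.2 • twPicL ops x := rfl

theorem twFnL_ne_zero (ops : List (SemilinearAut K F × ℤ)) {f : F} (hf : f ≠ 0) :
    twFnL ops f ≠ 0 := by
  induction ops with
  | nil => exact hf
  | cons o ops ih => exact twFn_ne_zero o.1 o.2 ih

theorem IsDivOf.twL (ops : List (SemilinearAut K F × ℤ)) {m : ℕ} {f : F}
    {D : Divisor.degZero (K := K) (F := F)} (hf : IsDivOf f (m • (D : Divisor K F))) :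
    IsDivOf (twFnL ops f) (m • (twDivL ops D : Divisor K F)) := by
  induction ops with
  | nil => exact hf
  | cons o ops ih => exact IsDivOf.tw o.1 o.2 ih

theorem twPicL_mk (ops : List (SemilinearAut K F × ℤ)) (D : Divisor.degZero (K := K) (F := F)) :
    twPicL ops (Pic0.mk D) = Pic0.mk (twDivL ops D) := by
  induction ops with
  | nil => rfl
  | cons o ops ih => rw [twPicL_cons, ih, tw_mk, twDivL_cons]

/-- **Root criterion**: if `m D = div f` and the iterated twisted difference of `f` is a constant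
times an `m`-th power, then the iterated twisted difference of `[D]` vanishes. -/
theorem twPicL_eq_zero_of_root (ops : List (SemilinearAut K F × ℤ)) {m : ℕ} (hm : m ≠ 0)
    (D : Divisor.degZero (K := K) (F := F)) {f w : F} {c : K}
    (hf : IsDivOf f (m • (D : Divisor K F))) (hc : c ≠ 0)
    (hw : twFnL ops f = algebraMap K F c * w ^ m) : twPicL ops (Pic0.mk D) = 0 := by
  rw [twPicL_mk]
  exact mk_eq_zero_of_isDivOf_nsmul_of_pow hm _ (IsDivOf.twL ops hf) hc hw

end Generic

/-! ### Generic part: norms along an embedding -/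

section Norm

variable {K F F' : Type*} [Field K] [Field F] [Field F'] [Algebra K F] [Algebra K F']

/-- The norm of `F'` over `F` along an embedding `φ : F → F'`. -/
def normAlong (φ : F →ₐ[K] F') : F' →* F :=
  letI := algebraAlong φ
  Algebra.norm F

/-- **The divisor of the norm is the push-forward of the divisor.** -/
theorem IsDivOf.normAlong (φ : F →ₐ[K] F') (hφ : φ.toRingHom.IsIntegral)
    (hfin : FiniteAlong K φ) (hN : NormFormulaAlong K φ hfin) {f : F'} {D : Divisor K F'}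
    (hf : IsDivOf f D) : IsDivOf (normAlong φ f) (Divisor.pushforwardAlong φ hφ D) := by
  letI := algebraAlong φ
  haveI := isScalarTower_along φ
  haveI := isIntegral_along φ hφ
  haveI : Module.Finite F F' := hfin
  refine ⟨?_, fun v => ?_⟩
  · exact Algebra.norm_ne_zero_iff.mpr hf.1
  · exact hN f hf.1 D hf.2 v

end Norm

/-! ### The modular form of the statement -/

section Modular

open Fermat.Agent.N4F.C Fermat.Agent.N4F.C.Galois Fermat.Agent.N4F.A.LevelMaps
  Fermat.Agent.N4F.A.HeckeInputsFinal Fermat.Agent.P3G.GeomStep Fermat.Agent.P3G.AuxPrime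

local notation "Qbar" => AlgebraicClosure ℚ
local notation "Γ" => (AlgebraicClosure ℚ ≃ₐ[ℚ] AlgebraicClosure ℚ)

variable (N q : ℕ) [NeZero N] [NeZero q]

/-- The norm along `α : F_N ⊂ F_{N q}`. -/
def normAlpha : Fb (N * q) →* Fb N := normAlong (heckeAlphaBar Qbar N q)

/-- The norm along `β : F_N ⊂ F_{N q}`. -/
def normBeta : Fb (N * q) →* Fb N := normAlong (heckeBetaBar Qbar N q)

/-- Push-forward of divisors along `α`. -/
def pushAlpha : Divisor Qb (Fb (N * q)) →+ Divisor Qb (Fb N) :=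
  Divisor.pushforwardAlong (heckeAlphaBar Qbar N q) (heckeAlphaBarIntegral N q)

/-- Push-forward of divisors along `β`. -/
def pushBeta : Divisor Qb (Fb (N * q)) →+ Divisor Qb (Fb N) :=
  Divisor.pushforwardAlong (heckeBetaBar Qbar N q) (heckeBetaBarIntegral N q)

theorem isDivOf_normAlpha {f : Fb (N * q)} {D : Divisor Qb (Fb (N * q))} (hf : IsDivOf f D) :
    IsDivOf (normAlpha N q f) (pushAlpha N q D) :=
  IsDivOf.normAlong (heckeAlphaBar Qbar N q) (heckeAlphaBarIntegral N q)
    (finiteAlong_heckeAlphaBar N q) (normFormulaAlong_heckeAlphaBar N q) hf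

theorem isDivOf_normBeta {f : Fb (N * q)} {D : Divisor Qb (Fb (N * q))} (hf : IsDivOf f D) :
    IsDivOf (normBeta N q f) (pushBeta N q D) :=
  IsDivOf.normAlong (heckeBetaBar Qbar N q) (heckeBetaBarIntegral N q)
    (finiteAlong_heckeBetaBar N q) (normFormulaAlong_heckeBetaBar N q) hf

/-- The list of operators `(φ^e, a)` on the function field of level `M`. -/
def ops (M : ℕ) (l : List (ℕ × ℤ)) (φ : Γ) : List (SemilinearAut Qb (Fb M) × ℤ) :=
  l.map fun o => (gal M (φ ^ o.1), o.2)

/-- The iterated twisted difference `(φ^{e₁} − a₁) ∘ ⋯ ∘ (φ^{e_r} − a_r)` on `J_0(M)`. -/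
def twJ (M : ℕ) (l : List (ℕ × ℤ)) (φ : Γ) (x : JZero M) : JZero M :=
  l.foldr (fun o y => (φ ^ o.1) • y - o.2 • y) x

theorem twJ_eq_twPicL (M : ℕ) (l : List (ℕ × ℤ)) (φ : Γ) (x : JZero M) :
    twJ M l φ x = twPicL (ops M l φ) x := by
  induction l with
  | nil => rfl
  | cons o l ih =>
    show (φ ^ o.1) • twJ M l φ x - o.2 • twJ M l φ x = _
    rw [ih]
    rfl

/-- **The bad-prime relation, prime-degree Kummer form, at one level `N` and one prime `q ∤ N`.** -/
def FrobStepAt (l : List (ℕ × ℤ)) : Prop :=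
  ∀ A : ValuationSubring Qbar, A.LiesOverPrime q → ∀ φ : Γ, A.IsFrobeniusAt φ q →
    ∀ p : ℕ, p.Prime → p ≠ q → ∀ k j : ℕ, j < k →
      ∀ (f κ : Fb (N * q)) (hA hB : Fb N) (c cA cB : Qb), f ≠ 0 → c ≠ 0 → cA ≠ 0 → cB ≠ 0 →
        (∀ P : Place Qb (Fb (N * q)), ((p ^ k : ℕ) : ℤ) ∣ P.ord f) →
        normAlpha N q f = algebraMap Qb (Fb N) cA * hA ^ (p ^ k) →
        normBeta N q f = algebraMap Qb (Fb N) cB * hB ^ (p ^ k) →
        κ ^ (p ^ j) = algebraMap Qb (Fb (N * q)) c * twFnL (ops (N * q) l φ) f →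
          ∃ (c' : Qb) (w : Fb (N * q)), c' ≠ 0 ∧ κ = algebraMap Qb (Fb (N * q)) c' * w ^ p

/-- **The bad-prime relation, root form.** -/
def FrobRootAt (l : List (ℕ × ℤ)) : Prop :=
  ∀ A : ValuationSubring Qbar, A.LiesOverPrime q → ∀ φ : Γ, A.IsFrobeniusAt φ q →
    ∀ p : ℕ, p.Prime → p ≠ q → ∀ k : ℕ,
      ∀ (f : Fb (N * q)) (hA hB : Fb N) (cA cB : Qb), f ≠ 0 → cA ≠ 0 → cB ≠ 0 →
        (∀ P : Place Qb (Fb (N * q)), ((p ^ k : ℕ) : ℤ) ∣ P.ord f) →
        normAlpha N q f = algebraMap Qb (Fb N) cA * hA ^ (p ^ k) →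
        normBeta N q f = algebraMap Qb (Fb N) cB * hB ^ (p ^ k) →
          ∃ (c : Qb) (w : Fb (N * q)), c ≠ 0 ∧
            twFnL (ops (N * q) l φ) f = algebraMap Qb (Fb (N * q)) c * w ^ (p ^ k)

variable {N q}

/-- Induction on the exponent: the Kummer form gives the root form. -/
theorem frobRootAt_of_step {l : List (ℕ × ℤ)} (h : FrobStepAt N q l) : FrobRootAt N q l := by
  intro A hA φ hφ p hp hpq k f hA' hB' cA cB hf hcA hcB hdiv hnA hnB
  have key : ∀ j : ℕ, j ≤ k → ∃ (c : Qb) (w : Fb (N * q)), c ≠ 0 ∧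
      twFnL (ops (N * q) l φ) f = algebraMap Qb (Fb (N * q)) c * w ^ (p ^ j) := by
    intro j
    induction j with
    | zero =>
      intro _
      exact ⟨1, twFnL (ops (N * q) l φ) f, one_ne_zero, by
        rw [map_one, one_mul, pow_zero, pow_one]⟩
    | succ j ih =>
      intro hj
      obtain ⟨c, w, hc, hw⟩ := ih (Nat.le_of_succ_le hj)
      have h1 : w ^ (p ^ j) = algebraMap Qb (Fb (N * q)) c⁻¹ * twFnL (ops (N * q) l φ) f := by
        rw [hw, ← mul_assoc, ← map_mul, inv_mul_cancel₀ hc, map_one, one_mul]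
      obtain ⟨c', w', hc', hw'⟩ := h A hA φ hφ p hp hpq k j (Nat.lt_of_succ_le hj) f w hA' hB'
        c⁻¹ cA cB hf (inv_ne_zero hc) hcA hcB hdiv hnA hnB h1
      refine ⟨c * c' ^ (p ^ j), w', mul_ne_zero hc (pow_ne_zero _ hc'), ?_⟩
      rw [hw, hw', mul_pow, ← pow_mul, ← pow_succ', map_mul, map_pow, mul_assoc]
  exact key k le_rfl

/-- **The relation on `J_0(N q)` from the root form**: for `x ∈ J_0(N q)[p^k]` such that both
push-forwards of every representing divisor are principal,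
`(φ^{e₁} − a₁) ∘ ⋯ ∘ (φ^{e_r} − a_r) x = 0`. -/
theorem relation_of_root {l : List (ℕ × ℤ)} (h : FrobRootAt N q l)
    (A : ValuationSubring Qbar) (hA : A.LiesOverPrime q) (φ : Γ) (hφ : A.IsFrobeniusAt φ q)
    (p : ℕ) (hp : p.Prime) (hpq : p ≠ q) (k : ℕ) (x : JZero (N * q)) (hx : p ^ k • x = 0)
    (hα : ∀ D : Divisor.degZero (K := Qb) (F := Fb (N * q)), Pic0.mk D = x →
      ∃ hA : Fb N, IsDivOf hA (pushAlpha N q (D : Divisor Qb (Fb (N * q)))))
    (hβ : ∀ D : Divisor.degZero (K := Qb) (F := Fb (N * q)), Pic0.mk D = x →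
      ∃ hB : Fb N, IsDivOf hB (pushBeta N q (D : Divisor Qb (Fb (N * q))))) :
    twJ (N * q) l φ x = 0 := by
  have hpk : p ^ k ≠ 0 := pow_ne_zero k hp.ne_zero
  obtain ⟨D, f, hDx, hf⟩ := exists_isDivOf_of_torsion (N * q) x (p ^ k) hx
  obtain ⟨hA', hhA⟩ := hα D hDx
  obtain ⟨hB', hhB⟩ := hβ D hDx
  have hdiv : ∀ P : Place Qb (Fb (N * q)), ((p ^ k : ℕ) : ℤ) ∣ P.ord f := by
    intro P
    rw [← hf.2 P, Finsupp.smul_apply, nsmul_eq_mul]
    exact Dvd.intro _ rfl
  -- the norms of `f` are constants times `p^k`-th powers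
  have h1 := isDivOf_normAlpha N q hf
  rw [map_nsmul] at h1
  obtain ⟨cA, hcA, hnA⟩ := IsDivOf.eq_const_mul N h1 (hhA.pow (p ^ k))
  have h2 := isDivOf_normBeta N q hf
  rw [map_nsmul] at h2
  obtain ⟨cB, hcB, hnB⟩ := IsDivOf.eq_const_mul N h2 (hhB.pow (p ^ k))
  obtain ⟨c, w, hc, hw⟩ := h A hA φ hφ p hp hpq k f hA' hB' cA cB hf.1 hcA hcB hdiv hnA hnB
  rw [twJ_eq_twPicL, ← hDx]
  exact twPicL_eq_zero_of_root (ops (N * q) l φ) hpk D hf hc hw

theorem relation_of_step {l : List (ℕ × ℤ)} (h : FrobStepAt N q l)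
    (A : ValuationSubring Qbar) (hA : A.LiesOverPrime q) (φ : Γ) (hφ : A.IsFrobeniusAt φ q)
    (p : ℕ) (hp : p.Prime) (hpq : p ≠ q) (k : ℕ) (x : JZero (N * q)) (hx : p ^ k • x = 0)
    (hα : ∀ D : Divisor.degZero (K := Qb) (F := Fb (N * q)), Pic0.mk D = x →
      ∃ hA : Fb N, IsDivOf hA (pushAlpha N q (D : Divisor Qb (Fb (N * q)))))
    (hβ : ∀ D : Divisor.degZero (K := Qb) (F := Fb (N * q)), Pic0.mk D = x →
      ∃ hB : Fb N, IsDivOf hB (pushBeta N q (D : Divisor Qb (Fb (N * q))))) :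
    twJ (N * q) l φ x = 0 :=
  relation_of_root (frobRootAt_of_step h) A hA φ hφ p hp hpq k x hx hα hβ

/-- The divisor-level hypothesis on `α` from `P3G.AuxPrime.alphaPush`. -/
theorem exists_isDivOf_pushAlpha_of_alphaPush {x : JZero (N * q)} (hx : alphaPush N q x = 0)
    (D : Divisor.degZero (K := Qb) (F := Fb (N * q))) (hD : Pic0.mk D = x) :
    ∃ hA : Fb N, IsDivOf hA (pushAlpha N q (D : Divisor Qb (Fb (N * q)))) := by
  letI := algebraAlong (heckeAlphaBar Qbar N q)
  haveI := isScalarTower_along (heckeAlphaBar Qbar N q)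
  haveI := isIntegral_along (heckeAlphaBar Qbar N q) (heckeAlphaBarIntegral N q)
  haveI : Module.Finite (modularFunctionFieldBar N) (modularFunctionFieldBar (N * q)) :=
    finiteAlong_heckeAlphaBar N q
  rw [← hD] at hx
  have h1 : Pic0.mk (Pic0.pushforwardDegZeroHom (modularFunctionFieldBar N) D) = 0 := hx
  exact (mk_eq_zero_iff _).mp h1

/-- The relation for two factors, unfolded. -/
theorem twJ_two (M : ℕ) (φ : Γ) (e₁ e₂ : ℕ) (a b : ℤ) (x : JZero M) :
    twJ M [(e₁, a), (e₂, b)] φ x =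
      (φ ^ e₁) • ((φ ^ e₂) • x - b • x) - a • ((φ ^ e₂) • x - b • x) := rfl

/-- The relation for three factors, unfolded. -/
theorem twJ_three (M : ℕ) (φ : Γ) (e₁ e₂ e₃ : ℕ) (a b c : ℤ) (x : JZero M) :
    twJ M [(e₁, a), (e₂, b), (e₃, c)] φ x =
      (φ ^ e₁) • ((φ ^ e₂) • ((φ ^ e₃) • x - c • x) - b • ((φ ^ e₃) • x - c • x)) -
        a • ((φ ^ e₂) • ((φ ^ e₃) • x - c • x) - b • ((φ ^ e₃) • x - c • x)) := rfl

/-! #### The polynomial form of the relation -/

/-- The action of `φ` on `J_0(M)` as a `ℤ`-linear endomorphism. -/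
def galEnd (M : ℕ) (φ : Γ) : Module.End ℤ (JZero M) :=
  (DistribSMul.toAddMonoidHom (JZero M) φ).toIntLinearMap

@[simp] theorem galEnd_apply (M : ℕ) (φ : Γ) (x : JZero M) : galEnd M φ x = φ • x := rfl

theorem galEnd_pow (M : ℕ) (φ : Γ) (e : ℕ) : galEnd M φ ^ e = galEnd M (φ ^ e) := by
  induction e with
  | zero =>
    ext x
    rw [pow_zero, pow_zero, Module.End.one_apply, galEnd_apply, one_smul]
  | succ e ih =>
    ext x
    rw [pow_succ, Module.End.mul_apply, ih, galEnd_apply, galEnd_apply, galEnd_apply, pow_succ,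
      mul_smul]

/-- The polynomial `∏ (X^{e_i} − a_i)`. -/
def relPoly (l : List (ℕ × ℤ)) : Polynomial ℤ :=
  (l.map fun o => Polynomial.X ^ o.1 - Polynomial.C o.2).prod

theorem relPoly_cons (o : ℕ × ℤ) (l : List (ℕ × ℤ)) :
    relPoly (o :: l) = (Polynomial.X ^ o.1 - Polynomial.C o.2) * relPoly l := by
  rw [relPoly, List.map_cons, List.prod_cons]
  rfl

/-- **Polynomial form**: `twJ M l φ` is the polynomial `∏ (X^{e_i} − a_i)` evaluated at the
endomorphism `x ↦ φ • x` of `J_0(M)`. -/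
theorem aeval_relPoly_apply (M : ℕ) (l : List (ℕ × ℤ)) (φ : Γ) (x : JZero M) :
    Polynomial.aeval (galEnd M φ) (relPoly l) x = twJ M l φ x := by
  induction l with
  | nil =>
    show Polynomial.aeval (galEnd M φ) (1 : Polynomial ℤ) x = x
    rw [map_one, Module.End.one_apply]
  | cons o l ih =>
    rw [relPoly_cons, map_mul, Module.End.mul_apply, ih, map_sub, map_pow, Polynomial.aeval_X,
      Polynomial.aeval_C, LinearMap.sub_apply, galEnd_pow, galEnd_apply,
      Module.algebraMap_end_apply]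
    rfl

/-! #### All levels -/

/-- The list of the PRIMARY relation `(φ² − q²)(φ² − 1)²`. -/
def relList (q : ℕ) : List (ℕ × ℤ) := [(2, (q : ℤ) ^ 2), (2, 1), (2, 1)]

/-- The list of the relation `(φ² − q²)(φ² − 1)`. -/
def relListShort (q : ℕ) : List (ℕ × ℤ) := [(2, (q : ℤ) ^ 2), (2, 1)]

theorem relPoly_relList (q : ℕ) :
    relPoly (relList q) =
      (Polynomial.X ^ 2 - Polynomial.C ((q : ℤ) ^ 2)) * (Polynomial.X ^ 2 - 1) ^ 2 := by
  rw [relList, relPoly_cons, relPoly_cons, relPoly_cons]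
  show _ * (_ * (_ * (1 : Polynomial ℤ))) = _
  rw [mul_one, map_one, pow_two ((Polynomial.X : Polynomial ℤ) ^ 2 - 1)]

theorem relPoly_relListShort (q : ℕ) :
    relPoly (relListShort q) =
      (Polynomial.X ^ 2 - Polynomial.C ((q : ℤ) ^ 2)) * (Polynomial.X ^ 2 - 1) := by
  rw [relListShort, relPoly_cons, relPoly_cons]
  show _ * (_ * (1 : Polynomial ℤ)) = _
  rw [mul_one, map_one]

end Modular

/-! ### The statement at all levels -/

section All

open Fermat.Agent.N4F.C

local notation "Qbar" => AlgebraicClosure ℚ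
local notation "Γ" => (AlgebraicClosure ℚ ≃ₐ[ℚ] AlgebraicClosure ℚ)

/-- **The bad-prime relation, prime-degree Kummer form, at all levels `N` and primes `q ∤ N`**
(`l q` = the list of factors, e.g. `relList q`). -/
def FrobStep (l : ℕ → List (ℕ × ℤ)) : Prop :=
  ∀ (N : ℕ) [NeZero N] (q : ℕ) [NeZero q], q.Prime → ¬ q ∣ N → FrobStepAt N q (l q)

/-- **The relation on the `q`-new part of `J_0(N q)[p^k]`** (divisor-level form of `q`-new). -/
theorem relation_of_frobStep {l : ℕ → List (ℕ × ℤ)} (h : FrobStep l) {N : ℕ} [NeZero N] {q : ℕ}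
    [NeZero q] (hq : q.Prime) (hqN : ¬ q ∣ N)
    (A : ValuationSubring Qbar) (hA : A.LiesOverPrime q) (φ : Γ) (hφ : A.IsFrobeniusAt φ q)
    (p : ℕ) (hp : p.Prime) (hpq : p ≠ q) (k : ℕ) (x : JZero (N * q)) (hx : p ^ k • x = 0)
    (hα : ∀ D : Divisor.degZero (K := Qb) (F := Fb (N * q)), Pic0.mk D = x →
      ∃ hA : Fb N, IsDivOf hA (pushAlpha N q (D : Divisor Qb (Fb (N * q)))))
    (hβ : ∀ D : Divisor.degZero (K := Qb) (F := Fb (N * q)), Pic0.mk D = x →
      ∃ hB : Fb N, IsDivOf hB (pushBeta N q (D : Divisor Qb (Fb (N * q))))) :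
    Polynomial.aeval (galEnd (N * q) φ) (relPoly (l q)) x = 0 := by
  rw [aeval_relPoly_apply]
  exact relation_of_step (h N q hq hqN) A hA φ hφ p hp hpq k x hx hα hβ

end All

end Fermat.Agent.P4.FrobStep
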