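/-
P4-S35, block (Q5) top (helper11): THE DESCENT FROM `Q̄` TO A GALOIS-STABLE LEVEL FOR THE BAD-PRIME
RELATION — the P4 twin of helper19's `P3G/Assembly/LevelStep.lean`.

`frobStepAt_of_levelFrob : q.Prime → LevelFrobAt N q l → FrobStep.FrobStepAt N q l`.

`LevelFrobAt N q l` is the geometric input at a stable level, in the exact shape of
`P3G.Assembly.StepOfLevel.exists_pow_eq_of_level` (= `PowCover.no_split_cover_pow` at
`FF (Lvl K) (N q)`): for a Frobenius lift `φ` at `A ∣ q`, a prime `p ≠ q` and `f ∈ Q̄ · F_{N q}` with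
`p ^ k ∣ div f` whose two norms to level `N` are constants times `p ^ k`-th powers, there is a number
field `K₁` such that at every GOOD level `K ⊇ K₁` and for every model `f_K` of `f`:

  there are a uniformiser `ϖ`, two valuation rings `V₁ V₂` of `FF (Lvl K) (N q)` with `W = V₁ ∩ V₂`
  semilocal Gauss for both charts, and a UNIT `G` of `W` such that
  `h := Ψ(f_K) / G ^ (p ^ k)` (`Ψ` = the iterated twisted difference `twK` at level `K`) is `≡ 1`
  modulo `ϖ W` and has local `p ^ k`-th roots `≡ 1` modulo `ϖ W` at every closed point of the special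
  fibres of both charts.

(With the norm–residue route: `G = τ g / g ^ (q²)` where `g ∈ W^×` lifts the two residues of the
abelian part, `τ = φ²`.)
-/
import Mathlib
import Fermat.Agent.P4.FrobStep
import Fermat.Agent.P3G.Assembly.LevelStep

set_option autoImplicit false
set_option linter.unusedSectionVars false
set_option linter.dupNamespace false
set_option linter.style.haveILetI false

open ModularCurve AlgebraicCurve IntermediateField

noncomputable section

namespace Fermat.Agent.P4.LevelFrobStep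

open Fermat.Agent.N4.Setting Fermat.Agent.N4.Chart Fermat.Agent.N4.S18Glue Fermat.Agent.N4.BigDVR
  Fermat.Agent.P3G.Cover.Lift Fermat.Agent.P3G.Assembly.PowCover
  Fermat.Agent.P3G.Assembly.StepOfLevel Fermat.Agent.P3G.Assembly.LevelStep
  Fermat.Agent.P3G.GammaDict Fermat.Agent.P3G.GeomStep
  Fermat.Agent.P3G.Gamma Fermat.Agent.P3G.GammaAut
  Fermat.Agent.N4F.C Fermat.Agent.N4F.C.Levels Fermat.Agent.N4F.C.Galois
  Fermat.Agent.P4.FrobStep

local notation "Qbar" => AlgebraicClosure ℚ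
local notation "Γ" => (AlgebraicClosure ℚ ≃ₐ[ℚ] AlgebraicClosure ℚ)

/-! ### The iterated twisted difference at a level -/

section TwK

variable (K : IntermediateField ℚ Qbar) (hK : ∀ (τ : Γ) (x : Qbar), x ∈ K → τ x ∈ K)
  (M : ℕ) [NeZero M]

/-- The list of operators `(φ^e, a)` at the stable level `K`. -/
def opsK (l : List (ℕ × ℤ)) (φ : Γ) : List (SemilinearAut (Lvl K) (FF (Lvl K) M) × ℤ) :=
  l.map fun o => (levelFF K hK M (φ ^ o.1), o.2)

/-- The iterated twisted difference of a function at the stable level `K`. -/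
def twK (l : List (ℕ × ℤ)) (φ : Γ) (f : FF (Lvl K) M) : FF (Lvl K) M :=
  twFnL (opsK K hK M l φ) f

theorem twK_nil (φ : Γ) (f : FF (Lvl K) M) : twK K hK M [] φ f = f := rfl

theorem twK_cons (o : ℕ × ℤ) (l : List (ℕ × ℤ)) (φ : Γ) (f : FF (Lvl K) M) :
    twK K hK M (o :: l) φ f =
      (levelFF K hK M (φ ^ o.1) • twK K hK M l φ f) / (twK K hK M l φ f) ^ o.2 := rfl

/-- The level map carries the iterated twisted difference at level `K` to the one over `Q̄`. -/
theorem levK_twK (l : List (ℕ × ℤ)) (φ : Γ) (f : FF (Lvl K) M) :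
    levK M K (twK K hK M l φ f) = twFnL (ops M l φ) (levK M K f) := by
  induction l with
  | nil => rfl
  | cons o l ih =>
    rw [twK_cons, map_div₀, map_zpow₀, levK_levelFF_smul, ih]
    rfl

end TwK

/-! ### The normalised form of `FrobStepAt` -/

/-- **The bad-prime relation, prime-degree Kummer form, normalised**: constant `1`, conclusion
`∃ w, w ^ p = κ`. -/
def FrobStepOneAt (N q : ℕ) [NeZero N] [NeZero q] (l : List (ℕ × ℤ)) : Prop :=
  ∀ A : ValuationSubring Qbar, A.LiesOverPrime q → ∀ φ : Γ, A.IsFrobeniusAt φ q →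
    ∀ p : ℕ, p.Prime → p ≠ q → ∀ k j : ℕ, j < k →
      ∀ (f κ : Fb (N * q)) (hA hB : Fb N) (cA cB : Qb), f ≠ 0 → cA ≠ 0 → cB ≠ 0 →
        (∀ P : Place Qb (Fb (N * q)), ((p ^ k : ℕ) : ℤ) ∣ P.ord f) →
        normAlpha N q f = algebraMap Qb (Fb N) cA * hA ^ (p ^ k) →
        normBeta N q f = algebraMap Qb (Fb N) cB * hB ^ (p ^ k) →
        κ ^ (p ^ j) = twFnL (ops (N * q) l φ) f →
          ∃ w : Fb (N * q), w ^ p = κ

/-- The normalised form gives `FrobStepAt` (`Q̄` is algebraically closed). -/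
theorem frobStepAt_of_one {N q : ℕ} [NeZero N] [NeZero q] {l : List (ℕ × ℤ)}
    (h : FrobStepOneAt N q l) : FrobStepAt N q l := by
  intro A hA φ hφ p hp hpq k j hjk f κ hA' hB' c cA cB hf hc hcA hcB hdiv hnA hnB hκ
  have hpj : p ^ j ≠ 0 := pow_ne_zero j hp.ne_zero
  obtain ⟨c₀, hc₀⟩ := IsAlgClosed.exists_pow_nat_eq c (Nat.pos_of_ne_zero hpj)
  have hc₀0 : c₀ ≠ 0 := by
    rintro rfl
    rw [zero_pow hpj] at hc₀
    exact hc hc₀.symm
  have hc₀F : algebraMap Qb (Fb (N * q)) c₀ ≠ 0 := (map_ne_zero _).mpr hc₀0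
  have h1 : (κ / algebraMap Qb (Fb (N * q)) c₀) ^ (p ^ j) = twFnL (ops (N * q) l φ) f := by
    rw [div_pow, hκ, ← map_pow, hc₀]
    exact mul_div_cancel_left₀ _ ((map_ne_zero _).mpr hc)
  obtain ⟨w, hw⟩ := h A hA φ hφ p hp hpq k j hjk f _ hA' hB' cA cB hf hcA hcB hdiv hnA hnB h1
  refine ⟨c₀, w, hc₀0, ?_⟩
  rw [hw, mul_div_cancel₀ _ hc₀F]

/-! ### The geometric input at a level -/

/-- **The bad-prime relation at a stable level**: the hypotheses of
`StepOfLevel.exists_pow_eq_of_level` for `Ψ(f_K) / G ^ (p ^ k)`, `G` a unit of `W`, at every good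
level above a number field `K₁` depending on the data. -/
def LevelFrobAt (N q : ℕ) [NeZero N] [NeZero q] (l : List (ℕ × ℤ)) : Prop :=
  ∀ A : ValuationSubring Qbar, A.LiesOverPrime q → ∀ φ : Γ, A.IsFrobeniusAt φ q →
    ∀ p : ℕ, p.Prime → p ≠ q → ∀ (k : ℕ) (f : Fb (N * q)) (hA hB : Fb N) (cA cB : Qb),
      f ≠ 0 → cA ≠ 0 → cB ≠ 0 →
      (∀ P : Place Qb (Fb (N * q)), ((p ^ k : ℕ) : ℤ) ∣ P.ord f) →
      normAlpha N q f = algebraMap Qb (Fb N) cA * hA ^ (p ^ k) →
      normBeta N q f = algebraMap Qb (Fb N) cB * hB ^ (p ^ k) →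
      ∃ K₁ : IntermediateField ℚ Qbar, FiniteDimensional ℚ K₁ ∧
        ∀ (K : IntermediateField ℚ Qbar) (hK : IsGoodLevel A q K), K₁ ≤ K →
          ∀ fK : FF (Lvl K) (N * q), levK (N * q) K fK = f →
            ∃ (ϖ : ↥(baseRing A K)) (W : Subring (FF (Lvl K) (N * q)))
              (_ : IsIntegrallyClosed W) (_ : IsFractionRing W (FF (Lvl K) (N * q)))
              (V₁ V₂ : ValuationSubring (FF (Lvl K) (N * q))) (G : FF (Lvl K) (N * q)),
              Irreducible ϖ ∧ TwoVal ϖ W V₁ V₂ ∧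
              IsSemiGaussRing W
                (algebraMap ↥(baseRing A K) (Rfin (Lvl K) (N * q) (baseRing A K)) ϖ) ∧
              IsSemiGaussRing W
                (algebraMap ↥(baseRing A K) (Rinf (Lvl K) (N * q) (baseRing A K)) ϖ) ∧
              G ≠ 0 ∧
              (∃ w ∈ W, twK K hK.stable (N * q) l φ fK / G ^ (p ^ k) - 1 =
                algebraMap ↥(baseRing A K) (FF (Lvl K) (N * q)) ϖ * w) ∧
              LocalRoots ϖ W (jF (Lvl K) (N * q))
                (twK K hK.stable (N * q) l φ fK / G ^ (p ^ k)) (p ^ k) ∧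
              LocalRoots ϖ W (jF (Lvl K) (N * q))⁻¹
                (twK K hK.stable (N * q) l φ fK / G ^ (p ^ k)) (p ^ k)

/-! ### The descent -/

set_option maxHeartbeats 1600000 in
/-- **From a stable level to `Q̄`**: the geometric input at good levels gives the normalised
prime-degree Kummer form of the bad-prime relation. -/
theorem frobStepOneAt_of_levelFrob {N q : ℕ} [NeZero N] [NeZero q] {l : List (ℕ × ℤ)}
    (hq : q.Prime) (h : LevelFrobAt N q l) : FrobStepOneAt N q l := by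
  classical
  intro A hA φ hφ p hp hpq k j hjk f κ hA' hB' cA cB hf hcA hcB hdiv hnA hnB hκ
  obtain ⟨K₁, hK₁fin, hK₁⟩ := h A hA φ hφ p hp hpq k f hA' hB' cA cB hf hcA hcB hdiv hnA hnB
  -- a number field containing the coefficients of `f` and `κ`
  obtain ⟨K₂, hK₂fin, hK₂⟩ := exists_finiteDimensional_level (N * q) {f, κ} ∅
  haveI := hK₁fin
  haveI := hK₂fin
  haveI : FiniteDimensional ℚ ↥(K₁ ⊔ K₂) := IntermediateField.finiteDimensional_sup K₁ K₂
  obtain ⟨K, hle, hK⟩ := exists_isGoodLevel_ge hq hA (K₁ ⊔ K₂)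
  have h1 : K₁ ≤ K := le_sup_left.trans hle
  have h2 : K₂ ≤ K := le_sup_right.trans hle
  obtain ⟨fK, hfK⟩ := (hK₂ K h2).1 f (by simp)
  obtain ⟨κK, hκK⟩ := (hK₂ K h2).1 κ (by simp)
  obtain ⟨ϖ, W, iW1, iW2, V₁, V₂, G, hϖ, hT, hWp, hWm, hG0, hh, hlocp, hlocm⟩ :=
    hK₁ K hK h1 fK hfK
  haveI := hK.dvr
  haveI : IsFractionRing ↥(baseRing A K) (Lvl K) := isFractionRing_trSubring A K
  -- the Kummer equation at level `K`
  have hκ' : κK ^ (p ^ j) = twK K hK.stable (N * q) l φ fK := by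
    apply (levK (N * q) K).toRingHom.injective
    show levK (N * q) K (κK ^ (p ^ j)) = levK (N * q) K (twK K hK.stable (N * q) l φ fK)
    rw [map_pow, hκK, levK_twK, hfK, hκ]
  -- divide by the unit `G`
  have hkj : p ^ k = p ^ (k - j) * p ^ j := by
    rw [← pow_add]
    congr 1
    omega
  have hκ'' : (κK / G ^ (p ^ (k - j))) ^ (p ^ j) =
      twK K hK.stable (N * q) l φ fK / G ^ (p ^ k) := by
    rw [div_pow, hκ', ← pow_mul, ← hkj]
  -- units and roots of unity
  have hqA : ((q : ℕ) : Qbar) ∈ A.nonunits := hA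
  have hpA : ((p : ℕ) : Qbar) ∉ A.nonunits := natCast_not_mem_nonunits A hq hqA hp hpq
  have hpO : IsUnit ((p : ℕ) : ↥(baseRing A K)) := isUnit_natCast_trS A (Lvl K) hpA
  have hpjA : ((p ^ (j + 1) : ℕ) : Qbar) ∉ A.nonunits :=
    natCast_not_mem_nonunits_of_not_dvd A hq hqA fun hdvd =>
      hpq ((Nat.prime_dvd_prime_iff_eq hq hp).mp (hq.dvd_of_dvd_pow hdvd)).symm
  obtain ⟨ζ, hζ⟩ := exists_primitiveRoot_trS A (Lvl K)
    (fun ξ hξ => (Lvl.mem_range_iff K).mpr (hK.roots ξ hξ)) (pow_pos hp.pos (j + 1)) hpjA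
  -- lower the exponent of the local roots
  have hπW : algebraMap ↥(baseRing A K) (FF (Lvl K) (N * q)) ϖ ∈ W :=
    hWp.le (algebraMap ↥(baseRing A K) (Rfin (Lvl K) (N * q) (baseRing A K)) ϖ)
  have hm : p ^ k = p ^ (j + 1) * p ^ (k - j - 1) := by
    rw [← pow_add]
    congr 1
    omega
  have hlocp' : LocalRoots ϖ W (jF (Lvl K) (N * q))
      (twK K hK.stable (N * q) l φ fK / G ^ (p ^ k)) (p ^ (j + 1) * p ^ (k - j - 1)) := by
    rw [← hm]
    exact hlocp
  have hlocm' : LocalRoots ϖ W (jF (Lvl K) (N * q))⁻¹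
      (twK K hK.stable (N * q) l φ fK / G ^ (p ^ k)) (p ^ (j + 1) * p ^ (k - j - 1)) := by
    rw [← hm]
    exact hlocm
  obtain ⟨w, hw⟩ := exists_pow_eq_of_level (Lvl K) (N * q) (baseRing A K) hϖ W V₁ V₂ hT hWp hWm
    hp hpO j hζ hκ'' hh (localRoots_of_mul hπW hlocp') (localRoots_of_mul hπW hlocm')
  -- `κ = (w · G ^ (p ^ (k − j − 1))) ^ p`
  have hsplit : p ^ (k - j) = p ^ (k - j - 1) * p := by
    rw [← pow_succ]
    congr 1
    omega
  refine ⟨w * levK (N * q) K G ^ (p ^ (k - j - 1)), ?_⟩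
  have hGK : levK (N * q) K G ≠ 0 :=
    (map_ne_zero_iff _ (levK (N * q) K).toRingHom.injective).mpr hG0
  have hφK : phiK (Lvl K) (N * q) (κK / G ^ (p ^ (k - j))) =
      κ / levK (N * q) K G ^ (p ^ (k - j)) := by
    show levK (N * q) K (κK / G ^ (p ^ (k - j))) = _
    rw [map_div₀, map_pow, hκK]
  rw [mul_pow, hw, hφK, ← pow_mul, ← hsplit, div_mul_cancel₀ _ (pow_ne_zero _ hGK)]

/-- `FrobStepAt` from the geometric input at good levels. -/
theorem frobStepAt_of_levelFrob {N q : ℕ} [NeZero N] [NeZero q] {l : List (ℕ × ℤ)}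
    (hq : q.Prime) (h : LevelFrobAt N q l) : FrobStepAt N q l :=
  frobStepAt_of_one (frobStepOneAt_of_levelFrob hq h)

/-- **The bad-prime relation at stable levels**, for all `q ∤ N`. -/
def LevelFrob (l : ℕ → List (ℕ × ℤ)) : Prop :=
  ∀ (N : ℕ) [NeZero N] (q : ℕ) [NeZero q], q.Prime → ¬ q ∣ N → LevelFrobAt N q (l q)

theorem frobStep_of_levelFrob {l : ℕ → List (ℕ × ℤ)} (h : LevelFrob l) : FrobStep l :=
  fun N _ q _ hq hqN => frobStepAt_of_levelFrob hq (h N q hq hqN)

end Fermat.Agent.P4.LevelFrobStep
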