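/-
P4-S35, block (Q5) top, the NORM ADD-ON (helper21) to helper11's `P4/LevelFrobStep`.

helper11's `LevelFrobStep.LevelFrobAt N q l` asks the geometric block, at every good level `K ⊇ K₁`
and for every model `f_K` of `f`, for the vertical package, a global function `G` and local roots
of `twK … f_K / G ^ (p ^ k)`.  The hypotheses on `f` (`p ^ k ∣ div f`, the two norm equations
`N_α f = c_A h_A ^ (p ^ k)`, `N_β f = c_B h_B ^ (p ^ k)`) are stated over `Q̄`.  This file hands
them to the geometric block AT THE LEVEL `K`: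

* `normAlphaK`, `normBetaK` : the norms along `alphaF`, `betaF` at a level; `levK_normAlphaK`,
  `levK_normBetaK` : compatibility with the level map (`NormDescentBar.lev_norm_alpha/beta`);
* `exists_level_norm_data` : models `h_{A,K}, h_{B,K}, c_{A,K}, c_{B,K}` and the norm equations at
  every level above a number field;
* `FrobLevelAt N q l` : `LevelFrobAt` with, in addition, as HYPOTHESES for the provider: the
  level-`K` models and norm equations, `p ^ k ∣ ord_Q f_K` for all places `Q` of `F_K`, and the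
  `K`-rationality of the zeros and poles of `f_K`;
* `levelFrobAt_of_frobLevel : FrobLevelAt N q l → LevelFrobAt N q l`, hence
  `frobStepAt_of_frobLevel`, `frobStep_of_frobLevel`.
-/
import Mathlib
import Fermat.Agent.P4.LevelFrobStep
import Fermat.Agent.P3G.Glue.LevelDict
import Fermat.Agent.N4F.E.NormDescentBar

set_option autoImplicit false
set_option linter.unusedSectionVars false
set_option linter.dupNamespace false
set_option linter.style.haveILetI false

open ModularCurve AlgebraicCurve IntermediateField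

noncomputable section

namespace Fermat.Agent.P4.FrobLevelStep

open Fermat.Agent.N4.Setting Fermat.Agent.N4.Chart Fermat.Agent.N4.S18Glue Fermat.Agent.N4.BigDVR
  Fermat.Agent.P3G.Cover.Lift Fermat.Agent.P3G.Assembly.PowCover
  Fermat.Agent.P3G.Assembly.StepOfLevel Fermat.Agent.P3G.Assembly.LevelStep
  Fermat.Agent.P3G.GammaDict Fermat.Agent.P3G.GeomStep
  Fermat.Agent.P3G.Gamma Fermat.Agent.P3G.GammaAut
  Fermat.Agent.N4F.C Fermat.Agent.N4F.C.Levels Fermat.Agent.N4F.C.Galois
  Fermat.Agent.N4F.E.DegreeLevelRaise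
  Fermat.Agent.P4.FrobStep Fermat.Agent.P4.LevelFrobStep

local notation "Qbar" => AlgebraicClosure ℚ
local notation "Γ" => (AlgebraicClosure ℚ ≃ₐ[ℚ] AlgebraicClosure ℚ)

/-! ### Norms at a level -/

section NormK

variable (K : IntermediateField ℚ Qbar) (N q : ℕ) [NeZero N] [NeZero q]

/-- The norm along `α : FF (Lvl K) N ⊂ FF (Lvl K) (N q)`. -/
def normAlphaK : FF (Lvl K) (N * q) →* FF (Lvl K) N := normAlong (alphaF (Lvl K) N q)

/-- The norm along `β : FF (Lvl K) N ⊂ FF (Lvl K) (N q)`. -/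
def normBetaK : FF (Lvl K) (N * q) →* FF (Lvl K) N := normAlong (betaF (Lvl K) N q)

/-- The level map carries the norm along `α` at level `K` to the norm along `α` over `Q̄`. -/
theorem levK_normAlphaK (hq : q.Prime) (hqN : ¬ q ∣ N) (y : FF (Lvl K) (N * q)) :
    levK N K (normAlphaK K N q y) = normAlpha N q (levK (N * q) K y) := by
  haveI : Fact q.Prime := ⟨hq⟩
  exact Fermat.Agent.N4F.E.NormDescentBar.lev_norm_alpha (Lvl K) N q hqN y

/-- The level map carries the norm along `β` at level `K` to the norm along `β` over `Q̄`. -/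
theorem levK_normBetaK (hq : q.Prime) (hqN : ¬ q ∣ N) (y : FF (Lvl K) (N * q)) :
    levK N K (normBetaK K N q y) = normBeta N q (levK (N * q) K y) := by
  haveI : Fact q.Prime := ⟨hq⟩
  exact Fermat.Agent.N4F.E.NormDescentBar.lev_norm_beta (Lvl K) N q hqN y

/-- A norm equation over `Q̄` whose data come from the level `K` holds at the level `K`. -/
theorem normAlphaK_eq_of_lev (hq : q.Prime) (hqN : ¬ q ∣ N) {fK : FF (Lvl K) (N * q)}
    {hAK : FF (Lvl K) N} {cAK : Lvl K} {e : ℕ}
    (h : normAlpha N q (levK (N * q) K fK) =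
      algebraMap Qb (Fb N) (algebraMap (Lvl K) Qb cAK) * levK N K hAK ^ e) :
    normAlphaK K N q fK = algebraMap (Lvl K) (FF (Lvl K) N) cAK * hAK ^ e := by
  apply (levK N K).toRingHom.injective
  show levK N K (normAlphaK K N q fK) =
    levK N K (algebraMap (Lvl K) (FF (Lvl K) N) cAK * hAK ^ e)
  rw [levK_normAlphaK K N q hq hqN, h, map_mul, map_pow, AlgHom.commutes,
    IsScalarTower.algebraMap_apply (Lvl K) Qb (Fb N)]

theorem normBetaK_eq_of_lev (hq : q.Prime) (hqN : ¬ q ∣ N) {fK : FF (Lvl K) (N * q)}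
    {hBK : FF (Lvl K) N} {cBK : Lvl K} {e : ℕ}
    (h : normBeta N q (levK (N * q) K fK) =
      algebraMap Qb (Fb N) (algebraMap (Lvl K) Qb cBK) * levK N K hBK ^ e) :
    normBetaK K N q fK = algebraMap (Lvl K) (FF (Lvl K) N) cBK * hBK ^ e := by
  apply (levK N K).toRingHom.injective
  show levK N K (normBetaK K N q fK) =
    levK N K (algebraMap (Lvl K) (FF (Lvl K) N) cBK * hBK ^ e)
  rw [levK_normBetaK K N q hq hqN, h, map_mul, map_pow, AlgHom.commutes,
    IsScalarTower.algebraMap_apply (Lvl K) Qb (Fb N)]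

end NormK

/-! ### Nonvanishing of the norms over `Q̄` -/

section NormNe

open Fermat.Agent.N4F.A.LevelMaps Fermat.Agent.N4F.A.HeckeInputsFinal

/-- The norm of a nonzero element along a finite embedding of fields is nonzero. -/
theorem normAlong_ne_zero {K₀ F F' : Type*} [Field K₀] [Field F] [Field F'] [Algebra K₀ F]
    [Algebra K₀ F'] (φ : F →ₐ[K₀] F') (hfin : FiniteAlong K₀ φ) {f : F'} (hf : f ≠ 0) :
    normAlong φ f ≠ 0 := by
  letI := algebraAlong φ
  haveI : Module.Finite F F' := hfin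
  exact Algebra.norm_ne_zero_iff.mpr hf

variable {N q : ℕ} [NeZero N] [NeZero q]

theorem normAlpha_ne_zero {f : Fb (N * q)} (hf : f ≠ 0) : normAlpha N q f ≠ 0 :=
  normAlong_ne_zero (heckeAlphaBar Qbar N q) (finiteAlong_heckeAlphaBar N q) hf

theorem normBeta_ne_zero {f : Fb (N * q)} (hf : f ≠ 0) : normBeta N q f ≠ 0 :=
  normAlong_ne_zero (heckeBetaBar Qbar N q) (finiteAlong_heckeBetaBar N q) hf

end NormNe

/-! ### Models of the norm data at all large levels -/

section Data

variable (N q : ℕ) [NeZero N] [NeZero q]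

/-- **The norm data at a level**: above a number field depending on `h_A, h_B, c_A, c_B` every
level carries models of them, and every norm equation over `Q̄` for a model `f_K` holds at the
level. -/
theorem exists_level_norm_data (hq : q.Prime) (hqN : ¬ q ∣ N) (hA hB : Fb N) (cA cB : Qb) :
    ∃ K₁ : IntermediateField ℚ Qbar, FiniteDimensional ℚ K₁ ∧
      ∀ K : IntermediateField ℚ Qbar, K₁ ≤ K →
        ∃ (hAK hBK : FF (Lvl K) N) (cAK cBK : Lvl K),
          levK N K hAK = hA ∧ levK N K hBK = hB ∧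
          algebraMap (Lvl K) Qb cAK = cA ∧ algebraMap (Lvl K) Qb cBK = cB ∧
          (∀ (fK : FF (Lvl K) (N * q)) (e : ℕ),
            normAlpha N q (levK (N * q) K fK) = algebraMap Qb (Fb N) cA * hA ^ e →
            normAlphaK K N q fK = algebraMap (Lvl K) (FF (Lvl K) N) cAK * hAK ^ e) ∧
          (∀ (fK : FF (Lvl K) (N * q)) (e : ℕ),
            normBeta N q (levK (N * q) K fK) = algebraMap Qb (Fb N) cB * hB ^ e →
            normBetaK K N q fK = algebraMap (Lvl K) (FF (Lvl K) N) cBK * hBK ^ e) := by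
  classical
  obtain ⟨K₃, hK₃fin, hK₃⟩ := exists_finiteDimensional_level N {hA, hB} ∅
  haveI := hK₃fin
  haveI : Algebra.IsAlgebraic ℚ Qb := AlgebraicClosure.isAlgebraic ℚ
  haveI : FiniteDimensional ℚ (IntermediateField.adjoin ℚ ({cA, cB} : Set Qb)) :=
    IntermediateField.finiteDimensional_adjoin fun y _ =>
      (Algebra.IsAlgebraic.isAlgebraic y).isIntegral
  refine ⟨K₃ ⊔ IntermediateField.adjoin ℚ ({cA, cB} : Set Qb),
    IntermediateField.finiteDimensional_sup _ _, fun K hK => ?_⟩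
  have h3 : K₃ ≤ K := le_sup_left.trans hK
  have h4 : IntermediateField.adjoin ℚ ({cA, cB} : Set Qb) ≤ K := le_sup_right.trans hK
  obtain ⟨hAK, hhAK⟩ := (hK₃ K h3).1 hA (by simp)
  obtain ⟨hBK, hhBK⟩ := (hK₃ K h3).1 hB (by simp)
  have hcAK : cA ∈ K := h4 (IntermediateField.subset_adjoin ℚ _ (by simp))
  have hcBK : cB ∈ K := h4 (IntermediateField.subset_adjoin ℚ _ (by simp))
  refine ⟨hAK, hBK, (Lvl.toSub K).symm ⟨cA, hcAK⟩, (Lvl.toSub K).symm ⟨cB, hcBK⟩,
    hhAK, hhBK, rfl, rfl, fun fK e h => ?_, fun fK e h => ?_⟩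
  · refine normAlphaK_eq_of_lev K N q hq hqN ?_
    rw [hhAK]
    exact h
  · refine normBetaK_eq_of_lev K N q hq hqN ?_
    rw [hhBK]
    exact h

end Data

/-! ### The geometric input at a level, with the level forms of the hypotheses -/

section LevelAt

variable (N q : ℕ) [NeZero N] [NeZero q]

/-- **The bad-prime relation at a stable level, provider-friendly form**: helper11's
`LevelFrobStep.LevelFrobAt` with the level-`K` forms of all hypotheses on `f` available to the
geometric block: models `h_{A,K}, h_{B,K}, c_{A,K}, c_{B,K}` with the two norm equations at the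
level, `p ^ k ∣ ord_Q f_K` at every place `Q` of `F_K`, and `K`-rationality of the zeros and poles
of `f_K`. -/
def FrobLevelAt (l : List (ℕ × ℤ)) : Prop :=
  ∀ A : ValuationSubring Qbar, A.LiesOverPrime q → ∀ φ : Γ, A.IsFrobeniusAt φ q →
    ∀ p : ℕ, p.Prime → p ≠ q → ∀ (k : ℕ) (f : Fb (N * q)) (hA hB : Fb N) (cA cB : Qb),
      f ≠ 0 → cA ≠ 0 → cB ≠ 0 →
      (∀ P : Place Qb (Fb (N * q)), ((p ^ k : ℕ) : ℤ) ∣ P.ord f) →
      normAlpha N q f = algebraMap Qb (Fb N) cA * hA ^ (p ^ k) →
      normBeta N q f = algebraMap Qb (Fb N) cB * hB ^ (p ^ k) →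
      ∃ K₁ : IntermediateField ℚ Qbar, FiniteDimensional ℚ K₁ ∧
        ∀ (K : IntermediateField ℚ Qbar) (hK : IsGoodLevel A q K), K₁ ≤ K →
          ∀ (fK : FF (Lvl K) (N * q)) (hAK hBK : FF (Lvl K) N) (cAK cBK : Lvl K),
            levK (N * q) K fK = f → levK N K hAK = hA → levK N K hBK = hB →
            algebraMap (Lvl K) Qb cAK = cA → algebraMap (Lvl K) Qb cBK = cB →
            fK ≠ 0 → hAK ≠ 0 → hBK ≠ 0 → cAK ≠ 0 → cBK ≠ 0 →
            normAlphaK K N q fK = algebraMap (Lvl K) (FF (Lvl K) N) cAK * hAK ^ (p ^ k) →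
            normBetaK K N q fK = algebraMap (Lvl K) (FF (Lvl K) N) cBK * hBK ^ (p ^ k) →
            (∀ Q : Place (Lvl K) (FF (Lvl K) (N * q)), ((p ^ k : ℕ) : ℤ) ∣ Q.ord fK) →
            (∀ Q : Place (Lvl K) (FF (Lvl K) (N * q)), Q.ord fK ≠ 0 →
              Function.Bijective (algebraMap (Lvl K) Q.ResidueField)) →
            ∃ (ϖ : ↥(baseRing A K)) (W : Subring (FF (Lvl K) (N * q)))
              (_ : IsIntegrallyClosed W) (_ : IsFractionRing W (FF (Lvl K) (N * q)))
              (V₁ V₂ : ValuationSubring (FF (Lvl K) (N * q))) (G : FF (Lvl K) (N * q)),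
              Irreducible ϖ ∧ TwoVal ϖ W V₁ V₂ ∧
              IsSemiGaussRing W
                (algebraMap ↥(baseRing A K) (Rfin (Lvl K) (N * q) (baseRing A K)) ϖ) ∧
              IsSemiGaussRing W
                (algebraMap ↥(baseRing A K) (Rinf (Lvl K) (N * q) (baseRing A K)) ϖ) ∧
              G ≠ 0 ∧
              (∃ w ∈ W, twK K hK.stable (N * q) l φ fK / G ^ (p ^ k) - 1 =
                algebraMap ↥(baseRing A K) (FF (Lvl K) (N * q)) ϖ * w) ∧
              LocalRoots ϖ W (jF (Lvl K) (N * q))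
                (twK K hK.stable (N * q) l φ fK / G ^ (p ^ k)) (p ^ k) ∧
              LocalRoots ϖ W (jF (Lvl K) (N * q))⁻¹
                (twK K hK.stable (N * q) l φ fK / G ^ (p ^ k)) (p ^ k)

end LevelAt

/-! ### From the provider-friendly form to `LevelFrobAt` -/

section Descent

variable {N q : ℕ} [NeZero N] [NeZero q]

/-- **The provider-friendly form implies helper11's form.** -/
theorem levelFrobAt_of_frobLevel (hq : q.Prime) (hqN : ¬ q ∣ N) {l : List (ℕ × ℤ)}
    (h : FrobLevelAt N q l) : LevelFrobAt N q l := by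
  classical
  intro A hA φ hφ p hp hpq k f hA' hB' cA cB hf hcA hcB hdiv hnA hnB
  obtain ⟨K₁, hK₁fin, hK₁⟩ := h A hA φ hφ p hp hpq k f hA' hB' cA cB hf hcA hcB hdiv hnA hnB
  obtain ⟨K₂, hK₂fin, hK₂⟩ := exists_level_norm_data N q hq hqN hA' hB' cA cB
  -- a number field over which the zeros and poles of `f` are rational
  haveI := Fermat.Agent.N4F.A.LevelMaps.hasPrincipalDivisors_bar (N * q)
  obtain ⟨D, hD, -⟩ := HasPrincipalDivisors.exists_divisor (K := Qb) f hf
  obtain ⟨K₃, hK₃fin, hK₃⟩ := exists_finiteDimensional_level (N * q) ∅ D.support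
  haveI := hK₁fin
  haveI := hK₂fin
  haveI := hK₃fin
  haveI : FiniteDimensional ℚ ↥(K₁ ⊔ K₂) := IntermediateField.finiteDimensional_sup K₁ K₂
  refine ⟨K₁ ⊔ K₂ ⊔ K₃, IntermediateField.finiteDimensional_sup _ K₃, fun K hK hle fK hfK => ?_⟩
  have h1 : K₁ ≤ K := (le_sup_left.trans le_sup_left).trans hle
  have h2 : K₂ ≤ K := (le_sup_right.trans le_sup_left).trans hle
  have h3 : K₃ ≤ K := le_sup_right.trans hle
  obtain ⟨hAK, hBK, cAK, cBK, hhAK, hhBK, hcAK, hcBK, hnα, hnβ⟩ := hK₂ K h2
  have hfK0 : fK ≠ 0 := by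
    rintro rfl
    rw [map_zero] at hfK
    exact hf hfK.symm
  have hpk : p ^ k ≠ 0 := pow_ne_zero k hp.ne_zero
  have hA0 : hA' ≠ 0 := by
    rintro rfl
    rw [zero_pow hpk, mul_zero] at hnA
    exact normAlpha_ne_zero hf hnA
  have hB0 : hB' ≠ 0 := by
    rintro rfl
    rw [zero_pow hpk, mul_zero] at hnB
    exact normBeta_ne_zero hf hnB
  have hAK0 : hAK ≠ 0 := by
    rintro rfl
    rw [map_zero] at hhAK
    exact hA0 hhAK.symm
  have hBK0 : hBK ≠ 0 := by
    rintro rfl
    rw [map_zero] at hhBK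
    exact hB0 hhBK.symm
  have hcAK0 : cAK ≠ 0 := by
    rintro rfl
    rw [map_zero] at hcAK
    exact hcA hcAK.symm
  have hcBK0 : cBK ≠ 0 := by
    rintro rfl
    rw [map_zero] at hcBK
    exact hcB hcBK.symm
  have hdivK : ∀ Q : Place (Lvl K) (FF (Lvl K) (N * q)), ((p ^ k : ℕ) : ℤ) ∣ Q.ord fK :=
    Fermat.Agent.P3G.Glue.LevelDict.dvd_ord_of_dvd_ord_bar (N * q) K fK _ (by
      rw [hfK]
      exact hdiv)
  have hratK : ∀ Q : Place (Lvl K) (FF (Lvl K) (N * q)), Q.ord fK ≠ 0 →
      Function.Bijective (algebraMap (Lvl K) Q.ResidueField) :=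
    Fermat.Agent.P3G.Glue.LevelDict.bijective_of_ord_ne_zero (N * q) K fK (fun P hP =>
      (hK₃ K h3).2 P (by
        rw [Finsupp.mem_support_iff, hD P, ← hfK]
        exact hP))
  exact hK₁ K hK h1 fK hAK hBK cAK cBK hfK hhAK hhBK hcAK hcBK hfK0 hAK0 hBK0 hcAK0 hcBK0
    (hnα fK _ (by rw [hfK]; exact hnA)) (hnβ fK _ (by rw [hfK]; exact hnB)) hdivK hratK

/-- `FrobStepAt` from the provider-friendly geometric input at good levels. -/
theorem frobStepAt_of_frobLevel (hq : q.Prime) (hqN : ¬ q ∣ N) {l : List (ℕ × ℤ)}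
    (h : FrobLevelAt N q l) : FrobStepAt N q l :=
  frobStepAt_of_levelFrob hq (levelFrobAt_of_frobLevel hq hqN h)

/-- **The provider-friendly geometric input at stable levels**, for all `q ∤ N`. -/
def FrobLevel (l : ℕ → List (ℕ × ℤ)) : Prop :=
  ∀ (N : ℕ) [NeZero N] (q : ℕ) [NeZero q], q.Prime → ¬ q ∣ N → FrobLevelAt N q (l q)

theorem levelFrob_of_frobLevel {l : ℕ → List (ℕ × ℤ)} (h : FrobLevel l) : LevelFrob l :=
  fun N _ q _ hq hqN => levelFrobAt_of_frobLevel hq hqN (h N q hq hqN)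

theorem frobStep_of_frobLevel {l : ℕ → List (ℕ × ℤ)} (h : FrobLevel l) : FrobStep l :=
  frobStep_of_levelFrob (levelFrob_of_frobLevel h)

end Descent

end Fermat.Agent.P4.FrobLevelStep
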