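/-
P4-S35, block (Q5) bottom (helper20): `FrobLevelAt N q (relList q)` FROM THE INPUTS AT A LEVEL.

helper21's `FrobLevelStep.FrobLevelAt N q l` hands to the geometric block, at a good level `K`, a model
`f_K` with `p ^ k ∣ div f_K`, `K`-rational zeros and poles and the two norm equations, and asks for the
vertical package, a global function `G` and local `p ^ k`-th roots of `twK l φ f_K / G ^ (p ^ k)` on
both charts.  For `l = relList q = [(2, q²), (2, 1), (2, 1)]` and `τ = φ²` at the level: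

      `h := τ f_K / f_K`,   `h' := τ h / h`,   `twK (relList q) φ f_K = τ h' / h' ^ (q²)`.

This file produces `FrobLevelAt N q (relList q)` from three inputs at the level (no `f`, no divisor
bookkeeping is left to them):

* (I1) `VertFrob` : the two vertical valuation rings, `W = V₁ ∩ V₂` semilocal Gauss for both charts,
  both valuations `τ`-invariant (no triviality on the residue fields: `τ` is a Frobenius power);
* (I2) `ToricAt` : the conclusion of `Toric.exists_toric` at the level: from the two norm equations a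
  unit `G` of `W` with `f₂ := h' / G ^ e ≡ 1` at `V₁` and `V₂`;
* (I3) `TwistAt s` : the conclusion of `TwistRoots.localRoots_twist` on the chart `s` (`s = j, j⁻¹`):
  local `e`-th roots `≡ 1` of `τ f₂ / f₂ ^ (q²)`.

The global function of `FrobLevelAt` is `G_final := τ G / G ^ (q²)`:
`twK (relList q) φ f_K / G_final ^ e = τ f₂ / f₂ ^ (q²)`.
-/
import Mathlib
import Fermat.Agent.P4.FrobLevelStep
import Fermat.Agent.P3G.Assembly.LevelGeomOfPoints
import Fermat.Agent.N4F.E.PlaceValue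

set_option autoImplicit false
set_option linter.unusedSectionVars false
set_option linter.dupNamespace false
set_option linter.style.haveILetI false

open ModularCurve AlgebraicCurve IntermediateField

noncomputable section

namespace Fermat.Agent.P4.LevelFrobOfPoints

/-! ### The algebra of twisted differences -/

section Algebra

variable {F : Type*} [Field F] (σ : F ≃+* F)

/-- The twisted difference `σ x / x ^ m`. -/
def tw (m : ℕ) (x : F) : F := σ x / x ^ m

theorem tw_mul (m : ℕ) (x y : F) : tw σ m (x * y) = tw σ m x * tw σ m y := by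
  unfold tw
  rw [map_mul, mul_pow, mul_div_mul_comm]

theorem tw_one (m : ℕ) : tw σ m (1 : F) = 1 := by
  unfold tw
  rw [map_one, one_pow, div_one]

theorem tw_inv (m : ℕ) (x : F) : tw σ m x⁻¹ = (tw σ m x)⁻¹ := by
  unfold tw
  rw [map_inv₀, inv_pow, inv_div_inv, inv_div]

theorem tw_div (m : ℕ) (x y : F) : tw σ m (x / y) = tw σ m x / tw σ m y := by
  rw [div_eq_mul_inv, tw_mul, tw_inv, div_eq_mul_inv]

theorem tw_pow (m e : ℕ) (x : F) : tw σ m (x ^ e) = tw σ m x ^ e := by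
  unfold tw
  rw [map_pow, div_pow, ← pow_mul, ← pow_mul, mul_comm]

/-- **The twist of the normalised function**: with `f₂ = h' / G ^ e`,
`tw h' / (tw G) ^ e = tw f₂`. -/
theorem tw_div_pow (m e : ℕ) (h' G : F) :
    tw σ m h' / tw σ m G ^ e = tw σ m (h' / G ^ e) := by
  rw [tw_div, tw_pow]

variable (V : ValuationSubring F)

/-- A twisted difference of a principal unit of a `σ`-stable valuation ring is a principal unit. -/
theorem tw_sub_one_mem_nonunits (hval : ∀ x, V.valuation (σ x) = V.valuation x) (m : ℕ) {x : F}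
    (hx : x - 1 ∈ V.nonunits) : tw σ m x - 1 ∈ V.nonunits := by
  have hlt : V.valuation (x - 1) < 1 := (V.mem_nonunits_iff).1 hx
  have hx1 : V.valuation x = 1 := by
    have h1 : x = 1 + (x - 1) := by ring
    rw [h1]
    exact (V.valuation.map_one_add_of_lt hlt)
  have hx0 : x ≠ 0 := by
    rintro rfl
    rw [map_zero] at hx1
    exact zero_ne_one hx1
  have hσlt : V.valuation (σ x - 1) < 1 := by
    have : σ x - 1 = σ (x - 1) := by rw [map_sub, map_one]
    rw [this, hval]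
    exact hlt
  have hpow : V.valuation (x ^ m - 1) < 1 := by
    induction m with
    | zero => simp
    | succ m ih =>
      have h1 : x ^ (m + 1) - 1 = x * (x ^ m - 1) + (x - 1) := by ring
      rw [h1]
      refine lt_of_le_of_lt (V.valuation.map_add _ _) (max_lt ?_ hlt)
      rw [map_mul, hx1, one_mul]
      exact ih
  have hxm : V.valuation (x ^ m) = 1 := by rw [map_pow, hx1, one_pow]
  have hxm0 : x ^ m ≠ 0 := pow_ne_zero m hx0
  have : tw σ m x - 1 = ((σ x - 1) - (x ^ m - 1)) / x ^ m := by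
    unfold tw
    field_simp
    ring
  rw [this]
  rw [V.mem_nonunits_iff]
  rw [map_div₀, hxm, div_one]
  exact lt_of_le_of_lt (V.valuation.map_sub _ _) (max_lt hσlt hpow)

end Algebra

open Fermat.Agent.N4.Setting Fermat.Agent.N4.Chart Fermat.Agent.N4.S18Glue Fermat.Agent.N4.BigDVR
  Fermat.Agent.P3G.Cover.Lift Fermat.Agent.P3G.Assembly.PowCover
  Fermat.Agent.P3G.Assembly.StepOfLevel Fermat.Agent.P3G.Assembly.LevelStep
  Fermat.Agent.P3G.GammaDict Fermat.Agent.P3G.GeomStep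
  Fermat.Agent.P3G.Gamma Fermat.Agent.P3G.GammaAut
  Fermat.Agent.N4F.C Fermat.Agent.N4F.C.Levels Fermat.Agent.N4F.C.Galois
  Fermat.Agent.P4.FrobStep Fermat.Agent.P4.LevelFrobStep Fermat.Agent.P4.FrobLevelStep

local notation "Qbar" => AlgebraicClosure ℚ
local notation "Γ" => (AlgebraicClosure ℚ ≃ₐ[ℚ] AlgebraicClosure ℚ)

/-! ### The iterated twisted difference for `relList q` -/

section TwK

variable (K : IntermediateField ℚ Qbar) (hKs : ∀ (τ : Γ) (x : Qbar), x ∈ K → τ x ∈ K)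
  (M : ℕ) [NeZero M] (φ : Γ)

/-- `τ = φ²` at the level `K`, as a ring automorphism of `F_K`. -/
def tauK : FF (Lvl K) M ≃+* FF (Lvl K) M := SemilinearAut.toRingAut (levelFF K hKs M (φ ^ 2))

theorem tauK_apply (x : FF (Lvl K) M) : tauK K hKs M φ x = levelFF K hKs M (φ ^ 2) • x := rfl

/-- **`twK (relList q)` unfolded**: `Ψ (f) = τ h' / h' ^ (q²)`, `h' = τ h / h`, `h = τ f / f`. -/
theorem twK_relList (q : ℕ) (f : FF (Lvl K) M) :
    twK K hKs M (relList q) φ f =
      tw (tauK K hKs M φ) (q ^ 2) (tw (tauK K hKs M φ) 1 (tw (tauK K hKs M φ) 1 f)) := by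
  have h1 : ∀ x : FF (Lvl K) M, twFn (levelFF K hKs M (φ ^ 2)) 1 x = tw (tauK K hKs M φ) 1 x := by
    intro x
    rw [twFn_def, zpow_one]
    unfold tw
    rw [pow_one]
    rfl
  have h2 : ∀ x : FF (Lvl K) M,
      twFn (levelFF K hKs M (φ ^ 2)) ((q : ℤ) ^ 2) x = tw (tauK K hKs M φ) (q ^ 2) x := by
    intro x
    rw [twFn_def]
    unfold tw
    rw [← Nat.cast_pow, zpow_natCast]
    rfl
  show twFn (levelFF K hKs M (φ ^ 2)) ((q : ℤ) ^ 2)
    (twFn (levelFF K hKs M (φ ^ 2)) 1 (twFn (levelFF K hKs M (φ ^ 2)) 1 f)) = _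
  rw [h1, h1, h2]

end TwK

/-! ### The three inputs at a level -/

section Inputs

variable (A : ValuationSubring Qbar) (K : IntermediateField ℚ Qbar)
  (hKs : ∀ (τ : Γ) (x : Qbar), x ∈ K → τ x ∈ K)

/-- **(I1) The vertical data at a level for an element `σ` of the decomposition group**: as
`LevelGeomOfPoints.VertLevel`, without the triviality on the residue fields. -/
structure VertFrob (M : ℕ) [NeZero M] (σ : Γ) (ϖ : ↥(baseRing A K)) (W : Subring (FF (Lvl K) M))
    (V₁ V₂ : ValuationSubring (FF (Lvl K) M)) : Prop where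
  irr : Irreducible ϖ
  twoVal : TwoVal ϖ W V₁ V₂
  semiP : IsSemiGaussRing W (algebraMap ↥(baseRing A K) (Rfin (Lvl K) M (baseRing A K)) ϖ)
  semiM : IsSemiGaussRing W (algebraMap ↥(baseRing A K) (Rinf (Lvl K) M (baseRing A K)) ϖ)
  val₁ : ∀ x : FF (Lvl K) M, V₁.valuation (levelFF K hKs M σ • x) = V₁.valuation x
  val₂ : ∀ x : FF (Lvl K) M, V₂.valuation (levelFF K hKs M σ • x) = V₂.valuation x

variable (N q : ℕ) [NeZero N] [NeZero q] (φ : Γ)

/-- **(I2) The toric normalisation at a level** (= the conclusion of `Toric.exists_toric`): the two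
norm equations give a unit `G` of `V₁` and `V₂` with `(τ h / h) / G ^ e ≡ 1` at both, `h = τ f / f`. -/
def ToricAt (V₁ V₂ : ValuationSubring (FF (Lvl K) (N * q))) : Prop :=
  ∀ e : ℕ, e ≠ 0 → ∀ (fK : FF (Lvl K) (N * q)) (hAK hBK : FF (Lvl K) N) (cAK cBK : Lvl K),
    fK ≠ 0 → hAK ≠ 0 → hBK ≠ 0 → cAK ≠ 0 → cBK ≠ 0 →
    normAlphaK K N q fK = algebraMap (Lvl K) (FF (Lvl K) N) cAK * hAK ^ e →
    normBetaK K N q fK = algebraMap (Lvl K) (FF (Lvl K) N) cBK * hBK ^ e →
    ∃ G : FF (Lvl K) (N * q), V₁.valuation G = 1 ∧ V₂.valuation G = 1 ∧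
      tw (tauK K hKs (N * q) φ) 1 (tw (tauK K hKs (N * q) φ) 1 fK) / G ^ e - 1 ∈ V₁.nonunits ∧
      tw (tauK K hKs (N * q) φ) 1 (tw (tauK K hKs (N * q) φ) 1 fK) / G ^ e - 1 ∈ V₂.nonunits

/-- **(I3) Local roots of the twisted difference on a chart of a level** (= the conclusion of
`TwistRoots.localRoots_twist` with `m = q²`). -/
def TwistAt (M : ℕ) [NeZero M] (m : ℕ) (ϖ : ↥(baseRing A K)) (W : Subring (FF (Lvl K) M))
    (V₁ V₂ : ValuationSubring (FF (Lvl K) M)) (s : FF (Lvl K) M) : Prop :=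
  ∀ e : ℕ, e ≠ 0 → ∀ h g : FF (Lvl K) M, h ≠ 0 →
    (∀ Q : Place (Lvl K) (FF (Lvl K) M), (e : ℤ) ∣ Q.ord h) →
    (∀ Q : Place (Lvl K) (FF (Lvl K) M), Q.ord h ≠ 0 →
      Function.Bijective (algebraMap (Lvl K) Q.ResidueField)) →
    V₁.valuation g = 1 → V₂.valuation g = 1 →
    (∃ w ∈ W, tw (tauK K hKs M φ) 1 h / g ^ e - 1 =
      algebraMap ↥(baseRing A K) (FF (Lvl K) M) ϖ * w) →
    LocalRoots ϖ W s (tw (tauK K hKs M φ) m (tw (tauK K hKs M φ) 1 h / g ^ e)) e

end Inputs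

/-! ### The orders of `τ f / f` -/

section Ord

variable (K : IntermediateField ℚ Qbar) (hKs : ∀ (τ : Γ) (x : Qbar), x ∈ K → τ x ∈ K)
  (M : ℕ) [NeZero M] (φ : Γ)

theorem ord_tauK (Q : Place (Lvl K) (FF (Lvl K) M)) (f : FF (Lvl K) M) :
    Q.ord (tauK K hKs M φ f) = ((levelFF K hKs M (φ ^ 2))⁻¹ • Q).ord f := by
  have h := SemilinearAut.ord_smul (levelFF K hKs M (φ ^ 2))
    ((levelFF K hKs M (φ ^ 2))⁻¹ • Q) f
  rw [smul_inv_smul] at h
  exact h

theorem ord_tw_one (Q : Place (Lvl K) (FF (Lvl K) M)) {f : FF (Lvl K) M} (hf : f ≠ 0) :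
    Q.ord (tw (tauK K hKs M φ) 1 f) = ((levelFF K hKs M (φ ^ 2))⁻¹ • Q).ord f - Q.ord f := by
  unfold tw
  have hτf : tauK K hKs M φ f ≠ 0 := (map_ne_zero _).2 hf
  rw [pow_one, div_eq_mul_inv, Q.ord_mul hτf (inv_ne_zero hf), Q.ord_inv, ord_tauK, sub_eq_add_neg]

theorem tw_one_ne_zero {f : FF (Lvl K) M} (hf : f ≠ 0) : tw (tauK K hKs M φ) 1 f ≠ 0 := by
  unfold tw
  exact div_ne_zero ((map_ne_zero _).2 hf) (pow_ne_zero _ hf)

/-- Divisibility of `div (τ f / f)`. -/
theorem dvd_ord_tw_one {e : ℕ} {f : FF (Lvl K) M} (hf : f ≠ 0)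
    (hdiv : ∀ Q : Place (Lvl K) (FF (Lvl K) M), (e : ℤ) ∣ Q.ord f)
    (Q : Place (Lvl K) (FF (Lvl K) M)) : (e : ℤ) ∣ Q.ord (tw (tauK K hKs M φ) 1 f) := by
  rw [ord_tw_one K hKs M φ Q hf]
  exact dvd_sub (hdiv _) (hdiv _)

/-- Rationality of the zeros and poles of `τ f / f`. -/
theorem bijective_of_ord_tw_one_ne_zero {f : FF (Lvl K) M} (hf : f ≠ 0)
    (hrat : ∀ Q : Place (Lvl K) (FF (Lvl K) M), Q.ord f ≠ 0 →
      Function.Bijective (algebraMap (Lvl K) Q.ResidueField))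
    (Q : Place (Lvl K) (FF (Lvl K) M)) (hQ : Q.ord (tw (tauK K hKs M φ) 1 f) ≠ 0) :
    Function.Bijective (algebraMap (Lvl K) Q.ResidueField) := by
  rw [ord_tw_one K hKs M φ Q hf] at hQ
  by_cases h1 : Q.ord f = 0
  · have h2 : ((levelFF K hKs M (φ ^ 2))⁻¹ • Q).ord f ≠ 0 := by
      intro h2
      rw [h1, h2, sub_zero] at hQ
      exact hQ rfl
    have h3 := Fermat.Agent.N4F.E.PlaceValue.bijective_smul (levelFF K hKs M (φ ^ 2)) (hrat _ h2)
    rwa [smul_inv_smul] at h3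
  · exact hrat Q h1

end Ord

/-! ### The geometric input at good levels -/

/-- **The level data for the bad-prime relation**: for every Frobenius lift there is a number field
above which every good level carries (I1), (I2), (I3). -/
def FrobPointsAt (N q : ℕ) [NeZero N] [NeZero q] : Prop :=
  ∀ A : ValuationSubring Qbar, A.LiesOverPrime q → ∀ φ : Γ, A.IsFrobeniusAt φ q →
    ∃ K₀ : IntermediateField ℚ Qbar, FiniteDimensional ℚ K₀ ∧
      ∀ (K : IntermediateField ℚ Qbar) (hK : IsGoodLevel A q K), K₀ ≤ K →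
        ∃ (ϖ : ↥(baseRing A K)) (W : Subring (FF (Lvl K) (N * q)))
          (_ : IsIntegrallyClosed W) (_ : IsFractionRing W (FF (Lvl K) (N * q)))
          (V₁ V₂ : ValuationSubring (FF (Lvl K) (N * q))),
          VertFrob A K hK.stable (N * q) (φ ^ 2) ϖ W V₁ V₂ ∧
          ToricAt K hK.stable N q φ V₁ V₂ ∧
          TwistAt A K hK.stable φ (N * q) (q ^ 2) ϖ W V₁ V₂ (jF (Lvl K) (N * q)) ∧
          TwistAt A K hK.stable φ (N * q) (q ^ 2) ϖ W V₁ V₂ (jF (Lvl K) (N * q))⁻¹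

/-- **`FrobLevelAt` for `relList q` from the level data.** -/
theorem frobLevelAt_of_points {N q : ℕ} [NeZero N] [NeZero q] (H : FrobPointsAt N q) :
    FrobLevelAt N q (relList q) := by
  intro A hA φ hφ p hp hpq k f hA' hB' cA cB hf hcA hcB hdiv hnA hnB
  obtain ⟨K₀, hK₀fin, hK₀⟩ := H A hA φ hφ
  refine ⟨K₀, hK₀fin, fun K hK hle fK hAK hBK cAK cBK _ _ _ _ _ hfK0 hAK0 hBK0 hcAK0 hcBK0
    hnAK hnBK hdivK hratK => ?_⟩
  obtain ⟨ϖ, W, iW1, iW2, V₁, V₂, hV, hTor, hTwP, hTwM⟩ := hK₀ K hK hle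
  have hpk : p ^ k ≠ 0 := pow_ne_zero k hp.ne_zero
  set τ := tauK K hK.stable (N * q) φ with hτ
  obtain ⟨G, hG₁, hG₂, hf₂₁, hf₂₂⟩ :=
    hTor (p ^ k) hpk fK hAK hBK cAK cBK hfK0 hAK0 hBK0 hcAK0 hcBK0 hnAK hnBK
  have hG0 : G ≠ 0 := by
    rintro rfl
    rw [map_zero] at hG₁
    exact zero_ne_one hG₁
  have hval₁ : ∀ x, V₁.valuation (τ x) = V₁.valuation x := hV.val₁
  have hval₂ : ∀ x, V₂.valuation (τ x) = V₂.valuation x := hV.val₂
  -- the function `h = τ f / f`
  set h := tw τ 1 fK with hh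
  have hh0 : h ≠ 0 := tw_one_ne_zero K hK.stable (N * q) φ hfK0
  have hhdiv := dvd_ord_tw_one K hK.stable (N * q) φ hfK0 hdivK
  have hhrat := bijective_of_ord_tw_one_ne_zero K hK.stable (N * q) φ hfK0 hratK
  -- `f₂ ≡ 1` modulo `ϖ W`
  have hf₂ : ∃ w ∈ W, tw τ 1 h / G ^ (p ^ k) - 1 =
      algebraMap ↥(baseRing A K) (FF (Lvl K) (N * q)) ϖ * w :=
    hV.twoVal.exists_eq_mul hf₂₁ hf₂₂
  -- the final global function
  have hGf0 : tw τ (q ^ 2) G ≠ 0 := by
    unfold tw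
    exact div_ne_zero ((map_ne_zero _).2 hG0) (pow_ne_zero _ hG0)
  have hkey : twK K hK.stable (N * q) (relList q) φ fK / tw τ (q ^ 2) G ^ (p ^ k) =
      tw τ (q ^ 2) (tw τ 1 h / G ^ (p ^ k)) := by
    rw [twK_relList, tw_div_pow]
  refine ⟨ϖ, W, iW1, iW2, V₁, V₂, tw τ (q ^ 2) G, hV.irr, hV.twoVal, hV.semiP, hV.semiM, hGf0,
    ?_, ?_, ?_⟩
  · rw [hkey]
    exact hV.twoVal.exists_eq_mul (tw_sub_one_mem_nonunits τ V₁ hval₁ _ hf₂₁)
      (tw_sub_one_mem_nonunits τ V₂ hval₂ _ hf₂₂)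
  · rw [hkey]
    exact hTwP (p ^ k) hpk h G hh0 hhdiv hhrat hG₁ hG₂ hf₂
  · rw [hkey]
    exact hTwM (p ^ k) hpk h G hh0 hhdiv hhrat hG₁ hG₂ hf₂

/-- The level data at all `N`, `q ∤ N`. -/
def FrobPoints : Prop :=
  ∀ (N : ℕ) [NeZero N] (q : ℕ) [NeZero q], q.Prime → ¬ q ∣ N → FrobPointsAt N q

theorem frobLevel_of_points (H : FrobPoints) : FrobLevel relList :=
  fun N _ q _ hq hqN => frobLevelAt_of_points (H N q hq hqN)

theorem levelFrob_of_points (H : FrobPoints) : LevelFrob relList :=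
  levelFrob_of_frobLevel (frobLevel_of_points H)

end Fermat.Agent.P4.LevelFrobOfPoints
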