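/-
P4-S35, block [P4-C1] part 1 (helper16): **the norm–residue formula for units (indeed for all
elements) of `W = V₁ ∩ V₂`** at a level `(K, O)` of block E, for the two level maps
`α, β : FF K N → FF K (N ℓ)`.

`V₁ = gaussVS K (N ℓ) O` (place `θ_{Nℓ}`), `V₂ = S.V` (place `S.ev`) for a second valuation
`S : SecondVal K N ℓ O`.  For `b ∈ V₁ ∩ V₂`:

* `norm_alpha_residue` : `N_α(b) ∈ G_N` and `θ_N (N_α b) = θ_{Nℓ}(b) · Fr(S.ev b)`;
* `norm_beta_residue`  : `N_β(b) ∈ G_N` and `θ_N (N_β b) = Fr(θ_{Nℓ} b) · S.ev b`,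

`Fr` the coefficientwise Frobenius of `κ((q))`.  (Along `α` the valuation `V₁` has residue degree one
and `V₂` is purely inseparable of degree `ℓ` over the Gauss valuation of level `N`; along `β` the
roles are swapped.)  Also: `V₁ ∩ V₂` is the integral closure of `α (G_N)` (and of `β (G_N)`), and the
Gauss valuation of level `N ℓ` has residue degree one along `α`.
-/
import Mathlib
import Fermat.Agent.N4F.E.AlphaSide
import Fermat.Agent.P3G.SecondValuation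

set_option autoImplicit false
set_option linter.unusedSectionVars false
set_option linter.style.haveILetI false

open ModularCurve AlgebraicCurve Polynomial
open Fermat.Agent.S28.Gauss Fermat.Agent.N4.Setting Fermat.Agent.N4.FibreEmbedding
open Fermat.Agent.N4F.E.DegreeLevelRaise Fermat.Agent.N4F.E.GaussDVR
open Fermat.Agent.N4F.E Fermat.Agent.P3G.SecondValuation

noncomputable section

namespace Fermat.Agent.P4.NormResidue

/-! ### Abstract wrappers with the tower as an explicit hypothesis -/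

section Abstract

open IsLocalRing

variable {A F L : Type*} [CommRing A] [IsDomain A] [IsDiscreteValuationRing A] [Field F]
  [Algebra A F] [IsFractionRing A F] [Field L] [Algebra F L] [Algebra A L]
  [FiniteDimensional F L] [Algebra.IsSeparable F L]
  {Ω : Type*} [Field Ω] {l : ℕ} [hl : Fact l.Prime] [CharP Ω l]
  (htower : IsScalarTower A F L)
  (hdeg : Module.finrank F L = l + 1)
  (θ : A →+* Ω) (hθ : ∀ a ∈ maximalIdeal A, θ a = 0) (φ : Ω →+* Ω)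
  (π₁ : integralClosure A L →+* Ω)
  (hπ₁ : ∀ a : A, π₁ (algebraMap A (integralClosure A L) a) = φ (θ a))
  (x₀ : integralClosure A L) (t₀ : A) (hx₀ : π₁ x₀ ^ l = φ (θ t₀))
  (ht₀ : ∀ a : A, θ a ^ l ≠ θ t₀)
  (π₂ : integralClosure A L →+* Ω)
  (hπ₂ : ∀ a : A, π₂ (algebraMap A (integralClosure A L) a) = θ a)
  (hne : RingHom.ker π₂ ≠ RingHom.ker π₁)

include htower hdeg hθ hπ₁ hx₀ ht₀ hπ₂ hne in
/-- `π₂` has residue degree one: its values are values of `θ`. -/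
theorem exists_theta_eq' (b : integralClosure A L) : ∃ a : A, π₂ b = θ a := by
  haveI := htower
  obtain ⟨a, ha⟩ := (KummerPlace.primesOver_eq hdeg θ hθ φ π₁ hπ₁ x₀ t₀ hx₀ ht₀ π₂ hπ₂ hne).2 b
  refine ⟨a, ?_⟩
  rw [RingHom.mem_ker, map_sub, hπ₂, sub_eq_zero] at ha
  exact ha

include htower hdeg hθ hπ₁ hx₀ ht₀ hπ₂ hne in
/-- `SecondValuation.exists_secondVal` with the tower as an explicit hypothesis (only the clauses
used below). -/
theorem exists_secondVal' (V₁ : ValuationSubring L)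
    (hV₁C : ∀ c : integralClosure A L, (c : L) ∈ V₁)
    (hV₁ : ∀ c : integralClosure A L, π₁ c = 0 → (c : L) ∈ V₁.nonunits) :
    ∃ V : ValuationSubring L,
      (∀ V' : ValuationSubring L, (∀ a : A, algebraMap A L a ∈ V') →
        (∀ a ∈ maximalIdeal A, algebraMap A L a ∈ V'.nonunits) → V' = V₁ ∨ V' = V) ∧
      (∀ y : L, y ∈ V₁ → y ∈ V → IsIntegral A y) := by
  haveI := htower
  obtain ⟨V, -, -, -, -, -, -, -, honly, hint⟩ :=
    exists_secondVal hdeg θ hθ φ π₁ hπ₁ x₀ t₀ hx₀ ht₀ π₂ hπ₂ hne V₁ hV₁C hV₁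
  exact ⟨V, honly, hint⟩

end Abstract

/-! ### The `α`-side -/

section Alpha

open Fermat.Agent.N4F.E.AlphaSide Fermat.Agent.N4F.E.KummerNorm

variable (K : Type) [Field K] [CharZero K] (N : ℕ) [NeZero N] (ℓ : ℕ) [Fact ℓ.Prime]
  (O : Subring K) [IsDiscreteValuationRing ↥O] [IsFractionRing ↥O K]

set_option quotPrecheck false in
local notation "κ" => IsLocalRing.ResidueField ↥O

attribute [local instance] algFL algGL isScalarTower_GFL

set_option synthInstance.maxHeartbeats 400000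

variable (S : SecondVal K N ℓ O)

/-- A valuation subring is integrally closed in its field, along its inclusion. -/
theorem mem_of_isIntegralElem_subtype {L : Type*} [Field L] (V : ValuationSubring L) (y : L)
    (hy : V.toSubring.subtype.IsIntegralElem y) : y ∈ V := by
  have h1 : IsIntegral ↥V y := hy
  obtain ⟨z, hz⟩ := IsIntegrallyClosed.isIntegral_iff.mp h1
  rw [← hz]
  exact z.2

/-- The second valuation as an output of the `β`-side in the sense of `AlphaSide`. -/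
theorem betaOut : BetaOut K N ℓ O S.V.toSubring S.ev where
  closed y hy := mem_of_isIntegralElem_subtype S.V y hy
  beta a := ⟨S.beta_mem a a.2, S.ev_beta a a.2⟩
  alpha a := ⟨S.alpha_mem a a.2, S.ev_alpha a a.2⟩

variable [CharP (IsLocalRing.ResidueField ↥O) ℓ]
  (ι : K →+* ℂ) (hℓN : ¬ ℓ ∣ N)
  (hprime : (fibreIdeal K N O (Rfin K N O)).IsPrime)
  (hA2 : ∀ x : gaussSubalgebra K N O,
    theta K N O x ∈ modularFunctionFieldFullC (IsLocalRing.ResidueField ↥O) N)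

/-- `C_α ⊆ V₂`. -/
theorem mem_secondVal_of_mem_closure
    (b : ↥(integralClosure ↥(gaussSubalgebra K N O) (FF K (N * ℓ)))) :
    (b : FF K (N * ℓ)) ∈ S.V :=
  mem_S_of_mem_integralClosure K N ℓ O (betaOut K N ℓ O S) b.2

theorem pi1_eq (b : ↥(integralClosure ↥(gaussSubalgebra K N O) (FF K (N * ℓ)))) :
    pi1 K N ℓ O (betaOut K N ℓ O S) b =
      S.ev ⟨(b : FF K (N * ℓ)), mem_secondVal_of_mem_closure K N ℓ O S b⟩ := rfl

/-- The place of `V₂` takes its values in `θ (G_N)`. -/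
theorem exists_ev_eq_theta (y : ↥S.V) : ∃ a : gaussSubalgebra K N O, S.ev y = theta K N O a := by
  obtain ⟨a, ha⟩ := S.deg_one y y.2
  refine ⟨a, ?_⟩
  have hβ := S.beta_mem a a.2
  have h1 : S.ev (y - ⟨betaF K N ℓ (a : FF K N), hβ⟩) = 0 := by
    rw [S.ev_eq_zero_iff]
    exact ha
  rw [map_sub, sub_eq_zero] at h1
  rw [h1]
  exact S.ev_beta a a.2

include hA2 in
/-- `V₂` is purely inseparable over `α`: the `ℓ`-th power of a residue comes from level `N`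
through `x ↦ x(q^ℓ)`. -/
theorem exists_pi1_pow_eq (b : ↥(integralClosure ↥(gaussSubalgebra K N O) (FF K (N * ℓ)))) :
    ∃ c : gaussSubalgebra K N O,
      theta K N O c = coeffMap (frobenius κ ℓ) (pi1 K N ℓ O (betaOut K N ℓ O S) b) ∧
      pi1 K N ℓ O (betaOut K N ℓ O S) b ^ ℓ = qExpand κ ℓ (theta K N O c) := by
  obtain ⟨a, ha⟩ := exists_ev_eq_theta K N ℓ O S
    ⟨(b : FF K (N * ℓ)), mem_secondVal_of_mem_closure K N ℓ O S b⟩
  obtain ⟨c, hc⟩ := GaussResidue.theta_surjective K N O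
    (GaussResidueQ.coeffMap_frobenius_mem_full κ N ℓ (hA2 a))
  refine ⟨c, ?_, ?_⟩
  · rw [hc, pi1_eq, ha]
  · rw [hc, pi1_eq, ha]
    exact Fermat.Agent.N4.Kronecker.pow_char_eq_qExpand ℓ _

include S ι hℓN in
/-- **Residue degree one of the Gauss valuation along `α`** (on `C_α`). -/
theorem exists_pi2_eq (b : ↥(integralClosure ↥(gaussSubalgebra K N O) (FF K (N * ℓ)))) :
    ∃ μ : gaussSubalgebra K N O, pi2 K N ℓ O b = theta K N O μ := by
  haveI : FiniteDimensional (FF K N) (FF K (N * ℓ)) := finiteDimensional_alpha K N ℓ ι hℓN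
  haveI := charP_laurent K ℓ O
  have hB := betaOut K N ℓ O S
  exact exists_theta_eq' (A := ↥(gaussSubalgebra K N O)) (F := FF K N)
    (L := FF K (N * ℓ)) (IsScalarTower.of_algebraMap_eq fun _ => rfl) (finrank_alpha K N ℓ ι hℓN)
    (theta K N O) (theta_mem_maximalIdeal K N O) (qExpand κ ℓ) (pi1 K N ℓ O hB)
    (pi1_algebraMap K N ℓ O hB) (x0 K N ℓ O) (t0 K N O) (hx0 K N ℓ O hB) (ht0 K N ℓ O)
    (pi2 K N ℓ O) (pi2_algebraMap K N ℓ O) (ker_ne K N ℓ O hB) b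

include ι hℓN hA2 in
/-- **The norm–residue formula along `α`**, on the integral closure `C_α` of `α (G_N)`. -/
theorem norm_alpha_closure (b : ↥(integralClosure ↥(gaussSubalgebra K N O) (FF K (N * ℓ)))) :
    ∃ hmem : Algebra.norm (FF K N) (b : FF K (N * ℓ)) ∈ gaussSubalgebra K N O,
      theta K N O ⟨_, hmem⟩ =
        coeffMap (frobenius κ ℓ) (pi1 K N ℓ O (betaOut K N ℓ O S) b) * pi2 K N ℓ O b := by
  haveI : FiniteDimensional (FF K N) (FF K (N * ℓ)) := finiteDimensional_alpha K N ℓ ι hℓN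
  haveI := charP_laurent K ℓ O
  have hB := betaOut K N ℓ O S
  obtain ⟨c, hc1, hc2⟩ := exists_pi1_pow_eq K N ℓ O S hA2 b
  obtain ⟨μ, hμ⟩ := exists_pi2_eq K N ℓ O S ι hℓN b
  obtain ⟨ν, hν1, hν2⟩ := norm_form (A := ↥(gaussSubalgebra K N O)) (F := FF K N)
    (L := FF K (N * ℓ)) (IsScalarTower.of_algebraMap_eq fun _ => rfl) (finrank_alpha K N ℓ ι hℓN)
    (theta K N O) (theta_mem_maximalIdeal K N O) (qExpand κ ℓ) (pi1 K N ℓ O hB)
    (pi1_algebraMap K N ℓ O hB) (x0 K N ℓ O) (t0 K N O) (hx0 K N ℓ O hB) (ht0 K N ℓ O)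
    (pi2 K N ℓ O) (pi2_algebraMap K N ℓ O) (ker_ne K N ℓ O hB) b c μ hc2 hμ
  have hmem : Algebra.norm (FF K N) (b : FF K (N * ℓ)) ∈ gaussSubalgebra K N O := by
    rw [← hν1]
    exact ν.2
  refine ⟨hmem, ?_⟩
  have : (⟨_, hmem⟩ : gaussSubalgebra K N O) = ν := Subtype.ext hν1.symm
  rw [this, hν2, hc1, hμ]

set_option maxHeartbeats 800000 in
include ι hℓN in
/-- **`V₁ ∩ V₂ ⊆ C_α`**: an element of the two vertical valuation rings is integral over
`α (G_N)`. -/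
theorem mem_closure_alpha {y : FF K (N * ℓ)} (hy₁ : y ∈ gaussSubalgebra K (N * ℓ) O)
    (hy₂ : y ∈ S.V) : y ∈ integralClosure ↥(gaussSubalgebra K N O) (FF K (N * ℓ)) := by
  haveI : FiniteDimensional (FF K N) (FF K (N * ℓ)) := finiteDimensional_alpha K N ℓ ι hℓN
  haveI := charP_laurent K ℓ O
  have hB := betaOut K N ℓ O S
  obtain ⟨V, honly, hint⟩ := exists_secondVal' (A := ↥(gaussSubalgebra K N O)) (F := FF K N)
    (L := FF K (N * ℓ)) (IsScalarTower.of_algebraMap_eq fun _ => rfl) (finrank_alpha K N ℓ ι hℓN)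
    (theta K N O) (theta_mem_maximalIdeal K N O) (qExpand κ ℓ) (pi1 K N ℓ O hB)
    (pi1_algebraMap K N ℓ O hB) (x0 K N ℓ O) (t0 K N O) (hx0 K N ℓ O hB) (ht0 K N ℓ O)
    (pi2 K N ℓ O) (pi2_algebraMap K N ℓ O) (ker_ne K N ℓ O hB) S.V
    (fun c => mem_secondVal_of_mem_closure K N ℓ O S c)
    (fun c hc => (S.ev_eq_zero_iff ⟨(c : FF K (N * ℓ)),
      mem_secondVal_of_mem_closure K N ℓ O S c⟩).1 hc)
  have hG : gaussVS K (N * ℓ) O = V := by
    rcases honly (gaussVS K (N * ℓ) O) (fun a => alphaF_mem K O N ℓ a.2) (fun a ha => by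
        have h1 : algebraMap ↥(gaussSubalgebra K N O) (FF K (N * ℓ)) a =
            alphaF K N ℓ (a : FF K N) := rfl
        rw [h1, mem_nonunits_gaussVS_iff K (N * ℓ) O (alphaF_mem K O N ℓ a.2), theta_alphaF]
        exact theta_mem_maximalIdeal K N O a ha) with h | h
    · exact absurd h.symm S.ne_gauss
    · exact h
  have hyV : y ∈ V := by
    rw [← hG]
    exact hy₁
  exact hint y hy₂ hyV

include ι hℓN hA2 in
/-- **The norm–residue formula along `α`**: for `b ∈ V₁ ∩ V₂`, the norm `N_α(b)` lies in the Gauss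
ring `G_N` and `θ_N (N_α b) = θ_{Nℓ}(b) · Fr (ev b)`. -/
theorem norm_alpha_residue {b : FF K (N * ℓ)} (hb₁ : b ∈ gaussSubalgebra K (N * ℓ) O)
    (hb₂ : b ∈ S.V) :
    ∃ hmem : Algebra.norm (FF K N) b ∈ gaussSubalgebra K N O,
      theta K N O ⟨_, hmem⟩ =
        theta K (N * ℓ) O ⟨b, hb₁⟩ * coeffMap (frobenius κ ℓ) (S.ev ⟨b, hb₂⟩) := by
  have hbC := mem_closure_alpha K N ℓ O S ι hℓN hb₁ hb₂
  obtain ⟨hmem, h⟩ := norm_alpha_closure K N ℓ O S ι hℓN hA2 ⟨b, hbC⟩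
  refine ⟨hmem, ?_⟩
  rw [h, mul_comm]
  rfl

include S ι hℓN in
/-- **Residue degree one of the Gauss valuation of level `N ℓ` along `α`**, on `V₁ ∩ V₂`
(instance-free form). -/
theorem exists_theta_eq_theta {y : FF K (N * ℓ)} (hy₁ : y ∈ gaussSubalgebra K (N * ℓ) O)
    (hy₂ : y ∈ S.V) :
    ∃ a : gaussSubalgebra K N O, theta K (N * ℓ) O ⟨y, hy₁⟩ = theta K N O a := by
  have hyC := mem_closure_alpha K N ℓ O S ι hℓN hy₁ hy₂
  obtain ⟨μ, hμ⟩ := exists_pi2_eq K N ℓ O S ι hℓN ⟨y, hyC⟩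
  exact ⟨μ, hμ⟩

end Alpha

/-! ### The `β`-side -/

section Beta

open Fermat.Agent.N4F.E.BetaSide Fermat.Agent.N4F.E.KummerNorm

variable (K : Type) [Field K] [CharZero K] (N : ℕ) [NeZero N] (ℓ : ℕ) [hℓ : Fact ℓ.Prime]
  (O : Subring K) [IsDiscreteValuationRing ↥O] [IsFractionRing ↥O K]

set_option quotPrecheck false in
local notation "κ" => IsLocalRing.ResidueField ↥O

attribute [local instance] BetaSide.algBeta BetaSide.algGL BetaSide.algGC BetaSide.commRingCβ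

set_option synthInstance.maxHeartbeats 400000

variable (S : SecondVal K N ℓ O)

/-- `C_β ⊆ V₂`. -/
theorem mem_secondVal_of_mem_Cβ (c : Cβ K N ℓ O) : (c : FF K (N * ℓ)) ∈ S.V := by
  have h1 : IsIntegral ↥S.V.toSubring (c : FF K (N * ℓ)) :=
    BetaSide.isIntegral_subring_of_isIntegral (R := ↥(gaussSubalgebra K N O)) S.V.toSubring
      (fun a => S.beta_mem a a.2) c.2
  obtain ⟨z, hz⟩ := IsIntegrallyClosed.isIntegral_iff.mp
    (show IsIntegral ↥S.V (c : FF K (N * ℓ)) from h1)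
  rw [← hz]
  exact z.2

/-- The second place on `C_β`. -/
def evβ : Cβ K N ℓ O →+* LaurentSeries κ :=
  S.ev.comp (((Cβ K N ℓ O).val.toRingHom).codRestrict S.V.toSubring
    (mem_secondVal_of_mem_Cβ K N ℓ O S))

theorem evβ_apply (c : Cβ K N ℓ O) :
    evβ K N ℓ O S c = S.ev ⟨(c : FF K (N * ℓ)), mem_secondVal_of_mem_Cβ K N ℓ O S c⟩ := rfl

theorem evβ_algebraMap (a : ↥(gaussSubalgebra K N O)) :
    evβ K N ℓ O S (algebraMap ↥(gaussSubalgebra K N O) (Cβ K N ℓ O) a) = theta K N O a :=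
  S.ev_beta a a.2

variable [CharP (IsLocalRing.ResidueField ↥O) ℓ]

theorem ker_evβ_ne : RingHom.ker (evβ K N ℓ O S) ≠ RingHom.ker (pi₁ K N ℓ O) := by
  refine ker_ne_of (pi₁ K N ℓ O) (evβ K N ℓ O S) (x₀ K N ℓ O)
    (algebraMap ↥(gaussSubalgebra K N O) (Cβ K N ℓ O) (t₀ K N O) ^ ℓ) ?_ ?_
  · rw [ev_x₀ K N ℓ O (evβ K N ℓ O S) (evβ_algebraMap K N ℓ O S), map_pow, evβ_algebraMap,
      theta_t₀]
  · rw [pi₁_x₀, map_pow, pi₁_algebraMap, theta_t₀]
    exact (Integrality.jqModC_ne_pow κ ℓ _).symm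

variable (ι : K →+* ℂ) (hℓN : ¬ ℓ ∣ N)
  (hA2 : ∀ x : ↥(gaussSubalgebra K N O),
    theta K N O x ∈ modularFunctionFieldFullC (IsLocalRing.ResidueField ↥O) N)

include ι hℓN hA2 in
/-- **The norm–residue formula along `β`**, on the integral closure `C_β` of `β (G_N)`. -/
theorem norm_beta_closure (b : Cβ K N ℓ O) :
    ∃ hmem : Algebra.norm (FF K N) (b : FF K (N * ℓ)) ∈ gaussSubalgebra K N O,
      theta K N O ⟨_, hmem⟩ =
        coeffMap (frobenius κ ℓ) (pi₁ K N ℓ O b) * evβ K N ℓ O S b := by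
  haveI := finiteDimensional_beta K N ℓ ι hℓN
  haveI : Algebra.IsSeparable (FF K N) (FF K (N * ℓ)) := inferInstance
  haveI : CharP (LaurentSeries κ) ℓ := charP_laurent K ℓ O
  -- residue degree one of `V₂` along `β`
  obtain ⟨μ, hμ⟩ := exists_ev_eq_theta K N ℓ O S
    ⟨(b : FF K (N * ℓ)), mem_secondVal_of_mem_Cβ K N ℓ O S b⟩
  -- `V₁` is purely inseparable along `β`
  obtain ⟨a, ha⟩ := exists_theta_eq_theta K N ℓ O S ι hℓN (Cβ_le_gauss K N ℓ O b)
    (mem_secondVal_of_mem_Cβ K N ℓ O S b)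
  obtain ⟨c, hc⟩ := GaussResidue.theta_surjective K N O
    (GaussResidueQ.coeffMap_frobenius_mem_full κ N ℓ (hA2 a))
  have h1 : pi₁ K N ℓ O b ^ ℓ = qExpand κ ℓ (theta K N O c) := by
    rw [pi₁_apply, ha, hc]
    exact pow_eq_qExpand_frob K ℓ O _
  have h2 : evβ K N ℓ O S b = theta K N O μ := by
    rw [evβ_apply, hμ]
  obtain ⟨ν, hν1, hν2⟩ := norm_form (A := ↥(gaussSubalgebra K N O)) (F := FF K N)
    (L := FF K (N * ℓ)) inferInstance (finrank_beta K N ℓ ι hℓN) (theta K N O)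
    (theta_maximalIdeal K N O) (qExpand κ ℓ) (pi₁ K N ℓ O) (pi₁_algebraMap K N ℓ O)
    (x₀ K N ℓ O) (t₀ K N O) (pi₁_x₀_pow K N ℓ O) (theta_pow_ne K N ℓ O)
    (evβ K N ℓ O S) (evβ_algebraMap K N ℓ O S) (ker_evβ_ne K N ℓ O S) b c μ h1 h2
  have hmem : Algebra.norm (FF K N) (b : FF K (N * ℓ)) ∈ gaussSubalgebra K N O := by
    rw [← hν1]
    exact ν.2
  refine ⟨hmem, ?_⟩
  have : (⟨_, hmem⟩ : gaussSubalgebra K N O) = ν := Subtype.ext hν1.symm
  rw [this, hν2, hc, h2, pi₁_apply, ha]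

/-- **`V₁ ∩ V₂ ⊆ C_β`**. -/
theorem mem_Cβ {y : FF K (N * ℓ)} (hy₁ : y ∈ gaussSubalgebra K (N * ℓ) O) (hy₂ : y ∈ S.V) :
    y ∈ Cβ K N ℓ O :=
  S.isIntegral_of_mem y hy₁ hy₂

include ι hℓN hA2 in
/-- **The norm–residue formula along `β`**: for `b ∈ V₁ ∩ V₂`, the norm `N_β(b)` lies in the Gauss
ring `G_N` and `θ_N (N_β b) = Fr (θ_{Nℓ} b) · ev b`. -/
theorem norm_beta_residue {b : FF K (N * ℓ)} (hb₁ : b ∈ gaussSubalgebra K (N * ℓ) O)
    (hb₂ : b ∈ S.V) :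
    ∃ hmem : Algebra.norm (FF K N) b ∈ gaussSubalgebra K N O,
      theta K N O ⟨_, hmem⟩ =
        coeffMap (frobenius κ ℓ) (theta K (N * ℓ) O ⟨b, hb₁⟩) * S.ev ⟨b, hb₂⟩ := by
  obtain ⟨hmem, h⟩ := norm_beta_closure K N ℓ O S ι hℓN hA2 ⟨b, mem_Cβ K N ℓ O S hb₁ hb₂⟩
  exact ⟨hmem, h⟩

include ι hℓN in
/-- A "partition of unity" of `W = V₁ ∩ V₂`: an element with residues `(1, 0)`. -/
theorem exists_residues_one_zero :
    ∃ (u : FF K (N * ℓ)) (h₁ : u ∈ gaussSubalgebra K (N * ℓ) O) (h₂ : u ∈ S.V),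
      theta K (N * ℓ) O ⟨u, h₁⟩ = 1 ∧ S.ev ⟨u, h₂⟩ = 0 := by
  have hmax₁ : (RingHom.ker (pi₁ K N ℓ O)).IsMaximal :=
    (isMaximal_iff K N ℓ O ι hℓN (evβ K N ℓ O S) (evβ_algebraMap K N ℓ O S)
      (ker_evβ_ne K N ℓ O S) _).2 (Or.inl rfl)
  have hmax₂ : (RingHom.ker (evβ K N ℓ O S)).IsMaximal :=
    (isMaximal_iff K N ℓ O ι hℓN (evβ K N ℓ O S) (evβ_algebraMap K N ℓ O S)
      (ker_evβ_ne K N ℓ O S) _).2 (Or.inr rfl)
  have hcop : IsCoprime (RingHom.ker (evβ K N ℓ O S)) (RingHom.ker (pi₁ K N ℓ O)) :=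
    Ideal.isCoprime_of_isMaximal (ker_evβ_ne K N ℓ O S)
  obtain ⟨u, hu, v, hv, huv⟩ := Ideal.isCoprime_iff_exists.mp hcop
  refine ⟨(u : FF K (N * ℓ)), Cβ_le_gauss K N ℓ O u, mem_secondVal_of_mem_Cβ K N ℓ O S u, ?_, hu⟩
  have h1 : pi₁ K N ℓ O u + pi₁ K N ℓ O v = 1 := by rw [← map_add, huv, map_one]
  rw [RingHom.mem_ker] at hv
  rw [hv, add_zero] at h1
  exact h1

include ι hℓN in
/-- **CRT in `W = V₁ ∩ V₂`**: any pair of residues coming from level `N` is the pair of residues of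
an element of `W`. -/
theorem exists_mem_of_residues (g₁ g₂ : ↥(gaussSubalgebra K N O)) :
    ∃ (G : FF K (N * ℓ)) (h₁ : G ∈ gaussSubalgebra K (N * ℓ) O) (h₂ : G ∈ S.V),
      theta K (N * ℓ) O ⟨G, h₁⟩ = theta K N O g₁ ∧ S.ev ⟨G, h₂⟩ = theta K N O g₂ := by
  obtain ⟨u, hu₁, hu₂, hθu, hevu⟩ := exists_residues_one_zero K N ℓ O S ι hℓN
  have ha₁ := alphaF_mem K O N ℓ g₁.2
  have ha₂ := S.alpha_mem g₁ g₁.2
  have hb₁ := betaF_mem K O N ℓ g₂.2
  have hb₂ := S.beta_mem g₂ g₂.2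
  refine ⟨alphaF K N ℓ (g₁ : FF K N) * u + betaF K N ℓ (g₂ : FF K N) * (1 - u),
    add_mem (mul_mem ha₁ hu₁) (mul_mem hb₁ (sub_mem (one_mem _) hu₁)),
    add_mem (mul_mem ha₂ hu₂) (mul_mem hb₂ (sub_mem (one_mem _) hu₂)), ?_, ?_⟩
  · have e : (⟨alphaF K N ℓ (g₁ : FF K N) * u + betaF K N ℓ (g₂ : FF K N) * (1 - u),
        add_mem (mul_mem ha₁ hu₁) (mul_mem hb₁ (sub_mem (one_mem _) hu₁))⟩ :
          gaussSubalgebra K (N * ℓ) O) =
        ⟨_, ha₁⟩ * ⟨u, hu₁⟩ + ⟨_, hb₁⟩ * (1 - ⟨u, hu₁⟩) := rfl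
    rw [e, map_add, map_mul, map_mul, map_sub, map_one, hθu, sub_self, mul_zero, add_zero, mul_one]
    exact theta_alphaF K O N ℓ g₁
  · have e : (⟨alphaF K N ℓ (g₁ : FF K N) * u + betaF K N ℓ (g₂ : FF K N) * (1 - u),
        add_mem (mul_mem ha₂ hu₂) (mul_mem hb₂ (sub_mem (one_mem _) hu₂))⟩ : ↥S.V) =
        ⟨_, ha₂⟩ * ⟨u, hu₂⟩ + ⟨_, hb₂⟩ * (1 - ⟨u, hu₂⟩) := rfl
    rw [e, map_add, map_mul, map_mul, map_sub, map_one, hevu, mul_zero, zero_add, sub_zero,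
      mul_one]
    exact S.ev_beta g₂ g₂.2

/-- **The fibre of `W` is reduced** (`e = 1` at both vertical valuations): an element of
`W = V₁ ∩ V₂` with both residues zero is divisible by the uniformiser in `W`. -/
theorem exists_eq_unif_mul_of_residues {ϖ : ↥O} (hϖ : Irreducible ϖ) {x : FF K (N * ℓ)}
    (hx₁ : x ∈ gaussSubalgebra K (N * ℓ) O) (hx₂ : x ∈ S.V)
    (h1 : theta K (N * ℓ) O ⟨x, hx₁⟩ = 0) (h2 : S.ev ⟨x, hx₂⟩ = 0) :
    ∃ w : FF K (N * ℓ), w ∈ gaussSubalgebra K (N * ℓ) O ∧ w ∈ S.V ∧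
      x = algebraMap K (FF K (N * ℓ)) (ϖ : K) * w := by
  have hϖK : ((ϖ : ↥O) : K) ≠ 0 := fun h0 => hϖ.ne_zero (Subtype.ext h0)
  have hϖF : algebraMap K (FF K (N * ℓ)) (ϖ : K) ≠ 0 := by
    rw [Ne, map_eq_zero]
    exact hϖK
  obtain ⟨y, hy⟩ := exists_eq_unif_mul K (N * ℓ) O hϖ ⟨x, hx₁⟩ h1
  have hy' : x = algebraMap K (FF K (N * ℓ)) (ϖ : K) * (y : FF K (N * ℓ)) :=
    congrArg Subtype.val hy
  refine ⟨(y : FF K (N * ℓ)), y.2, ?_, hy'⟩
  have h3 := S.ram_one ϖ hϖ x ((S.ev_eq_zero_iff ⟨x, hx₂⟩).1 h2)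
  have h4 : x * (algebraMap K (FF K (N * ℓ)) (ϖ : K))⁻¹ = (y : FF K (N * ℓ)) := by
    rw [hy', mul_comm (algebraMap K (FF K (N * ℓ)) (ϖ : K)) (y : FF K (N * ℓ)),
      mul_inv_cancel_right₀ hϖF]
  rw [← h4]
  exact h3

end Beta

/-! ### Instance-free forms -/

section Along

variable (K : Type) [Field K] [CharZero K] (N : ℕ) [NeZero N] (ℓ : ℕ) [Fact ℓ.Prime]
  (O : Subring K) [IsDiscreteValuationRing ↥O] [IsFractionRing ↥O K]
  (S : SecondVal K N ℓ O) [CharP (IsLocalRing.ResidueField ↥O) ℓ]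
  (ι : K →+* ℂ) (hℓN : ¬ ℓ ∣ N)
  (hA2 : ∀ x : ↥(gaussSubalgebra K N O),
    theta K N O x ∈ modularFunctionFieldFullC (IsLocalRing.ResidueField ↥O) N)

include ι hℓN hA2 in
/-- **Norm–residue formula along `α`** (the algebra structure spelled out). -/
theorem norm_alpha_residue_along {b : FF K (N * ℓ)} (hb₁ : b ∈ gaussSubalgebra K (N * ℓ) O)
    (hb₂ : b ∈ S.V) :
    ∃ hmem : (letI := algebraAlong (alphaF K N ℓ); Algebra.norm (FF K N) b) ∈
        gaussSubalgebra K N O,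
      theta K N O ⟨_, hmem⟩ =
        theta K (N * ℓ) O ⟨b, hb₁⟩ *
          coeffMap (frobenius (IsLocalRing.ResidueField ↥O) ℓ) (S.ev ⟨b, hb₂⟩) :=
  norm_alpha_residue K N ℓ O S ι hℓN hA2 hb₁ hb₂

include ι hℓN hA2 in
/-- **Norm–residue formula along `β`** (the algebra structure spelled out). -/
theorem norm_beta_residue_along {b : FF K (N * ℓ)} (hb₁ : b ∈ gaussSubalgebra K (N * ℓ) O)
    (hb₂ : b ∈ S.V) :
    ∃ hmem : (letI := algebraAlong (betaF K N ℓ); Algebra.norm (FF K N) b) ∈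
        gaussSubalgebra K N O,
      theta K N O ⟨_, hmem⟩ =
        coeffMap (frobenius (IsLocalRing.ResidueField ↥O) ℓ) (theta K (N * ℓ) O ⟨b, hb₁⟩) *
          S.ev ⟨b, hb₂⟩ :=
  norm_beta_residue K N ℓ O S ι hℓN hA2 hb₁ hb₂

end Along

/-! ### A formal consequence of the two norm–residue formulas -/

/-- If `a · Fr b = P` and `Fr a · b = Q` then `Fr² a · P = a · Fr Q`: the two norm relations
eliminate the second residue. -/
theorem frob_sq_mul {Ω : Type*} [CommRing Ω] (Fr : Ω →+* Ω) {a b P Q : Ω}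
    (h1 : a * Fr b = P) (h2 : Fr a * b = Q) : Fr (Fr a) * P = a * Fr Q := by
  rw [← h1, ← h2, map_mul]
  ring

end Fermat.Agent.P4.NormResidue
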