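/-
P4-S35, link NormResidue → TwistRoots (helper22): **the global `W`-unit `G`** (row 38 (Q4)(i), row 39
Step 1 (d)(e)).  Abstract, Mathlib only.

Setting.  `F'` (level `N`) and `F` (level `N q`) fields, `V'` a valuation subring of `F'` (Gauss),
`V₁ V₂` two valuation subrings of `F` (the two vertical components), residue maps
`θ : V' → Λ`, `θ_i : V_i → Λ` into a common field `Λ` (Laurent series over the residue field `κ` of
the base), `Fr : Λ → Λ` (coefficientwise Frobenius), `C : κ → Λ` the constants.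
`τ', τ` automorphisms of `F', F` (the coefficientwise action of `φ²`) preserving the three valuations
and inducing `Fr ∘ Fr` on the residues.  `Nα Nβ : F →* F'` (norms along the two degeneracy maps),
commuting with `τ`, with the **norm–residue formulas for units `b` of `W = V₁ ∩ V₂`**:
`res (Nα b) = res₁ b * Fr (res₂ b)`, `res (Nβ b) = Fr (res₁ b) * res₂ b`.

Data.  `f ≠ 0` in `F` with `Nα f = cA * hA ^ e`, `Nβ f = cB * hB ^ e` (the torsion class of `div f / e`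
is killed by both push-forwards), `cA cB` "constants" (`τ' c / c` has constant residue).

Conclusion (`exists_toric`).  With `h := τ f / f` (a unit of `W`), there is a unit `G` of `W` with
`(τ h / h) / G ^ e ≡ 1` modulo the maximal ideals of `V₁` and `V₂`.

Proof.  `a := res₁ h`, `b := res₂ h`; `a · Fr b = c · A ^ e`, `Fr a · b = c' · B ^ e` with
`A = res (τ' hA / hA)`, `B = res (τ' hB / hB)`; hence `Fr² a / a = const · (Fr B / A) ^ e` and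
`Fr² b / b = const · (Fr A / B) ^ e`; extract `e`-th roots of the constants, lift the two residues and
glue them by the Chinese remainder theorem in `W`.
-/
import Mathlib

set_option autoImplicit false
set_option linter.unusedSectionVars false
set_option linter.unusedVariables false

namespace Fermat.Agent.P4.Toric

/-! ### Residues as a relation -/

section Res

variable {F Λ : Type*} [Field F] [Field Λ] (V : ValuationSubring F) (θ : V →+* Λ)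

/-- `x ∈ V` and its residue is `r`. -/
def Res (x : F) (r : Λ) : Prop := ∃ h : x ∈ V, θ ⟨x, h⟩ = r

variable {V θ}

theorem Res.mem {x : F} {r : Λ} (h : Res V θ x r) : x ∈ V := h.1

theorem Res.unique {x : F} {r s : Λ} (h : Res V θ x r) (h' : Res V θ x s) : r = s := by
  obtain ⟨h1, rfl⟩ := h
  obtain ⟨h2, rfl⟩ := h'
  rfl

theorem res_one : Res V θ 1 1 := ⟨V.one_mem, by
  rw [show (⟨1, V.one_mem⟩ : V) = 1 from rfl, map_one]⟩

theorem Res.mul {x y : F} {r s : Λ} (hx : Res V θ x r) (hy : Res V θ y s) :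
    Res V θ (x * y) (r * s) := by
  obtain ⟨h1, rfl⟩ := hx
  obtain ⟨h2, rfl⟩ := hy
  refine ⟨V.mul_mem _ _ h1 h2, ?_⟩
  rw [← map_mul]
  rfl

theorem Res.pow {x : F} {r : Λ} (hx : Res V θ x r) (n : ℕ) : Res V θ (x ^ n) (r ^ n) := by
  induction n with
  | zero => simpa using (res_one (V := V) (θ := θ))
  | succ n ih =>
    rw [pow_succ, pow_succ]
    exact ih.mul hx

theorem Res.sub {x y : F} {r s : Λ} (hx : Res V θ x r) (hy : Res V θ y s) :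
    Res V θ (x - y) (r - s) := by
  obtain ⟨h1, rfl⟩ := hx
  obtain ⟨h2, rfl⟩ := hy
  refine ⟨V.sub_mem h1 h2, ?_⟩
  rw [← map_sub]
  rfl

theorem Res.congr {x y : F} {r s : Λ} (hx : Res V θ x r) (hxy : x = y) (hrs : r = s) :
    Res V θ y s := by
  subst hxy; subst hrs; exact hx

/-- The residue of an inverse. -/
theorem Res.inv {x : F} {r : Λ} (hx : Res V θ x r) (hx0 : x ≠ 0) (hxi : x⁻¹ ∈ V) :
    Res V θ x⁻¹ r⁻¹ := by
  obtain ⟨h1, rfl⟩ := hx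
  refine ⟨hxi, ?_⟩
  have h2 : θ ⟨x, h1⟩ * θ ⟨x⁻¹, hxi⟩ = 1 := by
    rw [← map_mul]
    have : (⟨x, h1⟩ * ⟨x⁻¹, hxi⟩ : V) = 1 := Subtype.ext (mul_inv_cancel₀ hx0)
    rw [this, map_one]
  exact eq_inv_of_mul_eq_one_right h2

theorem Res.ne_zero_of_inv_mem {x : F} {r : Λ} (hx : Res V θ x r) (hx0 : x ≠ 0) (hxi : x⁻¹ ∈ V) :
    r ≠ 0 := by
  intro hr
  have h := (hx.mul (hx.inv hx0 hxi)).unique
    ((res_one (V := V) (θ := θ)).congr (mul_inv_cancel₀ hx0).symm rfl)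
  rw [hr, zero_mul] at h
  exact zero_ne_one h

theorem Res.div {x y : F} {r s : Λ} (hx : Res V θ x r) (hy : Res V θ y s) (hy0 : y ≠ 0)
    (hyi : y⁻¹ ∈ V) : Res V θ (x / y) (r / s) := by
  rw [div_eq_mul_inv, div_eq_mul_inv]
  exact hx.mul (hy.inv hy0 hyi)

/-- Elements of valuation one. -/
theorem mem_of_valuation_eq_one {x : F} (hx : V.valuation x = 1) :
    x ≠ 0 ∧ x ∈ V ∧ x⁻¹ ∈ V := by
  refine ⟨fun h0 => ?_, (V.valuation_le_one_iff x).mp hx.le, (V.valuation_le_one_iff _).mp ?_⟩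
  · rw [h0, map_zero] at hx
    exact zero_ne_one hx
  · rw [map_inv₀, hx, inv_one]

theorem valuation_eq_one_of_mem {x : F} (hx0 : x ≠ 0) (hx : x ∈ V) (hxi : x⁻¹ ∈ V) :
    V.valuation x = 1 := by
  have h1 := (V.valuation_le_one_iff x).mpr hx
  have h2 := (V.valuation_le_one_iff _).mpr hxi
  rw [map_inv₀] at h2
  have h0 : V.valuation x ≠ 0 := (map_ne_zero _).mpr hx0
  exact le_antisymm h1 ((inv_le_one₀ (zero_lt_iff.mpr h0)).mp h2)

theorem exists_res_of_valuation_eq_one {x : F} (hx : V.valuation x = 1) :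
    ∃ r : Λ, r ≠ 0 ∧ Res V θ x r := by
  obtain ⟨h0, h1, h2⟩ := mem_of_valuation_eq_one hx
  have hr : Res V θ x (θ ⟨x, h1⟩) := ⟨h1, rfl⟩
  exact ⟨_, hr.ne_zero_of_inv_mem h0 h2, hr⟩

variable (hker : ∀ y : V, θ y = 0 ↔ (y : F) ∈ V.nonunits)

include hker in
/-- A nonzero residue forces valuation one. -/
theorem Res.valuation_eq_one {x : F} {r : Λ} (hx : Res V θ x r) (hr : r ≠ 0) :
    V.valuation x = 1 := by
  obtain ⟨h1, rfl⟩ := hx
  have h2 : x ∉ V.nonunits := fun h => hr ((hker ⟨x, h1⟩).mpr h)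
  rw [V.mem_nonunits_iff, not_lt] at h2
  exact le_antisymm ((V.valuation_le_one_iff x).mpr h1) h2

include hker in
/-- Equal residues: the difference is in the maximal ideal. -/
theorem Res.sub_mem_nonunits {x y : F} {r : Λ} (hx : Res V θ x r) (hy : Res V θ y r) :
    x - y ∈ V.nonunits := by
  obtain ⟨h, h'⟩ := hx.sub hy
  rw [sub_self] at h'
  exact (hker ⟨x - y, h⟩).mp h'

end Res

/-! ### The global unit -/

section Main

variable {F' F Λ κ : Type*} [Field F'] [Field F] [Field Λ] [Field κ]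
  (V' : ValuationSubring F') (V₁ V₂ : ValuationSubring F)
  (θ : V' →+* Λ) (θ₁ : V₁ →+* Λ) (θ₂ : V₂ →+* Λ)
  (hker₁ : ∀ y : V₁, θ₁ y = 0 ↔ (y : F) ∈ V₁.nonunits)
  (hker₂ : ∀ y : V₂, θ₂ y = 0 ↔ (y : F) ∈ V₂.nonunits)
  (Fr : Λ →+* Λ) (C : κ →+* Λ)
  (τ' : F' ≃+* F') (τ : F ≃+* F)
  (hτ' : ∀ x, V'.valuation (τ' x) = V'.valuation x)
  (hτ₁ : ∀ x, V₁.valuation (τ x) = V₁.valuation x)
  (hτ₂ : ∀ x, V₂.valuation (τ x) = V₂.valuation x)
  (hθτ₁ : ∀ x r, Res V₁ θ₁ x r → Res V₁ θ₁ (τ x) (Fr (Fr r)))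
  (hθτ₂ : ∀ x r, Res V₂ θ₂ x r → Res V₂ θ₂ (τ x) (Fr (Fr r)))
  (Nα Nβ : F →* F')
  (hNα : ∀ x, Nα (τ x) = τ' (Nα x)) (hNβ : ∀ x, Nβ (τ x) = τ' (Nβ x))
  (hresα : ∀ b r₁ r₂, V₁.valuation b = 1 → V₂.valuation b = 1 → Res V₁ θ₁ b r₁ →
    Res V₂ θ₂ b r₂ → Res V' θ (Nα b) (r₁ * Fr r₂))
  (hresβ : ∀ b r₁ r₂, V₁.valuation b = 1 → V₂.valuation b = 1 → Res V₁ θ₁ b r₁ →
    Res V₂ θ₂ b r₂ → Res V' θ (Nβ b) (Fr r₁ * r₂))
  {e : ℕ} (he : e ≠ 0)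
  (hroot : ∀ c : κ, ∃ d : κ, d ^ e = c)
  (hFrC : ∀ c : κ, ∃ d : κ, Fr (C c) = C d)
  (hC₁ : ∀ c : κ, ∃ x, Res V₁ θ₁ x (C c)) (hC₂ : ∀ c : κ, ∃ x, Res V₂ θ₂ x (C c))
  (hα : ∀ y r, Res V' θ y r → ∃ x, Res V₁ θ₁ x r)
  (hβ : ∀ y r, Res V' θ y r → ∃ x, Res V₂ θ₂ x r)
  (hFrθ : ∀ y r, Res V' θ y r → ∃ y', Res V' θ y' (Fr r))
  (hCRT : ∀ x₁ r₁ x₂ r₂, Res V₁ θ₁ x₁ r₁ → Res V₂ θ₂ x₂ r₂ →
    ∃ G, Res V₁ θ₁ G r₁ ∧ Res V₂ θ₂ G r₂)

include hτ' in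
/-- The residue of a norm of `τ f / f`. -/
theorem res_norm_twist (N : F →* F') (hN : ∀ x, N (τ x) = τ' (N x))
    {f : F} (hf : f ≠ 0) {hA cA : F'} (hA0 : hA ≠ 0) (hcA0 : cA ≠ 0)
    {c : κ} (hcA : Res V' θ (τ' cA / cA) (C c)) (hNf : N f = cA * hA ^ e) :
    ∃ A : Λ, A ≠ 0 ∧ Res V' θ (τ' hA / hA) A ∧ V'.valuation (τ' hA / hA) = 1 ∧
      Res V' θ (N (τ f / f)) (C c * A ^ e) := by
  have hu1 : V'.valuation (τ' hA / hA) = 1 := by
    rw [map_div₀, hτ']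
    exact div_self ((map_ne_zero _).mpr hA0)
  obtain ⟨A, hA', hresA⟩ := exists_res_of_valuation_eq_one (θ := θ) hu1
  refine ⟨A, hA', hresA, hu1, ?_⟩
  have hNf0 : N f ≠ 0 := by
    rw [hNf]
    exact mul_ne_zero hcA0 (pow_ne_zero _ hA0)
  have h1 : N (τ f / f) * N f = N (τ f) := by
    rw [← map_mul, div_mul_cancel₀ _ hf]
  have h2 : N (τ f / f) = (τ' cA / cA) * (τ' hA / hA) ^ e := by
    rw [eq_div_of_mul_eq hNf0 h1, hN, hNf, map_mul, map_pow, div_pow]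
    field_simp
  rw [h2]
  exact hcA.mul (hresA.pow e)

include hker₁ hker₂ hτ' hτ₁ hτ₂ hθτ₁ hθτ₂ hNα hNβ hresα hresβ he hroot hFrC hC₁ hC₂ hα hβ hFrθ
  hCRT in
/-- **The global unit.**  With `h := τ f / f`, there is a unit `G` of `W = V₁ ∩ V₂` such that
`(τ h / h) / G ^ e ≡ 1` modulo the maximal ideals of `V₁` and `V₂`. -/
theorem exists_toric {f : F} (hf : f ≠ 0) {hA hB cA cB : F'} (hA0 : hA ≠ 0) (hB0 : hB ≠ 0)
    (hcA0 : cA ≠ 0) (hcB0 : cB ≠ 0)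
    (hcA : ∃ c : κ, Res V' θ (τ' cA / cA) (C c)) (hcB : ∃ c : κ, Res V' θ (τ' cB / cB) (C c))
    (hNf : Nα f = cA * hA ^ e) (hNf' : Nβ f = cB * hB ^ e) :
    ∃ G : F, V₁.valuation G = 1 ∧ V₂.valuation G = 1 ∧
      (τ (τ f / f) / (τ f / f)) / G ^ e - 1 ∈ V₁.nonunits ∧
      (τ (τ f / f) / (τ f / f)) / G ^ e - 1 ∈ V₂.nonunits := by
  obtain ⟨cα, hcα⟩ := hcA
  obtain ⟨cβ, hcβ⟩ := hcB
  set h : F := τ f / f with hh
  have hτf : τ f ≠ 0 := (map_ne_zero_iff τ τ.injective).mpr hf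
  have hh0 : h ≠ 0 := div_ne_zero hτf hf
  -- `h` is a unit of `W`
  have hv₁ : V₁.valuation h = 1 := by
    rw [hh, map_div₀, hτ₁]
    exact div_self ((map_ne_zero _).mpr hf)
  have hv₂ : V₂.valuation h = 1 := by
    rw [hh, map_div₀, hτ₂]
    exact div_self ((map_ne_zero _).mpr hf)
  obtain ⟨a, ha0, hra⟩ := exists_res_of_valuation_eq_one (θ := θ₁) hv₁
  obtain ⟨b, hb0, hrb⟩ := exists_res_of_valuation_eq_one (θ := θ₂) hv₂
  -- the two norm equations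
  obtain ⟨A, hA', hresA, hvA, hNA⟩ := res_norm_twist V' θ C τ' τ hτ' Nα hNα hf hA0 hcA0 hcα hNf
  obtain ⟨B, hB', hresB, hvB, hNB⟩ := res_norm_twist V' θ C τ' τ hτ' Nβ hNβ hf hB0 hcB0 hcβ hNf'
  have E1 : a * Fr b = C cα * A ^ e := (hresα h a b hv₁ hv₂ hra hrb).unique hNA
  have E2 : Fr a * b = C cβ * B ^ e := (hresβ h a b hv₁ hv₂ hra hrb).unique hNB
  have hFra0 : Fr a ≠ 0 := (map_ne_zero Fr).mpr ha0
  have hFrb0 : Fr b ≠ 0 := (map_ne_zero Fr).mpr hb0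
  have hcα0 : C cα ≠ 0 := by
    intro h0
    rw [h0, zero_mul] at E1
    exact mul_ne_zero ha0 hFrb0 E1
  have hcβ0 : C cβ ≠ 0 := by
    intro h0
    rw [h0, zero_mul] at E2
    exact mul_ne_zero hFra0 hb0 E2
  obtain ⟨dα, hdα⟩ := hFrC cα
  obtain ⟨dβ, hdβ⟩ := hFrC cβ
  have hdα0 : C dα ≠ 0 := by rw [← hdα]; exact (map_ne_zero Fr).mpr hcα0
  have hdβ0 : C dβ ≠ 0 := by rw [← hdβ]; exact (map_ne_zero Fr).mpr hcβ0
  -- `Fr² a / a` and `Fr² b / b`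
  have F1 : Fr (Fr a) / a = C (dβ / cα) * (Fr B / A) ^ e := by
    have h1 : Fr (Fr a) * Fr b = C dβ * Fr B ^ e := by
      rw [← map_mul, E2, map_mul, map_pow, hdβ]
    rw [map_div₀, div_pow, div_mul_div_comm, ← h1, ← E1, mul_div_mul_right _ _ hFrb0]
  have F2 : Fr (Fr b) / b = C (dα / cβ) * (Fr A / B) ^ e := by
    have h1 : Fr a * Fr (Fr b) = C dα * Fr A ^ e := by
      rw [← map_mul, E1, map_mul, map_pow, hdα]
    rw [map_div₀, div_pow, div_mul_div_comm, ← h1, ← E2, mul_div_mul_left _ _ hFra0]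
  -- roots of the constants
  obtain ⟨γ₁, hγ₁⟩ := hroot (dβ / cα)
  obtain ⟨γ₂, hγ₂⟩ := hroot (dα / cβ)
  -- the two target residues
  have hAi : (τ' hA / hA)⁻¹ ∈ V' := (mem_of_valuation_eq_one hvA).2.2
  have hBi : (τ' hB / hB)⁻¹ ∈ V' := (mem_of_valuation_eq_one hvB).2.2
  have hA00 : τ' hA / hA ≠ 0 := (mem_of_valuation_eq_one hvA).1
  have hB00 : τ' hB / hB ≠ 0 := (mem_of_valuation_eq_one hvB).1
  obtain ⟨yB, hyB⟩ := hFrθ _ _ hresB
  obtain ⟨yA, hyA⟩ := hFrθ _ _ hresA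
  obtain ⟨x₁, hx₁⟩ := hα _ _ (hyB.div hresA hA00 hAi)
  obtain ⟨x₂, hx₂⟩ := hβ _ _ (hyA.div hresB hB00 hBi)
  obtain ⟨g₁, hg₁⟩ := hC₁ γ₁
  obtain ⟨g₂, hg₂⟩ := hC₂ γ₂
  obtain ⟨G, hG₁, hG₂⟩ := hCRT _ _ _ _ (hg₁.mul hx₁) (hg₂.mul hx₂)
  -- the residues of `G` are nonzero
  have hρ₁ : (C γ₁ * (Fr B / A)) ^ e = Fr (Fr a) / a := by
    rw [mul_pow, ← map_pow, hγ₁, F1]
  have hρ₂ : (C γ₂ * (Fr A / B)) ^ e = Fr (Fr b) / b := by
    rw [mul_pow, ← map_pow, hγ₂, F2]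
  have hρ₁0 : C γ₁ * (Fr B / A) ≠ 0 := by
    intro h0
    rw [h0, zero_pow he] at hρ₁
    exact div_ne_zero ((map_ne_zero Fr).mpr hFra0) ha0 hρ₁.symm
  have hρ₂0 : C γ₂ * (Fr A / B) ≠ 0 := by
    intro h0
    rw [h0, zero_pow he] at hρ₂
    exact div_ne_zero ((map_ne_zero Fr).mpr hFrb0) hb0 hρ₂.symm
  have hGv₁ : V₁.valuation G = 1 := hG₁.valuation_eq_one hker₁ hρ₁0
  have hGv₂ : V₂.valuation G = 1 := hG₂.valuation_eq_one hker₂ hρ₂0
  refine ⟨G, hGv₁, hGv₂, ?_, ?_⟩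
  · -- first component
    have hGe : V₁.valuation (G ^ e) = 1 := by rw [map_pow, hGv₁, one_pow]
    obtain ⟨hG0, -, hGi⟩ := mem_of_valuation_eq_one hGe
    have hhi : h⁻¹ ∈ V₁ := (mem_of_valuation_eq_one hv₁).2.2
    have h1 : Res V₁ θ₁ (τ h / h) (Fr (Fr a) / a) := (hθτ₁ h a hra).div hra hh0 hhi
    have h2 : Res V₁ θ₁ (τ h / h / G ^ e) (Fr (Fr a) / a / (C γ₁ * (Fr B / A)) ^ e) :=
      h1.div (hG₁.pow e) hG0 hGi
    rw [hρ₁, div_self (div_ne_zero ((map_ne_zero Fr).mpr hFra0) ha0)] at h2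
    exact h2.sub_mem_nonunits hker₁ res_one
  · -- second component
    have hGe : V₂.valuation (G ^ e) = 1 := by rw [map_pow, hGv₂, one_pow]
    obtain ⟨hG0, -, hGi⟩ := mem_of_valuation_eq_one hGe
    have hhi : h⁻¹ ∈ V₂ := (mem_of_valuation_eq_one hv₂).2.2
    have h1 : Res V₂ θ₂ (τ h / h) (Fr (Fr b) / b) := (hθτ₂ h b hrb).div hrb hh0 hhi
    have h2 : Res V₂ θ₂ (τ h / h / G ^ e) (Fr (Fr b) / b / (C γ₂ * (Fr A / B)) ^ e) :=
      h1.div (hG₂.pow e) hG0 hGi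
    rw [hρ₂, div_self (div_ne_zero ((map_ne_zero Fr).mpr hFrb0) hb0)] at h2
    exact h2.sub_mem_nonunits hker₂ res_one

end Main

end Fermat.Agent.P4.Toric
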