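/-
Approximation / CRT for two incomparable valuation subrings of a field
(helper17, P4-S35, used for the global function `g` of (Q4)(i)).

`V₁ V₂ : ValuationSubring F` with `¬ V₁ ≤ V₂`, `¬ V₂ ≤ V₁` (automatic for two distinct discrete
valuation rings, `not_le_of_ne`).  Then

* `exists_idem`: there is `e ∈ V₁ ⊓ V₂` with `e ≡ 1 mod 𝔪₁` and `e ≡ 0 mod 𝔪₂`;
* `exists_mem_inf_sub_mem` (both `V_i` discrete): for `a₁ ∈ V₁`, `a₂ ∈ V₂` there is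
  `G ∈ V₁ ⊓ V₂` with `G ≡ a₁ mod 𝔪₁` and `G ≡ a₂ mod 𝔪₂`;
* `exists_unit_inf_sub_mem`: the same with `a_i` units, `G` a unit of `V₁ ⊓ V₂`;
* `residue_prod_surjective`: `V₁ ⊓ V₂ → k₁ × k₂` is surjective.

Mathlib only.
-/
import Mathlib

set_option linter.style.longLine false
set_option linter.unusedSectionVars false
set_option linter.unusedVariables false

namespace Fermat.Agent.P4.TwoValApprox

open IsLocalRing

variable {F : Type*} [Field F]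

/-! ### Elementary facts on `nonunits` -/

theorem mul_mem_nonunits_of_mem_left (V : ValuationSubring F) {a b : F} (ha : a ∈ V)
    (hb : b ∈ V.nonunits) : a * b ∈ V.nonunits := by
  rw [ValuationSubring.mem_nonunits_iff] at hb ⊢
  rw [map_mul]
  have h1 : V.valuation a ≤ 1 := (V.valuation_le_one_iff a).2 ha
  calc V.valuation a * V.valuation b ≤ 1 * V.valuation b := mul_le_mul_left h1 _
    _ = V.valuation b := one_mul _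
    _ < 1 := hb

theorem mul_mem_nonunits_of_mem_right (V : ValuationSubring F) {a b : F} (ha : a ∈ V.nonunits)
    (hb : b ∈ V) : a * b ∈ V.nonunits := by
  rw [mul_comm]; exact mul_mem_nonunits_of_mem_left V hb ha

theorem mem_of_mem_nonunits (V : ValuationSubring F) {a : F} (ha : a ∈ V.nonunits) : a ∈ V :=
  V.nonunits_subset ha

theorem add_mem_nonunits (V : ValuationSubring F) {a b : F} (ha : a ∈ V.nonunits)
    (hb : b ∈ V.nonunits) : a + b ∈ V.nonunits :=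
  V.nonunits.add_mem ha hb

theorem neg_mem_nonunits (V : ValuationSubring F) {a : F} (ha : a ∈ V.nonunits) :
    -a ∈ V.nonunits :=
  V.nonunits.neg_mem ha

theorem sub_mem_nonunits (V : ValuationSubring F) {a b : F} (ha : a ∈ V.nonunits)
    (hb : b ∈ V.nonunits) : a - b ∈ V.nonunits :=
  V.nonunits.sub_mem ha hb

/-- `e ≡ 1 mod 𝔪` implies `e ^ n ≡ 1 mod 𝔪`. -/
theorem pow_sub_one_mem_nonunits (V : ValuationSubring F) {e : F} (he : e - 1 ∈ V.nonunits)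
    (n : ℕ) : e ^ n - 1 ∈ V.nonunits := by
  have heV : e ∈ V := by
    have : e = (e - 1) + 1 := by ring
    rw [this]; exact V.add_mem _ _ (mem_of_mem_nonunits V he) V.one_mem
  induction n with
  | zero => simp [V.nonunits.zero_mem]
  | succ n ih =>
    have : e ^ (n + 1) - 1 = (e ^ n - 1) * e + (e - 1) := by ring
    rw [this]
    exact add_mem_nonunits V (mul_mem_nonunits_of_mem_right V ih heV) he

/-! ### The idempotent-like element -/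

/-- For two incomparable valuation subrings there is `t` with `v₁ t < 1 < v₂ t`. -/
theorem exists_small_large (V₁ V₂ : ValuationSubring F) (h12 : ¬ V₁ ≤ V₂) (h21 : ¬ V₂ ≤ V₁) :
    ∃ t : F, t ≠ 0 ∧ t ∈ V₁.nonunits ∧ t⁻¹ ∈ V₂.nonunits := by
  obtain ⟨a, ha1, ha2⟩ := SetLike.not_le_iff_exists.1 h12
  obtain ⟨b, hb2, hb1⟩ := SetLike.not_le_iff_exists.1 h21
  have ha0 : a ≠ 0 := by rintro rfl; exact ha2 V₂.zero_mem
  have hb0 : b ≠ 0 := by rintro rfl; exact hb1 V₁.zero_mem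
  refine ⟨a * b⁻¹, mul_ne_zero ha0 (inv_ne_zero hb0), ?_, ?_⟩
  · exact mul_mem_nonunits_of_mem_left V₁ ha1
      ((V₁.inv_mem_nonunits_iff).2 (Or.inr hb1))
  · have : (a * b⁻¹)⁻¹ = b * a⁻¹ := by rw [mul_inv, inv_inv, mul_comm]
    rw [this]
    exact mul_mem_nonunits_of_mem_left V₂ hb2
      ((V₂.inv_mem_nonunits_iff).2 (Or.inr ha2))

/-- **The "idempotent"**: `e ∈ V₁ ⊓ V₂`, `e ≡ 1 mod 𝔪₁`, `e ≡ 0 mod 𝔪₂`. -/
theorem exists_idem (V₁ V₂ : ValuationSubring F) (h12 : ¬ V₁ ≤ V₂) (h21 : ¬ V₂ ≤ V₁) :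
    ∃ e : F, e - 1 ∈ V₁.nonunits ∧ e ∈ V₂.nonunits := by
  obtain ⟨t, ht0, ht1, ht2⟩ := exists_small_large V₁ V₂ h12 h21
  have hv1 : V₁.valuation t < 1 := (V₁.mem_nonunits_iff).1 ht1
  have hv2 : V₂.valuation t⁻¹ < 1 := (V₂.mem_nonunits_iff).1 ht2
  have h1t1 : V₁.valuation (1 + t) = 1 := Valuation.map_one_add_of_lt _ hv1
  have hne : (1 + t) ≠ 0 := by
    intro h; rw [h, map_zero] at h1t1; exact zero_ne_one h1t1
  refine ⟨(1 + t)⁻¹, ?_, ?_⟩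
  · -- `(1+t)⁻¹ - 1 = -t * (1+t)⁻¹`
    have : (1 + t)⁻¹ - 1 = (-t) * (1 + t)⁻¹ := by field_simp; ring
    rw [this]
    refine mul_mem_nonunits_of_mem_right V₁ (neg_mem_nonunits V₁ ht1) ?_
    rw [← V₁.valuation_le_one_iff, map_inv₀, h1t1, inv_one]
  · -- `(1+t)⁻¹ = t⁻¹ * (1 + t⁻¹)⁻¹`
    have h1 : V₂.valuation (1 + t⁻¹) = 1 := Valuation.map_one_add_of_lt _ hv2
    have hne' : (1 + t⁻¹) ≠ 0 := by
      intro h; rw [h, map_zero] at h1; exact zero_ne_one h1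
    have : (1 + t)⁻¹ = t⁻¹ * (1 + t⁻¹)⁻¹ := by
      have h3 : (1 + t⁻¹) = t⁻¹ * (1 + t) := by field_simp; ring
      rw [h3, mul_inv, inv_inv, ← mul_assoc, inv_mul_cancel₀ ht0, one_mul]
    rw [this]
    refine mul_mem_nonunits_of_mem_right V₂ ht2 ?_
    rw [← V₂.valuation_le_one_iff, map_inv₀, h1, inv_one]

/-! ### The archimedean step (discrete valuation rings) -/

/-- Archimedean property of a valuation subring: powers of a nonunit eventually kill any pole.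
True for discrete valuation subrings (`isArch_of_dvr`, `isArch_of_disc`). -/
def IsArch (V : ValuationSubring F) : Prop :=
  ∀ (x : F) (e : F), e ∈ V.nonunits → ∃ n : ℕ, ∀ m, n ≤ m → x * e ^ m ∈ V.nonunits

/-- In a discrete valuation subring, powers of a nonunit eventually kill any pole. -/
theorem exists_pow_mul_mem_nonunits (V : ValuationSubring F) [IsDiscreteValuationRing ↥V]
    (x : F) {e : F} (he : e ∈ V.nonunits) :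
    ∃ n : ℕ, ∀ m, n ≤ m → x * e ^ m ∈ V.nonunits := by
  obtain ⟨ϖ, hϖ⟩ := IsDiscreteValuationRing.exists_irreducible ↥V
  obtain ⟨heV, hem⟩ := (V.mem_nonunits_iff_exists_mem_maximalIdeal).1 he
  rw [hϖ.maximalIdeal_eq, Ideal.mem_span_singleton'] at hem
  obtain ⟨e', he'⟩ := hem
  have hee : e = (e' : F) * (ϖ : F) := by
    have := congrArg (Subtype.val) he'; simpa using this.symm
  have hϖn : (ϖ : F) ∈ V.nonunits := by
    rw [V.coe_mem_nonunits_iff]; exact hϖ.maximalIdeal_eq ▸ Ideal.mem_span_singleton_self ϖ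
  by_cases hx : x ∈ V
  · refine ⟨1, fun m hm => ?_⟩
    obtain ⟨k, rfl⟩ := Nat.exists_eq_add_of_le hm
    have : x * e ^ (1 + k) = (x * e ^ k) * e := by ring
    rw [this]
    exact mul_mem_nonunits_of_mem_left V
      (V.mul_mem _ _ hx (pow_mem heV k)) he
  · -- `x⁻¹ ∈ V`, nonzero: `x⁻¹ = u ϖ ^ k`
    have hxinv : x⁻¹ ∈ V := (V.mem_or_inv_mem x).resolve_left hx
    have hx0 : x ≠ 0 := by rintro rfl; exact hx V.zero_mem
    have hne : (⟨x⁻¹, hxinv⟩ : ↥V) ≠ 0 := by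
      intro h; exact inv_ne_zero hx0 (congrArg Subtype.val h)
    obtain ⟨k, u, hu⟩ := IsDiscreteValuationRing.eq_unit_mul_pow_irreducible hne hϖ
    have hxu : x⁻¹ = (u : ↥V) * (ϖ : F) ^ k := by
      have := congrArg Subtype.val hu; simpa using this
    have hu0 : ((u : ↥V) : F) ≠ 0 := by
      intro h
      exact u.ne_zero (Subtype.ext h)
    have hϖ0 : (ϖ : F) ≠ 0 := by
      intro h; exact hϖ.ne_zero (Subtype.ext h)
    have hxeq : x = ((u⁻¹ : (↥V)ˣ) : ↥V) * ((ϖ : F) ^ k)⁻¹ := by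
      have h1 : x = (x⁻¹)⁻¹ := (inv_inv x).symm
      rw [h1, hxu, mul_inv]
      congr 1
      have : ((u : ↥V) : F) * ((u⁻¹ : (↥V)ˣ) : ↥V) = 1 := by
        have h5 : ((u : ↥V) * ((u⁻¹ : (↥V)ˣ) : ↥V) : ↥V) = 1 := u.mul_inv
        have := congrArg Subtype.val h5
        rwa [MulMemClass.coe_mul, OneMemClass.coe_one] at this
      exact (eq_inv_of_mul_eq_one_right this).symm
    refine ⟨k + 1, fun m hm => ?_⟩
    obtain ⟨j, rfl⟩ := Nat.exists_eq_add_of_le hm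
    have : x * e ^ (k + 1 + j) =
        (((u⁻¹ : (↥V)ˣ) : ↥V) : F) * (e' : F) ^ (k + 1 + j) * (ϖ : F) ^ j * (ϖ : F) := by
      rw [hxeq, hee, mul_pow]
      have hpk : (ϖ : F) ^ (k + 1 + j) = (ϖ : F) ^ k * (ϖ : F) ^ j * (ϖ : F) := by ring
      rw [hpk]
      field_simp
    rw [this]
    refine mul_mem_nonunits_of_mem_left V ?_ hϖn
    exact V.mul_mem _ _ (V.mul_mem _ _ (SetLike.coe_mem _) (pow_mem (SetLike.coe_mem _) _))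
      (pow_mem (SetLike.coe_mem _) _)

theorem isArch_of_dvr (V : ValuationSubring F) [IsDiscreteValuationRing ↥V] : IsArch V :=
  fun x _ he => exists_pow_mul_mem_nonunits V x he

/-- Discreteness in the `hdisc` shape of `P3G/GammaDisc` / `GammaV2`: every value is an integral
power of `v(ϖ)`, `ϖ` a nonzero nonunit.  Then `V` is archimedean. -/
theorem isArch_of_disc (V : ValuationSubring F) {ϖ : F} (hϖ0 : ϖ ≠ 0) (hϖ : ϖ ∈ V.nonunits)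
    (hdisc : ∀ b : F, b ≠ 0 → ∃ n : ℤ, V.valuation b = V.valuation ϖ ^ n) : IsArch V := by
  intro x e he
  have hv1 : V.valuation ϖ < 1 := (V.mem_nonunits_iff).1 hϖ
  have hv0 : 0 < V.valuation ϖ := by rw [Valuation.pos_iff]; exact hϖ0
  by_cases hx0 : x = 0
  · exact ⟨0, fun m _ => by rw [hx0, zero_mul]; exact V.nonunits.zero_mem⟩
  by_cases he0 : e = 0
  · refine ⟨1, fun m hm => ?_⟩
    have : m ≠ 0 := by omega
    rw [he0, zero_pow this, mul_zero]; exact V.nonunits.zero_mem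
  obtain ⟨j, hj⟩ := hdisc x hx0
  obtain ⟨k, hk⟩ := hdisc e he0
  have hkpos : 0 < k := by
    have : V.valuation e < 1 := (V.mem_nonunits_iff).1 he
    rw [hk] at this
    exact (zpow_lt_one_iff_right_of_lt_one₀ hv0 hv1).1 this
  refine ⟨(1 - j).toNat, fun m hm => ?_⟩
  rw [ValuationSubring.mem_nonunits_iff, map_mul, map_pow, hj, hk, ← zpow_natCast,
    ← zpow_mul, ← zpow_add₀ hv0.ne', zpow_lt_one_iff_right_of_lt_one₀ hv0 hv1]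
  have h1 : (1 - j) ≤ (m : ℤ) := by
    have := Int.self_le_toNat (1 - j)
    have h2 : ((1 - j).toNat : ℤ) ≤ (m : ℤ) := by exact_mod_cast hm
    omega
  have h3 : (m : ℤ) ≤ k * m := by
    have hm0 : (0 : ℤ) ≤ m := Int.natCast_nonneg m
    nlinarith
  omega

/-! ### The approximation theorem -/

/-- **Approximation for two incomparable archimedean valuation subrings**: prescribed residues. -/
theorem exists_mem_inf_sub_mem_of_isArch (V₁ V₂ : ValuationSubring F) (hA₁ : IsArch V₁)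
    (hA₂ : IsArch V₂) (h12 : ¬ V₁ ≤ V₂) (h21 : ¬ V₂ ≤ V₁)
    {a₁ a₂ : F} (ha₁ : a₁ ∈ V₁) (ha₂ : a₂ ∈ V₂) :
    ∃ G : F, G ∈ V₁ ∧ G ∈ V₂ ∧ G - a₁ ∈ V₁.nonunits ∧ G - a₂ ∈ V₂.nonunits := by
  obtain ⟨e, he1, he2⟩ := exists_idem V₁ V₂ h12 h21
  -- `e' := 1 - e`
  have he1' : (1 - e) ∈ V₁.nonunits := by
    have : 1 - e = -(e - 1) := by ring
    rw [this]; exact neg_mem_nonunits V₁ he1
  have he2' : (1 - e) - 1 ∈ V₂.nonunits := by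
    have : (1 - e) - 1 = -e := by ring
    rw [this]; exact neg_mem_nonunits V₂ he2
  obtain ⟨n, hn⟩ := hA₂ a₁ e he2
  obtain ⟨m, hm⟩ := hA₁ a₂ (1 - e) he1'
  have hG1 : (a₁ * e ^ n + a₂ * (1 - e) ^ m) - a₁ ∈ V₁.nonunits := by
    have : (a₁ * e ^ n + a₂ * (1 - e) ^ m) - a₁ = a₁ * (e ^ n - 1) + a₂ * (1 - e) ^ m := by ring
    rw [this]
    exact add_mem_nonunits V₁
      (mul_mem_nonunits_of_mem_left V₁ ha₁ (pow_sub_one_mem_nonunits V₁ he1 n)) (hm m le_rfl)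
  have hG2 : (a₁ * e ^ n + a₂ * (1 - e) ^ m) - a₂ ∈ V₂.nonunits := by
    have : (a₁ * e ^ n + a₂ * (1 - e) ^ m) - a₂ = a₁ * e ^ n + a₂ * ((1 - e) ^ m - 1) := by ring
    rw [this]
    exact add_mem_nonunits V₂ (hn n le_rfl)
      (mul_mem_nonunits_of_mem_left V₂ ha₂ (pow_sub_one_mem_nonunits V₂ he2' m))
  refine ⟨a₁ * e ^ n + a₂ * (1 - e) ^ m, ?_, ?_, hG1, hG2⟩
  · have : a₁ * e ^ n + a₂ * (1 - e) ^ m = ((a₁ * e ^ n + a₂ * (1 - e) ^ m) - a₁) + a₁ := by ring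
    rw [this]; exact V₁.add_mem _ _ (mem_of_mem_nonunits V₁ hG1) ha₁
  · have : a₁ * e ^ n + a₂ * (1 - e) ^ m = ((a₁ * e ^ n + a₂ * (1 - e) ^ m) - a₂) + a₂ := by ring
    rw [this]; exact V₂.add_mem _ _ (mem_of_mem_nonunits V₂ hG2) ha₂

/-- **Approximation for two discrete valuation subrings**: prescribed residues. -/
theorem exists_mem_inf_sub_mem (V₁ V₂ : ValuationSubring F) [IsDiscreteValuationRing ↥V₁]
    [IsDiscreteValuationRing ↥V₂] (h12 : ¬ V₁ ≤ V₂) (h21 : ¬ V₂ ≤ V₁)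
    {a₁ a₂ : F} (ha₁ : a₁ ∈ V₁) (ha₂ : a₂ ∈ V₂) :
    ∃ G : F, G ∈ V₁ ∧ G ∈ V₂ ∧ G - a₁ ∈ V₁.nonunits ∧ G - a₂ ∈ V₂.nonunits :=
  exists_mem_inf_sub_mem_of_isArch V₁ V₂ (isArch_of_dvr V₁) (isArch_of_dvr V₂) h12 h21 ha₁ ha₂

/-- If `G ≡ a mod 𝔪` and `a` is a unit of `V` (i.e. `a ∈ V`, `a⁻¹ ∈ V`), then so is `G`. -/
theorem inv_mem_of_sub_mem_nonunits (V : ValuationSubring F) {G a : F} (ha : a ∈ V)
    (hainv : a⁻¹ ∈ V) (ha0 : a ≠ 0) (hG : G - a ∈ V.nonunits) : G ≠ 0 ∧ G⁻¹ ∈ V := by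
  have hva : V.valuation a = 1 := by
    have h1 : V.valuation a ≤ 1 := (V.valuation_le_one_iff a).2 ha
    have h2 : V.valuation a⁻¹ ≤ 1 := (V.valuation_le_one_iff _).2 hainv
    rw [map_inv₀] at h2
    have hpos : 0 < V.valuation a := by
      rw [Valuation.pos_iff]; exact ha0
    have : 1 ≤ V.valuation a := by
      rwa [inv_le_one₀ hpos] at h2
    exact le_antisymm h1 this
  have hvG : V.valuation G = 1 := by
    have hlt : V.valuation (G - a) < V.valuation a := by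
      rw [hva]; exact (V.mem_nonunits_iff).1 hG
    have : G = a + (G - a) := by ring
    rw [this, Valuation.map_add_eq_of_lt_left _ hlt, hva]
  have hG0 : G ≠ 0 := by
    intro h; rw [h, map_zero] at hvG; exact zero_ne_one hvG
  refine ⟨hG0, ?_⟩
  rw [← V.valuation_le_one_iff, map_inv₀, hvG, inv_one]

/-- **Unit version, archimedean hypotheses, `W = V₁ ∩ V₂` form** (`hW` is `TwoVal.mem_iff` of
`P3G/Assembly/PowCover`): prescribed unit residues, `G` a unit of `W`. -/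
theorem exists_unit_mem_sub_mem_of_isArch (V₁ V₂ : ValuationSubring F) (hA₁ : IsArch V₁)
    (hA₂ : IsArch V₂) (h12 : ¬ V₁ ≤ V₂) (h21 : ¬ V₂ ≤ V₁)
    (W : Subring F) (hW : ∀ x : F, x ∈ W ↔ x ∈ V₁ ∧ x ∈ V₂)
    {a₁ a₂ : F} (ha₁ : a₁ ∈ V₁) (ha₁' : a₁⁻¹ ∈ V₁) (h10 : a₁ ≠ 0)
    (ha₂ : a₂ ∈ V₂) (ha₂' : a₂⁻¹ ∈ V₂) (h20 : a₂ ≠ 0) :
    ∃ G : F, G ≠ 0 ∧ G ∈ W ∧ G⁻¹ ∈ W ∧ G - a₁ ∈ V₁.nonunits ∧ G - a₂ ∈ V₂.nonunits := by
  obtain ⟨G, hG1, hG2, h1, h2⟩ := exists_mem_inf_sub_mem_of_isArch V₁ V₂ hA₁ hA₂ h12 h21 ha₁ ha₂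
  obtain ⟨hG0, hinv1⟩ := inv_mem_of_sub_mem_nonunits V₁ ha₁ ha₁' h10 h1
  obtain ⟨-, hinv2⟩ := inv_mem_of_sub_mem_nonunits V₂ ha₂ ha₂' h20 h2
  exact ⟨G, hG0, (hW G).2 ⟨hG1, hG2⟩, (hW _).2 ⟨hinv1, hinv2⟩, h1, h2⟩

/-- **`W = V₁ ∩ V₂` form, archimedean hypotheses**: prescribed residues. -/
theorem exists_mem_sub_mem_of_isArch (V₁ V₂ : ValuationSubring F) (hA₁ : IsArch V₁)
    (hA₂ : IsArch V₂) (h12 : ¬ V₁ ≤ V₂) (h21 : ¬ V₂ ≤ V₁)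
    (W : Subring F) (hW : ∀ x : F, x ∈ W ↔ x ∈ V₁ ∧ x ∈ V₂)
    {a₁ a₂ : F} (ha₁ : a₁ ∈ V₁) (ha₂ : a₂ ∈ V₂) :
    ∃ G : F, G ∈ W ∧ G - a₁ ∈ V₁.nonunits ∧ G - a₂ ∈ V₂.nonunits := by
  obtain ⟨G, hG1, hG2, h1, h2⟩ := exists_mem_inf_sub_mem_of_isArch V₁ V₂ hA₁ hA₂ h12 h21 ha₁ ha₂
  exact ⟨G, (hW G).2 ⟨hG1, hG2⟩, h1, h2⟩

/-- **Unit version**: prescribed unit residues, `G` a unit of `V₁ ⊓ V₂`. -/
theorem exists_unit_inf_sub_mem (V₁ V₂ : ValuationSubring F) [IsDiscreteValuationRing ↥V₁]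
    [IsDiscreteValuationRing ↥V₂] (h12 : ¬ V₁ ≤ V₂) (h21 : ¬ V₂ ≤ V₁)
    {a₁ a₂ : F} (ha₁ : a₁ ∈ V₁) (ha₁' : a₁⁻¹ ∈ V₁) (h10 : a₁ ≠ 0)
    (ha₂ : a₂ ∈ V₂) (ha₂' : a₂⁻¹ ∈ V₂) (h20 : a₂ ≠ 0) :
    ∃ G : F, G ≠ 0 ∧ G ∈ V₁ ∧ G ∈ V₂ ∧ G⁻¹ ∈ V₁ ∧ G⁻¹ ∈ V₂ ∧
      G - a₁ ∈ V₁.nonunits ∧ G - a₂ ∈ V₂.nonunits := by
  obtain ⟨G, hG1, hG2, h1, h2⟩ := exists_mem_inf_sub_mem V₁ V₂ h12 h21 ha₁ ha₂
  obtain ⟨hG0, hinv1⟩ := inv_mem_of_sub_mem_nonunits V₁ ha₁ ha₁' h10 h1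
  obtain ⟨-, hinv2⟩ := inv_mem_of_sub_mem_nonunits V₂ ha₂ ha₂' h20 h2
  exact ⟨G, hG0, hG1, hG2, hinv1, hinv2, h1, h2⟩

/-- **Residue form**: `V₁ ⊓ V₂ → k₁ × k₂` is surjective. -/
theorem residue_prod_surjective (V₁ V₂ : ValuationSubring F) [IsDiscreteValuationRing ↥V₁]
    [IsDiscreteValuationRing ↥V₂] (h12 : ¬ V₁ ≤ V₂) (h21 : ¬ V₂ ≤ V₁)
    (c₁ : ResidueField ↥V₁) (c₂ : ResidueField ↥V₂) :
    ∃ (G : F) (h₁ : G ∈ V₁) (h₂ : G ∈ V₂),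
      residue ↥V₁ ⟨G, h₁⟩ = c₁ ∧ residue ↥V₂ ⟨G, h₂⟩ = c₂ := by
  obtain ⟨a₁, rfl⟩ := IsLocalRing.residue_surjective c₁
  obtain ⟨a₂, rfl⟩ := IsLocalRing.residue_surjective c₂
  obtain ⟨G, hG1, hG2, h1, h2⟩ :=
    exists_mem_inf_sub_mem V₁ V₂ h12 h21 a₁.2 a₂.2
  refine ⟨G, hG1, hG2, ?_, ?_⟩
  · rw [← sub_eq_zero, ← map_sub, residue_eq_zero_iff, ← V₁.coe_mem_nonunits_iff]
    simpa using h1
  · rw [← sub_eq_zero, ← map_sub, residue_eq_zero_iff, ← V₂.coe_mem_nonunits_iff]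
    simpa using h2

/-! ### Two distinct discrete valuation subrings are incomparable -/

theorem not_le_of_ne (V₁ V₂ : ValuationSubring F) [IsDiscreteValuationRing ↥V₁]
    [IsDiscreteValuationRing ↥V₂] (hne : V₁ ≠ V₂) : ¬ V₁ ≤ V₂ := by
  intro hle
  have h2 : V₂ = V₁.ofPrime (V₁.idealOfLE V₂ hle) := (V₁.ofPrime_idealOfLE V₂ hle).symm
  by_cases hbot : V₁.idealOfLE V₂ hle = ⊥
  · -- `V₂ = ⊤`, a field
    have key : ∀ (P : Ideal ↥V₁) [P.IsPrime], P = ⊥ → V₁.ofPrime P = ⊤ := by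
      intro P _ hP; subst hP; exact V₁.ofPrime_bot
    have htop : V₂ = ⊤ := by rw [h2]; exact key _ hbot
    have hall : ∀ x : F, x ∈ V₂ := fun x => by rw [htop]; exact ValuationSubring.mem_top x
    have hfield : IsField ↥V₂ := by
      refine ⟨⟨0, 1, zero_ne_one⟩, mul_comm, fun {a} ha => ?_⟩
      have hmem : (a : F)⁻¹ ∈ V₂ := hall _
      exact ⟨⟨_, hmem⟩, Subtype.ext (mul_inv_cancel₀ (fun h => ha (Subtype.ext h)))⟩
    exact IsDiscreteValuationRing.not_isField _ hfield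
  · have hmax : (V₁.idealOfLE V₂ hle).IsMaximal :=
      Ring.DimensionLEOne.maximalOfPrime hbot inferInstance
    have hP : V₁.idealOfLE V₂ hle = maximalIdeal ↥V₁ := IsLocalRing.eq_maximalIdeal hmax
    have key : ∀ (P : Ideal ↥V₁) [P.IsPrime], P = maximalIdeal ↥V₁ → V₁.ofPrime P = V₁ := by
      intro P _ hP; subst hP; exact V₁.ofPrime_top
    exact hne (by rw [h2]; exact (key _ hP).symm)

/-- Approximation for two *distinct* discrete valuation subrings. -/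
theorem exists_mem_inf_sub_mem_of_ne (V₁ V₂ : ValuationSubring F) [IsDiscreteValuationRing ↥V₁]
    [IsDiscreteValuationRing ↥V₂] (hne : V₁ ≠ V₂)
    {a₁ a₂ : F} (ha₁ : a₁ ∈ V₁) (ha₂ : a₂ ∈ V₂) :
    ∃ G : F, G ∈ V₁ ∧ G ∈ V₂ ∧ G - a₁ ∈ V₁.nonunits ∧ G - a₂ ∈ V₂.nonunits :=
  exists_mem_inf_sub_mem V₁ V₂ (not_le_of_ne V₁ V₂ hne) (not_le_of_ne V₂ V₁ hne.symm) ha₁ ha₂

/-- Unit version for two *distinct* discrete valuation subrings. -/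
theorem exists_unit_inf_sub_mem_of_ne (V₁ V₂ : ValuationSubring F) [IsDiscreteValuationRing ↥V₁]
    [IsDiscreteValuationRing ↥V₂] (hne : V₁ ≠ V₂)
    {a₁ a₂ : F} (ha₁ : a₁ ∈ V₁) (ha₁' : a₁⁻¹ ∈ V₁) (h10 : a₁ ≠ 0)
    (ha₂ : a₂ ∈ V₂) (ha₂' : a₂⁻¹ ∈ V₂) (h20 : a₂ ≠ 0) :
    ∃ G : F, G ≠ 0 ∧ G ∈ V₁ ∧ G ∈ V₂ ∧ G⁻¹ ∈ V₁ ∧ G⁻¹ ∈ V₂ ∧
      G - a₁ ∈ V₁.nonunits ∧ G - a₂ ∈ V₂.nonunits :=
  exists_unit_inf_sub_mem V₁ V₂ (not_le_of_ne V₁ V₂ hne) (not_le_of_ne V₂ V₁ hne.symm)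
    ha₁ ha₁' h10 ha₂ ha₂' h20

/-! ### Incomparability from the archimedean property; the `hdisc` form -/

theorem ne_top_of_mem_nonunits (V : ValuationSubring F) {ϖ : F} (hϖ0 : ϖ ≠ 0)
    (hϖ : ϖ ∈ V.nonunits) : V ≠ ⊤ := by
  intro htop
  have hinv : ϖ⁻¹ ∈ V := by rw [htop]; exact ValuationSubring.mem_top _
  rcases (V.mem_nonunits_iff_or).1 hϖ with h | h
  · exact hϖ0 h
  · exact h hinv

/-- An archimedean valuation subring is maximal among the proper valuation subrings. -/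
theorem not_le_of_isArch (V₁ V₂ : ValuationSubring F) (hA₁ : IsArch V₁) (hne : V₁ ≠ V₂)
    (htop : V₂ ≠ ⊤) : ¬ V₁ ≤ V₂ := by
  intro hle
  apply hne
  refine le_antisymm hle fun x hx2 => ?_
  by_contra hx1
  -- `x ∈ V₂ ∖ V₁`; pick `y ∉ V₂`
  obtain ⟨y, -, hy⟩ := SetLike.not_le_iff_exists.1 (fun h : (⊤ : ValuationSubring F) ≤ V₂ =>
    htop (top_le_iff.1 h))
  have hx0 : x ≠ 0 := by rintro rfl; exact hx1 V₁.zero_mem
  have hxinv : x⁻¹ ∈ V₁.nonunits := (V₁.inv_mem_nonunits_iff).2 (Or.inr hx1)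
  obtain ⟨n, hn⟩ := hA₁ y x⁻¹ hxinv
  have h1 : y * x⁻¹ ^ n ∈ V₂ := hle (mem_of_mem_nonunits V₁ (hn n le_rfl))
  apply hy
  have : y = (y * x⁻¹ ^ n) * x ^ n := by
    rw [inv_pow, mul_assoc, inv_mul_cancel₀ (pow_ne_zero n hx0), mul_one]
  rw [this]
  exact V₂.mul_mem _ _ h1 (pow_mem hx2 n)

/-- **The form consumed with `P3G/GammaV2`**: `V₁ ≠ V₂`, a common nonzero nonunit `ϖ`, both value
groups generated by `v_i(ϖ)` (`hdisc`), `W = V₁ ∩ V₂`.  Prescribed unit residues: `G ∈ Wˣ`. -/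
theorem exists_unit_mem_sub_mem_of_disc (V₁ V₂ : ValuationSubring F) {ϖ : F} (hϖ0 : ϖ ≠ 0)
    (hϖ₁ : ϖ ∈ V₁.nonunits) (hϖ₂ : ϖ ∈ V₂.nonunits)
    (hdisc₁ : ∀ b : F, b ≠ 0 → ∃ n : ℤ, V₁.valuation b = V₁.valuation ϖ ^ n)
    (hdisc₂ : ∀ b : F, b ≠ 0 → ∃ n : ℤ, V₂.valuation b = V₂.valuation ϖ ^ n)
    (hne : V₁ ≠ V₂) (W : Subring F) (hW : ∀ x : F, x ∈ W ↔ x ∈ V₁ ∧ x ∈ V₂)
    {a₁ a₂ : F} (ha₁ : a₁ ∈ V₁) (ha₁' : a₁⁻¹ ∈ V₁) (h10 : a₁ ≠ 0)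
    (ha₂ : a₂ ∈ V₂) (ha₂' : a₂⁻¹ ∈ V₂) (h20 : a₂ ≠ 0) :
    ∃ G : F, G ≠ 0 ∧ G ∈ W ∧ G⁻¹ ∈ W ∧ G - a₁ ∈ V₁.nonunits ∧ G - a₂ ∈ V₂.nonunits := by
  have hA₁ := isArch_of_disc V₁ hϖ0 hϖ₁ hdisc₁
  have hA₂ := isArch_of_disc V₂ hϖ0 hϖ₂ hdisc₂
  exact exists_unit_mem_sub_mem_of_isArch V₁ V₂ hA₁ hA₂
    (not_le_of_isArch V₁ V₂ hA₁ hne (ne_top_of_mem_nonunits V₂ hϖ0 hϖ₂))
    (not_le_of_isArch V₂ V₁ hA₂ hne.symm (ne_top_of_mem_nonunits V₁ hϖ0 hϖ₁))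
    W hW ha₁ ha₁' h10 ha₂ ha₂' h20

/-- Non-unit version of `exists_unit_mem_sub_mem_of_disc`. -/
theorem exists_mem_sub_mem_of_disc (V₁ V₂ : ValuationSubring F) {ϖ : F} (hϖ0 : ϖ ≠ 0)
    (hϖ₁ : ϖ ∈ V₁.nonunits) (hϖ₂ : ϖ ∈ V₂.nonunits)
    (hdisc₁ : ∀ b : F, b ≠ 0 → ∃ n : ℤ, V₁.valuation b = V₁.valuation ϖ ^ n)
    (hdisc₂ : ∀ b : F, b ≠ 0 → ∃ n : ℤ, V₂.valuation b = V₂.valuation ϖ ^ n)
    (hne : V₁ ≠ V₂) (W : Subring F) (hW : ∀ x : F, x ∈ W ↔ x ∈ V₁ ∧ x ∈ V₂)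
    {a₁ a₂ : F} (ha₁ : a₁ ∈ V₁) (ha₂ : a₂ ∈ V₂) :
    ∃ G : F, G ∈ W ∧ G - a₁ ∈ V₁.nonunits ∧ G - a₂ ∈ V₂.nonunits := by
  have hA₁ := isArch_of_disc V₁ hϖ0 hϖ₁ hdisc₁
  have hA₂ := isArch_of_disc V₂ hϖ0 hϖ₂ hdisc₂
  exact exists_mem_sub_mem_of_isArch V₁ V₂ hA₁ hA₂
    (not_le_of_isArch V₁ V₂ hA₁ hne (ne_top_of_mem_nonunits V₂ hϖ0 hϖ₂))
    (not_le_of_isArch V₂ V₁ hA₂ hne.symm (ne_top_of_mem_nonunits V₁ hϖ0 hϖ₁))
    W hW ha₁ ha₂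

end Fermat.Agent.P4.TwoValApprox
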