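/-
P4-S35 (helper22): **the global `W`-unit `G` at a Galois-stable level** = `P4/Toric.exists_toric`
instantiated at `F' = FF (Lvl K) N`, `F = FF (Lvl K) (N q)`, `V' = V₁' =` the Gauss valuation rings,
`V₂ = S.V` (helper15's second valuation), residues `theta` / `S.ev`, `Fr` = coefficientwise
Frobenius, `τ = levelFF τ₀` for `τ₀` in the decomposition group.

Everything is discharged here EXCEPT the four inputs owned by other blocks, which stay hypotheses in
`Res`-language:
* `hNα hNβ` : the norms commute with `τ₀` (helper3, `P4/NormEquivariant`);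
* `hθτ₁ hθτ₂` : `τ₀` induces `Fr ∘ Fr` on the two residue fields (helper5, `P4/FrobLevel`, `τ₀ = φ²`);
* `hresα hresβ` : the norm–residue formulas for units of `W` (helper16, `P4/NormResidue`).
-/
import Mathlib
import Fermat.Agent.P4.Toric
import Fermat.Agent.P4.TwoValApprox
import Fermat.Agent.P3G.GammaV2
import Fermat.Agent.N4F.E.GaussResidueQ
import Fermat.Agent.N4F.E.GaussResidue

set_option autoImplicit false
set_option linter.unusedSectionVars false
set_option linter.unusedVariables false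
set_option linter.style.haveILetI false

open AlgebraicCurve ModularCurve
open Fermat.Agent.N4.BigDVR Fermat.Agent.N4.Setting
open Fermat.Agent.N4.Chart Fermat.Agent.N4.FibreEmbedding
open Fermat.Agent.N4F.C Fermat.Agent.N4F.C.Levels
open Fermat.Agent.N4F.C.CoeffAut Fermat.Agent.N4F.C.Galois
open Fermat.Agent.N4F.E.DegreeLevelRaise Fermat.Agent.N4F.E.GaussDVR
open Fermat.Agent.S28.Gauss

noncomputable section

namespace Fermat.Agent.P4.ToricLevel

open Fermat.Agent.P3G.Gamma Fermat.Agent.P3G.GammaTame Fermat.Agent.P3G.GammaAut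
open Fermat.Agent.P3G.GammaGauss Fermat.Agent.P3G.GammaLevelMaps Fermat.Agent.P3G.FibreTwo
open Fermat.Agent.P4.Toric

local notation "Γ" => (AlgebraicClosure ℚ ≃ₐ[ℚ] AlgebraicClosure ℚ)

/-! ### The Gauss reduction on the Gauss valuation subring -/

section ThetaVS

variable (K : Type) [Field K] [CharZero K] (M : ℕ) [NeZero M]
  (O : Subring K) [IsDiscreteValuationRing ↥O] [IsFractionRing ↥O K]

/-- The identification of the Gauss valuation subring with the Gauss ring. -/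
def toGauss : ↥(gaussVS K M O) →+* ↥(gaussSubalgebra K M O) :=
  (gaussVS K M O).subtype.codRestrict (gaussSubalgebra K M O)
    fun x => (mem_gaussVS_iff K M O).mp x.2

theorem coe_toGauss (x : ↥(gaussVS K M O)) :
    ((toGauss K M O x : gaussSubalgebra K M O) : FF K M) = (x : FF K M) :=
  RingHom.codRestrict_apply _ _ _ _

/-- The Gauss reduction `θ_M`, as a ring homomorphism on the valuation subring `gaussVS`. -/
def thetaVS : ↥(gaussVS K M O) →+* LaurentSeries (IsLocalRing.ResidueField ↥O) :=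
  (theta K M O).comp (toGauss K M O)

theorem thetaVS_mk {x : FF K M} (h : x ∈ gaussSubalgebra K M O) :
    thetaVS K M O ⟨x, (mem_gaussVS_iff K M O).mpr h⟩ = theta K M O ⟨x, h⟩ := by
  have h1 : toGauss K M O ⟨x, (mem_gaussVS_iff K M O).mpr h⟩ = ⟨x, h⟩ :=
    Subtype.ext (coe_toGauss K M O _)
  rw [thetaVS, RingHom.comp_apply, h1]

theorem res_thetaVS_iff {x : FF K M} {r : LaurentSeries (IsLocalRing.ResidueField ↥O)} :
    Res (gaussVS K M O) (thetaVS K M O) x r ↔
      ∃ h : x ∈ gaussSubalgebra K M O, theta K M O ⟨x, h⟩ = r := by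
  constructor
  · rintro ⟨h, e⟩
    exact ⟨(mem_gaussVS_iff K M O).mp h, (thetaVS_mk K M O ((mem_gaussVS_iff K M O).mp h)).symm.trans e⟩
  · rintro ⟨h, e⟩
    exact ⟨(mem_gaussVS_iff K M O).mpr h, (thetaVS_mk K M O h).trans e⟩

theorem res_thetaVS (x : gaussSubalgebra K M O) :
    Res (gaussVS K M O) (thetaVS K M O) (x : FF K M) (theta K M O x) :=
  (res_thetaVS_iff K M O).mpr ⟨x.2, rfl⟩

theorem thetaVS_eq_zero_iff (y : ↥(gaussVS K M O)) :
    thetaVS K M O y = 0 ↔ (y : FF K M) ∈ (gaussVS K M O).nonunits := by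
  have h := (mem_nonunits_gaussVS_iff K M O ((mem_gaussVS_iff K M O).mp y.2)).symm
  rw [← thetaVS_mk K M O ((mem_gaussVS_iff K M O).mp y.2)] at h
  exact h

end ThetaVS

/-! ### The instantiation at a stable level -/

section Level

variable (K : IntermediateField ℚ Qb) (hK : ∀ (τ : Γ) (x : Qb), x ∈ K → τ x ∈ K)
  (N : ℕ) [NeZero N] (q : ℕ) [hq : Fact q.Prime]
  {A : ValuationSubring Qb} [IsDiscreteValuationRing ↥(baseRing A K)]
  [CharP (IsLocalRing.ResidueField ↥(baseRing A K)) q]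
  [IsAlgClosed (IsLocalRing.ResidueField ↥(baseRing A K))]
  (S : SecondVal (Lvl K) N q (baseRing A K))

set_option quotPrecheck false in
local notation "κ" => IsLocalRing.ResidueField ↥(baseRing A K)

/-- Coefficientwise Frobenius on `κ((q))`. -/
abbrev Frc : LaurentSeries (IsLocalRing.ResidueField ↥(baseRing A K)) →+*
    LaurentSeries (IsLocalRing.ResidueField ↥(baseRing A K)) :=
  coeffMap (frobenius (IsLocalRing.ResidueField ↥(baseRing A K)) q)

/-- The constants of `κ((q))`. -/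
abbrev Cst : IsLocalRing.ResidueField ↥(baseRing A K) →+*
    LaurentSeries (IsLocalRing.ResidueField ↥(baseRing A K)) :=
  HahnSeries.C

/-- Residues of constants on the Gauss side (any level `M`). -/
theorem res_const_gauss (M : ℕ) [NeZero M] (a : ↥(baseRing A K)) :
    Res (gaussVS (Lvl K) M (baseRing A K)) (thetaVS (Lvl K) M (baseRing A K))
      (algebraMap (Lvl K) (FF (Lvl K) M) (a : Lvl K))
      (HahnSeries.C (IsLocalRing.residue ↥(baseRing A K) a)) := by
  have h := res_thetaVS (Lvl K) M (baseRing A K)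
    (algebraMap ↥(baseRing A K) (gaussSubalgebra (Lvl K) M (baseRing A K)) a)
  rw [theta_algebraMap] at h
  exact h

/-- Residues of constants on the second component. -/
theorem res_const_secondVal (a : ↥(baseRing A K)) :
    Res S.V S.ev (algebraMap (Lvl K) (FF (Lvl K) (N * q)) (a : Lvl K))
      (HahnSeries.C (IsLocalRing.residue ↥(baseRing A K) a)) := by
  have hmem : algebraMap ↥(baseRing A K) (FF (Lvl K) N) a ∈
      gaussSubalgebra (Lvl K) N (baseRing A K) :=
    (gaussSubalgebra (Lvl K) N (baseRing A K)).algebraMap_mem a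
  have h1 := S.ev_beta _ hmem
  have h2 : theta (Lvl K) N (baseRing A K) ⟨_, hmem⟩ =
      HahnSeries.C (IsLocalRing.residue ↥(baseRing A K) a) :=
    theta_algebraMap (Lvl K) N (baseRing A K) a
  have h4 : betaF (Lvl K) N q (algebraMap ↥(baseRing A K) (FF (Lvl K) N) a) =
      algebraMap (Lvl K) (FF (Lvl K) (N * q)) (a : Lvl K) := by
    rw [Fermat.Agent.P3G.GammaV2.algebraMap_base_eq, AlgHom.commutes]
  refine ⟨h4 ▸ S.beta_mem _ hmem, ?_⟩
  rw [← h2, ← h1]
  congr 1
  exact Subtype.ext h4.symm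

/-- The Gauss residue passes to the first component along `α`. -/
theorem res_alpha {y : FF (Lvl K) N} {r : LaurentSeries κ}
    (h : Res (gaussVS (Lvl K) N (baseRing A K)) (thetaVS (Lvl K) N (baseRing A K)) y r) :
    Res (gaussVS (Lvl K) (N * q) (baseRing A K)) (thetaVS (Lvl K) (N * q) (baseRing A K))
      (alphaF (Lvl K) N q y) r := by
  obtain ⟨hy, rfl⟩ := (res_thetaVS_iff _ _ _).mp h
  exact (res_thetaVS_iff _ _ _).mpr
    ⟨alphaF_mem (Lvl K) (baseRing A K) N q hy, theta_alphaF (Lvl K) (baseRing A K) N q ⟨y, hy⟩⟩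

/-- The Gauss residue passes to the second component along `β`. -/
theorem res_beta {y : FF (Lvl K) N} {r : LaurentSeries κ}
    (h : Res (gaussVS (Lvl K) N (baseRing A K)) (thetaVS (Lvl K) N (baseRing A K)) y r) :
    Res S.V S.ev (betaF (Lvl K) N q y) r := by
  obtain ⟨hy, rfl⟩ := (res_thetaVS_iff _ _ _).mp h
  exact ⟨S.beta_mem y hy, S.ev_beta y hy⟩

variable (hA2 : ∀ x : ↥(gaussSubalgebra (Lvl K) N (baseRing A K)),
    theta (Lvl K) N (baseRing A K) x ∈
      modularFunctionFieldFullC (IsLocalRing.ResidueField ↥(baseRing A K)) N)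

include hA2 in
/-- The residue field of the Gauss valuation of level `N` is stable under the coefficientwise
Frobenius. -/
theorem res_frob {y : FF (Lvl K) N} {r : LaurentSeries κ}
    (h : Res (gaussVS (Lvl K) N (baseRing A K)) (thetaVS (Lvl K) N (baseRing A K)) y r) :
    ∃ y' : FF (Lvl K) N,
      Res (gaussVS (Lvl K) N (baseRing A K)) (thetaVS (Lvl K) N (baseRing A K)) y'
        (Frc K q (A := A) r) := by
  obtain ⟨hy, rfl⟩ := (res_thetaVS_iff _ _ _).mp h
  have h1 := Fermat.Agent.N4F.E.GaussResidueQ.coeffMap_frobenius_mem_full κ N q (hA2 ⟨y, hy⟩)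
  obtain ⟨x, hx⟩ := Fermat.Agent.N4F.E.GaussResidue.theta_surjective (Lvl K) N (baseRing A K) h1
  exact ⟨x, hx ▸ res_thetaVS (Lvl K) N (baseRing A K) x⟩

variable (hqN : ¬ q ∣ N)

include hqN in
/-- **CRT for the two vertical valuation rings**, in `Res`-language. -/
theorem res_crt {x₁ x₂ : FF (Lvl K) (N * q)} {r₁ r₂ : LaurentSeries κ}
    (h₁ : Res (gaussVS (Lvl K) (N * q) (baseRing A K))
      (thetaVS (Lvl K) (N * q) (baseRing A K)) x₁ r₁)
    (h₂ : Res S.V S.ev x₂ r₂) :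
    ∃ G : FF (Lvl K) (N * q),
      Res (gaussVS (Lvl K) (N * q) (baseRing A K)) (thetaVS (Lvl K) (N * q) (baseRing A K)) G r₁ ∧
      Res S.V S.ev G r₂ := by
  obtain ⟨ϖ, hϖ⟩ := IsDiscreteValuationRing.exists_irreducible ↥(baseRing A K)
  haveI : IsDiscreteValuationRing ↥(gaussVS (Lvl K) (N * q) (baseRing A K)) :=
    isDiscreteValuationRing_gauss (Lvl K) (N * q) (baseRing A K)
  have hϖ0 := Fermat.Agent.P3G.GammaV2.algebraMap_unif_ne_zero K N q (A := A) hϖ
  have hϖ2 := Fermat.Agent.P3G.GammaV2.unif_mem_nonunits_secondVal K N q S hϖ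
  have hϖ1 : algebraMap (Lvl K) (FF (Lvl K) (N * q)) (ϖ : Lvl K) ∈
      (gaussVS (Lvl K) (N * q) (baseRing A K)).nonunits := by
    have h := (thetaVS_eq_zero_iff (Lvl K) (N * q) (baseRing A K)
      ⟨_, (res_const_gauss K (N * q) (A := A) ϖ).mem⟩).mp
    apply h
    have h2 := (res_const_gauss K (N * q) (A := A) ϖ).2
    rw [h2, Fermat.Agent.N4.FibreEmbedding.residue_irreducible (Lvl K) (baseRing A K) hϖ, map_zero]
  have hA₁ := Fermat.Agent.P4.TwoValApprox.isArch_of_dvr (gaussVS (Lvl K) (N * q) (baseRing A K))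
  have hA₂ := Fermat.Agent.P4.TwoValApprox.isArch_of_disc S.V hϖ0 hϖ2
    (fun b hb => Fermat.Agent.P3G.GammaV2.exists_zpow_valuation_secondVal K N q S hqN hϖ hb)
  have hne : gaussVS (Lvl K) (N * q) (baseRing A K) ≠ S.V := Ne.symm S.ne_gauss
  obtain ⟨G, hG₁, hG₂, hd₁, hd₂⟩ :=
    Fermat.Agent.P4.TwoValApprox.exists_mem_inf_sub_mem_of_isArch _ _ hA₁ hA₂
      (Fermat.Agent.P4.TwoValApprox.not_le_of_isArch _ _ hA₁ hne
        (Fermat.Agent.P4.TwoValApprox.ne_top_of_mem_nonunits S.V hϖ0 hϖ2))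
      (Fermat.Agent.P4.TwoValApprox.not_le_of_isArch _ _ hA₂ hne.symm
        (Fermat.Agent.P4.TwoValApprox.ne_top_of_mem_nonunits _ hϖ0 hϖ1)) h₁.mem h₂.mem
  refine ⟨G, ?_, ?_⟩
  · -- residue on `V₁`
    have hz : thetaVS (Lvl K) (N * q) (baseRing A K)
        (⟨G, hG₁⟩ - ⟨x₁, h₁.mem⟩ : ↥(gaussVS (Lvl K) (N * q) (baseRing A K))) = 0 :=
      (thetaVS_eq_zero_iff (Lvl K) (N * q) (baseRing A K) _).mpr hd₁
    rw [map_sub, sub_eq_zero] at hz
    exact ⟨hG₁, hz.trans h₁.2⟩
  · have hz : S.ev (⟨G, hG₂⟩ - ⟨x₂, h₂.mem⟩ : ↥S.V) = 0 := (S.ev_eq_zero_iff _).mpr hd₂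
    rw [map_sub, sub_eq_zero] at hz
    exact ⟨hG₂, hz.trans h₂.2⟩

/-- `τ₀ c / c` is a unit of `O_K` for a nonzero constant `c`, and its residue is a constant. -/
theorem res_const_twist {τ₀ : Γ} (hτ₀ : τ₀ ∈ A.decompositionSubgroup ℚ) {c : Lvl K} (hc : c ≠ 0) :
    ∃ d : κ, Res (gaussVS (Lvl K) N (baseRing A K)) (thetaVS (Lvl K) N (baseRing A K))
      (SemilinearAut.toRingAut (levelFF K hK N τ₀) (algebraMap (Lvl K) (FF (Lvl K) N) c) /
        algebraMap (Lvl K) (FF (Lvl K) N) c) (HahnSeries.C d) := by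
  haveI : IsDiscreteValuationRing ↥(tr A (Lvl K)) :=
    inferInstanceAs (IsDiscreteValuationRing ↥(baseRing A K))
  have hv : (tr A (Lvl K)).valuation (levelAut K hK τ₀ c / c) = 1 := by
    rw [map_div₀, valuation_levelAut K hK hτ₀ c]
    exact div_self ((map_ne_zero _).mpr hc)
  obtain ⟨-, hu, -⟩ := mem_of_valuation_eq_one hv
  have hu' : levelAut K hK τ₀ c / c ∈ baseRing A K := hu
  refine ⟨IsLocalRing.residue ↥(baseRing A K) ⟨_, hu'⟩, ?_⟩
  have h := res_const_gauss K N (A := A) ⟨_, hu'⟩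
  refine h.congr ?_ rfl
  show algebraMap (Lvl K) (FF (Lvl K) N) (levelAut K hK τ₀ c / c) = _
  rw [map_div₀]
  congr 1
  exact (levelFF_smul_algebraMap K hK N τ₀ c).symm

include hA2 hqN in
/-- **The global unit at a stable level.**  `τ₀ ∈ D_A` inducing `Fr ∘ Fr` on both residue fields
(`τ₀ = φ²`), `Nα Nβ` the norms along `α, β` (any multiplicative maps with the stated properties),
`f ≠ 0` with `Nα f = cA · hA ^ e`, `Nβ f = cB · hB ^ e`.  Then, with `h := τ₀ f / f`, there is a unit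
`G` of `W = V₁ ∩ V₂` with `(τ₀ h / h) / G ^ e ≡ 1` modulo the maximal ideals of `V₁` and `V₂`. -/
theorem exists_toric_level {τ₀ : Γ} (hτ₀ : τ₀ ∈ A.decompositionSubgroup ℚ)
    (Nα Nβ : FF (Lvl K) (N * q) →* FF (Lvl K) N)
    (hNα : ∀ x, Nα (SemilinearAut.toRingAut (levelFF K hK (N * q) τ₀) x) =
      SemilinearAut.toRingAut (levelFF K hK N τ₀) (Nα x))
    (hNβ : ∀ x, Nβ (SemilinearAut.toRingAut (levelFF K hK (N * q) τ₀) x) =
      SemilinearAut.toRingAut (levelFF K hK N τ₀) (Nβ x))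
    (hθτ₁ : ∀ x r, Res (gaussVS (Lvl K) (N * q) (baseRing A K))
        (thetaVS (Lvl K) (N * q) (baseRing A K)) x r →
      Res (gaussVS (Lvl K) (N * q) (baseRing A K)) (thetaVS (Lvl K) (N * q) (baseRing A K))
        (SemilinearAut.toRingAut (levelFF K hK (N * q) τ₀) x)
        (Frc K q (A := A) (Frc K q (A := A) r)))
    (hθτ₂ : ∀ x r, Res S.V S.ev x r →
      Res S.V S.ev (SemilinearAut.toRingAut (levelFF K hK (N * q) τ₀) x)
        (Frc K q (A := A) (Frc K q (A := A) r)))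
    (hresα : ∀ b r₁ r₂, (gaussVS (Lvl K) (N * q) (baseRing A K)).valuation b = 1 →
      S.V.valuation b = 1 →
      Res (gaussVS (Lvl K) (N * q) (baseRing A K)) (thetaVS (Lvl K) (N * q) (baseRing A K)) b r₁ →
      Res S.V S.ev b r₂ →
      Res (gaussVS (Lvl K) N (baseRing A K)) (thetaVS (Lvl K) N (baseRing A K)) (Nα b)
        (r₁ * Frc K q (A := A) r₂))
    (hresβ : ∀ b r₁ r₂, (gaussVS (Lvl K) (N * q) (baseRing A K)).valuation b = 1 →
      S.V.valuation b = 1 →
      Res (gaussVS (Lvl K) (N * q) (baseRing A K)) (thetaVS (Lvl K) (N * q) (baseRing A K)) b r₁ →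
      Res S.V S.ev b r₂ →
      Res (gaussVS (Lvl K) N (baseRing A K)) (thetaVS (Lvl K) N (baseRing A K)) (Nβ b)
        (Frc K q (A := A) r₁ * r₂))
    {e : ℕ} (he : e ≠ 0) {f : FF (Lvl K) (N * q)} (hf : f ≠ 0) {hA hB : FF (Lvl K) N}
    {cA cB : Lvl K} (hA0 : hA ≠ 0) (hB0 : hB ≠ 0) (hcA0 : cA ≠ 0) (hcB0 : cB ≠ 0)
    (hNf : Nα f = algebraMap (Lvl K) (FF (Lvl K) N) cA * hA ^ e)
    (hNf' : Nβ f = algebraMap (Lvl K) (FF (Lvl K) N) cB * hB ^ e) :
    ∃ G : FF (Lvl K) (N * q),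
      (gaussVS (Lvl K) (N * q) (baseRing A K)).valuation G = 1 ∧ S.V.valuation G = 1 ∧
      (SemilinearAut.toRingAut (levelFF K hK (N * q) τ₀)
          (SemilinearAut.toRingAut (levelFF K hK (N * q) τ₀) f / f) /
        (SemilinearAut.toRingAut (levelFF K hK (N * q) τ₀) f / f)) / G ^ e - 1 ∈
        (gaussVS (Lvl K) (N * q) (baseRing A K)).nonunits ∧
      (SemilinearAut.toRingAut (levelFF K hK (N * q) τ₀)
          (SemilinearAut.toRingAut (levelFF K hK (N * q) τ₀) f / f) /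
        (SemilinearAut.toRingAut (levelFF K hK (N * q) τ₀) f / f)) / G ^ e - 1 ∈ S.V.nonunits := by
  refine exists_toric (gaussVS (Lvl K) N (baseRing A K))
    (gaussVS (Lvl K) (N * q) (baseRing A K)) S.V
    (thetaVS (Lvl K) N (baseRing A K)) (thetaVS (Lvl K) (N * q) (baseRing A K)) S.ev
    (thetaVS_eq_zero_iff (Lvl K) (N * q) (baseRing A K)) S.ev_eq_zero_iff
    (Frc K q (A := A)) (Cst K (A := A))
    (SemilinearAut.toRingAut (levelFF K hK N τ₀))
    (SemilinearAut.toRingAut (levelFF K hK (N * q) τ₀))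
    (valuation_levelFF_gaussVS K hK N hτ₀)
    (valuation_levelFF_gaussVS K hK (N * q) hτ₀)
    (Fermat.Agent.P3G.GammaV2.valuation_levelFF_secondVal K hK N q S hqN hτ₀)
    hθτ₁ hθτ₂ Nα Nβ hNα hNβ hresα hresβ he
    (fun c => IsAlgClosed.exists_pow_nat_eq c (Nat.pos_of_ne_zero he))
    (fun c => ⟨frobenius κ q c, coeffMap_single _ 0 c⟩)
    (fun c => ?_) (fun c => ?_)
    (fun y r h => ⟨_, res_alpha K N q h⟩) (fun y r h => ⟨_, res_beta K N q S h⟩)
    (fun y r h => res_frob K N q hA2 h)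
    (fun x₁ r₁ x₂ r₂ h₁ h₂ => res_crt K N q S hqN h₁ h₂)
    hf hA0 hB0 ((map_ne_zero _).mpr hcA0) ((map_ne_zero _).mpr hcB0)
    (res_const_twist K hK N hτ₀ hcA0) (res_const_twist K hK N hτ₀ hcB0) hNf hNf'
  · obtain ⟨a, rfl⟩ := IsLocalRing.residue_surjective c
    exact ⟨_, res_const_gauss K (N * q) (A := A) a⟩
  · obtain ⟨a, rfl⟩ := IsLocalRing.residue_surjective c
    exact ⟨_, res_const_secondVal K N q S a⟩

end Level

end Fermat.Agent.P4.ToricLevel
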