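/-
P4-S35 (helper22): `P4/ToricLevel.exists_toric_level` with the norms `Nα := normAlphaK K N q`,
`Nβ := normBetaK K N q` (helper21's `FrobLevelStep`) and the norm–residue formulas of helper16's
`P4/NormResidue` plugged in.  What stays as hypotheses: the two `τ₀`-dependent inputs
* `hNα hNβ` : the norms commute with `τ₀` (helper3, `P4/NormEquivariant`);
* `hθτ₁ hθτ₂` : `τ₀` induces `Fr ∘ Fr` on the two residue fields (helper5, `P4/FrobLevel`, `τ₀ = φ²`).
-/
import Mathlib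
import Fermat.Agent.P4.ToricLevel
import Fermat.Agent.P4.NormResidue
import Fermat.Agent.P4.FrobLevelStep
import Fermat.Agent.P3G.SecondValBridge

set_option autoImplicit false
set_option linter.unusedSectionVars false
set_option linter.unusedVariables false
set_option linter.style.haveILetI false

open AlgebraicCurve ModularCurve
open Fermat.Agent.N4.BigDVR Fermat.Agent.N4.Setting
open Fermat.Agent.N4.Chart Fermat.Agent.N4.FibreEmbedding
open Fermat.Agent.N4F.C Fermat.Agent.N4F.C.Levels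
open Fermat.Agent.N4F.C.CoeffAut Fermat.Agent.N4F.C.Galois
open Fermat.Agent.N4F.E.DegreeLevelRaise Fermat.Agent.N4F.E.GaussDVR
open Fermat.Agent.S28.Gauss

noncomputable section

namespace Fermat.Agent.P4.ToricLevelNorm

open Fermat.Agent.P3G.Gamma Fermat.Agent.P3G.GammaTame Fermat.Agent.P3G.GammaAut
open Fermat.Agent.P3G.GammaGauss Fermat.Agent.P3G.GammaLevelMaps Fermat.Agent.P3G.FibreTwo
open Fermat.Agent.P4.Toric Fermat.Agent.P4.ToricLevel Fermat.Agent.P4.FrobLevelStep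

local notation "Γ" => (AlgebraicClosure ℚ ≃ₐ[ℚ] AlgebraicClosure ℚ)

section Level

variable (K : IntermediateField ℚ Qb) (hK : ∀ (τ : Γ) (x : Qb), x ∈ K → τ x ∈ K)
  (N : ℕ) [NeZero N] (q : ℕ) [hq : Fact q.Prime]
  {A : ValuationSubring Qb} [IsDiscreteValuationRing ↥(baseRing A K)]
  [CharP (IsLocalRing.ResidueField ↥(baseRing A K)) q]
  [IsAlgClosed (IsLocalRing.ResidueField ↥(baseRing A K))]
  (S : SecondVal (Lvl K) N q (baseRing A K))
  (ι : Lvl K →+* ℂ) (hqN : ¬ q ∣ N)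
  (hA2 : ∀ x : ↥(gaussSubalgebra (Lvl K) N (baseRing A K)),
    theta (Lvl K) N (baseRing A K) x ∈
      modularFunctionFieldFullC (IsLocalRing.ResidueField ↥(baseRing A K)) N)

set_option quotPrecheck false in
local notation "κ" => IsLocalRing.ResidueField ↥(baseRing A K)

include ι hqN hA2 in
/-- **Norm–residue formula along `α`**, in `Res`-language, for `normAlphaK`. -/
theorem res_normAlphaK {b : FF (Lvl K) (N * q)} {r₁ r₂ : LaurentSeries κ}
    (h₁ : Res (gaussVS (Lvl K) (N * q) (baseRing A K))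
      (thetaVS (Lvl K) (N * q) (baseRing A K)) b r₁)
    (h₂ : Res S.V S.ev b r₂) :
    Res (gaussVS (Lvl K) N (baseRing A K)) (thetaVS (Lvl K) N (baseRing A K))
      (normAlphaK K N q b) (r₁ * Frc K q (A := A) r₂) := by
  obtain ⟨hb₁, e₁⟩ := (res_thetaVS_iff _ _ _).mp h₁
  obtain ⟨hb₂, e₂⟩ := h₂
  obtain ⟨hmem, h⟩ := Fermat.Agent.P4.NormResidue.norm_alpha_residue_along (Lvl K) N q
    (baseRing A K) (Fermat.Agent.P3G.SecondValBridge.ofTwo S) ι hqN hA2 hb₁ hb₂
  have hmem' : normAlphaK K N q b ∈ gaussSubalgebra (Lvl K) N (baseRing A K) := hmem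
  have h' : theta (Lvl K) N (baseRing A K) ⟨normAlphaK K N q b, hmem'⟩ =
      theta (Lvl K) (N * q) (baseRing A K) ⟨b, hb₁⟩ *
        coeffMap (frobenius (IsLocalRing.ResidueField ↥(baseRing A K)) q) (S.ev ⟨b, hb₂⟩) := h
  refine (res_thetaVS_iff _ _ _).mpr ⟨hmem', ?_⟩
  rw [h', e₁, e₂]

include ι hqN hA2 in
/-- **Norm–residue formula along `β`**, in `Res`-language, for `normBetaK`. -/
theorem res_normBetaK {b : FF (Lvl K) (N * q)} {r₁ r₂ : LaurentSeries κ}
    (h₁ : Res (gaussVS (Lvl K) (N * q) (baseRing A K))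
      (thetaVS (Lvl K) (N * q) (baseRing A K)) b r₁)
    (h₂ : Res S.V S.ev b r₂) :
    Res (gaussVS (Lvl K) N (baseRing A K)) (thetaVS (Lvl K) N (baseRing A K))
      (normBetaK K N q b) (Frc K q (A := A) r₁ * r₂) := by
  obtain ⟨hb₁, e₁⟩ := (res_thetaVS_iff _ _ _).mp h₁
  obtain ⟨hb₂, e₂⟩ := h₂
  obtain ⟨hmem, h⟩ := Fermat.Agent.P4.NormResidue.norm_beta_residue_along (Lvl K) N q
    (baseRing A K) (Fermat.Agent.P3G.SecondValBridge.ofTwo S) ι hqN hA2 hb₁ hb₂
  have hmem' : normBetaK K N q b ∈ gaussSubalgebra (Lvl K) N (baseRing A K) := hmem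
  have h' : theta (Lvl K) N (baseRing A K) ⟨normBetaK K N q b, hmem'⟩ =
      coeffMap (frobenius (IsLocalRing.ResidueField ↥(baseRing A K)) q)
        (theta (Lvl K) (N * q) (baseRing A K) ⟨b, hb₁⟩) * S.ev ⟨b, hb₂⟩ := h
  refine (res_thetaVS_iff _ _ _).mpr ⟨hmem', ?_⟩
  rw [h', e₁, e₂]

include ι hqN hA2 in
/-- **The global unit at a stable level, for the level norms.**  Remaining hypotheses: the norms
commute with `τ₀`, and `τ₀` induces `Fr ∘ Fr` on the two residue fields. -/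
theorem exists_toric_levelK {τ₀ : Γ} (hτ₀ : τ₀ ∈ A.decompositionSubgroup ℚ)
    (hNα : ∀ x, normAlphaK K N q (SemilinearAut.toRingAut (levelFF K hK (N * q) τ₀) x) =
      SemilinearAut.toRingAut (levelFF K hK N τ₀) (normAlphaK K N q x))
    (hNβ : ∀ x, normBetaK K N q (SemilinearAut.toRingAut (levelFF K hK (N * q) τ₀) x) =
      SemilinearAut.toRingAut (levelFF K hK N τ₀) (normBetaK K N q x))
    (hθτ₁ : ∀ x r, Res (gaussVS (Lvl K) (N * q) (baseRing A K))
        (thetaVS (Lvl K) (N * q) (baseRing A K)) x r →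
      Res (gaussVS (Lvl K) (N * q) (baseRing A K)) (thetaVS (Lvl K) (N * q) (baseRing A K))
        (SemilinearAut.toRingAut (levelFF K hK (N * q) τ₀) x)
        (Frc K q (A := A) (Frc K q (A := A) r)))
    (hθτ₂ : ∀ x r, Res S.V S.ev x r →
      Res S.V S.ev (SemilinearAut.toRingAut (levelFF K hK (N * q) τ₀) x)
        (Frc K q (A := A) (Frc K q (A := A) r)))
    {e : ℕ} (he : e ≠ 0) {f : FF (Lvl K) (N * q)} (hf : f ≠ 0) {hA hB : FF (Lvl K) N}
    {cA cB : Lvl K} (hA0 : hA ≠ 0) (hB0 : hB ≠ 0) (hcA0 : cA ≠ 0) (hcB0 : cB ≠ 0)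
    (hNf : normAlphaK K N q f = algebraMap (Lvl K) (FF (Lvl K) N) cA * hA ^ e)
    (hNf' : normBetaK K N q f = algebraMap (Lvl K) (FF (Lvl K) N) cB * hB ^ e) :
    ∃ G : FF (Lvl K) (N * q),
      (gaussVS (Lvl K) (N * q) (baseRing A K)).valuation G = 1 ∧ S.V.valuation G = 1 ∧
      (SemilinearAut.toRingAut (levelFF K hK (N * q) τ₀)
          (SemilinearAut.toRingAut (levelFF K hK (N * q) τ₀) f / f) /
        (SemilinearAut.toRingAut (levelFF K hK (N * q) τ₀) f / f)) / G ^ e - 1 ∈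
        (gaussVS (Lvl K) (N * q) (baseRing A K)).nonunits ∧
      (SemilinearAut.toRingAut (levelFF K hK (N * q) τ₀)
          (SemilinearAut.toRingAut (levelFF K hK (N * q) τ₀) f / f) /
        (SemilinearAut.toRingAut (levelFF K hK (N * q) τ₀) f / f)) / G ^ e - 1 ∈ S.V.nonunits :=
  exists_toric_level K hK N q S hA2 hqN hτ₀ (normAlphaK K N q) (normBetaK K N q) hNα hNβ hθτ₁ hθτ₂
    (fun b r₁ r₂ _ _ h₁ h₂ => res_normAlphaK K N q S ι hqN hA2 h₁ h₂)
    (fun b r₁ r₂ _ _ h₁ h₂ => res_normBetaK K N q S ι hqN hA2 h₁ h₂)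
    he hf hA0 hB0 hcA0 hcB0 hNf hNf'

end Level

end Fermat.Agent.P4.ToricLevelNorm
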