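/-
P4-S35 (helper22): **(I2) of helper20's `LevelFrobOfPoints`: `ToricAt` at a Galois-stable level**, for
`V₁ =` the Gauss valuation ring of level `N q`, `V₂ = S.V` (the second vertical valuation), `τ = φ²`.

* `normAlong_comm`, `normAlphaK_tauK`, `normBetaK_tauK` : the level norms commute with `τ = φ²`
  (`Algebra.norm_eq_of_equiv_equiv` + `GammaLevelMaps.levelFF_smul_alphaF/_betaF`);
* `toricAt_level_of'` : `ToricAt` from the four `τ`-dependent inputs in `Res`-language;
* `toricAt_level_of` : `ToricAt` from the ONE remaining input `hθτ₁ hθτ₂` : `φ²` induces `Fr ∘ Fr` on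
  the two residue fields;
* `res_tauK_gauss`, `res_tauK_secondVal` : these two, from helper5's `P4/FrobLevel`;
* ★ `toricAt_level` : `ToricAt K hK N q φ (gaussVS (Lvl K) (N q) O_K) S.V` for a Frobenius element `φ`
  at `q` — no hypothesis beyond the base facts at the level.
-/
import Mathlib
import Fermat.Agent.P4.ToricLevelNorm
import Fermat.Agent.P4.LevelFrobOfPoints
import Fermat.Agent.P4.FrobLevel

set_option autoImplicit false
set_option linter.unusedSectionVars false
set_option linter.unusedVariables false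
set_option linter.style.haveILetI false

open AlgebraicCurve ModularCurve
open Fermat.Agent.N4.BigDVR Fermat.Agent.N4.Setting
open Fermat.Agent.N4.Chart Fermat.Agent.N4.FibreEmbedding
open Fermat.Agent.N4F.C Fermat.Agent.N4F.C.Levels
open Fermat.Agent.N4F.C.CoeffAut Fermat.Agent.N4F.C.Galois
open Fermat.Agent.N4F.E.DegreeLevelRaise Fermat.Agent.N4F.E.GaussDVR
open Fermat.Agent.S28.Gauss

noncomputable section

namespace Fermat.Agent.P4.ToricAtLevel

open Fermat.Agent.P3G.Gamma Fermat.Agent.P3G.GammaTame Fermat.Agent.P3G.GammaAut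
open Fermat.Agent.P3G.GammaGauss Fermat.Agent.P3G.GammaLevelMaps Fermat.Agent.P3G.FibreTwo
open Fermat.Agent.P4.Toric Fermat.Agent.P4.ToricLevel Fermat.Agent.P4.ToricLevelNorm
open Fermat.Agent.P4.FrobLevelStep Fermat.Agent.P4.LevelFrobOfPoints Fermat.Agent.P4.FrobStep

local notation "Γ" => (AlgebraicClosure ℚ ≃ₐ[ℚ] AlgebraicClosure ℚ)

/-- Norms commute with a pair of compatible automorphisms. -/
theorem normAlong_comm {K₀ F F' : Type*} [Field K₀] [Field F] [Field F'] [Algebra K₀ F]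
    [Algebra K₀ F'] (φ : F →ₐ[K₀] F') (σ : F ≃+* F) (σ' : F' ≃+* F')
    (h : ∀ x, σ' (φ x) = φ (σ x)) (y : F') :
    normAlong φ (σ' y) = σ (normAlong φ y) := by
  letI := algebraAlong φ
  have he : RingHom.comp (algebraMap F F') (σ : F →+* F) =
      RingHom.comp (σ' : F' →+* F') (algebraMap F F') := by
    ext x
    exact (h x).symm
  have h1 := Algebra.norm_eq_of_equiv_equiv σ σ' he y
  show Algebra.norm F (σ' y) = σ (Algebra.norm F y)
  rw [h1, RingEquiv.apply_symm_apply]

section Norm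

variable (K : IntermediateField ℚ Qb) (hK : ∀ (τ : Γ) (x : Qb), x ∈ K → τ x ∈ K)
  (N : ℕ) [NeZero N] (q : ℕ) [NeZero q]

/-- The norm along `α` commutes with `τ = φ²` at a stable level. -/
theorem normAlphaK_tauK (φ : Γ) (x : FF (Lvl K) (N * q)) :
    normAlphaK K N q (tauK K hK (N * q) φ x) = tauK K hK N φ (normAlphaK K N q x) :=
  normAlong_comm (alphaF (Lvl K) N q) (tauK K hK N φ) (tauK K hK (N * q) φ)
    (fun y => levelFF_smul_alphaF K hK N q (φ ^ 2) y) x

/-- The norm along `β` commutes with `τ = φ²` at a stable level. -/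
theorem normBetaK_tauK (φ : Γ) (x : FF (Lvl K) (N * q)) :
    normBetaK K N q (tauK K hK (N * q) φ x) = tauK K hK N φ (normBetaK K N q x) :=
  normAlong_comm (betaF (Lvl K) N q) (tauK K hK N φ) (tauK K hK (N * q) φ)
    (fun y => levelFF_smul_betaF K hK N q (φ ^ 2) y) x

end Norm

section Level

variable (K : IntermediateField ℚ Qb) (hK : ∀ (τ : Γ) (x : Qb), x ∈ K → τ x ∈ K)
  (N : ℕ) [NeZero N] (q : ℕ) [hq : Fact q.Prime]
  {A : ValuationSubring Qb} [IsDiscreteValuationRing ↥(baseRing A K)]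
  [CharP (IsLocalRing.ResidueField ↥(baseRing A K)) q]
  [IsAlgClosed (IsLocalRing.ResidueField ↥(baseRing A K))]
  (S : SecondVal (Lvl K) N q (baseRing A K))
  (ι : Lvl K →+* ℂ) (hqN : ¬ q ∣ N)
  (hA2 : ∀ x : ↥(gaussSubalgebra (Lvl K) N (baseRing A K)),
    theta (Lvl K) N (baseRing A K) x ∈
      modularFunctionFieldFullC (IsLocalRing.ResidueField ↥(baseRing A K)) N)

set_option quotPrecheck false in
local notation "κ" => IsLocalRing.ResidueField ↥(baseRing A K)

include ι hqN hA2 in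
/-- **`ToricAt` at a stable level**, from the four `τ`-dependent inputs (`τ = φ²`). -/
theorem toricAt_level_of' {φ : Γ} (hφ2 : φ ^ 2 ∈ A.decompositionSubgroup ℚ)
    (hNα : ∀ x, normAlphaK K N q (tauK K hK (N * q) φ x) = tauK K hK N φ (normAlphaK K N q x))
    (hNβ : ∀ x, normBetaK K N q (tauK K hK (N * q) φ x) = tauK K hK N φ (normBetaK K N q x))
    (hθτ₁ : ∀ x r, Res (gaussVS (Lvl K) (N * q) (baseRing A K))
        (thetaVS (Lvl K) (N * q) (baseRing A K)) x r →
      Res (gaussVS (Lvl K) (N * q) (baseRing A K)) (thetaVS (Lvl K) (N * q) (baseRing A K))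
        (tauK K hK (N * q) φ x) (Frc K q (A := A) (Frc K q (A := A) r)))
    (hθτ₂ : ∀ x r, Res S.V S.ev x r →
      Res S.V S.ev (tauK K hK (N * q) φ x) (Frc K q (A := A) (Frc K q (A := A) r))) :
    ToricAt K hK N q φ (gaussVS (Lvl K) (N * q) (baseRing A K)) S.V := by
  intro e he fK hAK hBK cAK cBK hf hA0 hB0 hcA0 hcB0 hNf hNf'
  obtain ⟨G, h1, h2, h3, h4⟩ := exists_toric_levelK K hK N q S ι hqN hA2 hφ2 hNα hNβ hθτ₁ hθτ₂
    he hf hA0 hB0 hcA0 hcB0 hNf hNf'
  refine ⟨G, h1, h2, ?_, ?_⟩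
  · simpa only [tw, tauK, pow_one] using h3
  · simpa only [tw, tauK, pow_one] using h4

include ι hqN hA2 in
/-- **`ToricAt` at a stable level**, from the Frobenius action of `τ = φ²` on the two residue
fields. -/
theorem toricAt_level_of {φ : Γ} (hφ2 : φ ^ 2 ∈ A.decompositionSubgroup ℚ)
    (hθτ₁ : ∀ x r, Res (gaussVS (Lvl K) (N * q) (baseRing A K))
        (thetaVS (Lvl K) (N * q) (baseRing A K)) x r →
      Res (gaussVS (Lvl K) (N * q) (baseRing A K)) (thetaVS (Lvl K) (N * q) (baseRing A K))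
        (tauK K hK (N * q) φ x) (Frc K q (A := A) (Frc K q (A := A) r)))
    (hθτ₂ : ∀ x r, Res S.V S.ev x r →
      Res S.V S.ev (tauK K hK (N * q) φ x) (Frc K q (A := A) (Frc K q (A := A) r))) :
    ToricAt K hK N q φ (gaussVS (Lvl K) (N * q) (baseRing A K)) S.V :=
  toricAt_level_of' K hK N q S ι hqN hA2 hφ2 (normAlphaK_tauK K hK N q φ)
    (normBetaK_tauK K hK N q φ) hθτ₁ hθτ₂

/-- `Fr ∘ Fr` is the coefficientwise `q²`-power map. -/
theorem frc_frc (r : LaurentSeries κ) :
    Frc K q (A := A) (Frc K q (A := A) r) = coeffMap (iterateFrobenius κ q 2) r := by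
  show coeffMap (frobenius κ q) (coeffMap (frobenius κ q) r) = _
  rw [coeffMap_coeffMap]
  refine coeffMap_congr (RingHom.ext fun c => ?_) r
  rw [RingHom.comp_apply, iterateFrobenius_def, frobenius_def, frobenius_def, ← pow_mul, sq]

/-- `φ²` acts on the residue field of the Gauss valuation (any level `M`) by `Fr ∘ Fr`. -/
theorem res_tauK_gauss (M : ℕ) [NeZero M] {φ : Γ} (hφ : A.IsFrobeniusAt φ q)
    {x : FF (Lvl K) M} {r : LaurentSeries κ}
    (h : Res (gaussVS (Lvl K) M (baseRing A K)) (thetaVS (Lvl K) M (baseRing A K)) x r) :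
    Res (gaussVS (Lvl K) M (baseRing A K)) (thetaVS (Lvl K) M (baseRing A K))
      (tauK K hK M φ x) (Frc K q (A := A) (Frc K q (A := A) r)) := by
  obtain ⟨hx, rfl⟩ := (res_thetaVS_iff _ _ _).mp h
  rw [frc_frc]
  exact (res_thetaVS_iff _ _ _).mpr
    ⟨_, Fermat.Agent.P4.FrobLevel.theta_levelFF_smul_frobenius_pow K hK M hφ 2 ⟨x, hx⟩⟩

/-- `φ²` acts on the residue field of the second vertical valuation by `Fr ∘ Fr`. -/
theorem res_tauK_secondVal {φ : Γ} (hφ : A.IsFrobeniusAt φ q)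
    {x : FF (Lvl K) (N * q)} {r : LaurentSeries κ} (h : Res S.V S.ev x r) :
    Res S.V S.ev (tauK K hK (N * q) φ x) (Frc K q (A := A) (Frc K q (A := A) r)) := by
  obtain ⟨hx, rfl⟩ := h
  rw [frc_frc]
  exact ⟨_, Fermat.Agent.P4.FrobLevel.ev_levelFF_smul_frobenius_pow K hK N q S hφ 2 ⟨x, hx⟩⟩

include ι hqN hA2 in
/-- ★ **`ToricAt` at a stable level for a Frobenius element `φ` at `q`** (input (I2) of
`LevelFrobOfPoints.FrobPointsAt`). -/
theorem toricAt_level {φ : Γ} (hφ : A.IsFrobeniusAt φ q) :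
    ToricAt K hK N q φ (gaussVS (Lvl K) (N * q) (baseRing A K)) S.V :=
  toricAt_level_of K hK N q S ι hqN hA2
    (Fermat.Agent.P4.FrobLevel.isPowFrob_pow_of_isFrobeniusAt hφ 2).1
    (fun x r h => res_tauK_gauss K hK q (N * q) hφ h)
    (fun x r h => res_tauK_secondVal K hK N q S hφ h)

end Level

end Fermat.Agent.P4.ToricAtLevel
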