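/-
P4-S35, node P4-C2L (d) (helper17): **`TwistRoots.localRoots_twist` at a `Γ`-stable level, both charts**
= input (I3) of `P4/LevelFrobOfPoints` (helper20).

* `localRoots_twist_semilinear` : the chart-level theorem for a SEMILINEAR automorphism `g` of `F₀ / K₀`
  (`σ := toRingAut g`, `τ := g • ·` on places, `Compat` from `SemilinearAut.ord_smul`), with (Loc-P)
  in the `Glue.LevelRoots.LocPRat` form (rational places) + rationality of `supp (div h)`.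
* `twistAt_level` : the same at a level `K` (`K₀ = Lvl K`, `F₀ = FF (Lvl K) M`, `O = baseRing A K`,
  `g = levelFF K hK M σ`), for an arbitrary chart generator `s` transcendental over `Lvl K` with
  `F₀` finite over `K₀(s)`; the finite support set is supplied by `Glue.LevelDict`.
* `twistAt_fin`, `twistAt_inf` : `s = jF`, `s = (jF)⁻¹`.

The per-chart vertical inputs are HYPOTHESES in exactly the shapes of their providers:
`hS : TwistRoots.Setup` (P4/SetupLevel or `SetupOfTheta.setup_branchNormal_chart_of_theta`),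
`hBN₁ hBN₂ : TwistRoots.BranchNormal` (P4/BranchNormalLevel), `ρ hρ hcross : CrossingFrob ρ m V₁ V₂`
(P4/CrossingFrobLevel), `hLocP : LocPRat` (`TwoComponentsFinal.locPRat_fin`,
`TwoComponentsInfFinal.locPRat_inf`), `hval_i` (GammaGauss / GammaV2).
-/
import Mathlib
import Fermat.Agent.P4.TwistRoots
import Fermat.Agent.P3G.Glue.LevelRoots
import Fermat.Agent.P3G.Glue.LevelDict
import Fermat.Agent.P3G.GammaAut
import Fermat.Agent.N4.ModPolySetting
import Fermat.Agent.N4.FFAlgebraic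

set_option autoImplicit false
set_option linter.unusedSectionVars false
set_option linter.style.haveILetI false
set_option linter.style.longLine false

open Polynomial IntermediateField AlgebraicCurve ModularCurve

namespace Fermat.Agent.P4.TwistLevel

open Fermat.Agent.N4.Chart Fermat.Agent.N4.IntClosure
open Fermat.Agent.P3G.SecondDiff Fermat.Agent.P3G.Cover.Lift Fermat.Agent.P3G.Assembly.PowCover
open Fermat.Agent.P3G.Glue.LevelRoots Fermat.Agent.P3G.Glue.LevelDict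
open Fermat.Agent.P4.TwistRoots

universe u

/-! ### The chart-level theorem for a semilinear automorphism -/

section Semilinear

variable {O K₀ : Type*} [CommRing O] [IsDomain O] [IsDiscreteValuationRing O]
  [Field K₀] [CharZero K₀] [Algebra O K₀] [IsFractionRing O K₀]
variable {F₀ : Type u} [Field F₀] [Algebra K₀ F₀] [Algebra O F₀] [IsScalarTower O K₀ F₀]

/-- **Local roots of a twisted difference of a semilinear automorphism** (two vertical components,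
(Loc-P) at the rational places). -/
theorem localRoots_twist_semilinear (s : F₀) (hs : Transcendental K₀ s) [FiniteDimensional K₀⟮s⟯ F₀]
    {ϖ : O} (hϖ : Irreducible ϖ) {W : Subring F₀} {V₁ V₂ : ValuationSubring F₀}
    (hT : TwoVal ϖ W V₁ V₂) (hS : Setup (chartAlg O F₀ {s}) ϖ V₁ V₂)
    (g : SemilinearAut K₀ F₀) (ρ : chartAlg O F₀ {s} ≃+* chartAlg O F₀ {s})
    (hρ : ∀ r : chartAlg O F₀ {s},
      algebraMap (chartAlg O F₀ {s}) F₀ (ρ r) =
        SemilinearAut.toRingAut g (algebraMap (chartAlg O F₀ {s}) F₀ r))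
    (hval₁ : ∀ b, V₁.valuation (SemilinearAut.toRingAut g b) = V₁.valuation b)
    (hval₂ : ∀ b, V₂.valuation (SemilinearAut.toRingAut g b) = V₂.valuation b)
    (m e : ℕ) (hBN₁ : BranchNormal (chartAlg O F₀ {s}) ϖ V₁ e)
    (hBN₂ : BranchNormal (chartAlg O F₀ {s}) ϖ V₂ e) (hcross : CrossingFrob ρ m V₁ V₂)
    (hLocP : LocPRat K₀ ϖ s)
    {h γ : F₀} (hh0 : h ≠ 0) (S₀ : Finset (Place K₀ F₀))
    (hS₀ : ∀ Q : Place K₀ F₀, Q.ord h ≠ 0 → Q ∈ S₀)
    (hdiv : ∀ Q : Place K₀ F₀, (e : ℤ) ∣ Q.ord h)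
    (hrat : ∀ Q : Place K₀ F₀, Q.ord h ≠ 0 → Function.Bijective (algebraMap K₀ Q.ResidueField))
    (hγ₁ : V₁.valuation γ = 1) (hγ₂ : V₂.valuation γ = 1)
    (hf : ∃ w ∈ W, SemilinearAut.toRingAut g h / h / γ ^ e - 1 = algebraMap O F₀ ϖ * w) :
    LocalRoots ϖ W s
      (SemilinearAut.toRingAut g (SemilinearAut.toRingAut g h / h / γ ^ e) /
        (SemilinearAut.toRingAut g h / h / γ ^ e) ^ m) e := by
  let τ : Equiv.Perm (Place K₀ F₀) := MulAction.toPerm g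
  have hτ : Compat (fun (Q : Place K₀ F₀) (x : F₀) => Q.ord x) (SemilinearAut.toRingAut g) τ :=
    fun Q f => SemilinearAut.ord_smul g Q f
  exact localRoots_twist (K₀ := K₀) s hs hϖ hT hS (SemilinearAut.toRingAut g) ρ hρ hval₁ hval₂ hτ
    m e hBN₁ hBN₂ hcross hh0 S₀ hS₀ hdiv
    (fun 𝔫 h𝔫 hϖ𝔫 Q hQ hQh => hLocP 𝔫 h𝔫 hϖ𝔫 Q hQ (hrat Q hQh)) hγ₁ hγ₂ hf

end Semilinear

/-! ### At a `Γ`-stable level -/

section Level

open Fermat.Agent.N4.Setting Fermat.Agent.N4F.C.Levels Fermat.Agent.P3G.GammaAut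

local notation "Qb" => AlgebraicClosure ℚ
local notation "Γ" => (AlgebraicClosure ℚ ≃ₐ[ℚ] AlgebraicClosure ℚ)

variable (M : ℕ) [NeZero M] (K : IntermediateField ℚ Qb)
  (hK : ∀ (τ : Γ) (x : Qb), x ∈ K → τ x ∈ K)
  (A : ValuationSubring Qb) [IsDiscreteValuationRing ↥(baseRing A K)]
  [IsFractionRing ↥(baseRing A K) (Lvl K)]

/-- **(I3) at a level, any chart generator `s`.**  `τ := toRingAut (levelFF K hK M σ)`. -/
theorem twistAt_level (s : FF (Lvl K) M) (hs : Transcendental (Lvl K) s)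
    [FiniteDimensional (Lvl K)⟮s⟯ (FF (Lvl K) M)]
    {ϖ : ↥(baseRing A K)} (hϖ : Irreducible ϖ)
    {W : Subring (FF (Lvl K) M)} {V₁ V₂ : ValuationSubring (FF (Lvl K) M)}
    (hT : TwoVal ϖ W V₁ V₂)
    (hS : Setup (chartAlg ↥(baseRing A K) (FF (Lvl K) M) {s}) ϖ V₁ V₂)
    (σ : Γ)
    (ρ : chartAlg ↥(baseRing A K) (FF (Lvl K) M) {s} ≃+*
      chartAlg ↥(baseRing A K) (FF (Lvl K) M) {s})
    (hρ : ∀ r : chartAlg ↥(baseRing A K) (FF (Lvl K) M) {s},
      algebraMap (chartAlg ↥(baseRing A K) (FF (Lvl K) M) {s}) (FF (Lvl K) M) (ρ r) =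
        SemilinearAut.toRingAut (levelFF K hK M σ)
          (algebraMap (chartAlg ↥(baseRing A K) (FF (Lvl K) M) {s}) (FF (Lvl K) M) r))
    (hval₁ : ∀ b, V₁.valuation (SemilinearAut.toRingAut (levelFF K hK M σ) b) = V₁.valuation b)
    (hval₂ : ∀ b, V₂.valuation (SemilinearAut.toRingAut (levelFF K hK M σ) b) = V₂.valuation b)
    (m : ℕ) (hcross : CrossingFrob ρ m V₁ V₂)
    (hLocP : LocPRat (Lvl K) ϖ s)
    {e : ℕ} (hBN₁ : BranchNormal (chartAlg ↥(baseRing A K) (FF (Lvl K) M) {s}) ϖ V₁ e)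
    (hBN₂ : BranchNormal (chartAlg ↥(baseRing A K) (FF (Lvl K) M) {s}) ϖ V₂ e)
    {h γ : FF (Lvl K) M} (hh0 : h ≠ 0)
    (hdiv : ∀ Q : Place (Lvl K) (FF (Lvl K) M), (e : ℤ) ∣ Q.ord h)
    (hrat : ∀ Q : Place (Lvl K) (FF (Lvl K) M), Q.ord h ≠ 0 →
      Function.Bijective (algebraMap (Lvl K) Q.ResidueField))
    (hγ₁ : V₁.valuation γ = 1) (hγ₂ : V₂.valuation γ = 1)
    (hf : ∃ w ∈ W, SemilinearAut.toRingAut (levelFF K hK M σ) h / h / γ ^ e - 1 =
      algebraMap ↥(baseRing A K) (FF (Lvl K) M) ϖ * w) :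
    LocalRoots ϖ W s
      (SemilinearAut.toRingAut (levelFF K hK M σ)
          (SemilinearAut.toRingAut (levelFF K hK M σ) h / h / γ ^ e) /
        (SemilinearAut.toRingAut (levelFF K hK M σ) h / h / γ ^ e) ^ m) e := by
  obtain ⟨S₀, hS₀⟩ := exists_finset_ord_ne_zero M K h hh0
  exact localRoots_twist_semilinear (K₀ := Lvl K) s hs hϖ hT hS (levelFF K hK M σ) ρ hρ
    hval₁ hval₂ m e hBN₁ hBN₂ hcross hLocP hh0 S₀ hS₀ hdiv hrat hγ₁ hγ₂ hf

/-- **(I3) on the finite chart `s = jF`.** -/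
theorem twistAt_fin {ϖ : ↥(baseRing A K)} (hϖ : Irreducible ϖ)
    {W : Subring (FF (Lvl K) M)} {V₁ V₂ : ValuationSubring (FF (Lvl K) M)}
    (hT : TwoVal ϖ W V₁ V₂)
    (hS : Setup (chartAlg ↥(baseRing A K) (FF (Lvl K) M) {jF (Lvl K) M}) ϖ V₁ V₂)
    (σ : Γ)
    (ρ : chartAlg ↥(baseRing A K) (FF (Lvl K) M) {jF (Lvl K) M} ≃+*
      chartAlg ↥(baseRing A K) (FF (Lvl K) M) {jF (Lvl K) M})
    (hρ : ∀ r : chartAlg ↥(baseRing A K) (FF (Lvl K) M) {jF (Lvl K) M},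
      algebraMap (chartAlg ↥(baseRing A K) (FF (Lvl K) M) {jF (Lvl K) M}) (FF (Lvl K) M) (ρ r) =
        SemilinearAut.toRingAut (levelFF K hK M σ)
          (algebraMap (chartAlg ↥(baseRing A K) (FF (Lvl K) M) {jF (Lvl K) M}) (FF (Lvl K) M) r))
    (hval₁ : ∀ b, V₁.valuation (SemilinearAut.toRingAut (levelFF K hK M σ) b) = V₁.valuation b)
    (hval₂ : ∀ b, V₂.valuation (SemilinearAut.toRingAut (levelFF K hK M σ) b) = V₂.valuation b)
    (m : ℕ) (hcross : CrossingFrob ρ m V₁ V₂)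
    (hLocP : LocPRat (Lvl K) ϖ (jF (Lvl K) M))
    {e : ℕ}
    (hBN₁ : BranchNormal (chartAlg ↥(baseRing A K) (FF (Lvl K) M) {jF (Lvl K) M}) ϖ V₁ e)
    (hBN₂ : BranchNormal (chartAlg ↥(baseRing A K) (FF (Lvl K) M) {jF (Lvl K) M}) ϖ V₂ e)
    {h γ : FF (Lvl K) M} (hh0 : h ≠ 0)
    (hdiv : ∀ Q : Place (Lvl K) (FF (Lvl K) M), (e : ℤ) ∣ Q.ord h)
    (hrat : ∀ Q : Place (Lvl K) (FF (Lvl K) M), Q.ord h ≠ 0 →
      Function.Bijective (algebraMap (Lvl K) Q.ResidueField))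
    (hγ₁ : V₁.valuation γ = 1) (hγ₂ : V₂.valuation γ = 1)
    (hf : ∃ w ∈ W, SemilinearAut.toRingAut (levelFF K hK M σ) h / h / γ ^ e - 1 =
      algebraMap ↥(baseRing A K) (FF (Lvl K) M) ϖ * w) :
    LocalRoots ϖ W (jF (Lvl K) M)
      (SemilinearAut.toRingAut (levelFF K hK M σ)
          (SemilinearAut.toRingAut (levelFF K hK M σ) h / h / γ ^ e) /
        (SemilinearAut.toRingAut (levelFF K hK M σ) h / h / γ ^ e) ^ m) e := by
  haveI := Fermat.Agent.N4.ModPolySetting.finiteDimensional_FF (Lvl K) M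
  have hj := Fermat.Agent.N4.FFAlgebraic.transcendental_jF (Lvl K) M
  exact twistAt_level M K hK A (jF (Lvl K) M) hj hϖ hT hS σ ρ hρ hval₁ hval₂ m hcross hLocP
    hBN₁ hBN₂ hh0 hdiv hrat hγ₁ hγ₂ hf

/-- **(I3) on the chart at infinity `s = (jF)⁻¹`.** -/
theorem twistAt_inf {ϖ : ↥(baseRing A K)} (hϖ : Irreducible ϖ)
    {W : Subring (FF (Lvl K) M)} {V₁ V₂ : ValuationSubring (FF (Lvl K) M)}
    (hT : TwoVal ϖ W V₁ V₂)
    (hS : Setup (chartAlg ↥(baseRing A K) (FF (Lvl K) M) {(jF (Lvl K) M)⁻¹}) ϖ V₁ V₂)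
    (σ : Γ)
    (ρ : chartAlg ↥(baseRing A K) (FF (Lvl K) M) {(jF (Lvl K) M)⁻¹} ≃+*
      chartAlg ↥(baseRing A K) (FF (Lvl K) M) {(jF (Lvl K) M)⁻¹})
    (hρ : ∀ r : chartAlg ↥(baseRing A K) (FF (Lvl K) M) {(jF (Lvl K) M)⁻¹},
      algebraMap (chartAlg ↥(baseRing A K) (FF (Lvl K) M) {(jF (Lvl K) M)⁻¹}) (FF (Lvl K) M)
          (ρ r) =
        SemilinearAut.toRingAut (levelFF K hK M σ)
          (algebraMap (chartAlg ↥(baseRing A K) (FF (Lvl K) M) {(jF (Lvl K) M)⁻¹})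
            (FF (Lvl K) M) r))
    (hval₁ : ∀ b, V₁.valuation (SemilinearAut.toRingAut (levelFF K hK M σ) b) = V₁.valuation b)
    (hval₂ : ∀ b, V₂.valuation (SemilinearAut.toRingAut (levelFF K hK M σ) b) = V₂.valuation b)
    (m : ℕ) (hcross : CrossingFrob ρ m V₁ V₂)
    (hLocP : LocPRat (Lvl K) ϖ (jF (Lvl K) M)⁻¹)
    {e : ℕ}
    (hBN₁ : BranchNormal (chartAlg ↥(baseRing A K) (FF (Lvl K) M) {(jF (Lvl K) M)⁻¹}) ϖ V₁ e)
    (hBN₂ : BranchNormal (chartAlg ↥(baseRing A K) (FF (Lvl K) M) {(jF (Lvl K) M)⁻¹}) ϖ V₂ e)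
    {h γ : FF (Lvl K) M} (hh0 : h ≠ 0)
    (hdiv : ∀ Q : Place (Lvl K) (FF (Lvl K) M), (e : ℤ) ∣ Q.ord h)
    (hrat : ∀ Q : Place (Lvl K) (FF (Lvl K) M), Q.ord h ≠ 0 →
      Function.Bijective (algebraMap (Lvl K) Q.ResidueField))
    (hγ₁ : V₁.valuation γ = 1) (hγ₂ : V₂.valuation γ = 1)
    (hf : ∃ w ∈ W, SemilinearAut.toRingAut (levelFF K hK M σ) h / h / γ ^ e - 1 =
      algebraMap ↥(baseRing A K) (FF (Lvl K) M) ϖ * w) :
    LocalRoots ϖ W (jF (Lvl K) M)⁻¹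
      (SemilinearAut.toRingAut (levelFF K hK M σ)
          (SemilinearAut.toRingAut (levelFF K hK M σ) h / h / γ ^ e) /
        (SemilinearAut.toRingAut (levelFF K hK M σ) h / h / γ ^ e) ^ m) e := by
  haveI := Fermat.Agent.N4.ModPolySetting.finiteDimensional_FF (Lvl K) M
  have hj := Fermat.Agent.N4.FFAlgebraic.transcendental_jF (Lvl K) M
  have hjinv : Transcendental (Lvl K) (jF (Lvl K) M)⁻¹ := fun h => hj (by simpa using h.inv)
  haveI : FiniteDimensional (Lvl K)⟮(jF (Lvl K) M)⁻¹⟯ (FF (Lvl K) M) := by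
    rw [Fermat.Agent.N4.Cover.Main.adjoin_inv_eq]; infer_instance
  exact twistAt_level M K hK A (jF (Lvl K) M)⁻¹ hjinv hϖ hT hS σ ρ hρ hval₁ hval₂ m hcross hLocP
    hBN₁ hBN₂ hh0 hdiv hrat hγ₁ hγ₂ hf

end Level

end Fermat.Agent.P4.TwistLevel
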