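/-
P4-S35, node P4-C2L (d), part 2 (helper17): **`LevelFrobOfPoints.TwistAt` (input (I3) of
`FrobPointsAt`) from the per-chart vertical inputs**, i.e. `TwistLevel.twistAt_level` restated in the
exact shape consumed by helper20's `frobLevelAt_of_points` (`tw σ m x = σ x / x ^ m`, `τ = tauK`,
all `e ≠ 0` at once).

* `twistAt_of_inputs` : any chart generator `s`;
* `twistAt_fin_of_inputs`, `twistAt_inf_of_inputs` : `s = jF`, `s = (jF)⁻¹`.
-/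
import Mathlib
import Fermat.Agent.P4.TwistLevel
import Fermat.Agent.P4.LevelFrobOfPoints

set_option autoImplicit false
set_option linter.unusedSectionVars false
set_option linter.style.haveILetI false
set_option linter.style.longLine false

open Polynomial IntermediateField AlgebraicCurve ModularCurve

namespace Fermat.Agent.P4.TwistAtOfInputs

open Fermat.Agent.N4.Setting Fermat.Agent.N4.Chart Fermat.Agent.N4.IntClosure
open Fermat.Agent.N4F.C.Levels Fermat.Agent.P3G.GammaAut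
open Fermat.Agent.P3G.Cover.Lift Fermat.Agent.P3G.Assembly.PowCover
open Fermat.Agent.P3G.Glue.LevelRoots
open Fermat.Agent.P4.TwistRoots Fermat.Agent.P4.TwistLevel Fermat.Agent.P4.LevelFrobOfPoints

local notation "Qb" => AlgebraicClosure ℚ
local notation "Γ" => (AlgebraicClosure ℚ ≃ₐ[ℚ] AlgebraicClosure ℚ)

variable (M : ℕ) [NeZero M] (K : IntermediateField ℚ Qb)
  (hK : ∀ (τ : Γ) (x : Qb), x ∈ K → τ x ∈ K)
  (A : ValuationSubring Qb) [IsDiscreteValuationRing ↥(baseRing A K)]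
  [IsFractionRing ↥(baseRing A K) (Lvl K)] (φ : Γ)

/-- **(I3) from the vertical inputs, any chart generator.** -/
theorem twistAt_of_inputs (s : FF (Lvl K) M) (hs : Transcendental (Lvl K) s)
    [FiniteDimensional (Lvl K)⟮s⟯ (FF (Lvl K) M)]
    {ϖ : ↥(baseRing A K)} (hϖ : Irreducible ϖ)
    {W : Subring (FF (Lvl K) M)} {V₁ V₂ : ValuationSubring (FF (Lvl K) M)}
    (hT : TwoVal ϖ W V₁ V₂)
    (hS : Setup (chartAlg ↥(baseRing A K) (FF (Lvl K) M) {s}) ϖ V₁ V₂)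
    (ρ : chartAlg ↥(baseRing A K) (FF (Lvl K) M) {s} ≃+*
      chartAlg ↥(baseRing A K) (FF (Lvl K) M) {s})
    (hρ : ∀ r : chartAlg ↥(baseRing A K) (FF (Lvl K) M) {s},
      algebraMap (chartAlg ↥(baseRing A K) (FF (Lvl K) M) {s}) (FF (Lvl K) M) (ρ r) =
        tauK K hK M φ (algebraMap (chartAlg ↥(baseRing A K) (FF (Lvl K) M) {s}) (FF (Lvl K) M) r))
    (hval₁ : ∀ b, V₁.valuation (tauK K hK M φ b) = V₁.valuation b)
    (hval₂ : ∀ b, V₂.valuation (tauK K hK M φ b) = V₂.valuation b)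
    (m : ℕ) (hcross : CrossingFrob ρ m V₁ V₂)
    (hLocP : LocPRat (Lvl K) ϖ s)
    (hBN₁ : ∀ e : ℕ, e ≠ 0 →
      BranchNormal (chartAlg ↥(baseRing A K) (FF (Lvl K) M) {s}) ϖ V₁ e)
    (hBN₂ : ∀ e : ℕ, e ≠ 0 →
      BranchNormal (chartAlg ↥(baseRing A K) (FF (Lvl K) M) {s}) ϖ V₂ e) :
    TwistAt A K hK φ M m ϖ W V₁ V₂ s := by
  intro e he h g hh0 hdiv hrat hg₁ hg₂ hf
  have key := twistAt_level M K hK A s hs hϖ hT hS (φ ^ 2) ρ hρ hval₁ hval₂ m hcross hLocP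
    (hBN₁ e he) (hBN₂ e he) hh0 hdiv hrat hg₁ hg₂
    (by
      obtain ⟨w, hw, hfw⟩ := hf
      refine ⟨w, hw, ?_⟩
      rw [← hfw]
      unfold tw
      rw [pow_one]
      rfl)
  have hrew : tw (tauK K hK M φ) m (tw (tauK K hK M φ) 1 h / g ^ e) =
      SemilinearAut.toRingAut (levelFF K hK M (φ ^ 2))
          (SemilinearAut.toRingAut (levelFF K hK M (φ ^ 2)) h / h / g ^ e) /
        (SemilinearAut.toRingAut (levelFF K hK M (φ ^ 2)) h / h / g ^ e) ^ m := by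
    unfold tw
    rw [pow_one]
    rfl
  rw [hrew]
  exact key

/-- **(I3) on the finite chart.** -/
theorem twistAt_fin_of_inputs {ϖ : ↥(baseRing A K)} (hϖ : Irreducible ϖ)
    {W : Subring (FF (Lvl K) M)} {V₁ V₂ : ValuationSubring (FF (Lvl K) M)}
    (hT : TwoVal ϖ W V₁ V₂)
    (hS : Setup (chartAlg ↥(baseRing A K) (FF (Lvl K) M) {jF (Lvl K) M}) ϖ V₁ V₂)
    (ρ : chartAlg ↥(baseRing A K) (FF (Lvl K) M) {jF (Lvl K) M} ≃+*
      chartAlg ↥(baseRing A K) (FF (Lvl K) M) {jF (Lvl K) M})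
    (hρ : ∀ r : chartAlg ↥(baseRing A K) (FF (Lvl K) M) {jF (Lvl K) M},
      algebraMap (chartAlg ↥(baseRing A K) (FF (Lvl K) M) {jF (Lvl K) M}) (FF (Lvl K) M) (ρ r) =
        tauK K hK M φ
          (algebraMap (chartAlg ↥(baseRing A K) (FF (Lvl K) M) {jF (Lvl K) M}) (FF (Lvl K) M) r))
    (hval₁ : ∀ b, V₁.valuation (tauK K hK M φ b) = V₁.valuation b)
    (hval₂ : ∀ b, V₂.valuation (tauK K hK M φ b) = V₂.valuation b)
    (m : ℕ) (hcross : CrossingFrob ρ m V₁ V₂)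
    (hLocP : LocPRat (Lvl K) ϖ (jF (Lvl K) M))
    (hBN₁ : ∀ e : ℕ, e ≠ 0 →
      BranchNormal (chartAlg ↥(baseRing A K) (FF (Lvl K) M) {jF (Lvl K) M}) ϖ V₁ e)
    (hBN₂ : ∀ e : ℕ, e ≠ 0 →
      BranchNormal (chartAlg ↥(baseRing A K) (FF (Lvl K) M) {jF (Lvl K) M}) ϖ V₂ e) :
    TwistAt A K hK φ M m ϖ W V₁ V₂ (jF (Lvl K) M) := by
  haveI := Fermat.Agent.N4.ModPolySetting.finiteDimensional_FF (Lvl K) M
  have hj := Fermat.Agent.N4.FFAlgebraic.transcendental_jF (Lvl K) M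
  exact twistAt_of_inputs M K hK A φ (jF (Lvl K) M) hj hϖ hT hS ρ hρ hval₁ hval₂ m hcross hLocP
    hBN₁ hBN₂

/-- **(I3) on the chart at infinity.** -/
theorem twistAt_inf_of_inputs {ϖ : ↥(baseRing A K)} (hϖ : Irreducible ϖ)
    {W : Subring (FF (Lvl K) M)} {V₁ V₂ : ValuationSubring (FF (Lvl K) M)}
    (hT : TwoVal ϖ W V₁ V₂)
    (hS : Setup (chartAlg ↥(baseRing A K) (FF (Lvl K) M) {(jF (Lvl K) M)⁻¹}) ϖ V₁ V₂)
    (ρ : chartAlg ↥(baseRing A K) (FF (Lvl K) M) {(jF (Lvl K) M)⁻¹} ≃+*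
      chartAlg ↥(baseRing A K) (FF (Lvl K) M) {(jF (Lvl K) M)⁻¹})
    (hρ : ∀ r : chartAlg ↥(baseRing A K) (FF (Lvl K) M) {(jF (Lvl K) M)⁻¹},
      algebraMap (chartAlg ↥(baseRing A K) (FF (Lvl K) M) {(jF (Lvl K) M)⁻¹}) (FF (Lvl K) M)
          (ρ r) =
        tauK K hK M φ
          (algebraMap (chartAlg ↥(baseRing A K) (FF (Lvl K) M) {(jF (Lvl K) M)⁻¹})
            (FF (Lvl K) M) r))
    (hval₁ : ∀ b, V₁.valuation (tauK K hK M φ b) = V₁.valuation b)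
    (hval₂ : ∀ b, V₂.valuation (tauK K hK M φ b) = V₂.valuation b)
    (m : ℕ) (hcross : CrossingFrob ρ m V₁ V₂)
    (hLocP : LocPRat (Lvl K) ϖ (jF (Lvl K) M)⁻¹)
    (hBN₁ : ∀ e : ℕ, e ≠ 0 →
      BranchNormal (chartAlg ↥(baseRing A K) (FF (Lvl K) M) {(jF (Lvl K) M)⁻¹}) ϖ V₁ e)
    (hBN₂ : ∀ e : ℕ, e ≠ 0 →
      BranchNormal (chartAlg ↥(baseRing A K) (FF (Lvl K) M) {(jF (Lvl K) M)⁻¹}) ϖ V₂ e) :
    TwistAt A K hK φ M m ϖ W V₁ V₂ (jF (Lvl K) M)⁻¹ := by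
  haveI := Fermat.Agent.N4.ModPolySetting.finiteDimensional_FF (Lvl K) M
  have hj := Fermat.Agent.N4.FFAlgebraic.transcendental_jF (Lvl K) M
  have hjinv : Transcendental (Lvl K) (jF (Lvl K) M)⁻¹ := fun h => hj (by simpa using h.inv)
  haveI : FiniteDimensional (Lvl K)⟮(jF (Lvl K) M)⁻¹⟯ (FF (Lvl K) M) := by
    rw [Fermat.Agent.N4.Cover.Main.adjoin_inv_eq]; infer_instance
  exact twistAt_of_inputs M K hK A φ (jF (Lvl K) M)⁻¹ hjinv hϖ hT hS ρ hρ hval₁ hval₂ m hcross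
    hLocP hBN₁ hBN₂

end Fermat.Agent.P4.TwistAtOfInputs
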