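/-
P4-S35, block (Q5) bottom, input (I1) (helper20): THE VERTICAL PACKAGE AT A STABLE LEVEL FOR AN
ELEMENT OF THE DECOMPOSITION GROUP.

`LevelFrobOfPoints.VertFrob A K hK (N q) τ₀ ϖ W V₁ V₂` for `V₁ =` the Gauss valuation ring of
`FF (Lvl K) (N q)`, `V₂ = S.V` (a `FibreTwo.SecondVal`), `W = V₁ ⊓ V₂` (`FibreSatBridge.W`) and every
`τ₀ ∈ D_A`: `TwoVal`/semi-Gauss from helper12's `FibreSatBridge`, invariance of the two valuations
from helper28's `GammaGauss`/`GammaV2`.  Also the two instances `IsIntegrallyClosed W`,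
`IsFractionRing W F` asked for by `FrobLevelAt` (generic: `W = V₁ ∩ V₂ ⊇` a chart).
-/
import Mathlib
import Fermat.Agent.P4.LevelFrobOfPoints
import Fermat.Agent.P3G.FibreSatBridge
import Fermat.Agent.P3G.FibreIdent
import Fermat.Agent.P3G.GammaV2
import Fermat.Agent.P3G.GammaGauss

set_option autoImplicit false
set_option linter.unusedSectionVars false
set_option linter.dupNamespace false
set_option linter.style.haveILetI false

open ModularCurve AlgebraicCurve IntermediateField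

noncomputable section

namespace Fermat.Agent.P4.VertFrobLevel

open Fermat.Agent.P3G.Cover.Lift Fermat.Agent.P3G.Cover.OfValuations
  Fermat.Agent.P3G.Assembly.PowCover

/-! ### The two instances for `W = V₁ ∩ V₂` -/

section Generic

variable {R F₀ : Type*} [CommRing R] [IsDomain R] [Field F₀] [Algebra R F₀] [IsFractionRing R F₀]

theorem eq_iInfSubring_of_mem_iff {W : Subring F₀} {V₁ V₂ : ValuationSubring F₀}
    (hmem : ∀ x : F₀, x ∈ W ↔ x ∈ V₁ ∧ x ∈ V₂) : W = iInfSubring ![V₁, V₂] := by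
  ext x
  rw [hmem, mem_iInfSubring]
  constructor
  · rintro ⟨h1, h2⟩ i
    fin_cases i
    · exact h1
    · exact h2
  · intro h
    exact ⟨h 0, h 1⟩

/-- `W = V₁ ∩ V₂` containing a subring with fraction field `F₀` has fraction field `F₀`. -/
theorem isFractionRing_of_mem_iff {W : Subring F₀} {V₁ V₂ : ValuationSubring F₀}
    (hmem : ∀ x : F₀, x ∈ W ↔ x ∈ V₁ ∧ x ∈ V₂) (hle : ∀ r : R, algebraMap R F₀ r ∈ W) :
    IsFractionRing W F₀ := by
  have hle' : ∀ i (r : R), algebraMap R F₀ r ∈ (![V₁, V₂] : Fin 2 → ValuationSubring F₀) i := by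
    intro i r
    have h := (hmem _).1 (hle r)
    fin_cases i
    · exact h.1
    · exact h.2
  have h := isFractionRing_iInfSubring (R := R) (![V₁, V₂] : Fin 2 → ValuationSubring F₀) hle'
  rw [eq_iInfSubring_of_mem_iff hmem]
  exact h

/-- `W = V₁ ∩ V₂` containing a subring with fraction field `F₀` is integrally closed. -/
theorem isIntegrallyClosed_of_mem_iff {W : Subring F₀} {V₁ V₂ : ValuationSubring F₀}
    (hmem : ∀ x : F₀, x ∈ W ↔ x ∈ V₁ ∧ x ∈ V₂) (hle : ∀ r : R, algebraMap R F₀ r ∈ W) :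
    IsIntegrallyClosed W := by
  have hle' : ∀ i (r : R), algebraMap R F₀ r ∈ (![V₁, V₂] : Fin 2 → ValuationSubring F₀) i := by
    intro i r
    have h := (hmem _).1 (hle r)
    fin_cases i
    · exact h.1
    · exact h.2
  have h := isIntegrallyClosed_iInfSubring (R := R) (![V₁, V₂] : Fin 2 → ValuationSubring F₀) hle'
  rw [eq_iInfSubring_of_mem_iff hmem]
  exact h

end Generic

open Fermat.Agent.N4.Setting Fermat.Agent.N4.Chart Fermat.Agent.N4.S18Glue Fermat.Agent.N4.BigDVR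
  Fermat.Agent.P3G.Gamma Fermat.Agent.P3G.GammaAut
  Fermat.Agent.N4F.C Fermat.Agent.N4F.C.Levels Fermat.Agent.N4F.C.Galois
  Fermat.Agent.N4F.E.GaussDVR Fermat.Agent.N4F.E
  Fermat.Agent.P4.LevelFrobOfPoints

local notation "Qbar" => AlgebraicClosure ℚ
local notation "Γ" => (AlgebraicClosure ℚ ≃ₐ[ℚ] AlgebraicClosure ℚ)

/-! ### (I1) at a stable level -/

section Level

variable (K : IntermediateField ℚ Qbar) (hK : ∀ (τ : Γ) (x : Qbar), x ∈ K → τ x ∈ K)
  (N : ℕ) [NeZero N] (q : ℕ) [Fact q.Prime]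
  {A : ValuationSubring Qbar} [IsDiscreteValuationRing ↥(baseRing A K)]
  [IsFractionRing ↥(baseRing A K) (Lvl K)]
  [CharP (IsLocalRing.ResidueField ↥(baseRing A K)) q]
  (ι : Lvl K →+* ℂ) (hqN : ¬ q ∣ N)
  (hprime : (fibreIdeal (Lvl K) N (baseRing A K) (Rfin (Lvl K) N (baseRing A K))).IsPrime)
  (hprimeInf : (fibreIdeal (Lvl K) N (baseRing A K) (Rinf (Lvl K) N (baseRing A K))).IsPrime)
  (S : Fermat.Agent.P3G.FibreTwo.SecondVal (Lvl K) N q (baseRing A K))

include ι hqN hprime hprimeInf in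
/-- **(I1)**: the vertical package of `FF (Lvl K) (N q)` for an element of the decomposition
group. -/
theorem vertFrob {ϖ : ↥(baseRing A K)} (hϖ : Irreducible ϖ) {τ₀ : Γ}
    (hτ₀ : τ₀ ∈ A.decompositionSubgroup ℚ) :
    VertFrob A K hK (N * q) τ₀ ϖ
      (Fermat.Agent.P3G.FibreSatBridge.W (Lvl K) N q (baseRing A K) S)
      (gaussVS (Lvl K) (N * q) (baseRing A K)) S.V where
  irr := hϖ
  twoVal := Fermat.Agent.P3G.FibreSatBridge.twoVal (Lvl K) N q (baseRing A K) ι hqN hprime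
    (Fermat.Agent.P3G.FibreIdent.betaOut_of_secondVal (Lvl K) N q (baseRing A K) S) S hϖ
  semiP := Fermat.Agent.P3G.FibreSatBridge.semiP (Lvl K) N q (baseRing A K) ι hqN hprime
    (Fermat.Agent.P3G.FibreIdent.betaOut_of_secondVal (Lvl K) N q (baseRing A K) S) S hϖ
  semiM := Fermat.Agent.P3G.FibreSatBridge.semiM (Lvl K) N q (baseRing A K) ι hqN hprime
    (Fermat.Agent.P3G.FibreIdent.betaOut_of_secondVal (Lvl K) N q (baseRing A K) S) S hprimeInf hϖ
  val₁ := Fermat.Agent.P3G.GammaGauss.valuation_levelFF_gaussVS K hK (N * q) hτ₀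
  val₂ := Fermat.Agent.P3G.GammaV2.valuation_levelFF_secondVal K hK N q S hqN hτ₀

end Level

/-! ### The two instances from the vertical package -/

section Inst

variable {A : ValuationSubring Qbar} {K : IntermediateField ℚ Qbar}
  {hK : ∀ (τ : Γ) (x : Qbar), x ∈ K → τ x ∈ K} {M : ℕ} [NeZero M] {σ : Γ}
  [IsDiscreteValuationRing ↥(baseRing A K)] [IsFractionRing ↥(baseRing A K) (Lvl K)]
  {ϖ : ↥(baseRing A K)} {W : Subring (FF (Lvl K) M)} {V₁ V₂ : ValuationSubring (FF (Lvl K) M)}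

theorem isFractionRing_chart :
    IsFractionRing (chartAlg ↥(baseRing A K) (FF (Lvl K) M) {jF (Lvl K) M}) (FF (Lvl K) M) := by
  haveI : FiniteDimensional (IntermediateField.adjoin (Lvl K) {jF (Lvl K) M}) (FF (Lvl K) M) :=
    Fermat.Agent.N4.ModPolySetting.finiteDimensional_FF (Lvl K) M
  exact Fermat.Agent.N4.Cover.Main.isFractionRing_chartAlg (O := ↥(baseRing A K)) (K₀ := Lvl K)
    (jF (Lvl K) M) (Fermat.Agent.N4.FFAlgebraic.transcendental_jF (Lvl K) M)

theorem VertFrob.isFractionRing (hV : VertFrob A K hK M σ ϖ W V₁ V₂) :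
    IsFractionRing W (FF (Lvl K) M) := by
  haveI := isFractionRing_chart (A := A) (K := K) (M := M)
  exact isFractionRing_of_mem_iff
    (R := chartAlg ↥(baseRing A K) (FF (Lvl K) M) {jF (Lvl K) M}) hV.twoVal.mem_iff hV.semiP.le

theorem VertFrob.isIntegrallyClosed (hV : VertFrob A K hK M σ ϖ W V₁ V₂) :
    IsIntegrallyClosed W := by
  haveI := isFractionRing_chart (A := A) (K := K) (M := M)
  exact isIntegrallyClosed_of_mem_iff
    (R := chartAlg ↥(baseRing A K) (FF (Lvl K) M) {jF (Lvl K) M}) hV.twoVal.mem_iff hV.semiP.le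

end Inst

end Fermat.Agent.P4.VertFrobLevel
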