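/-
P4-S35, node (Q5), level assembly (helper20): **the level data `FrobPointsAt`-body at a Galois-stable
level from the base facts at the level and the chart providers.**

`K` a `Γ`-stable level, `O_K = baseRing A K` a discrete valuation ring with algebraically closed
residue field `κ` of characteristic `q`, `q ∤ N`, `(∗)`/`(S)` at level `N`, `(A2)`,
`S : FibreTwo.SecondVal`, `ϖ` a uniformiser, `φ` a Frobenius element at `A | q`.  With
`V₁ = gaussVS (Lvl K) (N q) O_K`, `V₂ = S.V`, `W = FibreSatBridge.W … S = V₁ ∩ V₂`: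

* (I1) `VertFrobLevel.vertFrob` for `τ₀ = φ²`;
* (I2) `ToricAtLevel.toricAt_level` (helper22);
* (I3) `TwistAtOfInputs.twistAt_fin_of_inputs / twistAt_inf_of_inputs` (helper17) fed with
  `Setup`/`BranchNormal` of the chart (`BranchNormalLevel`, helper29, and its twin at infinity),
  `CrossingFrob` for an automorphism `ρ` of the chart restricting `φ²`
  (`CrossingFrobLevel`, helper5), (Loc-P) at the rational places
  (`TwoComponentsFinal.locPRat_fin`, `TwoComponentsInfFinal.locPRat_inf`) and the valuation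
  invariance of (I1).

`frobPointsAt_level_of` takes the chart-at-infinity `Setup`/`BranchNormal` package and the two
`CrossingFrob`s as hypotheses (exact provider shapes); `FrobPointsFinal` plugs them.
-/
import Mathlib
import Fermat.Agent.P4.LevelFrobOfPoints
import Fermat.Agent.P4.VertFrobLevel
import Fermat.Agent.P4.ToricAtLevel
import Fermat.Agent.P4.TwistAtOfInputs
import Fermat.Agent.P4.BranchNormalLevel
import Fermat.Agent.P3G.TwoComponentsFinal
import Fermat.Agent.P3G.TwoComponentsInfFinal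

set_option autoImplicit false
set_option linter.unusedSectionVars false
set_option linter.unusedVariables false
set_option linter.style.haveILetI false
set_option linter.style.longLine false

open ModularCurve AlgebraicCurve IntermediateField

noncomputable section

namespace Fermat.Agent.P4.FrobPointsLevel

open Fermat.Agent.N4.Setting Fermat.Agent.N4.Chart Fermat.Agent.N4.FibreEmbedding
  Fermat.Agent.N4F.C.Levels Fermat.Agent.N4F.E.GaussDVR Fermat.Agent.N4F.E.DegreeLevelRaise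
  Fermat.Agent.S28.Gauss
  Fermat.Agent.P3G.GammaAut Fermat.Agent.P3G.Cover.Lift
  Fermat.Agent.P4.TwistRoots Fermat.Agent.P4.LevelFrobOfPoints

local notation "Qbar" => AlgebraicClosure ℚ
local notation "Γ" => (AlgebraicClosure ℚ ≃ₐ[ℚ] AlgebraicClosure ℚ)

variable (K : IntermediateField ℚ Qbar) (hK : ∀ (τ : Γ) (x : Qbar), x ∈ K → τ x ∈ K)
  (N : ℕ) [NeZero N] (q : ℕ) [Fact q.Prime] {A : ValuationSubring Qbar}
  [IsDiscreteValuationRing ↥(baseRing A K)] [IsFractionRing ↥(baseRing A K) (Lvl K)]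
  [IsAlgClosed (IsLocalRing.ResidueField ↥(baseRing A K))]
  [CharP (IsLocalRing.ResidueField ↥(baseRing A K)) q]
  [PerfectRing (IsLocalRing.ResidueField ↥(baseRing A K)) q]
  (hN : IsUnit ((N : ℕ) : ↥(baseRing A K))) (ι : Lvl K →+* ℂ) (hqN : ¬ q ∣ N)
  (hprime : (fibreIdeal (Lvl K) N (baseRing A K) (Rfin (Lvl K) N (baseRing A K))).IsPrime)
  (hsmooth : IsDedekindDomain (↥(Rfin (Lvl K) N (baseRing A K)) ⧸
    fibreIdeal (Lvl K) N (baseRing A K) (Rfin (Lvl K) N (baseRing A K))))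
  (hprimeInf : (fibreIdeal (Lvl K) N (baseRing A K) (Rinf (Lvl K) N (baseRing A K))).IsPrime)
  (hsmoothInf : IsDedekindDomain (↥(Rinf (Lvl K) N (baseRing A K)) ⧸
    fibreIdeal (Lvl K) N (baseRing A K) (Rinf (Lvl K) N (baseRing A K))))
  (hA2 : ∀ x : ↥(gaussSubalgebra (Lvl K) N (baseRing A K)),
    theta (Lvl K) N (baseRing A K) x ∈
      modularFunctionFieldFullC (IsLocalRing.ResidueField ↥(baseRing A K)) N)
  (S : Fermat.Agent.P3G.FibreTwo.SecondVal (Lvl K) N q (baseRing A K))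
  {ϖ : ↥(baseRing A K)} (hϖ : Irreducible ϖ)

set_option maxHeartbeats 1600000 in
set_option synthInstance.maxHeartbeats 400000 in
include hN ι hqN hprime hsmooth hprimeInf hsmoothInf hA2 hϖ in
/-- **The level data of `FrobPointsAt` at a stable level**, the chart-at-infinity
`Setup`/`BranchNormal` package and the two `CrossingFrob`s as hypotheses. -/
theorem frobPointsAt_level_of {φ : Γ} (hφ : A.IsFrobeniusAt φ q)
    (hInf : ∀ e : ℕ, e ≠ 0 →
      Setup (↥(Rinf (Lvl K) (N * q) (baseRing A K))) ϖ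
          (gaussVS (Lvl K) (N * q) (baseRing A K)) S.V ∧
        BranchNormal (↥(Rinf (Lvl K) (N * q) (baseRing A K))) ϖ
          (gaussVS (Lvl K) (N * q) (baseRing A K)) e ∧
        BranchNormal (↥(Rinf (Lvl K) (N * q) (baseRing A K))) ϖ S.V e)
    (ρF : ↥(Rfin (Lvl K) (N * q) (baseRing A K)) ≃+* ↥(Rfin (Lvl K) (N * q) (baseRing A K)))
    (hρF : ∀ r, ((ρF r : ↥(Rfin (Lvl K) (N * q) (baseRing A K))) : FF (Lvl K) (N * q)) =
      levelFF K hK (N * q) (φ ^ 2) • (r : FF (Lvl K) (N * q)))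
    (hcF : CrossingFrob ρF (q ^ 2) (gaussVS (Lvl K) (N * q) (baseRing A K)) S.V)
    (ρI : ↥(Rinf (Lvl K) (N * q) (baseRing A K)) ≃+* ↥(Rinf (Lvl K) (N * q) (baseRing A K)))
    (hρI : ∀ r, ((ρI r : ↥(Rinf (Lvl K) (N * q) (baseRing A K))) : FF (Lvl K) (N * q)) =
      levelFF K hK (N * q) (φ ^ 2) • (r : FF (Lvl K) (N * q)))
    (hcI : CrossingFrob ρI (q ^ 2) (gaussVS (Lvl K) (N * q) (baseRing A K)) S.V) :
    ∃ (W : Subring (FF (Lvl K) (N * q)))
      (_ : IsIntegrallyClosed W) (_ : IsFractionRing W (FF (Lvl K) (N * q)))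
      (V₁ V₂ : ValuationSubring (FF (Lvl K) (N * q))),
      VertFrob A K hK (N * q) (φ ^ 2) ϖ W V₁ V₂ ∧
      ToricAt K hK N q φ V₁ V₂ ∧
      TwistAt A K hK φ (N * q) (q ^ 2) ϖ W V₁ V₂ (jF (Lvl K) (N * q)) ∧
      TwistAt A K hK φ (N * q) (q ^ 2) ϖ W V₁ V₂ (jF (Lvl K) (N * q))⁻¹ := by
  have hτ₀ : φ ^ 2 ∈ A.decompositionSubgroup ℚ :=
    (Fermat.Agent.P4.FrobLevel.isPowFrob_pow_of_isFrobeniusAt hφ 2).1
  have hV := Fermat.Agent.P4.VertFrobLevel.vertFrob K hK N q ι hqN hprime hprimeInf S hϖ hτ₀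
  have hTor := Fermat.Agent.P4.ToricAtLevel.toricAt_level K hK N q S ι hqN hA2 hφ
  have hFin : ∀ e : ℕ, e ≠ 0 → _ := fun e he =>
    Fermat.Agent.P4.BranchNormalLevel.setup_branchNormal_fin (Lvl K) N q (baseRing A K) hN ι hqN
      hprime hsmooth hA2 S hϖ he
  have hTwF := Fermat.Agent.P4.TwistAtOfInputs.twistAt_fin_of_inputs (N * q) K hK A φ hϖ
    hV.twoVal (hFin 1 one_ne_zero).1 ρF hρF hV.val₁ hV.val₂ (q ^ 2) hcF
    (Fermat.Agent.P3G.TwoComponentsFinal.locPRat_fin (Lvl K) N q (baseRing A K) hN ι hqN hprime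
      hsmooth hA2 hϖ)
    (fun e he => (hFin e he).2.1) (fun e he => (hFin e he).2.2)
  have hTwI := Fermat.Agent.P4.TwistAtOfInputs.twistAt_inf_of_inputs (N * q) K hK A φ hϖ
    hV.twoVal (hInf 1 one_ne_zero).1 ρI hρI hV.val₁ hV.val₂ (q ^ 2) hcI
    (Fermat.Agent.P3G.TwoComponentsInfFinal.locPRat_inf (Lvl K) N q (baseRing A K) hN ι hqN
      hprime hprimeInf hsmoothInf hA2 hϖ)
    (fun e he => (hInf e he).2.1) (fun e he => (hInf e he).2.2)
  exact ⟨_, Fermat.Agent.P4.VertFrobLevel.VertFrob.isIntegrallyClosed hV,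
    Fermat.Agent.P4.VertFrobLevel.VertFrob.isFractionRing hV, _, _, hV, hTor, hTwF, hTwI⟩

end Fermat.Agent.P4.FrobPointsLevel
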