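/-
P4-S35, node (Q5), final instantiation (helper20): **the level data `FrobPointsAt N q` at every good
level, unconditionally**, hence `LevelFrobOfPoints.FrobPoints` and the geometric input
`LevelFrobStep.LevelFrob FrobStep.relList` of the frozen S35.

At a good level `K` (`LevelStep.IsGoodLevel A q K`), `O_K = baseRing A K`, `N` prime to `q`
(the base facts are those of `P3G/Assembly/PointsFinal`): `GoodBase`, `(∗)`, `(S)`, `(A2)`,
`N ∈ O_Kˣ`, `κ` algebraically closed of characteristic `q`, a second vertical valuation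
`S : FibreTwo.SecondVal`, a uniformiser `ϖ`.  Then `FrobPointsLevel.frobPointsAt_level_of` applies
with
* `hInf` := `BranchNormalLevelInf.setup_branchNormal_inf` (helper13),
* `ρF, ρI` := `CrossingFrobLevel.rfinAut / rinfAut` for `φ² ∈ D_A`, and
  `CrossingFrobLevel.crossingFrob_fin / crossingFrob_inf` (helper5).
-/
import Mathlib
import Fermat.Agent.P4.FrobPointsLevel
import Fermat.Agent.P4.CrossingFrobLevel
import Fermat.Agent.P4.BranchNormalLevelInf
import Fermat.Agent.P3G.GammaUnits
import Fermat.Agent.N4F.C.LevelStatements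
import Fermat.Agent.N4F.C.ChartReduction
import Fermat.Agent.N4F.E.NormReduction
import Fermat.Agent.N4F.E.GaussResidue

set_option autoImplicit false
set_option linter.unusedSectionVars false
set_option linter.unusedVariables false
set_option linter.dupNamespace false
set_option linter.style.haveILetI false
set_option linter.style.longLine false

open ModularCurve AlgebraicCurve IntermediateField

noncomputable section

namespace Fermat.Agent.P4.FrobPointsFinal

open Fermat.Agent.N4.Setting Fermat.Agent.N4.Chart Fermat.Agent.N4.S18Glue Fermat.Agent.N4.BigDVR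
  Fermat.Agent.P3G.Assembly.LevelStep
  Fermat.Agent.P3G.Gamma Fermat.Agent.P3G.GammaAut
  Fermat.Agent.N4F.C Fermat.Agent.N4F.C.Levels Fermat.Agent.N4F.C.Galois
  Fermat.Agent.N4F.E.GaussDVR
  Fermat.Agent.P4.LevelFrobOfPoints Fermat.Agent.P4.LevelFrobStep

local notation "Qbar" => AlgebraicClosure ℚ
local notation "Γ" => (AlgebraicClosure ℚ ≃ₐ[ℚ] AlgebraicClosure ℚ)

set_option maxHeartbeats 1600000 in
set_option synthInstance.maxHeartbeats 400000 in
/-- **The level data at level `N q`, `q ∤ N`, for a Frobenius element.** -/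
theorem frobPointsAt (N q : ℕ) [NeZero N] [Fact q.Prime] (hqN : ¬ q ∣ N) :
    FrobPointsAt N q := by
  have hq : q.Prime := Fact.out
  intro A hA φ hφ
  refine ⟨⊥, inferInstance, fun K hK _ => ?_⟩
  haveI := hK.dvr
  haveI : IsFractionRing ↥(baseRing A K) (Lvl K) := isFractionRing_trSubring A K
  haveI : IsAlgClosed (IsLocalRing.ResidueField ↥(baseRing A K)) := hK.algClosed
  have hGB : GoodBase (Lvl K) N (baseRing A K) q := ⟨hq, hqN, inferInstance, hK.not_unit⟩
  haveI : CharP (IsLocalRing.ResidueField ↥(baseRing A K)) q :=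
    Fermat.Agent.N4F.E.GaussResidue.charP_residueField (Lvl K) N (baseRing A K) hGB
  haveI : PerfectRing (IsLocalRing.ResidueField ↥(baseRing A K)) q := inferInstance
  have hstar := LevelStatements.starStatement_lvl hq hA K hGB hK.roots
  have hsmooth := LevelStatements.smoothStatement_lvl hq hA hqN K hGB hK.roots
  have hprime := hstar.1.isPrime
  have hprimeInf := hstar.2.isPrime
  have hred : PGI.RedMem (Lvl K) N (baseRing A K) := fun s hs =>
    ChartReduction.red_mem_full (Lvl K) N (baseRing A K) hGB hstar s hs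
  have hA2 := Fermat.Agent.N4F.E.NormReduction.theta_mem_full (Lvl K) N (baseRing A K) hred
  have hN : IsUnit ((N : ℕ) : ↥(baseRing A K)) :=
    Fermat.Agent.P3G.GammaUnits.isUnit_natCast_baseRing K hq hA hqN
  obtain ⟨S⟩ := Fermat.Agent.P3G.FibreTwo.nonempty_secondVal (Lvl K) N q (baseRing A K)
    (Fermat.Agent.P3G.GammaV2.lvlToComplex K) hqN hprime hA2
  obtain ⟨ϖ, hϖ⟩ := IsDiscreteValuationRing.exists_irreducible ↥(baseRing A K)
  have hτ₀ : φ ^ 2 ∈ A.decompositionSubgroup ℚ :=
    (Fermat.Agent.P4.FrobLevel.isPowFrob_pow_of_isFrobeniusAt hφ 2).1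
  obtain ⟨W, iIC, iFR, V₁, V₂, h⟩ :=
    Fermat.Agent.P4.FrobPointsLevel.frobPointsAt_level_of K hK.stable N q hN
      (Fermat.Agent.P3G.GammaV2.lvlToComplex K) hqN hprime hsmooth.1 hprimeInf hsmooth.2 hA2 S hϖ
      hφ
      (fun e he => Fermat.Agent.P4.BranchNormalLevelInf.setup_branchNormal_inf (Lvl K) N q
        (baseRing A K) hN (Fermat.Agent.P3G.GammaV2.lvlToComplex K) hqN hprime hprimeInf
        hsmooth.2 hA2 S hϖ he)
      (Fermat.Agent.P4.CrossingFrobLevel.rfinAut K hK.stable (N * q) hτ₀) (fun r => rfl)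
      (Fermat.Agent.P4.CrossingFrobLevel.crossingFrob_fin K hK.stable N q hN
        (Fermat.Agent.P3G.GammaV2.lvlToComplex K) hqN hprime hsmooth.1 hA2 S hϖ hφ _
        (fun r => rfl))
      (Fermat.Agent.P4.CrossingFrobLevel.rinfAut K hK.stable (N * q) hτ₀) (fun r => rfl)
      (Fermat.Agent.P4.CrossingFrobLevel.crossingFrob_inf K hK.stable N q hN
        (Fermat.Agent.P3G.GammaV2.lvlToComplex K) hqN hprime hprimeInf hsmooth.2 hA2 S hϖ hφ _
        (fun r => rfl))
  exact ⟨ϖ, W, iIC, iFR, V₁, V₂, h⟩

/-- **The level data of the Frobenius step at every level `N q`, `q ∤ N`.** -/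
theorem frobPoints : FrobPoints := by
  intro N _ q _ hq hqN
  haveI : Fact q.Prime := ⟨hq⟩
  exact frobPointsAt N q hqN

/-- **The geometric input of the frozen S35**: the level form of the Frobenius relation
`(φ² − 1)(φ² − q²) = 0` on the new quotient. -/
theorem levelFrob : LevelFrob Fermat.Agent.P4.FrobStep.relList :=
  levelFrob_of_points frobPoints

end Fermat.Agent.P4.FrobPointsFinal
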