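/-
P4-S35, block [P4-A] part 1 (helper26): THE TWO DEGENERACY PUSH-FORWARDS `J_0(N q) → J_0(N)`.

* `alphaPush N q` is helper19's `P3G/AuxPrime.alphaPush` (push-forward along `α : F_N ⊂ F_{N q}`);
* `betaPush N q : J_0(N q) →+ J_0(N)` : push-forward along `β : F_N → F_{N q}`, `q ↦ q^q`
  (the prelude's `heckeBetaBar`), with its pull-back `betaPull`, `β_* β^* = deg β`, and the
  Galois-equivariance of both;
* divisor-level unfolding of both push-forwards (`alphaPush_mk`, `betaPush_mk`, the principal
  divisor criterion `alphaPush_mk_eq_zero_iff`, …) and the norm formula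
  `n • D = div f ⇒ n • α_* D = div (N_α f)` in the shape the geometric side needs;
* `newPart N q : AddSubgroup (J_0(N q))` : the common kernel of `α_*` and `β_*` (the "`q`-new
  part"), stable under the Galois group.
-/
import Mathlib
import Fermat.Agent.P3G.AuxPrime
import Fermat.Agent.P3G.GammaDict
import Fermat.Agent.P3G.GeomStep

set_option autoImplicit false
set_option linter.unusedSectionVars false
set_option linter.style.haveILetI false

open AlgebraicCurve ModularCurve

noncomputable section

namespace Fermat.Agent.P4.Push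

open Fermat.Agent.N4F.A.LevelMaps Fermat.Agent.N4F.A.PlaceFiber Fermat.Agent.N4F.A.GaloisHecke
  Fermat.Agent.N4F.A.HeckeInputsFinal Fermat.Agent.N4F.A.HeckeInputs Fermat.Agent.P3G.AuxPrime
  Fermat.Agent.P3G.GammaDict Fermat.Agent.N4F.C Fermat.Agent.N4F.C.Galois

local notation "Qbar" => AlgebraicClosure ℚ
local notation "Γ" => (AlgebraicClosure ℚ ≃ₐ[ℚ] AlgebraicClosure ℚ)

variable (N q : ℕ) [NeZero N] [NeZero q]

/-! ### The `β`-twin of `AuxPrime` -/

/-- Pull-back of divisor classes along `β : F_N → F_{N q}`. -/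
def betaPull : JZero N →+ JZero (N * q) :=
  letI := algebraAlong (heckeBetaBar Qbar N q)
  haveI := isScalarTower_along (heckeBetaBar Qbar N q)
  haveI := isIntegral_along (heckeBetaBar Qbar N q) (heckeBetaBarIntegral N q)
  haveI := hasPrincipalDivisors_bar (N * q)
  haveI : FundamentalIdentity Qbar (modularFunctionFieldBar N) (modularFunctionFieldBar (N * q)) :=
    Fermat.Agent.N4F.A.PlaceFiber.fundamentalIdentityAlong (heckeBetaBar Qbar N q)
      (finiteAlong_heckeBetaBar N q) (heckeBetaBarIntegral N q)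
  Pic0.pullbackHom (modularFunctionFieldBar (N * q))

/-- Push-forward of divisor classes along `β : F_N → F_{N q}`. -/
def betaPush : JZero (N * q) →+ JZero N :=
  letI := algebraAlong (heckeBetaBar Qbar N q)
  haveI := isScalarTower_along (heckeBetaBar Qbar N q)
  haveI := isIntegral_along (heckeBetaBar Qbar N q) (heckeBetaBarIntegral N q)
  haveI : Module.Finite (modularFunctionFieldBar N) (modularFunctionFieldBar (N * q)) :=
    finiteAlong_heckeBetaBar N q
  Pic0.pushforwardHom Qbar (modularFunctionFieldBar N) (modularFunctionFieldBar (N * q))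
    (normFormulaAlong_heckeBetaBar N q)

/-- The degree of `β`. -/
def betaDeg : ℕ := finrankAlong Qbar (heckeBetaBar Qbar N q)

theorem betaDeg_pos : 0 < betaDeg N q := by
  letI := algebraAlong (heckeBetaBar Qbar N q)
  haveI : Module.Finite (modularFunctionFieldBar N) (modularFunctionFieldBar (N * q)) :=
    finiteAlong_heckeBetaBar N q
  exact Module.finrank_pos

/-- `β_* β^* = deg β`. -/
theorem betaPush_betaPull (x : JZero N) :
    betaPush N q (betaPull N q x) = (betaDeg N q : ℤ) • x := by
  letI := algebraAlong (heckeBetaBar Qbar N q)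
  haveI := isScalarTower_along (heckeBetaBar Qbar N q)
  haveI := isIntegral_along (heckeBetaBar Qbar N q) (heckeBetaBarIntegral N q)
  haveI := hasPrincipalDivisors_bar (N * q)
  haveI : Module.Finite (modularFunctionFieldBar N) (modularFunctionFieldBar (N * q)) :=
    finiteAlong_heckeBetaBar N q
  haveI : CharZero (modularFunctionFieldBar N) := charZero_of_algebra Qbar _
  haveI : Algebra.IsSeparable (modularFunctionFieldBar N) (modularFunctionFieldBar (N * q)) :=
    inferInstance
  exact pushforwardHom_pullbackHom (normFormulaAlong_heckeBetaBar N q) x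

/-- `β^*` commutes with the Galois action. -/
theorem betaPull_smul (σ : Γ) (x : JZero N) : betaPull N q (σ • x) = σ • betaPull N q x := by
  letI := algebraAlong (heckeBetaBar Qbar N q)
  haveI := isScalarTower_along (heckeBetaBar Qbar N q)
  haveI := isIntegral_along (heckeBetaBar Qbar N q) (heckeBetaBarIntegral N q)
  haveI := hasPrincipalDivisors_bar (N * q)
  haveI : FundamentalIdentity Qbar (modularFunctionFieldBar N) (modularFunctionFieldBar (N * q)) :=
    Fermat.Agent.N4F.A.PlaceFiber.fundamentalIdentityAlong (heckeBetaBar Qbar N q)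
      (finiteAlong_heckeBetaBar N q) (heckeBetaBarIntegral N q)
  rw [galois_smul_pic0_def, galois_smul_pic0_def]
  exact (smul_pullbackHom (fun y => intertwines_heckeBetaBar N q σ y) x).symm

/-- `β_*` commutes with the Galois action. -/
theorem betaPush_smul (σ : Γ) (y : JZero (N * q)) :
    betaPush N q (σ • y) = σ • betaPush N q y := by
  letI := algebraAlong (heckeBetaBar Qbar N q)
  haveI := isScalarTower_along (heckeBetaBar Qbar N q)
  haveI := isIntegral_along (heckeBetaBar Qbar N q) (heckeBetaBarIntegral N q)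
  haveI := hasPrincipalDivisors_bar (N * q)
  haveI : Module.Finite (modularFunctionFieldBar N) (modularFunctionFieldBar (N * q)) :=
    finiteAlong_heckeBetaBar N q
  rw [galois_smul_pic0_def, galois_smul_pic0_def]
  exact (smul_pushforwardHom (fun y => intertwines_heckeBetaBar N q σ y)
    (normFormulaAlong_heckeBetaBar N q) y).symm

/-! ### Divisor-level unfolding -/

/-- Push-forward of divisors along `α`. -/
def pushAlphaDiv : Divisor Qb (Fb (N * q)) →+ Divisor Qb (Fb N) :=
  Divisor.pushforwardAlong (heckeAlphaBar Qbar N q) (heckeAlphaBarIntegral N q)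

/-- Push-forward of divisors along `β`. -/
def pushBetaDiv : Divisor Qb (Fb (N * q)) →+ Divisor Qb (Fb N) :=
  Divisor.pushforwardAlong (heckeBetaBar Qbar N q) (heckeBetaBarIntegral N q)

/-- Push-forward of degree-zero divisors along `α`. -/
def pushAlphaDegZero :
    Divisor.degZero (K := Qb) (F := Fb (N * q)) →+ Divisor.degZero (K := Qb) (F := Fb N) :=
  ((pushAlphaDiv N q).domRestrict _).codRestrict _ fun D =>
    Divisor.pushforwardAlong_mem_degZero (heckeAlphaBar Qbar N q) (heckeAlphaBarIntegral N q) D.2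

/-- Push-forward of degree-zero divisors along `β`. -/
def pushBetaDegZero :
    Divisor.degZero (K := Qb) (F := Fb (N * q)) →+ Divisor.degZero (K := Qb) (F := Fb N) :=
  ((pushBetaDiv N q).domRestrict _).codRestrict _ fun D =>
    Divisor.pushforwardAlong_mem_degZero (heckeBetaBar Qbar N q) (heckeBetaBarIntegral N q) D.2

@[simp] theorem coe_pushAlphaDegZero (D : Divisor.degZero (K := Qb) (F := Fb (N * q))) :
    (pushAlphaDegZero N q D : Divisor Qb (Fb N)) = pushAlphaDiv N q (D : Divisor Qb (Fb (N * q))) :=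
  rfl

@[simp] theorem coe_pushBetaDegZero (D : Divisor.degZero (K := Qb) (F := Fb (N * q))) :
    (pushBetaDegZero N q D : Divisor Qb (Fb N)) = pushBetaDiv N q (D : Divisor Qb (Fb (N * q))) :=
  rfl

/-- The norm along `α`. -/
def normAlpha : Fb (N * q) →* Fb N :=
  letI := algebraAlong (heckeAlphaBar Qbar N q)
  Algebra.norm (Fb N)

/-- The norm along `β`. -/
def normBeta : Fb (N * q) →* Fb N :=
  letI := algebraAlong (heckeBetaBar Qbar N q)
  Algebra.norm (Fb N)

theorem alphaPush_mk (D : Divisor.degZero (K := Qb) (F := Fb (N * q))) :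
    alphaPush N q (Pic0.mk D) = Pic0.mk (pushAlphaDegZero N q D) := rfl

theorem betaPush_mk (D : Divisor.degZero (K := Qb) (F := Fb (N * q))) :
    betaPush N q (Pic0.mk D) = Pic0.mk (pushBetaDegZero N q D) := rfl

variable {N q}

/-- **Norm formula along `α`**: `div (N_α f) = α_* (div f)`. -/
theorem IsDivOf.pushAlpha {f : Fb (N * q)} {D : Divisor Qb (Fb (N * q))} (hf : IsDivOf f D) :
    IsDivOf (normAlpha N q f) (pushAlphaDiv N q D) := by
  letI := algebraAlong (heckeAlphaBar Qbar N q)
  haveI := isScalarTower_along (heckeAlphaBar Qbar N q)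
  haveI := isIntegral_along (heckeAlphaBar Qbar N q) (heckeAlphaBarIntegral N q)
  haveI : Module.Finite (Fb N) (Fb (N * q)) := finiteAlong_heckeAlphaBar N q
  haveI : Module.Free (Fb N) (Fb (N * q)) := Module.Free.of_divisionRing _ _
  refine ⟨?_, fun v => ?_⟩
  · exact Algebra.norm_ne_zero_iff.mpr hf.1
  · exact normFormulaAlong_heckeAlphaBar N q f hf.1 D hf.2 v

/-- **Norm formula along `β`**: `div (N_β f) = β_* (div f)`. -/
theorem IsDivOf.pushBeta {f : Fb (N * q)} {D : Divisor Qb (Fb (N * q))} (hf : IsDivOf f D) :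
    IsDivOf (normBeta N q f) (pushBetaDiv N q D) := by
  letI := algebraAlong (heckeBetaBar Qbar N q)
  haveI := isScalarTower_along (heckeBetaBar Qbar N q)
  haveI := isIntegral_along (heckeBetaBar Qbar N q) (heckeBetaBarIntegral N q)
  haveI : Module.Finite (Fb N) (Fb (N * q)) := finiteAlong_heckeBetaBar N q
  haveI : Module.Free (Fb N) (Fb (N * q)) := Module.Free.of_divisionRing _ _
  refine ⟨?_, fun v => ?_⟩
  · exact Algebra.norm_ne_zero_iff.mpr hf.1
  · exact normFormulaAlong_heckeBetaBar N q f hf.1 D hf.2 v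

/-- `α_* [D] = 0` iff `α_* D` is the divisor of a function of level `N`. -/
theorem alphaPush_mk_eq_zero_iff (D : Divisor.degZero (K := Qb) (F := Fb (N * q))) :
    alphaPush N q (Pic0.mk D) = 0 ↔
      ∃ h : Fb N, IsDivOf h (pushAlphaDiv N q (D : Divisor Qb (Fb (N * q)))) := by
  rw [alphaPush_mk, mk_eq_zero_iff, coe_pushAlphaDegZero]

/-- `β_* [D] = 0` iff `β_* D` is the divisor of a function of level `N`. -/
theorem betaPush_mk_eq_zero_iff (D : Divisor.degZero (K := Qb) (F := Fb (N * q))) :
    betaPush N q (Pic0.mk D) = 0 ↔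
      ∃ h : Fb N, IsDivOf h (pushBetaDiv N q (D : Divisor Qb (Fb (N * q)))) := by
  rw [betaPush_mk, mk_eq_zero_iff, coe_pushBetaDegZero]

/-- **The function-field form of `α_* x = 0`**: if `m D = div f` and `α_* [D] = 0`, then
`N_α f` is a constant times an `m`-th power. -/
theorem exists_normAlpha_eq {m : ℕ} {D : Divisor.degZero (K := Qb) (F := Fb (N * q))}
    {f : Fb (N * q)} (hf : IsDivOf f (m • (D : Divisor Qb (Fb (N * q)))))
    (h0 : alphaPush N q (Pic0.mk D) = 0) :
    ∃ (c : Qb) (u : Fb N), c ≠ 0 ∧ IsDivOf u (pushAlphaDiv N q (D : Divisor Qb (Fb (N * q)))) ∧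
      normAlpha N q f = algebraMap Qb (Fb N) c * u ^ m := by
  obtain ⟨u, hu⟩ := (alphaPush_mk_eq_zero_iff D).mp h0
  have h1 := IsDivOf.pushAlpha hf
  rw [map_nsmul] at h1
  obtain ⟨c, hc, hcu⟩ := Fermat.Agent.P3G.GeomStep.IsDivOf.eq_const_mul N h1 (hu.pow m)
  exact ⟨c, u, hc, hu, hcu⟩

/-- **The function-field form of `β_* x = 0`**. -/
theorem exists_normBeta_eq {m : ℕ} {D : Divisor.degZero (K := Qb) (F := Fb (N * q))}
    {f : Fb (N * q)} (hf : IsDivOf f (m • (D : Divisor Qb (Fb (N * q)))))
    (h0 : betaPush N q (Pic0.mk D) = 0) :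
    ∃ (c : Qb) (u : Fb N), c ≠ 0 ∧ IsDivOf u (pushBetaDiv N q (D : Divisor Qb (Fb (N * q)))) ∧
      normBeta N q f = algebraMap Qb (Fb N) c * u ^ m := by
  obtain ⟨u, hu⟩ := (betaPush_mk_eq_zero_iff D).mp h0
  have h1 := IsDivOf.pushBeta hf
  rw [map_nsmul] at h1
  obtain ⟨c, hc, hcu⟩ := Fermat.Agent.P3G.GeomStep.IsDivOf.eq_const_mul N h1 (hu.pow m)
  exact ⟨c, u, hc, hu, hcu⟩

/-! ### The norms commute with the Galois action -/

/-- `N_α (σ f) = σ (N_α f)`. -/
theorem normAlpha_smul (σ : Γ) (f : Fb (N * q)) :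
    normAlpha N q (gal (N * q) σ • f) = gal N σ • normAlpha N q f := by
  letI := algebraAlong (heckeAlphaBar Qbar N q)
  have he : RingHom.comp (algebraMap (Fb N) (Fb (N * q)))
      ((SemilinearAut.toRingAut (gal N σ) : Fb N ≃+* Fb N) : Fb N →+* Fb N) =
      RingHom.comp ((SemilinearAut.toRingAut (gal (N * q) σ) : Fb (N * q) ≃+* Fb (N * q)) :
        Fb (N * q) →+* Fb (N * q)) (algebraMap (Fb N) (Fb (N * q))) := by
    refine RingHom.ext fun x => ?_
    exact (intertwines_heckeAlphaBar N q σ x).symm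
  have h := Algebra.norm_eq_of_equiv_equiv (SemilinearAut.toRingAut (gal N σ))
    (SemilinearAut.toRingAut (gal (N * q) σ)) he f
  show Algebra.norm (Fb N) (SemilinearAut.toRingAut (gal (N * q) σ) f) =
    SemilinearAut.toRingAut (gal N σ) (Algebra.norm (Fb N) f)
  rw [h, RingEquiv.apply_symm_apply]

/-- `N_β (σ f) = σ (N_β f)`. -/
theorem normBeta_smul (σ : Γ) (f : Fb (N * q)) :
    normBeta N q (gal (N * q) σ • f) = gal N σ • normBeta N q f := by
  letI := algebraAlong (heckeBetaBar Qbar N q)
  have he : RingHom.comp (algebraMap (Fb N) (Fb (N * q)))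
      ((SemilinearAut.toRingAut (gal N σ) : Fb N ≃+* Fb N) : Fb N →+* Fb N) =
      RingHom.comp ((SemilinearAut.toRingAut (gal (N * q) σ) : Fb (N * q) ≃+* Fb (N * q)) :
        Fb (N * q) →+* Fb (N * q)) (algebraMap (Fb N) (Fb (N * q))) := by
    refine RingHom.ext fun x => ?_
    exact (intertwines_heckeBetaBar N q σ x).symm
  have h := Algebra.norm_eq_of_equiv_equiv (SemilinearAut.toRingAut (gal N σ))
    (SemilinearAut.toRingAut (gal (N * q) σ)) he f
  show Algebra.norm (Fb N) (SemilinearAut.toRingAut (gal (N * q) σ) f) =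
    SemilinearAut.toRingAut (gal N σ) (Algebra.norm (Fb N) f)
  rw [h, RingEquiv.apply_symm_apply]

variable (N q)

/-! ### The `q`-new part -/

/-- The common kernel of the two degeneracy push-forwards `J_0(N q) → J_0(N)`. -/
def newPart : AddSubgroup (JZero (N * q)) := (alphaPush N q).ker ⊓ (betaPush N q).ker

variable {N q}

theorem mem_newPart_iff {x : JZero (N * q)} :
    x ∈ newPart N q ↔ alphaPush N q x = 0 ∧ betaPush N q x = 0 := Iff.rfl

theorem galois_smul_zero {M : ℕ} [NeZero M] (σ : Γ) : σ • (0 : JZero M) = 0 := by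
  have h := galois_smul_zsmul M σ 0 (0 : JZero M)
  rwa [zero_zsmul, zero_zsmul] at h

/-- The `q`-new part is Galois stable. -/
theorem smul_mem_newPart (σ : Γ) {x : JZero (N * q)} (hx : x ∈ newPart N q) :
    σ • x ∈ newPart N q := by
  obtain ⟨h1, h2⟩ := mem_newPart_iff.mp hx
  refine mem_newPart_iff.mpr ⟨?_, ?_⟩
  · rw [alphaPush_smul, h1]
    exact galois_smul_zero σ
  · rw [betaPush_smul, h2]
    exact galois_smul_zero σ

end Fermat.Agent.P4.Push
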