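/-
P4-S35, block [P4-A] part 2 (helper26): THE DEGENERACY PUSH-FORWARDS ON THE TATE MODULES.

`TJ p M := Tate p (JZero M)` (helper19's `Adic/TateJ`).  For levels `N` and `N q`:

* `alphaT p N q, betaT p N q : TJ p (N q) →ₗ[ℤ_p] TJ p N` (`Tate.map` of `alphaPush`, `betaPush`),
  Galois-equivariant (`alphaT_gal`, `betaT_gal`);
* `newT p N q : Submodule ℤ_p (TJ p (N q))` : the common kernel (Tate module of the `q`-new part);
  it is Galois-stable, saturated, and `x ∈ newT ↔ ∀ k, proj k x ∈ newPart N q`;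
* `eq_zero_on_newT`, `aeval_gal_eq_zero_on_newT` : an identity (in particular an integral polynomial
  identity in ONE Galois element) which holds on the `p^k`-torsion of the `q`-new part of `J_0(N q)`
  for every `k` holds on `newT`;
* `alphaT_hecke`, `betaT_hecke` : the push-forwards commute with `T_ℓ` for every prime
  `ℓ ∤ N q p` — for free, from Galois-equivariance and the Eichler–Shimura relation at both
  levels (`hecke ℓ = Frob_ℓ + ℓ · Frob_ℓ⁻¹`), NO base-change square.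
-/
import Mathlib
import Fermat.Agent.P4.Push
import Fermat.Agent.N4F.Adic.TateJ

set_option autoImplicit false
set_option linter.unusedSectionVars false

open ModularCurve AlgebraicCurve PadicInt Polynomial

noncomputable section

namespace Fermat.Agent.P4.PushTate

open Fermat.Agent.N4F.Adic.TateModule Fermat.Agent.N4F.Adic.TateJ Fermat.Agent.N4F.Res
  Fermat.Agent.N4F.Core Fermat.Agent.P3G.AuxPrime Fermat.Agent.P4.Push

local notation "Qbar" => AlgebraicClosure ℚ
local notation "Γ" => (AlgebraicClosure ℚ ≃ₐ[ℚ] AlgebraicClosure ℚ)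

variable (p : ℕ) [hp : Fact p.Prime] (N q : ℕ) [NeZero N] [NeZero q]

/-- `α_*` on the Tate modules. -/
def alphaT : TJ p (N * q) →ₗ[ℤ_[p]] TJ p N := Tate.map (alphaPush N q)

/-- `β_*` on the Tate modules. -/
def betaT : TJ p (N * q) →ₗ[ℤ_[p]] TJ p N := Tate.map (betaPush N q)

theorem proj_alphaT (k : ℕ) (x : TJ p (N * q)) :
    Tate.proj k (alphaT p N q x) = alphaPush N q (Tate.proj k x) := rfl

theorem proj_betaT (k : ℕ) (x : TJ p (N * q)) :
    Tate.proj k (betaT p N q x) = betaPush N q (Tate.proj k x) := rfl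

/-- `α_*` commutes with the Galois action. -/
theorem alphaT_gal (σ : Γ) (x : TJ p (N * q)) :
    alphaT p N q (gal p (N * q) σ x) = gal p N σ (alphaT p N q x) := by
  refine Tate.ext fun k => ?_
  change alphaPush N q (σ • (x : ℕ → JZero (N * q)) k) = σ • alphaPush N q ((x : ℕ → JZero (N * q)) k)
  exact alphaPush_smul N q σ _

/-- `β_*` commutes with the Galois action. -/
theorem betaT_gal (σ : Γ) (x : TJ p (N * q)) :
    betaT p N q (gal p (N * q) σ x) = gal p N σ (betaT p N q x) := by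
  refine Tate.ext fun k => ?_
  change betaPush N q (σ • (x : ℕ → JZero (N * q)) k) = σ • betaPush N q ((x : ℕ → JZero (N * q)) k)
  exact betaPush_smul N q σ _

/-! ### The Tate module of the `q`-new part -/

/-- The common kernel of `α_*` and `β_*` on the Tate module. -/
def newT : Submodule ℤ_[p] (TJ p (N * q)) :=
  LinearMap.ker (alphaT p N q) ⊓ LinearMap.ker (betaT p N q)

variable {p N q}

theorem mem_newT_iff {x : TJ p (N * q)} :
    x ∈ newT p N q ↔ alphaT p N q x = 0 ∧ betaT p N q x = 0 := by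
  rw [newT, Submodule.mem_inf, LinearMap.mem_ker, LinearMap.mem_ker]

theorem mem_newT_iff_proj {x : TJ p (N * q)} :
    x ∈ newT p N q ↔ ∀ k, Tate.proj k x ∈ newPart N q := by
  rw [mem_newT_iff]
  constructor
  · rintro ⟨h1, h2⟩ k
    refine mem_newPart_iff.mpr ⟨?_, ?_⟩
    · rw [← proj_alphaT, h1, map_zero]
    · rw [← proj_betaT, h2, map_zero]
  · intro h
    refine ⟨Tate.ext fun k => ?_, Tate.ext fun k => ?_⟩
    · exact (mem_newPart_iff.mp (h k)).1
    · exact (mem_newPart_iff.mp (h k)).2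

/-- `newT` is Galois stable. -/
theorem gal_mem_newT (σ : Γ) {x : TJ p (N * q)} (hx : x ∈ newT p N q) :
    gal p (N * q) σ x ∈ newT p N q := by
  obtain ⟨h1, h2⟩ := mem_newT_iff.mp hx
  refine mem_newT_iff.mpr ⟨?_, ?_⟩
  · rw [alphaT_gal, h1, map_zero]
  · rw [betaT_gal, h2, map_zero]

/-- `newT` is saturated: the quotient `TJ / newT` is torsion free. -/
theorem mem_newT_of_smul_mem {a : ℤ_[p]} (ha : a ≠ 0) {x : TJ p (N * q)}
    (hx : a • x ∈ newT p N q) : x ∈ newT p N q := by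
  obtain ⟨h1, h2⟩ := mem_newT_iff.mp hx
  rw [map_smul] at h1 h2
  exact mem_newT_iff.mpr ⟨Tate.smul_eq_zero_imp ha h1, Tate.smul_eq_zero_imp ha h2⟩

/-- **Identities pass to the limit**: an endomorphism of the Tate module induced by an additive
endomorphism `e` of `J_0(N q)` which kills the `p^k`-torsion of the `q`-new part for every `k`
kills `newT`. -/
theorem eq_zero_on_newT (e : JZero (N * q) →+ JZero (N * q))
    (h : ∀ k : ℕ, ∀ y ∈ newPart N q, p ^ k • y = 0 → e y = 0) :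
    ∀ x ∈ newT p N q, Tate.map (p := p) e x = 0 := by
  intro x hx
  refine Tate.ext fun k => ?_
  exact h k _ (mem_newT_iff_proj.mp hx k) (Tate.pow_smul_apply x k)

/-- Generic: `P(Tate.map f)` is induced by `P(f)`. -/
theorem proj_aeval_map {J : Type*} [AddCommGroup J] (f : J →+ J) (P : ℤ[X]) (x : Tate p J)
    (k : ℕ) :
    Tate.proj k (aeval (Tate.map (p := p) f) P x) = aeval f.toIntLinearMap P (Tate.proj k x) := by
  induction P using Polynomial.induction_on generalizing x with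
  | C a =>
    rw [aeval_C, aeval_C, Algebra.algebraMap_eq_smul_one, Algebra.algebraMap_eq_smul_one,
      LinearMap.smul_apply, LinearMap.smul_apply, Module.End.one_apply, Module.End.one_apply,
      map_zsmul]
  | add P Q hP hQ =>
    rw [map_add, map_add, LinearMap.add_apply, LinearMap.add_apply, map_add, hP, hQ]
  | monomial n a h =>
    have e1 : aeval (Tate.map (p := p) f) (C a * X ^ (n + 1)) =
        aeval (Tate.map (p := p) f) (C a * X ^ n) * Tate.map (p := p) f := by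
      rw [pow_succ, ← mul_assoc, map_mul, aeval_X]
    have e2 : aeval f.toIntLinearMap (C a * X ^ (n + 1)) =
        aeval f.toIntLinearMap (C a * X ^ n) * f.toIntLinearMap := by
      rw [pow_succ, ← mul_assoc, map_mul, aeval_X]
    rw [e1, e2]
    exact h (Tate.map (p := p) f x)

/-- The action of `σ` on `J_0(M)` as a `ℤ`-linear endomorphism. -/
def sigmaEnd (M : ℕ) [NeZero M] (σ : Γ) : Module.End ℤ (JZero M) :=
  (DistribMulAction.toAddMonoidEnd Γ (JZero M) σ).toIntLinearMap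

@[simp] theorem sigmaEnd_apply (M : ℕ) [NeZero M] (σ : Γ) (y : JZero M) :
    sigmaEnd M σ y = σ • y := rfl

/-- The endomorphism `P(σ)` of `J_0(M)` for an integral polynomial `P`. -/
def galPoly (M : ℕ) [NeZero M] (σ : Γ) (P : ℤ[X]) : Module.End ℤ (JZero M) :=
  aeval (sigmaEnd M σ) P

/-- `P(gal σ)` on the Tate module is induced by `P(σ)` on `J_0(M)`. -/
theorem proj_aeval_gal (M : ℕ) [NeZero M] (σ : Γ) (P : ℤ[X]) (x : TJ p M) (k : ℕ) :
    Tate.proj k (aeval (gal p M σ) P x) = galPoly M σ P (Tate.proj k x) :=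
  proj_aeval_map (DistribMulAction.toAddMonoidEnd Γ (JZero M) σ) P x k

/-- **Integral polynomial identities in one Galois element pass to the limit.** -/
theorem aeval_gal_eq_zero_on_newT (σ : Γ) (P : ℤ[X])
    (h : ∀ k : ℕ, ∀ y ∈ newPart N q, p ^ k • y = 0 → galPoly (N * q) σ P y = 0) :
    ∀ x ∈ newT p N q, aeval (gal p (N * q) σ) P x = 0 := by
  intro x hx
  refine Tate.ext fun k => ?_
  have h1 := proj_aeval_gal (p := p) (N * q) σ P x k
  rw [Tate.proj_apply] at h1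
  rw [h1]
  exact h k _ (mem_newT_iff_proj.mp hx k) (Tate.pow_smul_apply x k)

/-! ### Hecke equivariance from Eichler–Shimura -/

/-- `T_ℓ = Frob + ℓ · Frob⁻¹` on the Tate module. -/
theorem hecke_eq_of_frobenius {M : ℕ} [NeZero M] (hES : ESOnTorsionAll M) {ℓ : ℕ} (hℓ : ℓ.Prime)
    (hℓM : ¬ ℓ ∣ M) (hℓp : ℓ ≠ p) {A : ValuationSubring Qbar} (hA : A.LiesOverPrime ℓ) {σ : Γ}
    (hσ : A.IsFrobeniusAt σ ℓ) (x : TJ p M) :
    hecke p M ℓ x = gal p M σ x + (ℓ : ℤ_[p]) • gal p M σ⁻¹ x := by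
  have hinv : gal p M σ (gal p M σ⁻¹ x) = x := by
    have h1 : gal p M σ * gal p M σ⁻¹ = 1 := by rw [← map_mul, mul_inv_cancel, map_one]
    exact LinearMap.congr_fun h1 x
  have h : gal p M σ (gal p M σ (gal p M σ⁻¹ x)) - hecke p M ℓ (gal p M σ (gal p M σ⁻¹ x))
      + (ℓ : ℤ_[p]) • gal p M σ⁻¹ x = 0 :=
    LinearMap.congr_fun (eichler_shimura p M hES ℓ hℓ hℓM hℓp A hA σ hσ) (gal p M σ⁻¹ x)
  rw [hinv] at h
  have h3 : gal p M σ x + (ℓ : ℤ_[p]) • gal p M σ⁻¹ x - hecke p M ℓ x = 0 := by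
    rw [← h]; abel
  exact (sub_eq_zero.mp h3).symm

/-- A Galois-equivariant linear map between the Tate modules of two levels commutes with `T_ℓ`,
`ℓ` prime to both levels and to `p`. -/
theorem comm_hecke_of_comm_gal {M M' : ℕ} [NeZero M] [NeZero M'] (hES : ESOnTorsionAll M)
    (hES' : ESOnTorsionAll M') (φ : TJ p M →ₗ[ℤ_[p]] TJ p M')
    (hφ : ∀ (σ : Γ) (x : TJ p M), φ (gal p M σ x) = gal p M' σ (φ x))
    {ℓ : ℕ} (hℓ : ℓ.Prime) (hℓM : ¬ ℓ ∣ M) (hℓM' : ¬ ℓ ∣ M') (hℓp : ℓ ≠ p) (x : TJ p M) :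
    φ (hecke p M ℓ x) = hecke p M' ℓ (φ x) := by
  obtain ⟨A, σ, hA, hσ⟩ := Fermat.Agent.S54.exists_isFrobeniusAt ℓ hℓ
  rw [hecke_eq_of_frobenius hES hℓ hℓM hℓp hA hσ, hecke_eq_of_frobenius hES' hℓ hℓM' hℓp hA hσ,
    map_add, map_smul, hφ, hφ]

variable (p N q)

/-- **`α_*` commutes with `T_ℓ`**, `ℓ ∤ N q p`. -/
theorem alphaT_hecke (hES : ESOnTorsionAll (N * q)) (hES' : ESOnTorsionAll N) {ℓ : ℕ}
    (hℓ : ℓ.Prime) (hℓM : ¬ ℓ ∣ N * q) (hℓp : ℓ ≠ p) (x : TJ p (N * q)) :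
    alphaT p N q (hecke p (N * q) ℓ x) = hecke p N ℓ (alphaT p N q x) :=
  comm_hecke_of_comm_gal hES hES' (alphaT p N q) (alphaT_gal p N q) hℓ hℓM
    (fun h => hℓM (Dvd.dvd.mul_right h q)) hℓp x

/-- **`β_*` commutes with `T_ℓ`**, `ℓ ∤ N q p`. -/
theorem betaT_hecke (hES : ESOnTorsionAll (N * q)) (hES' : ESOnTorsionAll N) {ℓ : ℕ}
    (hℓ : ℓ.Prime) (hℓM : ¬ ℓ ∣ N * q) (hℓp : ℓ ≠ p) (x : TJ p (N * q)) :
    betaT p N q (hecke p (N * q) ℓ x) = hecke p N ℓ (betaT p N q x) :=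
  comm_hecke_of_comm_gal hES hES' (betaT p N q) (betaT_gal p N q) hℓ hℓM
    (fun h => hℓM (Dvd.dvd.mul_right h q)) hℓp x

/-- `newT` is stable under `T_ℓ`, `ℓ ∤ N q p`. -/
theorem hecke_mem_newT (hES : ESOnTorsionAll (N * q)) (hES' : ESOnTorsionAll N) {ℓ : ℕ}
    (hℓ : ℓ.Prime) (hℓM : ¬ ℓ ∣ N * q) (hℓp : ℓ ≠ p) {x : TJ p (N * q)} (hx : x ∈ newT p N q) :
    hecke p (N * q) ℓ x ∈ newT p N q := by
  obtain ⟨h1, h2⟩ := mem_newT_iff.mp hx
  refine mem_newT_iff.mpr ⟨?_, ?_⟩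
  · rw [alphaT_hecke p N q hES hES' hℓ hℓM hℓp, h1, map_zero]
  · rw [betaT_hecke p N q hES hES' hℓ hℓM hℓp, h2, map_zero]

end Fermat.Agent.P4.PushTate
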