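/-
P4-S35 (helper11): THE BAD-PRIME RELATION ON THE `q`-NEW PART OF THE TATE MODULE, from the
function-field Prop `FrobStep` — glue between `P4/FrobStep.lean` (relation on `J_0(N q)[p^k]` in
divisor-level form) and helper26's `P4/Push.lean` / `P4/PushTate.lean` (`newPart`, `newT`,
`aeval_gal_eq_zero_on_newT`).

* `galPoly_relPoly_eq_zero` : `FrobStep l` ⇒ `P(φ) y = 0` for `y ∈ newPart N q`, `p^k • y = 0`,
  `P = relPoly (l q)`, `φ` a Frobenius lift at `q`;
* `aeval_gal_relPoly_eq_zero_on_newT` : hence `P(gal φ) = 0` on `newT p N q ⊆ T_p J_0(N q)`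
  (= the first half of the hypothesis `hnew` of `S35Assembly`, with `K' := newT`);
* the same from the geometric input at stable levels (`LevelFrobStep.LevelFrob`).
-/
import Mathlib
import Fermat.Agent.P4.FrobStep
import Fermat.Agent.P4.LevelFrobStep
import Fermat.Agent.P4.PushTate

set_option autoImplicit false
set_option linter.unusedSectionVars false
set_option linter.dupNamespace false
set_option linter.style.haveILetI false

open ModularCurve AlgebraicCurve Polynomial

noncomputable section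

namespace Fermat.Agent.P4.FrobRelation

open Fermat.Agent.P3G.GammaDict Fermat.Agent.P3G.AuxPrime Fermat.Agent.N4F.C
  Fermat.Agent.P4.FrobStep Fermat.Agent.P4.Push Fermat.Agent.P4.PushTate
  Fermat.Agent.P4.LevelFrobStep

local notation "Qbar" => AlgebraicClosure ℚ
local notation "Γ" => (AlgebraicClosure ℚ ≃ₐ[ℚ] AlgebraicClosure ℚ)

theorem sigmaEnd_eq_galEnd (M : ℕ) [NeZero M] (σ : Γ) : sigmaEnd M σ = galEnd M σ :=
  LinearMap.ext fun _ => rfl

variable {N q : ℕ} [NeZero N] [NeZero q]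

/-- The divisor-level form of `β_* x = 0`. -/
theorem exists_isDivOf_pushBeta_of_betaPush {x : JZero (N * q)} (hx : betaPush N q x = 0)
    (D : Divisor.degZero (K := Qb) (F := Fb (N * q))) (hD : Pic0.mk D = x) :
    ∃ hB : Fb N, IsDivOf hB (pushBeta N q (D : Divisor Qb (Fb (N * q)))) := by
  rw [← hD] at hx
  exact (betaPush_mk_eq_zero_iff D).mp hx

/-- **The relation on the `q`-new part of `J_0(N q)[p^k]`.** -/
theorem galPoly_relPoly_eq_zero {l : ℕ → List (ℕ × ℤ)} (h : FrobStep l) (hq : q.Prime)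
    (hqN : ¬ q ∣ N) (A : ValuationSubring Qbar) (hA : A.LiesOverPrime q) (φ : Γ)
    (hφ : A.IsFrobeniusAt φ q) (p : ℕ) (hp : p.Prime) (hpq : p ≠ q) :
    ∀ k : ℕ, ∀ y ∈ newPart N q, p ^ k • y = 0 →
      galPoly (N * q) φ (relPoly (l q)) y = 0 := by
  intro k y hy hky
  obtain ⟨h1, h2⟩ := mem_newPart_iff.mp hy
  rw [galPoly, sigmaEnd_eq_galEnd]
  exact relation_of_frobStep h hq hqN A hA φ hφ p hp hpq k y hky
    (exists_isDivOf_pushAlpha_of_alphaPush h1) (exists_isDivOf_pushBeta_of_betaPush h2)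

/-- **The relation on the `q`-new part of the Tate module.** -/
theorem aeval_gal_relPoly_eq_zero_on_newT {l : ℕ → List (ℕ × ℤ)} (h : FrobStep l)
    (hq : q.Prime) (hqN : ¬ q ∣ N) (A : ValuationSubring Qbar) (hA : A.LiesOverPrime q) (φ : Γ)
    (hφ : A.IsFrobeniusAt φ q) (p : ℕ) [Fact p.Prime] (hpq : p ≠ q) :
    ∀ x ∈ newT p N q, aeval (Fermat.Agent.N4F.Adic.TateJ.gal p (N * q) φ) (relPoly (l q)) x = 0 :=
  aeval_gal_eq_zero_on_newT φ (relPoly (l q))
    (galPoly_relPoly_eq_zero h hq hqN A hA φ hφ p (Fact.out) hpq)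

/-- The same from the geometric input at stable levels. -/
theorem aeval_gal_relPoly_eq_zero_on_newT_of_levelFrob {l : ℕ → List (ℕ × ℤ)} (h : LevelFrob l)
    (hq : q.Prime) (hqN : ¬ q ∣ N) (A : ValuationSubring Qbar) (hA : A.LiesOverPrime q) (φ : Γ)
    (hφ : A.IsFrobeniusAt φ q) (p : ℕ) [Fact p.Prime] (hpq : p ≠ q) :
    ∀ x ∈ newT p N q, aeval (Fermat.Agent.N4F.Adic.TateJ.gal p (N * q) φ) (relPoly (l q)) x = 0 :=
  aeval_gal_relPoly_eq_zero_on_newT (frobStep_of_levelFrob h) hq hqN A hA φ hφ p hpq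

end Fermat.Agent.P4.FrobRelation
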