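/-
P4-S35, node (N4), part 0 (helper7): THE EXPLICIT KUMMER MAP AND THE EXPLICIT COMPARISON MAP.

The landed `TateData p N` (`Adic/TateDataInst.tateData`) takes its comparison map
`f : Λ = parHomAdd N ℤ → T_p J_0(N)` from an existential (`LambdaSystem`, `.choose`), so nothing
can be proved about `f` beyond the three exported clauses.  For the `q`-new part (S35) we must
know that `f` is compatible with the push-forwards `J_0(Nq) → J_0(N)`; for that we need `f`
characterised by an EXPLICIT Kummer map.  This file provides: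

* `kappa N n : J_0(N)(Q̄)[n] →+ Hom(Γ_0(N), ℤ/n)`, `:= kummerCAll N n ∘ bcTors N n` (a `def`);
* `kappa_eq_kummerChar` : its value on a class `[D]`, `n • D = div f` (over `Q̄`), is the Kummer
  character of `barToC f`  — the only computational handle anybody needs;
* (K1)–(K4): `kappa_injective`, `kappa_surjective`, `kappa_hecke`, `kappa_compat`;
* `lam p N : parHomAdd N ℤ →+ TJ p N` (a `def`), with
  `kappa_projTors_lam : kappa N (p^k) (projTors k (lam ψ)) = (ψ mod p^k)`,
  `eq_lam_of_kappa` (uniqueness), `lam_hecke`, `lam_mod`;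
* `tateData p N hES : TateData p N` whose `T`, `gal`, `hecke`, `Λ`, `t`, `f` are DEFINITIONALLY
  `TJ p N`, `TateJ.gal p N`, `TateDataInst.heckeGood p N`, `parHomAdd N ℤ`, `TateDataInst.tGood N`,
  `lam p N` (all `rfl`-lemmas stated).
-/
import Mathlib
import Fermat.Agent.N4F.Tors.KummerPlug
import Fermat.Agent.N4F.Adic.TateDataFinal

set_option autoImplicit false
set_option linter.unusedSectionVars false
set_option linter.style.haveILetI false

open CongruenceSubgroup ModularCurve AlgebraicCurve PadicInt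
open scoped MatrixGroups

noncomputable section

namespace Fermat.Agent.P4.KummerExplicit

open Fermat.Agent.M2 Fermat.Agent.N4F.Tors
open Fermat.Agent.N4F.Res Fermat.Agent.N4F.Tors.HeckeHom Fermat.Agent.N4F.Tors.Outputs
open Fermat.Agent.N4F.Tors.Descent Fermat.Agent.N4F.Tors.BaseChange
open Fermat.Agent.N4F.Tors.Kummer Fermat.Agent.N4F.Tors.KummerBar
open Fermat.Agent.N4F.Tors.KummerFinal Fermat.Agent.N4F.Tors.KummerPic
open Fermat.Agent.N4F.Tors.HeckeDiv
open Fermat.Agent.N4F.Adic Fermat.Agent.N4F.Adic.TateModule Fermat.Agent.N4F.Adic.TateJ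
open Fermat.Agent.S24 Fermat.Agent.S24.FieldIso

local notation "Qb" => AlgebraicClosure ℚ

variable (N : ℕ) [NeZero N]

/-! ### The explicit Kummer map -/

/-- **The Kummer map of `J_0(N)(Q̄)[n]`**: base change to `ℂ`, then the complex Kummer map. -/
def kappa (n : ℕ) : Jtors N n →+ (Additive ↥(Gamma0 N) →+ ZMod n) :=
  (kummerCAll N n).comp (bcTors N n)

theorem kappa_apply (n : ℕ) (x : Jtors N n) :
    kappa N n x = kummerCAll N n (bcTors N n x) := rfl

/-- **The computational handle**: the Kummer map of a class `[D]` with `n • D = div f` (over `Q̄`)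
is the Kummer character of `barToC f`. -/
theorem kappa_eq_kummerChar {n : ℕ} [NeZero n] (x : Jtors N n)
    (D : Divisor.degZero (K := Qb) (F := modularFunctionFieldBar N))
    (f : modularFunctionFieldBar N) (hf : f ≠ 0) (hx : (x : JZero N) = Pic0.mk D)
    (hD : ∀ P : Place Qb (modularFunctionFieldBar N),
      (n : ℤ) * (D : Divisor Qb (modularFunctionFieldBar N)) P = P.ord f) :
    ∃ hu : NDiv (Gamma0 N) n ((fieldEquiv N).symm (barToC N ι f)),
      kappa N n x = kummerChar hu := by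
  obtain ⟨DC, hDC, hordC⟩ := exists_bcPicC_divisor N n D f hD
  have hf' : barToC N ι f ≠ 0 := (map_ne_zero _).mpr hf
  have h1 : ((bcTors N n x : Pic0.torsion ℂ (FC N) n) : Pic0 ℂ (FC N)) = Pic0.mk DC := by
    rw [coe_bcTors, hx, hDC]
  exact (KummerPlug.kummerPicSpec N).apply_eq (bcTors N n x) DC (barToC N ι f) hf' h1 hordC

/-- Every torsion class has a generator, and `kappa` is its Kummer character. -/
theorem exists_kappa_eq_kummerChar {n : ℕ} [NeZero n] (x : Jtors N n) :
    ∃ (D : Divisor.degZero (K := Qb) (F := modularFunctionFieldBar N))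
      (f : modularFunctionFieldBar N) (_ : f ≠ 0) (_ : (x : JZero N) = Pic0.mk D)
      (_ : ∀ P : Place Qb (modularFunctionFieldBar N),
        (n : ℤ) * (D : Divisor Qb (modularFunctionFieldBar N)) P = P.ord f)
      (hu : NDiv (Gamma0 N) n ((fieldEquiv N).symm (barToC N ι f))),
      kappa N n x = kummerChar hu := by
  obtain ⟨D, f, hf, hxD, hD⟩ := exists_generator x.2
  obtain ⟨hu, h⟩ := kappa_eq_kummerChar N x D f hf hxD hD
  exact ⟨D, f, hf, hxD, hD, hu, h⟩

/-- **(K1)** -/
theorem kappa_injective {n : ℕ} (hn : 0 < n) : Function.Injective (kappa N n) :=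
  ((KummerPlug.kummerPicSpec N).inj n hn).comp
    (bcTors_injective N (Fermat.Agent.N4F.Tors.CoeffDescent.coeffDescent N) n)

/-- The complex torsion is finite. -/
theorem finite_torsionC {n : ℕ} (hn : 0 < n) : Finite (Pic0.torsion ℂ (FC N) n) :=
  (KummerPlug.complexKummer N).finite hn

/-- **(K2)** -/
theorem kappa_surjective {n : ℕ} (hn : 0 < n) (ψ : Additive ↥(Gamma0 N) →+ ZMod n)
    (hψ : ψ ∈ parHomAdd N (ZMod n)) : ∃ x, kappa N n x = ψ := by
  obtain ⟨y, hy⟩ := surj_of (KummerPlug.kummerPicSpec N) n hn ψ hψ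
  obtain ⟨x, rfl⟩ := bcTors_surjective N (Fermat.Agent.N4F.Tors.CoeffDescent.coeffDescent N) (finite_torsionC N hn) y
  exact ⟨x, hy⟩

/-- **(K3)** -/
theorem kappa_hecke {n : ℕ} (hn : 0 < n) (ℓ : Nat.Primes) (hℓN : ¬ (ℓ : ℕ) ∣ N)
    (x : Jtors N n) :
    kappa N n (heckeTorsAdd N n ℓ x) = heckeAddP N ℓ hℓN (kappa N n x) :=
  hecke_of (KummerPlug.kummerPicSpec N) (KummerPlug.heckeCore N) n hn ℓ hℓN x

/-- **(K4)** -/
theorem kappa_compat {n m : ℕ} (h : n ∣ m) (hm : 0 < m) (x : Jtors N m) (y : Jtors N n)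
    (hy : (y : JZero N) = (m / n) • (x : JZero N)) :
    kappa N n y = (ZMod.castHom h (ZMod n)).toAddMonoidHom.comp (kappa N m x) := by
  have hx' : (m / n) • ((bcTors N m x : Pic0.torsion ℂ (FC N) m) : Pic0 ℂ (FC N)) ∈
      Pic0.torsion ℂ (FC N) n := by
    rw [coe_bcTors, ← map_nsmul, ← hy]
    exact bcPicC_mem_torsion N y.2
  have h1 : bcTors N n y =
      ⟨(m / n) • ((bcTors N m x : Pic0.torsion ℂ (FC N) m) : Pic0 ℂ (FC N)), hx'⟩ := by
    apply Subtype.ext
    rw [coe_bcTors, hy]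
    show bcPicC N ((m / n) • (x : JZero N)) = (m / n) • bcPicC N (x : JZero N)
    rw [map_nsmul]
  rw [kappa_apply, h1, compat_of (KummerPlug.kummerPicSpec N) n m h hm (bcTors N m x) hx']
  rfl

/-- The four clauses together: `kappa N` witnesses helper4's `KummerPackageAll`. -/
theorem kummerPackageAll_kappa :
    (∀ n : ℕ, 0 < n → Function.Injective (kappa N n)) ∧
    (∀ n : ℕ, 0 < n → ∀ ψ : Additive ↥(Gamma0 N) →+ ZMod n, ψ ∈ parHomAdd N (ZMod n) →
      ∃ x, kappa N n x = ψ) ∧
    (∀ n : ℕ, 0 < n → ∀ (ℓ : Nat.Primes) (hℓN : ¬ (ℓ : ℕ) ∣ N) (x : Jtors N n),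
      kappa N n (heckeTorsAdd N n ℓ x) = heckeAddP N ℓ hℓN (kappa N n x)) ∧
    (∀ (n m : ℕ) (h : n ∣ m), 0 < m → ∀ (x : Jtors N m) (y : Jtors N n),
      (y : JZero N) = (m / n) • (x : JZero N) →
        kappa N n y = (ZMod.castHom h (ZMod n)).toAddMonoidHom.comp (kappa N m x)) :=
  ⟨fun _ hn => kappa_injective N hn, fun _ hn ψ hψ => kappa_surjective N hn ψ hψ,
    fun _ hn ℓ hℓN x => kappa_hecke N hn ℓ hℓN x,
    fun _ _ h hm x y hy => kappa_compat N h hm x y hy⟩

/-! ### The explicit comparison map `Λ → T_p J_0(N)` -/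

variable (p : ℕ) [hp : Fact p.Prime]

/-- The reduction modulo `n` of an integral parabolic homomorphism. -/
def redHom (n : ℕ) (ψ : parHomAdd N ℤ) : Additive ↥(Gamma0 N) →+ ZMod n :=
  (Int.castAddHom (ZMod n)).comp ψ.1

omit [NeZero N] in
theorem redHom_apply (n : ℕ) (ψ : parHomAdd N ℤ) (g : Additive ↥(Gamma0 N)) :
    redHom N n ψ g = ((ψ.1 g : ℤ) : ZMod n) := rfl

omit [NeZero N] in
theorem redHom_mem (n : ℕ) (ψ : parHomAdd N ℤ) : redHom N n ψ ∈ parHomAdd N (ZMod n) :=
  fun g hg => by rw [redHom, AddMonoidHom.comp_apply, ψ.2 g hg, map_zero]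

omit [NeZero N] in
theorem redHom_add (n : ℕ) (ψ ψ' : parHomAdd N ℤ) :
    redHom N n (ψ + ψ') = redHom N n ψ + redHom N n ψ' :=
  AddMonoidHom.comp_add _ ψ.1 ψ'.1

/-- The level-`p^k` component of an element of the Tate module, as a torsion point. -/
def projTors (k : ℕ) : TJ p N →+ Jtors N (p ^ k) :=
  (Tate.proj k).codRestrict (Jtors N (p ^ k))
    (fun x => (mem_Jtors_iff N (p ^ k) _).2 (Tate.pow_smul_proj k x))

@[simp] theorem coe_projTors (k : ℕ) (x : TJ p N) :
    ((projTors N p k x : Jtors N (p ^ k)) : JZero N) = Tate.proj k x := rfl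

theorem pow_pos' (k : ℕ) : 0 < p ^ k := pow_pos hp.out.pos k

theorem exists_kappa_pow (k : ℕ) (ψ : parHomAdd N ℤ) :
    ∃ x, kappa N (p ^ k) x = redHom N (p ^ k) ψ :=
  kappa_surjective N (pow_pos' p k) _ (redHom_mem N (p ^ k) ψ)

/-- The level-`p^k` component of the comparison map. -/
def lamTors (k : ℕ) : parHomAdd N ℤ →+ Jtors N (p ^ k) :=
  AddMonoidHom.mk' (fun ψ => (exists_kappa_pow N p k ψ).choose) (fun a b => by
    apply kappa_injective N (pow_pos' p k)
    rw [map_add, (exists_kappa_pow N p k _).choose_spec, (exists_kappa_pow N p k _).choose_spec,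
      (exists_kappa_pow N p k _).choose_spec]
    exact redHom_add N (p ^ k) a b)

theorem kappa_lamTors (k : ℕ) (ψ : parHomAdd N ℤ) :
    kappa N (p ^ k) (lamTors N p k ψ) = redHom N (p ^ k) ψ :=
  (exists_kappa_pow N p k ψ).choose_spec

theorem eq_lamTors_of_kappa {k : ℕ} {ψ : parHomAdd N ℤ} {x : Jtors N (p ^ k)}
    (h : kappa N (p ^ k) x = redHom N (p ^ k) ψ) : x = lamTors N p k ψ :=
  kappa_injective N (pow_pos' p k) (h.trans (kappa_lamTors N p k ψ).symm)

omit [NeZero N] in
theorem castHom_comp_redHom {n m : ℕ} (h : n ∣ m) (ψ : parHomAdd N ℤ) :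
    (ZMod.castHom h (ZMod n)).toAddMonoidHom.comp (redHom N m ψ) = redHom N n ψ := by
  refine AddMonoidHom.ext fun x => ?_
  simp only [redHom, AddMonoidHom.comp_apply, RingHom.toAddMonoidHom_eq_coe,
    AddMonoidHom.coe_coe, Int.coe_castAddHom, map_intCast]

theorem lamTors_zero (ψ : parHomAdd N ℤ) : ((lamTors N p 0 ψ : Jtors N (p ^ 0)) : JZero N) = 0 :=
  LambdaSystem.eq_zero_of_mem_Jtors_pow_zero N p (lamTors N p 0 ψ).2

theorem smul_lamTors_succ (k : ℕ) (ψ : parHomAdd N ℤ) :
    p • ((lamTors N p (k + 1) ψ : Jtors N (p ^ (k + 1))) : JZero N) =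
      ((lamTors N p k ψ : Jtors N (p ^ k)) : JZero N) := by
  have hmem : p • ((lamTors N p (k + 1) ψ : Jtors N (p ^ (k + 1))) : JZero N) ∈
      Jtors N (p ^ k) := LambdaSystem.smul_mem_Jtors N p k (lamTors N p (k + 1) ψ).2
  have e : p ^ (k + 1) / p ^ k = p := by
    rw [pow_succ, Nat.mul_div_cancel_left _ (pow_pos' p k)]
  have h1 : (⟨_, hmem⟩ : Jtors N (p ^ k)) = lamTors N p k ψ := by
    apply eq_lamTors_of_kappa
    rw [kappa_compat N (pow_dvd_pow p (Nat.le_succ k)) (pow_pos' p (k + 1))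
      (lamTors N p (k + 1) ψ) ⟨_, hmem⟩ (by rw [e]), kappa_lamTors, castHom_comp_redHom]
  exact congrArg Subtype.val h1

/-- **The comparison map** `Λ = parHomAdd N ℤ → T_p J_0(N)`: `lam ψ` is the unique element of the
Tate module whose level-`p^k` component has Kummer character `ψ mod p^k`, for every `k`. -/
def lam : parHomAdd N ℤ →+ TJ p N :=
  Tate.ofSystem (fun k => (Jtors N (p ^ k)).subtype.comp (lamTors N p k))
    (AddMonoidHom.ext fun ψ => lamTors_zero N p ψ) (fun k ψ => smul_lamTors_succ N p k ψ)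

theorem proj_lam (k : ℕ) (ψ : parHomAdd N ℤ) :
    Tate.proj k (lam N p ψ) = ((lamTors N p k ψ : Jtors N (p ^ k)) : JZero N) := rfl

theorem projTors_lam (k : ℕ) (ψ : parHomAdd N ℤ) :
    projTors N p k (lam N p ψ) = lamTors N p k ψ := Subtype.ext (proj_lam N p k ψ)

/-- **The characterising property of `lam`.** -/
theorem kappa_projTors_lam (k : ℕ) (ψ : parHomAdd N ℤ) :
    kappa N (p ^ k) (projTors N p k (lam N p ψ)) = redHom N (p ^ k) ψ := by
  rw [projTors_lam, kappa_lamTors]

/-- **Uniqueness**: an element of the Tate module all of whose components have Kummer character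
`ψ mod p^k` is `lam ψ`. -/
theorem eq_lam_of_kappa (z : TJ p N) (ψ : parHomAdd N ℤ)
    (h : ∀ k : ℕ, kappa N (p ^ k) (projTors N p k z) = redHom N (p ^ k) ψ) :
    z = lam N p ψ := by
  refine Tate.ext fun k => ?_
  have h1 := eq_lamTors_of_kappa N p (h k)
  have h2 := congrArg Subtype.val h1
  rw [coe_projTors] at h2
  exact h2

/-- `lam` is Hecke-equivariant. -/
theorem lam_hecke (ℓ : Nat.Primes) (hℓN : ¬ (ℓ : ℕ) ∣ N) (ψ : parHomAdd N ℤ) :
    lam N p (heckeLattice N ℓ hℓN ψ) = hecke p N ℓ (lam N p ψ) := by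
  symm
  refine eq_lam_of_kappa N p _ _ fun k => ?_
  have h1 : projTors N p k (hecke p N ℓ (lam N p ψ)) =
      heckeTorsAdd N (p ^ k) ℓ (projTors N p k (lam N p ψ)) := by
    apply Subtype.ext
    rw [coe_projTors]
    exact hecke_apply_coe p N ℓ.2 (lam N p ψ) k
  rw [h1, kappa_hecke N (pow_pos' p k) ℓ hℓN, kappa_projTors_lam]
  exact heckeAddP_comp N ℓ hℓN (Int.castAddHom (ZMod (p ^ k))) ψ.1

/-- `lam` is injective modulo `p`. -/
theorem lam_mod (ψ : parHomAdd N ℤ) (hψ : ∃ w : TJ p N, lam N p ψ = (p : ℤ_[p]) • w) :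
    ∃ ψ' : parHomAdd N ℤ, ψ = (p : ℤ) • ψ' := by
  obtain ⟨w, hw⟩ := hψ
  have h1 : Tate.proj 1 (lam N p ψ) = 0 := by
    rw [hw, Tate.natCast_smul_eq_nsmul, map_nsmul]
    have h3 := Tate.pow_smul_proj 1 w
    rw [pow_one] at h3
    exact h3
  have h2 : lamTors N p 1 ψ = 0 := Subtype.ext h1
  have h3 : redHom N (p ^ 1) ψ = 0 := by
    rw [← kappa_lamTors, h2, map_zero]
  apply redPar_eq_zero N p hp.out ψ
  apply Subtype.ext
  refine AddMonoidHom.ext fun x => ?_
  have h4 := DFunLike.congr_fun h3 x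
  rw [redHom_apply, AddMonoidHom.zero_apply] at h4
  have : NeZero (p ^ 1) := ⟨(pow_pos hp.out.pos 1).ne'⟩
  have h5 := (ZMod.intCast_zmod_eq_zero_iff_dvd (ψ.1 x) (p ^ 1)).1 h4
  rw [pow_one] at h5
  show (redPar N p ψ).1 x = 0
  simp only [redPar, coe_parHomAddMap, AddMonoidHom.comp_apply, Int.coe_castAddHom]
  exact (ZMod.intCast_zmod_eq_zero_iff_dvd _ p).2 h5

/-- `lam` witnesses `TateDataInst.LambdaSystem`. -/
theorem lambdaSystem_lam :
    (∀ (ℓ : Nat.Primes) (hℓN : ¬ (ℓ : ℕ) ∣ N) (ψ : parHomAdd N ℤ),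
      lam N p (heckeLattice N ℓ hℓN ψ) = hecke p N ℓ (lam N p ψ)) ∧
    ∀ ψ : parHomAdd N ℤ, (∃ w : TJ p N, lam N p ψ = (p : ℤ_[p]) • w) →
      ∃ ψ' : parHomAdd N ℤ, ψ = (p : ℤ) • ψ' :=
  ⟨lam_hecke N p, lam_mod N p⟩

/-! ### The `TateData` with explicit comparison map -/

/-- **`TateData p N` with the explicit comparison map `lam`.**  Same as
`TateDataInst.tateData`, except that the field `f` is the `def` `lam N p` instead of a `.choose`. -/
def tateData (hES : ESOnTorsionAll N) : TateData p N :=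
  @TateData.mk p N _ _ (TJ p N) _ _ (moduleFree p N (KummerPlug.torsionFinite N))
    (moduleFinite p N (KummerPlug.torsionFinite N))
    (gal p N) (TateDataInst.heckeGood p N) (TateDataInst.gal_heckeGood_commute p N)
    (gal_continuous p N (KummerPlug.torsionFinite N))
    (TateDataInst.frob_heckeGood p N hES) (gal_inertia p N hES)
    (parHomAdd N ℤ) _ (TateDataInst.instFreeLattice N) (TateDataInst.instFiniteLattice N)
    (TateDataInst.tGood N) (TateDataInst.tGood_commute N) (lam N p)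
    (TateDataInst.lam_tGood p N (lam N p) (lam_hecke N p))
    (lam_mod N p) (TateDataInst.faithful_tGood N (TateDataFinal.heckeFaithful N))

@[simp] theorem tateData_T (hES : ESOnTorsionAll N) : (tateData N p hES).T = TJ p N := rfl

@[simp] theorem tateData_Λ (hES : ESOnTorsionAll N) :
    (tateData N p hES).Λ = parHomAdd N ℤ := rfl

theorem tateData_gal (hES : ESOnTorsionAll N) : (tateData N p hES).gal = gal p N := rfl

theorem tateData_hecke (hES : ESOnTorsionAll N) :
    (tateData N p hES).hecke = TateDataInst.heckeGood p N := rfl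

theorem tateData_t (hES : ESOnTorsionAll N) : (tateData N p hES).t = TateDataInst.tGood N := rfl

theorem tateData_f (hES : ESOnTorsionAll N) : (tateData N p hES).f = lam N p := rfl

end Fermat.Agent.P4.KummerExplicit
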