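/-
P4-S35, block (P) = [P4-E0] (helper27; blueprints = `moonshots` id 38 (helper23 + helper2) and id 39
(lead)): **the algebraic reduction of S35 to ONE Prop about the Tate module.**

`S30Assembly.exists_galoisRepAdic` builds the rank-two representation `ρ'` attached to a Hecke
character `χ` with `charpoly ρ'(σ) = X² - s(σ) X + χ_cyc(σ)` for EVERY `σ`, where `s(σ)` is THE
scalar by which `ρ(σ) + χ_cyc(σ) ρ(σ)⁻¹` acts on the `χ`-eigenlattice `M_χ ⊆ 𝒪 ⊗ T`.  For a Frobenius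
lift `φ` at a prime `q ≠ p` we have `χ_cyc(φ) = q`, so the Steinberg shape
`charpoly ρ'(φ) = X² ∓ (q+1) X + q` is equivalent to `s(φ) = ±(q+1)`.

* (P1) `steinberg_scalar_of_roots`: `φ² - sφ + q = 0` on a torsion-free module and ONE nonzero vector
  killed by `c ∏ (φ - aᵢ)`, `c ≠ 0`, `aᵢ ∈ {1, -1, q, -q}`, force `s = ±(q+1)` (walk down the linear
  factors).  `steinberg_scalar` is the explicit case `(φ²-1)(φ²-q²)`.
* `IsSteinbergPoly q P` (`P : ℤ[X]`): `P = c ∏ (X - aᵢ)` as above.  Closed under products and powers;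
  contains `X ∓ 1`, `X ∓ q`, `X² - 1`, `X² - q²`, nonzero constants, hence each of the candidate
  relations `(X²-q²)(X²-1)`, `c₀ (X²-q²)(X²-1)(X-1)`, `(X²-q²)(X²-1)²`.
* (P2) `baseChange_eq_zero_of_mem_range`: a relation on a submodule `K' ≤ T` persists on the image
  of `𝒪 ⊗ K'` in `𝒪 ⊗ T` (no flatness needed); `aeval_baseChange`, `aeval_intertwine`.
* (P0) `exists_galoisRepAdic_steinberg`: the clone of `S30Assembly.exists_galoisRepAdic` with the
  Steinberg clause, from `NewVectorAtPoly` (below) at every `q ∥ N`, `q ≠ p`.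
* (P3) `s35_of_tateData_of_new`: the frozen S35, from `TateData lam M` and `NewVectorAtPoly` for
  `χ = iota ∘ chig`.

`NewVectorAtPoly D S 𝒪 χ q P` asks for a submodule `K' ≤ T` (in the application:
`ker α_* ⊓ ker β_*`) on which every Frobenius lift `φ` at `q` satisfies `P(φ) = 0`, and a nonzero
`χ`-eigenvector in the image of `𝒪 ⊗ K'` (the "new vector").  `NewVectorAt` is the explicit form for
`P = X⁴ - (1+q²) X² + q²`.
-/
import Mathlib
import Fermat.Prelude.Def_CuspForm_Newforms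
import Fermat.Prelude.Def_GaloisRep_LocalConditions
import Fermat.Agent.N4F.Adic.S30Assembly

set_option autoImplicit false
set_option linter.style.haveILetI false

open Polynomial TensorProduct

namespace Fermat.Agent.P4.S35Assembly

open Fermat.Agent.N4F.Adic Fermat.Agent.N4F.Adic.EigenLattice Fermat.Agent.N4.FrobDensity
  Fermat.Agent.N4F.Adic.S30Assembly CuspForm

local notation "Qbar" => AlgebraicClosure ℚ
local notation "Γ" => (AlgebraicClosure ℚ ≃ₐ[ℚ] AlgebraicClosure ℚ)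

/-! ### (P1) the scalar -/

/-- **(P1), general form.** If `φ² - sφ + q = 0` on a torsion-free module over a domain, `q ≠ 0`, and
some nonzero vector is killed by `c ∏_{a ∈ L} (φ - a)` with `c ≠ 0` and all `a ∈ {1, -1, q, -q}`,
then `s = q+1` or `s = -(q+1)`. -/
theorem steinberg_scalar_of_roots {𝒪 E : Type*} [CommRing 𝒪] [IsDomain 𝒪] [AddCommGroup E]
    [Module 𝒪 E] [Module.IsTorsionFree 𝒪 E] (φ : Module.End 𝒪 E) (s q : 𝒪) (hq : q ≠ 0)
    (hquad : φ * φ - s • φ + q • (1 : Module.End 𝒪 E) = 0) (c : 𝒪) (hc : c ≠ 0) (L : List 𝒪)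
    (hL : ∀ a ∈ L, a = 1 ∨ a = -1 ∨ a = q ∨ a = -q) (v : E) (hv : v ≠ 0)
    (hrel : aeval φ (C c * (L.map fun a => X - C a).prod) v = 0) :
    s = q + 1 ∨ s = -(q + 1) := by
  have hQ : ∀ w : E, φ (φ w) - s • φ w + q • w = 0 := by
    intro w
    have h := LinearMap.congr_fun hquad w
    simpa using h
  -- an eigenvector with eigenvalue `a` gives `a² - s a + q = 0`
  have key : ∀ (a : 𝒪) (w : E), w ≠ 0 → φ w = a • w → a * a - s * a + q = 0 := by
    intro a w hw h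
    have h1 := hQ w
    rw [h, map_smul, h] at h1
    have h2 : (a * a - s * a + q) • w = 0 := by
      rw [← h1]
      module
    rcases smul_eq_zero.1 h2 with h3 | h3
    · exact h3
    · exact absurd h3 hw
  -- an eigenvalue in `{±1, ±q}` gives the conclusion
  have fin : ∀ a : 𝒪, (a = 1 ∨ a = -1 ∨ a = q ∨ a = -q) → a * a - s * a + q = 0 →
      s = q + 1 ∨ s = -(q + 1) := by
    rintro a (rfl | rfl | rfl | rfl) h
    · left; linear_combination -h
    · right; linear_combination h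
    · left
      have h4 : a * ((a + 1) - s) = 0 := by linear_combination h
      rcases mul_eq_zero.1 h4 with h5 | h5
      · exact absurd h5 hq
      · linear_combination -h5
    · right
      have h4 : q * (s + (q + 1)) = 0 := by linear_combination h
      rcases mul_eq_zero.1 h4 with h5 | h5
      · exact absurd h5 hq
      · linear_combination h5
  induction L generalizing v with
  | nil =>
    exfalso
    rw [List.map_nil, List.prod_nil, mul_one, aeval_C, Module.algebraMap_end_apply] at hrel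
    rcases smul_eq_zero.1 hrel with h | h
    · exact hc h
    · exact hv h
  | cons a L ih =>
    have ha := hL a List.mem_cons_self
    by_cases hw : φ v - a • v = 0
    · exact fin a ha (key a v hv (sub_eq_zero.1 hw))
    · refine ih (fun b hb => hL b (List.mem_cons_of_mem a hb)) (φ v - a • v) hw ?_
      rw [List.map_cons, List.prod_cons, ← mul_assoc, mul_comm (C c), mul_assoc, mul_comm,
        map_mul, Module.End.mul_apply] at hrel
      have h1 : aeval φ (X - C a) v = φ v - a • v := by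
        rw [map_sub, aeval_X, aeval_C, LinearMap.sub_apply, Module.algebraMap_end_apply]
      rw [h1] at hrel
      exact hrel

/-- **(P1)** If `φ² - sφ + q = 0` on a torsion-free module over a domain, `q ≠ 0`, and some nonzero
vector is killed by `φ⁴ - (1+q²)φ² + q² = (φ-1)(φ+1)(φ-q)(φ+q)`, then `s = q+1` or `s = -(q+1)`. -/
theorem steinberg_scalar {𝒪 E : Type*} [CommRing 𝒪] [IsDomain 𝒪] [AddCommGroup E] [Module 𝒪 E]
    [Module.IsTorsionFree 𝒪 E] (φ : Module.End 𝒪 E) (s q : 𝒪) (hq : q ≠ 0)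
    (hquad : φ * φ - s • φ + q • (1 : Module.End 𝒪 E) = 0) (v : E) (hv : v ≠ 0)
    (hrel : φ (φ (φ (φ v))) + q ^ 2 • v = (1 + q ^ 2) • φ (φ v)) :
    s = q + 1 ∨ s = -(q + 1) := by
  have hQ : ∀ w : E, φ (φ w) - s • φ w + q • w = 0 := by
    intro w
    have h := LinearMap.congr_fun hquad w
    simpa using h
  -- an eigenvector with eigenvalue `a` gives `a² - s a + q = 0`
  have key : ∀ (a : 𝒪) (w : E), w ≠ 0 → φ w = a • w → a * a - s * a + q = 0 := by
    intro a w hw h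
    have h1 := hQ w
    rw [h, map_smul, h] at h1
    have h2 : (a * a - s * a + q) • w = 0 := by
      rw [← h1]
      module
    rcases smul_eq_zero.1 h2 with h3 | h3
    · exact h3
    · exact absurd h3 hw
  by_cases h1 : φ v + q • v = 0
  · right
    have h2 : φ v = (-q) • v := by
      rw [neg_smul]
      exact eq_neg_of_add_eq_zero_left h1
    have h3 := key (-q) v hv h2
    have h4 : q * (s + (q + 1)) = 0 := by linear_combination h3
    rcases mul_eq_zero.1 h4 with h5 | h5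
    · exact absurd h5 hq
    · linear_combination h5
  by_cases h2 : φ (φ v + q • v) - q • (φ v + q • v) = 0
  · left
    have h3 := key q _ h1 (sub_eq_zero.1 h2)
    have h4 : q * ((q + 1) - s) = 0 := by linear_combination h3
    rcases mul_eq_zero.1 h4 with h5 | h5
    · exact absurd h5 hq
    · linear_combination -h5
  by_cases h3 : φ (φ (φ v + q • v) - q • (φ v + q • v)) + (φ (φ v + q • v) - q • (φ v + q • v)) = 0
  · right
    have h4 : φ (φ (φ v + q • v) - q • (φ v + q • v)) =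
        (-1 : 𝒪) • (φ (φ v + q • v) - q • (φ v + q • v)) := by
      rw [neg_smul, one_smul]
      exact eq_neg_of_add_eq_zero_left h3
    have h5 := key (-1) _ h2 h4
    linear_combination h5
  · left
    have h4 : φ (φ (φ (φ v + q • v) - q • (φ v + q • v)) + (φ (φ v + q • v) - q • (φ v + q • v))) =
        (1 : 𝒪) • (φ (φ (φ v + q • v) - q • (φ v + q • v)) +
          (φ (φ v + q • v) - q • (φ v + q • v))) := by
      rw [one_smul]
      simp only [map_add, map_sub, map_smul]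
      linear_combination (norm := module) hrel
    have h5 := key 1 _ h3 h4
    linear_combination -h5

/-! ### Steinberg polynomials -/

/-- `P = c ∏ (X - aᵢ)` with `c ≠ 0` and all `aᵢ ∈ {1, -1, q, -q}`. -/
def IsSteinbergPoly (q : ℕ) (P : ℤ[X]) : Prop :=
  ∃ (c : ℤ) (L : List ℤ), c ≠ 0 ∧ (∀ a ∈ L, a = 1 ∨ a = -1 ∨ a = (q : ℤ) ∨ a = -(q : ℤ)) ∧
    P = C c * (L.map fun a => X - C a).prod

namespace IsSteinbergPoly

variable {q : ℕ}

theorem mul {P Q : ℤ[X]} (hP : IsSteinbergPoly q P) (hQ : IsSteinbergPoly q Q) :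
    IsSteinbergPoly q (P * Q) := by
  obtain ⟨c, L, hc, hL, rfl⟩ := hP
  obtain ⟨c', L', hc', hL', rfl⟩ := hQ
  refine ⟨c * c', L ++ L', mul_ne_zero hc hc', ?_, ?_⟩
  · intro a ha
    rcases List.mem_append.1 ha with h | h
    · exact hL a h
    · exact hL' a h
  · rw [List.map_append, List.prod_append, C_mul]
    ring

theorem const {c : ℤ} (hc : c ≠ 0) : IsSteinbergPoly q (C c) :=
  ⟨c, [], hc, fun a ha => absurd ha List.not_mem_nil, by simp⟩

theorem one : IsSteinbergPoly q 1 := by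
  have h := const (q := q) (c := 1) one_ne_zero
  rwa [C_1] at h

theorem pow {P : ℤ[X]} (hP : IsSteinbergPoly q P) (n : ℕ) : IsSteinbergPoly q (P ^ n) := by
  induction n with
  | zero => rw [pow_zero]; exact one
  | succ n ih => rw [pow_succ]; exact ih.mul hP

theorem linear {a : ℤ} (ha : a = 1 ∨ a = -1 ∨ a = (q : ℤ) ∨ a = -(q : ℤ)) :
    IsSteinbergPoly q (X - C a) :=
  ⟨1, [a], one_ne_zero, fun b hb => by rw [List.mem_singleton.1 hb]; exact ha, by simp⟩

theorem X_sub_one : IsSteinbergPoly q (X - 1) := by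
  have h := linear (q := q) (a := 1) (Or.inl rfl)
  rwa [C_1] at h

theorem X_add_one : IsSteinbergPoly q (X + 1) := by
  have h := linear (q := q) (a := -1) (Or.inr (Or.inl rfl))
  rwa [C_neg, C_1, sub_neg_eq_add] at h

theorem X_sub_q : IsSteinbergPoly q (X - C (q : ℤ)) := linear (Or.inr (Or.inr (Or.inl rfl)))

theorem X_add_q : IsSteinbergPoly q (X + C (q : ℤ)) := by
  have h := linear (q := q) (a := -(q : ℤ)) (Or.inr (Or.inr (Or.inr rfl)))
  rwa [C_neg, sub_neg_eq_add] at h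

theorem X_sq_sub_one : IsSteinbergPoly q (X ^ 2 - 1) := by
  have h := (X_sub_one (q := q)).mul X_add_one
  have e : (X - 1 : ℤ[X]) * (X + 1) = X ^ 2 - 1 := by ring
  rwa [e] at h

theorem X_sq_sub_q_sq : IsSteinbergPoly q (X ^ 2 - C ((q : ℤ) ^ 2)) := by
  have h := (X_sub_q (q := q)).mul X_add_q
  have e : (X - C (q : ℤ) : ℤ[X]) * (X + C (q : ℤ)) = X ^ 2 - C ((q : ℤ) ^ 2) := by
    rw [C_pow]; ring
  rwa [e] at h

/-- `(X² - 1)(X² - q²) = X⁴ - (1+q²) X² + q²`. -/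
theorem quartic : IsSteinbergPoly q (X ^ 4 - C (1 + (q : ℤ) ^ 2) * X ^ 2 + C ((q : ℤ) ^ 2)) := by
  have h := (X_sq_sub_one (q := q)).mul X_sq_sub_q_sq
  have e : (X ^ 2 - 1 : ℤ[X]) * (X ^ 2 - C ((q : ℤ) ^ 2)) =
      X ^ 4 - C (1 + (q : ℤ) ^ 2) * X ^ 2 + C ((q : ℤ) ^ 2) := by
    rw [C_add, C_1]; ring
  rwa [e] at h

/-- `(X² - q²)(X² - 1)` (the shape of `P4/FrobStep.relPoly_relListShort`). -/
theorem relShort : IsSteinbergPoly q ((X ^ 2 - C ((q : ℤ) ^ 2)) * (X ^ 2 - 1)) :=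
  X_sq_sub_q_sq.mul X_sq_sub_one

/-- `(X² - q²)(X² - 1)²` (the shape of `P4/FrobStep.relPoly_relList`). -/
theorem relLong : IsSteinbergPoly q ((X ^ 2 - C ((q : ℤ) ^ 2)) * (X ^ 2 - 1) ^ 2) :=
  X_sq_sub_q_sq.mul (X_sq_sub_one.pow 2)

/-- `c₀ (X² - q²)(X² - 1)(X - 1)` (lead's [BES]). -/
theorem bes {c₀ : ℤ} (hc₀ : c₀ ≠ 0) :
    IsSteinbergPoly q (C c₀ * ((X ^ 2 - C ((q : ℤ) ^ 2)) * (X ^ 2 - 1) * (X - 1))) :=
  (const hc₀).mul ((X_sq_sub_q_sq.mul X_sq_sub_one).mul X_sub_one)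

/-- The image in a domain of characteristic zero. -/
theorem map {P : ℤ[X]} (hP : IsSteinbergPoly q P) (𝒪 : Type*) [CommRing 𝒪] [CharZero 𝒪] :
    ∃ (c : 𝒪) (L : List 𝒪), c ≠ 0 ∧ (∀ a ∈ L, a = 1 ∨ a = -1 ∨ a = (q : 𝒪) ∨ a = -(q : 𝒪)) ∧
      P.map (Int.castRingHom 𝒪) = C c * (L.map fun a => X - C a).prod := by
  obtain ⟨c, L, hc, hL, rfl⟩ := hP
  refine ⟨(c : 𝒪), L.map (Int.cast : ℤ → 𝒪), Int.cast_ne_zero.2 hc, ?_, ?_⟩
  · intro a ha
    obtain ⟨b, hb, rfl⟩ := List.mem_map.1 ha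
    rcases hL b hb with rfl | rfl | rfl | rfl
    · left; simp
    · right; left; simp
    · right; right; left; simp
    · right; right; right; simp
  · rw [Polynomial.map_mul, Polynomial.map_C, Polynomial.map_list_prod, List.map_map, List.map_map]
    congr 2
    refine List.map_congr_left fun a _ => ?_
    simp

end IsSteinbergPoly


/-! ### Polynomials in an endomorphism: intertwining and base change -/

/-- intertwining passes to polynomials -/
theorem aeval_intertwine {R E E' : Type*} [CommRing R] [AddCommGroup E] [Module R E]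
    [AddCommGroup E'] [Module R E'] (g : E →ₗ[R] E') (f₁ : Module.End R E) (f₂ : Module.End R E')
    (h : ∀ m, g (f₁ m) = f₂ (g m)) (P : R[X]) (m : E) :
    g (aeval f₁ P m) = aeval f₂ P (g m) := by
  have hpow : ∀ (n : ℕ) (m : E), g ((f₁ ^ n) m) = (f₂ ^ n) (g m) := by
    intro n
    induction n with
    | zero => intro m; simp
    | succ n ih =>
      intro m
      rw [pow_succ, pow_succ, Module.End.mul_apply, Module.End.mul_apply, ih, h]
  induction P using Polynomial.induction_on' with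
  | add p q hp hq => rw [map_add, map_add, LinearMap.add_apply, LinearMap.add_apply, map_add, hp, hq]
  | monomial n a =>
    rw [aeval_monomial, aeval_monomial, Module.End.mul_apply, Module.End.mul_apply,
      Module.algebraMap_end_apply, Module.algebraMap_end_apply, map_smul, hpow]

/-- integer polynomials: evaluation commutes with base change -/
theorem aeval_baseChange {R₀ 𝒪 T : Type*} [CommRing R₀] [CommRing 𝒪] [Algebra R₀ 𝒪]
    [AddCommGroup T] [Module R₀ T] (ψ : Module.End R₀ T) (P : ℤ[X]) :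
    aeval (ψ.baseChange 𝒪) P = (aeval ψ P).baseChange 𝒪 := by
  induction P using Polynomial.induction_on' with
  | add p q hp hq => rw [map_add, map_add, LinearMap.baseChange_add, hp, hq]
  | monomial n a =>
    rw [aeval_monomial, aeval_monomial, Algebra.algebraMap_eq_smul_one, smul_mul_assoc, one_mul,
      Algebra.algebraMap_eq_smul_one, smul_mul_assoc, one_mul, ← LinearMap.baseChange_pow]
    exact (map_zsmul (LinearMap.baseChangeHom R₀ 𝒪 T T) a (ψ ^ n)).symm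

/-- integer polynomials read in `𝒪` -/
theorem aeval_map_intCast {𝒪 E : Type*} [CommRing 𝒪] [AddCommGroup E] [Module 𝒪 E]
    (φ : Module.End 𝒪 E) (P : ℤ[X]) :
    aeval φ (P.map (Int.castRingHom 𝒪)) = aeval φ P := by
  have := Polynomial.aeval_map_algebraMap (A := 𝒪) φ P
  exact this

/-- The quartic `X⁴ - (1+n²) X² + n²` evaluated at an endomorphism. -/
theorem aeval_quartic {R M : Type*} [CommRing R] [AddCommGroup M] [Module R M]
    (ψ : Module.End R M) (n : ℕ) (x : M) :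
    aeval ψ (X ^ 4 - C (1 + (n : ℤ) ^ 2) * X ^ 2 + C ((n : ℤ) ^ 2) : ℤ[X]) x =
      ψ (ψ (ψ (ψ x))) - (1 + n ^ 2) • ψ (ψ x) + n ^ 2 • x := by
  have h : ∀ z : ℤ, algebraMap ℤ (Module.End R M) z = (z : Module.End R M) :=
    fun z => eq_intCast _ z
  rw [map_add, map_sub, map_mul, map_pow, map_pow, aeval_X, aeval_C, aeval_C, h, h,
    LinearMap.add_apply, LinearMap.sub_apply, Module.End.mul_apply, Module.End.intCast_apply,
    Module.End.intCast_apply]
  have e4 : (ψ ^ 4) x = ψ (ψ (ψ (ψ x))) := rfl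
  have e2 : (ψ ^ 2) x = ψ (ψ x) := rfl
  have e3 : ∀ y : M, (1 + (n : ℤ) ^ 2) • y = (1 + n ^ 2) • y := by
    intro y
    rw [← natCast_zsmul]
    push_cast
    rfl
  have e5 : ∀ y : M, ((n : ℤ) ^ 2) • y = n ^ 2 • y := by
    intro y
    rw [← natCast_zsmul]
    push_cast
    rfl
  rw [e4, e2, e3, e5]

/-! ### (P2) relations on a submodule pass to the base change -/

section BaseChange

variable {R₀ 𝒪 T : Type*} [CommRing R₀] [CommRing 𝒪] [Algebra R₀ 𝒪] [AddCommGroup T] [Module R₀ T]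

/-- **(P2)** An endomorphism `Q` of `T` vanishing on a submodule `K'` has its base change vanishing
on the image of `𝒪 ⊗ K'` in `𝒪 ⊗ T`. -/
theorem baseChange_eq_zero_of_mem_range (Q : Module.End R₀ T) (K' : Submodule R₀ T)
    (hQ : ∀ x ∈ K', Q x = 0) {v : 𝒪 ⊗[R₀] T}
    (hv : v ∈ LinearMap.range (K'.subtype.baseChange 𝒪)) : Q.baseChange 𝒪 v = 0 := by
  obtain ⟨w, rfl⟩ := hv
  induction w using TensorProduct.induction_on with
  | zero => simp
  | tmul r x =>
    rw [LinearMap.baseChange_tmul, LinearMap.baseChange_tmul, Submodule.subtype_apply,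
      hQ x x.2, TensorProduct.tmul_zero]
  | add x y hx hy => rw [map_add, map_add, hx, hy, add_zero]

/-- The quartic relation `ψ⁴ + n² = (1 + n²) ψ²` (with natural-number multiples) on a submodule
passes to the image of its base change, with the multiples read in `𝒪`. -/
theorem baseChange_quartic (ψ : Module.End R₀ T) (n : ℕ) (K' : Submodule R₀ T)
    (h : ∀ x ∈ K', ψ (ψ (ψ (ψ x))) + n ^ 2 • x = (1 + n ^ 2) • ψ (ψ x)) {v : 𝒪 ⊗[R₀] T}
    (hv : v ∈ LinearMap.range (K'.subtype.baseChange 𝒪)) :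
    ψ.baseChange 𝒪 (ψ.baseChange 𝒪 (ψ.baseChange 𝒪 (ψ.baseChange 𝒪 v))) + ((n : 𝒪)) ^ 2 • v =
      (1 + ((n : 𝒪)) ^ 2) • ψ.baseChange 𝒪 (ψ.baseChange 𝒪 v) := by
  have h1 := baseChange_eq_zero_of_mem_range (𝒪 := 𝒪)
    (ψ * ψ * ψ * ψ + ((n ^ 2 : ℕ) : R₀) • 1 - ((1 + n ^ 2 : ℕ) : R₀) • (ψ * ψ)) K' ?_ hv
  · simp only [LinearMap.baseChange_add, LinearMap.baseChange_sub, LinearMap.baseChange_mul,
      LinearMap.baseChange_smul, LinearMap.baseChange_one, LinearMap.add_apply,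
      LinearMap.sub_apply, Module.End.mul_apply, LinearMap.smul_apply, Module.End.one_apply] at h1
    rw [Nat.cast_smul_eq_nsmul, Nat.cast_smul_eq_nsmul, ← Nat.cast_smul_eq_nsmul 𝒪,
      ← Nat.cast_smul_eq_nsmul 𝒪, sub_eq_zero] at h1
    push_cast at h1
    exact h1
  · intro x hx
    simp only [LinearMap.add_apply, LinearMap.sub_apply, Module.End.mul_apply,
      LinearMap.smul_apply, Module.End.one_apply, Nat.cast_smul_eq_nsmul]
    rw [h x hx, sub_self]

end BaseChange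

/-! ### The Prop that remains: a new vector with the Frobenius relation -/

section NewVector

variable {p N : ℕ} [Fact p.Prime] [NeZero N] (D : TateData p N) (S : Finset ℕ)
  (𝒪 : Type) [CommRing 𝒪] [Algebra ℤ_[p] 𝒪] (χ : heckeAlgebra N 2 (↑S : Set ℕ) →+* 𝒪)

/-- **The input of S35 at a prime `q`** (blueprint: `K' = ker α_* ⊓ ker β_*` in the Tate module of
`J₀(N)`; the first clause is `frob_new_relation`, the second `exists_new_vector`): a submodule `K'`
of the Tate module on which EVERY Frobenius lift `φ` at `q` satisfies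
`φ⁴ + q² = (1 + q²) φ²`, i.e. `(φ² - 1)(φ² - q²) = 0`, and whose base change to `𝒪` contains a
nonzero `χ`-eigenvector. -/
def NewVectorAt (q : ℕ) : Prop :=
  ∃ K' : Submodule ℤ_[p] D.T,
    (∀ A : ValuationSubring Qbar, A.LiesOverPrime q → ∀ φ : Γ, A.IsFrobeniusAt φ q →
      ∀ x ∈ K', D.gal φ (D.gal φ (D.gal φ (D.gal φ x))) + q ^ 2 • x =
        (1 + q ^ 2) • D.gal φ (D.gal φ x)) ∧
    ∃ v ∈ LinearMap.range (K'.subtype.baseChange 𝒪), v ≠ 0 ∧
      ∀ i, (tauT D S i).baseChange 𝒪 v = eigenvalue S 𝒪 χ i • v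

/-- **The input of S35 at a prime `q`, for a general relation `P ∈ ℤ[X]`**: a submodule `K'` of the
Tate module on which EVERY Frobenius lift `φ` at `q` satisfies `P(φ) = 0`, and whose base change to
`𝒪` contains a nonzero `χ`-eigenvector. -/
def NewVectorAtPoly (q : ℕ) (P : ℤ[X]) : Prop :=
  ∃ K' : Submodule ℤ_[p] D.T,
    (∀ A : ValuationSubring Qbar, A.LiesOverPrime q → ∀ φ : Γ, A.IsFrobeniusAt φ q →
      ∀ x ∈ K', aeval (D.gal φ) P x = 0) ∧
    ∃ v ∈ LinearMap.range (K'.subtype.baseChange 𝒪), v ≠ 0 ∧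
      ∀ i, (tauT D S i).baseChange 𝒪 v = eigenvalue S 𝒪 χ i • v

variable {D S 𝒪 χ}

/-- The explicit form is the case of the quartic `X⁴ - (1+q²) X² + q²`. -/
theorem NewVectorAt.poly {q : ℕ} (h : NewVectorAt D S 𝒪 χ q) :
    NewVectorAtPoly D S 𝒪 χ q (X ^ 4 - C (1 + (q : ℤ) ^ 2) * X ^ 2 + C ((q : ℤ) ^ 2)) := by
  obtain ⟨K', hK', hv⟩ := h
  refine ⟨K', fun A hA φ hφ x hx => ?_, hv⟩
  have h1 := hK' A hA φ hφ x hx
  rw [aeval_quartic, ← h1]
  abel

end NewVector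

/-! ### (P0) the representation, with the Steinberg clause -/

section Layer1

variable {p N : ℕ} [Fact p.Prime] [NeZero N] (D : TateData p N) (S : Finset ℕ)
  (𝒪 : Type) [CommRing 𝒪] [IsDomain 𝒪] [IsDiscreteValuationRing 𝒪] [CharZero 𝒪]
  [Algebra ℤ_[p] 𝒪] (χ : heckeAlgebra N 2 (↑S : Set ℕ) →+* 𝒪)

/-- **(P0)** The representation of S30 over `𝒪` itself, with the additional Steinberg clause at the
primes `q ∥ N`, `q ≠ p`, from `NewVectorAt`. -/
theorem exists_galoisRepAdic_steinberg (hpS : p ∈ S) (hNS : ∀ q : ℕ, q.Prime → q ∣ N → q ∈ S)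
    (hp𝒪 : (p : 𝒪) ∈ IsLocalRing.maximalIdeal 𝒪)
    (hocc : ∃ v : 𝒪 ⊗[ℤ_[p]] D.T, v ≠ 0 ∧
      ∀ i, (tauT D S i).baseChange 𝒪 v = eigenvalue S 𝒪 χ i • v)
    (hnew : ∀ q : ℕ, q.Prime → q ≠ p → q ∣ N → ¬ q ^ 2 ∣ N →
      ∃ P : ℤ[X], IsSteinbergPoly q P ∧ NewVectorAtPoly D S 𝒪 χ q P) :
    ∃ ρ : GaloisRepAdic 𝒪,
      (∀ (ℓ : ℕ) (hℓ : ℓ.Prime) (hℓN : ¬ ℓ ∣ N) (hℓS : ℓ ∉ (↑S : Set ℕ)),
        ∀ A : ValuationSubring Qbar, A.LiesOverPrime ℓ →
          ∀ σ : Γ, A.IsFrobeniusAt σ ℓ →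
            LinearMap.charpoly (ρ.ρ σ) =
              X ^ 2 - C (χ (heckeAlgebra.T hℓ hℓN hℓS)) * X + C ((ℓ : 𝒪))) ∧
      (∀ q : ℕ, q.Prime → ¬ q ∣ N → q ≠ p → ρ.IsUnramifiedAt q) ∧
      (∀ q : ℕ, q.Prime → q ≠ p → q ∣ N → ¬ q ^ 2 ∣ N →
        ∀ A : ValuationSubring Qbar, A.LiesOverPrime q →
          ∀ σ : Γ, A.IsFrobeniusAt σ q →
            LinearMap.charpoly (ρ.ρ σ) = X ^ 2 - C ((q : 𝒪) + 1) * X + C ((q : 𝒪)) ∨
            LinearMap.charpoly (ρ.ρ σ) = X ^ 2 + C ((q : 𝒪) + 1) * X + C ((q : 𝒪))) := by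
  classical
  have hp : p.Prime := Fact.out
  -- the eigenlattice and its Galois action
  have hcomm : ∀ (g : Γ) (i : HeckeIdx N (↑S : Set ℕ)), Commute (D.gal g) (tauT D S i) :=
    fun g i => D.gal_hecke g i.1
  have hnt : Nontrivial (EigenT (tauT D S) (eigenvalue S 𝒪 χ)) := nontrivial_of_eigenvector hocc
  let ρ : Γ →* Module.End 𝒪 (EigenT (tauT D S) (eigenvalue S 𝒪 χ)) :=
    galEigen (a := eigenvalue S 𝒪 χ) D.gal hcomm
  have hpn : ∀ n : ℕ, algebraMap ℤ_[p] 𝒪 ((p : ℤ_[p]) ^ n) = (p : 𝒪) ^ n := by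
    intro n
    rw [map_pow, map_natCast]
  have hp0 : ∀ n : ℕ, (p : 𝒪) ^ n ≠ 0 := fun n =>
    pow_ne_zero n (Nat.cast_ne_zero.2 hp.ne_zero)
  -- continuity, elementwise
  have hcont : ∀ n : ℕ, ∃ L : IntermediateField ℚ Qbar, FiniteDimensional ℚ L ∧
      ∀ σ : Γ, (∀ x ∈ L, σ x = x) → ∀ m, ∃ m', ρ σ m - m = (p : 𝒪) ^ n • m' := by
    intro n
    obtain ⟨L, hL, h⟩ := D.cont n
    refine ⟨L, hL, fun σ hσ m => ?_⟩
    have h1 := exists_galEigen_sub_eq_smul (a := eigenvalue S 𝒪 χ) D.gal hcomm (h σ hσ)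
      (by rw [hpn]; exact hp0 n) m
    rw [hpn] at h1
    exact h1
  have hρ : GaloisActionIsAdicContinuous 𝒪 ρ := by
    intro n
    obtain ⟨L, hL, h⟩ := hcont n
    refine ⟨L, hL, fun σ hσ v => ?_⟩
    obtain ⟨m', hm'⟩ := h σ hσ v
    rw [hm']
    exact Submodule.smul_mem_smul (Ideal.pow_mem_pow hp𝒪 n) Submodule.mem_top
  -- the cyclotomic character
  let χc : Γ →* 𝒪ˣ := cycloCharIn p (algebraMap ℤ_[p] 𝒪)
  have hχc := cycloCharIn_continuous p (algebraMap ℤ_[p] 𝒪) hp𝒪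
  -- the Frobenius relations
  have hrel : ∀ (ℓ : ℕ) (hℓ : ℓ.Prime) (hℓN : ¬ ℓ ∣ N) (hℓS : ℓ ∉ (↑S : Set ℕ)),
      ∀ A : ValuationSubring Qbar, A.LiesOverPrime ℓ → ∀ σ : Γ, A.IsFrobeniusAt σ ℓ →
        ρ σ * ρ σ - χ (heckeAlgebra.T hℓ hℓN hℓS) • ρ σ + ((χc σ : 𝒪ˣ) : 𝒪) • 1 = 0 ∧
          ((χc σ : 𝒪ˣ) : 𝒪) = (ℓ : 𝒪) := by
    intro ℓ hℓ hℓN hℓS A hA σ hσ
    have hℓp : ℓ ≠ p := by
      rintro rfl
      exact hℓS (Finset.mem_coe.2 hpS)
    have h1 := galEigen_relation (a := eigenvalue S 𝒪 χ) D.gal hcomm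
      (i := (⟨ℓ, hℓ, hℓN, hℓS⟩ : HeckeIdx N (↑S : Set ℕ))) (D.frob ℓ hℓ hℓN hℓp A hA σ hσ)
    have h2 : ((χc σ : 𝒪ˣ) : 𝒪) = (ℓ : 𝒪) := cycloCharIn_frob p _ hℓ hℓp hA hσ
    rw [map_natCast] at h1
    rw [h2]
    exact ⟨h1, rfl⟩
  -- the operator identity
  have hop : ∀ g : Γ, ∃ s : 𝒪, ρ g + ((χc g : 𝒪ˣ) : 𝒪) • ρ g⁻¹ = s • 1 := by
    intro g
    refine exists_scalar_of_frobenius_adicContinuous ρ hρ χc hχc S ?_ g
    intro l hl hlS B hB φ hφ
    have hlN : ¬ l ∣ N := fun h => hlS (hNS l hl h)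
    have hlS' : l ∉ (↑S : Set ℕ) := fun h => hlS (Finset.mem_coe.1 h)
    exact ⟨_, (hrel l hl hlN hlS' B hB φ hφ).1⟩
  choose s hs using hop
  -- the quadratic relation `ρ(σ)² - s(σ) ρ(σ) + χ_c(σ) = 0`, for EVERY `σ`
  have hquad : ∀ σ : Γ, ρ σ * ρ σ - s σ • ρ σ + ((χc σ : 𝒪ˣ) : 𝒪) • 1 = 0 := by
    intro σ
    have h4 := congrArg (fun φ => φ * ρ σ) (hs σ)
    simp only [add_mul, smul_mul_assoc, one_mul] at h4
    rw [← map_mul ρ σ⁻¹ σ, inv_mul_cancel, map_one] at h4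
    rw [← h4]
    abel
  -- the rank two representation
  have h2 : (2 : 𝒪) ≠ 0 := two_ne_zero
  have hcc : ((χc complexConjugation : 𝒪ˣ) : 𝒪) = -1 := by
    show ((cycloCharIn p (algebraMap ℤ_[p] 𝒪) complexConjugation : 𝒪ˣ) : 𝒪) = -1
    rw [cycloCharIn_complexConjugation, Units.val_neg, Units.val_one]
  obtain ⟨V, _, _, _, _, ρ', hV, hchar, hone, hcong⟩ :=
    Core.exists_rank_two_rep ρ χc s hs h2 complexConjugation complexConjugation_mul_self hcc
  have hadic : GaloisActionIsAdicContinuous 𝒪 ρ' := by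
    intro n
    obtain ⟨L₁, hL₁, h₁⟩ := hcont n
    obtain ⟨L₂, hL₂, h₂⟩ := cycloCharIn_continuous_of_mem p (algebraMap ℤ_[p] 𝒪)
      (Ideal.span {(p : 𝒪)}) (Ideal.mem_span_singleton_self _) n
    refine ⟨L₁ ⊔ L₂, IntermediateField.finiteDimensional_sup L₁ L₂, fun σ hσ v => ?_⟩
    have hσ₁ : ∀ x ∈ L₁, σ x = x := fun x hx => hσ x ((le_sup_left : L₁ ≤ L₁ ⊔ L₂) hx)
    have hσ₂ : ∀ x ∈ L₂, σ x = x := fun x hx => hσ x ((le_sup_right : L₂ ≤ L₁ ⊔ L₂) hx)
    have hdvd : (p : 𝒪) ^ n ∣ ((χc σ : 𝒪ˣ) : 𝒪) - 1 := by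
      have h3 := h₂ σ hσ₂
      rw [Ideal.span_singleton_pow, Ideal.mem_span_singleton] at h3
      exact h3
    obtain ⟨v', hv'⟩ := hcong ((p : 𝒪) ^ n) σ (h₁ σ hσ₁) hdvd v
    rw [hv']
    exact Submodule.smul_mem_smul (Ideal.pow_mem_pow hp𝒪 n) Submodule.mem_top
  refine ⟨{ V := V, finrank_eq := hV, ρ := ρ', isAdicContinuous := hadic }, ?_, ?_, ?_⟩
  · -- characteristic polynomials of Frobenius elements
    intro ℓ hℓ hℓN hℓS A hA σ hσ
    obtain ⟨hq, hχℓ⟩ := hrel ℓ hℓ hℓN hℓS A hA σ hσ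
    show LinearMap.charpoly (ρ' σ) = _
    rw [hchar σ, hχℓ]
    suffices hsσ : s σ = χ (heckeAlgebra.T hℓ hℓN hℓS) by rw [hsσ]
    -- `s σ = χ(T_ℓ)`
    have h5 : (s σ - χ (heckeAlgebra.T hℓ hℓN hℓS)) • ρ σ = 0 := by
      rw [sub_smul]
      calc s σ • ρ σ - χ (heckeAlgebra.T hℓ hℓN hℓS) • ρ σ
          = (ρ σ * ρ σ - χ (heckeAlgebra.T hℓ hℓN hℓS) • ρ σ + ((χc σ : 𝒪ˣ) : 𝒪) • 1) -
              (ρ σ * ρ σ - s σ • ρ σ + ((χc σ : 𝒪ˣ) : 𝒪) • 1) := by abel
        _ = 0 := by rw [hq, hquad σ, sub_self]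
    obtain ⟨m₀, hm₀⟩ := exists_ne (0 : EigenT (tauT D S) (eigenvalue S 𝒪 χ))
    have h6 := congrArg (fun φ : Module.End 𝒪 (EigenT (tauT D S) (eigenvalue S 𝒪 χ)) =>
      φ (ρ σ⁻¹ m₀)) h5
    simp only [LinearMap.smul_apply, LinearMap.zero_apply] at h6
    have h7 : ρ σ (ρ σ⁻¹ m₀) = m₀ := by
      rw [← Module.End.mul_apply, ← map_mul, mul_inv_cancel, map_one, Module.End.one_apply]
    rw [h7] at h6
    rcases smul_eq_zero.1 h6 with h8 | h8
    · exact sub_eq_zero.1 h8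
    · exact absurd h8 hm₀
  · -- unramified outside `Np`
    intro q hq hqN hqp P hP σ hσ
    show ρ' σ = 1
    apply hone σ
    · exact galEigen_eq_one (a := eigenvalue S 𝒪 χ) D.gal hcomm (D.unram q hq hqN hqp P hP σ hσ)
    · exact cycloCharIn_inertia p _ hq hqp hP hσ
  · -- the Steinberg clause
    intro q hq hqp hqN hq2 A hA σ hσ
    show LinearMap.charpoly (ρ' σ) = _ ∨ LinearMap.charpoly (ρ' σ) = _
    obtain ⟨P, hP, K', hK', v, hvK', hv0, hv⟩ := hnew q hq hqp hqN hq2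
    have hχq : ((χc σ : 𝒪ˣ) : 𝒪) = (q : 𝒪) := cycloCharIn_frob p _ hq hqp hA hσ
    -- the new vector in the eigenlattice
    have hm0 : EigenT.mk (a := eigenvalue S 𝒪 χ) v hv ≠ 0 := by
      intro h0
      apply hv0
      have := congrArg (EigenT.val (tauT D S) (eigenvalue S 𝒪 χ)) h0
      simpa using this
    have hq0 : (q : 𝒪) ≠ 0 := Nat.cast_ne_zero.2 hq.ne_zero
    have hqd := hquad σ
    rw [hχq] at hqd
    obtain ⟨c, L, hc, hL, hPL⟩ := hP.map 𝒪
    have hrelv : aeval (ρ σ) (C c * (L.map fun a => X - C a).prod)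
        (EigenT.mk (a := eigenvalue S 𝒪 χ) v hv) = 0 := by
      apply EigenT.val_injective
      rw [map_zero, ← hPL, aeval_intertwine (EigenT.val (tauT D S) (eigenvalue S 𝒪 χ)) (ρ σ)
        ((D.gal σ).baseChange 𝒪) (fun m => coe_galEigen_apply D.gal hcomm σ m), EigenT.val_mk,
        aeval_map_intCast, aeval_baseChange]
      exact baseChange_eq_zero_of_mem_range (𝒪 := 𝒪) (aeval (D.gal σ) P) K' (hK' A hA σ hσ) hvK'
    rcases steinberg_scalar_of_roots (ρ σ) (s σ) (q : 𝒪) hq0 hqd c hc L hL _ hm0 hrelv with h | h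
    · left
      rw [hchar σ, hχq, h]
    · right
      rw [hchar σ, hχq, h, map_neg, neg_mul, sub_neg_eq_add]

end Layer1

/-! ### (P3) the statement of S35 -/

section Layer3

/-- The `ℤ_[lam]`-algebra structure on a complete local ring of residue characteristic `lam` (the one
used by `S30Assembly.s30_of_tateData`). -/
@[reducible] noncomputable def padicAlgebra (lam : ℕ) [Fact lam.Prime] (O' : Type) [CommRing O']
    [IsLocalRing O'] [IsAdicComplete (IsLocalRing.maximalIdeal O') O']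
    (hlamO' : (lam : O') ∈ IsLocalRing.maximalIdeal O') : Algebra ℤ_[lam] O' :=
  (padicIntToComplete lam (IsLocalRing.maximalIdeal O') hlamO').toAlgebra

/-- **(P3) The frozen S35 from the Tate data of `J₀(M)` and the new vector.**  The hypotheses on the
newform `g` (`hg`, `hchig`) enter only through `hnew`. -/
theorem s35_of_tateData_of_new
    {M : ℕ} [NeZero M] (lam : ℕ) [Fact lam.Prime]
    (S : Finset ℕ)
    (O' : Type) [CommRing O'] [IsDomain O'] [IsDiscreteValuationRing O']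
    [IsAdicComplete (IsLocalRing.maximalIdeal O') O'] [Finite (IsLocalRing.ResidueField O')]
    [CharZero O'] (hlamO' : (lam : O') ∈ IsLocalRing.maximalIdeal O')
    (chig : CuspForm.heckeAlgebra M 2 (↑S : Set ℕ) →+* ℂ)
    (iota : chig.range →+* O')
    (hlamS : lam ∈ S) (hMS : ∀ q : ℕ, q.Prime → q ∣ M → q ∈ S)
    (D : TateData lam M)
    (hnew : letI : Algebra ℤ_[lam] O' := padicAlgebra lam O' hlamO'
      ∀ q : ℕ, q.Prime → q ≠ lam → q ∣ M → ¬ q ^ 2 ∣ M →
        ∃ P : ℤ[X], IsSteinbergPoly q P ∧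
          NewVectorAtPoly D S O' (iota.comp chig.rangeRestrict) q P) :
    ∃ (O'' : Type) (_ : CommRing O'') (_ : IsDomain O'') (_ : IsDiscreteValuationRing O'')
      (_ : IsAdicComplete (IsLocalRing.maximalIdeal O'') O'') (_ : Finite (IsLocalRing.ResidueField O''))
      (_ : CharZero O'') (_ : Algebra O' O'') (_ : Module.Finite O' O'') (_ : IsLocalHom (algebraMap O' O'')),
      Function.Injective (algebraMap O' O'') ∧
      ∃ ρ : GaloisRepAdic O'',
        (∀ (ℓ : ℕ) (hℓ : ℓ.Prime) (hℓM : ¬ ℓ ∣ M) (hℓS : ℓ ∉ (↑S : Set ℕ)),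
          ∀ A : ValuationSubring (AlgebraicClosure ℚ), A.LiesOverPrime ℓ →
            ∀ σ : AlgebraicClosure ℚ ≃ₐ[ℚ] AlgebraicClosure ℚ, A.IsFrobeniusAt σ ℓ →
              LinearMap.charpoly (ρ.ρ σ) =
                X ^ 2 - C (algebraMap O' O'' ((iota.comp chig.rangeRestrict) (CuspForm.heckeAlgebra.T hℓ hℓM hℓS))) * X
                  + C ((ℓ : O''))) ∧
        (∀ q : ℕ, q.Prime → q ≠ lam → q ∣ M → ¬ q ^ 2 ∣ M →
          ∀ A : ValuationSubring (AlgebraicClosure ℚ), A.LiesOverPrime q →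
            ∀ σ : AlgebraicClosure ℚ ≃ₐ[ℚ] AlgebraicClosure ℚ, A.IsFrobeniusAt σ q →
              LinearMap.charpoly (ρ.ρ σ) = X ^ 2 - C ((q : O'') + 1) * X + C ((q : O'')) ∨
              LinearMap.charpoly (ρ.ρ σ) = X ^ 2 + C ((q : O'') + 1) * X + C ((q : O''))) := by
  letI : Algebra ℤ_[lam] O' := padicAlgebra lam O' hlamO'
  obtain ⟨ρ, h1, -, h3⟩ := exists_galoisRepAdic_steinberg D S O' (iota.comp chig.rangeRestrict)
    hlamS hMS hlamO' (exists_eigenvector D S O' (iota.comp chig.rangeRestrict)) hnew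
  refine ⟨O', inferInstance, inferInstance, inferInstance, inferInstance, inferInstance,
    inferInstance, Algebra.id O', inferInstance, ?_, Function.injective_id, ρ, h1, h3⟩
  exact isLocalHom_id O'

/-- The same with the explicit relation `φ⁴ + q² = (1+q²) φ²` (`NewVectorAt`). -/
theorem s35_of_tateData_of_newVectorAt
    {M : ℕ} [NeZero M] (lam : ℕ) [Fact lam.Prime]
    (S : Finset ℕ)
    (O' : Type) [CommRing O'] [IsDomain O'] [IsDiscreteValuationRing O']
    [IsAdicComplete (IsLocalRing.maximalIdeal O') O'] [Finite (IsLocalRing.ResidueField O')]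
    [CharZero O'] (hlamO' : (lam : O') ∈ IsLocalRing.maximalIdeal O')
    (chig : CuspForm.heckeAlgebra M 2 (↑S : Set ℕ) →+* ℂ)
    (iota : chig.range →+* O')
    (hlamS : lam ∈ S) (hMS : ∀ q : ℕ, q.Prime → q ∣ M → q ∈ S)
    (D : TateData lam M)
    (hnew : letI : Algebra ℤ_[lam] O' := padicAlgebra lam O' hlamO'
      ∀ q : ℕ, q.Prime → q ≠ lam → q ∣ M → ¬ q ^ 2 ∣ M →
        NewVectorAt D S O' (iota.comp chig.rangeRestrict) q) :
    ∃ (O'' : Type) (_ : CommRing O'') (_ : IsDomain O'') (_ : IsDiscreteValuationRing O'')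
      (_ : IsAdicComplete (IsLocalRing.maximalIdeal O'') O'') (_ : Finite (IsLocalRing.ResidueField O''))
      (_ : CharZero O'') (_ : Algebra O' O'') (_ : Module.Finite O' O'') (_ : IsLocalHom (algebraMap O' O'')),
      Function.Injective (algebraMap O' O'') ∧
      ∃ ρ : GaloisRepAdic O'',
        (∀ (ℓ : ℕ) (hℓ : ℓ.Prime) (hℓM : ¬ ℓ ∣ M) (hℓS : ℓ ∉ (↑S : Set ℕ)),
          ∀ A : ValuationSubring (AlgebraicClosure ℚ), A.LiesOverPrime ℓ →
            ∀ σ : AlgebraicClosure ℚ ≃ₐ[ℚ] AlgebraicClosure ℚ, A.IsFrobeniusAt σ ℓ →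
              LinearMap.charpoly (ρ.ρ σ) =
                X ^ 2 - C (algebraMap O' O'' ((iota.comp chig.rangeRestrict) (CuspForm.heckeAlgebra.T hℓ hℓM hℓS))) * X
                  + C ((ℓ : O''))) ∧
        (∀ q : ℕ, q.Prime → q ≠ lam → q ∣ M → ¬ q ^ 2 ∣ M →
          ∀ A : ValuationSubring (AlgebraicClosure ℚ), A.LiesOverPrime q →
            ∀ σ : AlgebraicClosure ℚ ≃ₐ[ℚ] AlgebraicClosure ℚ, A.IsFrobeniusAt σ q →
              LinearMap.charpoly (ρ.ρ σ) = X ^ 2 - C ((q : O'') + 1) * X + C ((q : O'')) ∨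
              LinearMap.charpoly (ρ.ρ σ) = X ^ 2 + C ((q : O'') + 1) * X + C ((q : O''))) := by
  letI : Algebra ℤ_[lam] O' := padicAlgebra lam O' hlamO'
  exact s35_of_tateData_of_new lam S O' hlamO' chig iota hlamS hMS D
    (fun q hq hql hqM hq2 => ⟨_, IsSteinbergPoly.quartic, (hnew q hq hql hqM hq2).poly⟩)

end Layer3

end Fermat.Agent.P4.S35Assembly
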