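/-
P4-S35, node P4-TOP (helper23, integrator dry run): **the frozen statement S35 from the two remaining
Props of the P4 blueprint.**

* `LevelFrobStep.LevelFrob FrobStep.relList` — the geometric input (P4-Q5): at Γ-stable good levels the
  twisted difference of a level model has local roots `≡ 1`; it gives the relation
  `(φ² − q²)(φ² − 1)² = 0` on `PushTate.newT lam N q` for every Frobenius lift `φ` at `q`
  (`FrobRelation.aeval_gal_relPoly_eq_zero_on_newT_of_levelFrob`).
* `NewEigenvector` — the lattice input (P4-NEW): for a newform `g` of level `N * q` the base change of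
  `newT lam N q` contains a nonzero eigenvector with the eigenvalues of `g`.

The only content of this file is the transport `M = N * q` (from `q ∣ M`, `¬ q ^ 2 ∣ M`) and the
plumbing of `S35Assembly.s35_of_tateData_of_new` with `D := KummerExplicit.tateData M lam _`.
-/
import Mathlib
import Fermat.Agent.P4.S35Assembly
import Fermat.Agent.P4.FrobRelation
import Fermat.Agent.P4.KummerExplicit
import Fermat.Agent.N4F.Res.BlocksFinal
import Fermat.Agent.N4F.E.AlphaSideFinal

set_option autoImplicit false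
set_option linter.unusedSectionVars false
set_option linter.unusedVariables false
set_option linter.style.haveILetI false

open Polynomial CuspForm CuspForm.IsNewform

namespace Fermat.Agent.P4.S35Top

open Fermat.Agent.N4F.Adic Fermat.Agent.N4F.Res Fermat.Agent.P4.S35Assembly
open Fermat.Agent.P4.FrobStep Fermat.Agent.P4.LevelFrobStep Fermat.Agent.P4.FrobRelation
open Fermat.Agent.P4.PushTate Fermat.Agent.P4.KummerExplicit

/-- The Eichler–Shimura relation on torsion at every level (from the landed blocks). -/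
theorem esAll (N : ℕ) [NeZero N] : ESOnTorsionAll N :=
  Fermat.Agent.N4F.Res.BlocksFinal.esOnTorsionAll
    (Fermat.Agent.N4F.Res.BlocksFinal.blocks_of_charpolyForm
      Fermat.Agent.N4F.E.AlphaSideFinal.alphaCharpolyForm) N

/-- **The lattice input (P4-NEW)**: the base change of the `q`-new part `newT lam N q` of the Tate
module of `J₀(N q)` contains a nonzero eigenvector with the Hecke eigenvalues of a newform `g` of
level `N q`. -/
def NewEigenvector : Prop :=
  ∀ (N q : ℕ) [NeZero N] [NeZero q], q.Prime → ¬ q ∣ N →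
    ∀ {g : CuspForm (CongruenceSubgroup.Gamma0 (N * q)) 2}, g.IsNewform →
    ∀ (lam : ℕ) [Fact lam.Prime], q ≠ lam → ∀ (S : Finset ℕ)
      (O' : Type) [CommRing O'] [IsDomain O'] [IsDiscreteValuationRing O']
      [IsAdicComplete (IsLocalRing.maximalIdeal O') O'] [Finite (IsLocalRing.ResidueField O')]
      [CharZero O'] (hlamO' : (lam : O') ∈ IsLocalRing.maximalIdeal O')
      (chig : CuspForm.heckeAlgebra (N * q) 2 (↑S : Set ℕ) →+* ℂ)
      (hchig : ∀ (ℓ : ℕ) (hℓ : ℓ.Prime) (hℓM : ¬ ℓ ∣ N * q) (hℓS : ℓ ∉ (↑S : Set ℕ)),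
        chig (CuspForm.heckeAlgebra.T hℓ hℓM hℓS) = ModularFormClass.qCoeff g ℓ)
      (iota : chig.range →+* O') (hlamS : lam ∈ S)
      (hMS : ∀ r : ℕ, r.Prime → r ∣ N * q → r ∈ S),
      letI : Algebra ℤ_[lam] O' := padicAlgebra lam O' hlamO'
      ∃ v ∈ LinearMap.range ((newT lam N q).subtype.baseChange O'), v ≠ 0 ∧
        ∀ i, (S30Assembly.tauT (tateData (N * q) lam (esAll (N * q))) S i).baseChange O' v =
          S30Assembly.eigenvalue S O' (iota.comp chig.rangeRestrict) i • v

/-- **Frozen S35 from the geometric input and the lattice input.** -/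
theorem s35_of_levelFrob_of_newEigenvector (hLF : LevelFrob relList) (hNE : NewEigenvector)
    {M : ℕ} [NeZero M] {g : CuspForm (CongruenceSubgroup.Gamma0 M) 2} (hg : g.IsNewform)
    (lam : ℕ) [Fact lam.Prime]
    (S : Finset ℕ)
    (O' : Type) [CommRing O'] [IsDomain O'] [IsDiscreteValuationRing O']
    [IsAdicComplete (IsLocalRing.maximalIdeal O') O'] [Finite (IsLocalRing.ResidueField O')]
    [CharZero O'] (hlamO' : (lam : O') ∈ IsLocalRing.maximalIdeal O')
    (chig : CuspForm.heckeAlgebra M 2 (↑S : Set ℕ) →+* ℂ)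
    (hchig : ∀ (ℓ : ℕ) (hℓ : ℓ.Prime) (hℓM : ¬ ℓ ∣ M) (hℓS : ℓ ∉ (↑S : Set ℕ)),
      chig (CuspForm.heckeAlgebra.T hℓ hℓM hℓS) = ModularFormClass.qCoeff g ℓ)
    (iota : chig.range →+* O')
    (hlamS : lam ∈ S) (hMS : ∀ q : ℕ, q.Prime → q ∣ M → q ∈ S) :
    ∃ (O'' : Type) (_ : CommRing O'') (_ : IsDomain O'') (_ : IsDiscreteValuationRing O'')
      (_ : IsAdicComplete (IsLocalRing.maximalIdeal O'') O'') (_ : Finite (IsLocalRing.ResidueField O''))
      (_ : CharZero O'') (_ : Algebra O' O'') (_ : Module.Finite O' O'') (_ : IsLocalHom (algebraMap O' O'')),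
      Function.Injective (algebraMap O' O'') ∧
      ∃ ρ : GaloisRepAdic O'',
        (∀ (ℓ : ℕ) (hℓ : ℓ.Prime) (hℓM : ¬ ℓ ∣ M) (hℓS : ℓ ∉ (↑S : Set ℕ)),
          ∀ A : ValuationSubring (AlgebraicClosure ℚ), A.LiesOverPrime ℓ →
            ∀ σ : AlgebraicClosure ℚ ≃ₐ[ℚ] AlgebraicClosure ℚ, A.IsFrobeniusAt σ ℓ →
              LinearMap.charpoly (ρ.ρ σ) =
                X ^ 2 - C (algebraMap O' O'' ((iota.comp chig.rangeRestrict) (CuspForm.heckeAlgebra.T hℓ hℓM hℓS))) * X
                  + C ((ℓ : O''))) ∧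
        (∀ q : ℕ, q.Prime → q ≠ lam → q ∣ M → ¬ q ^ 2 ∣ M →
          ∀ A : ValuationSubring (AlgebraicClosure ℚ), A.LiesOverPrime q →
            ∀ σ : AlgebraicClosure ℚ ≃ₐ[ℚ] AlgebraicClosure ℚ, A.IsFrobeniusAt σ q →
              LinearMap.charpoly (ρ.ρ σ) = X ^ 2 - C ((q : O'') + 1) * X + C ((q : O'')) ∨
              LinearMap.charpoly (ρ.ρ σ) = X ^ 2 + C ((q : O'') + 1) * X + C ((q : O''))) := by
  refine s35_of_tateData_of_new lam S O' hlamO' chig iota hlamS hMS (tateData M lam (esAll M)) ?_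
  intro q hq hql hqM hq2
  obtain ⟨N, hN⟩ := hqM
  have hM : M = N * q := by rw [hN, mul_comm]
  subst hM
  haveI : NeZero N := ⟨fun h => NeZero.ne (N * q) (by rw [h, zero_mul])⟩
  haveI : NeZero q := ⟨hq.ne_zero⟩
  have hqN : ¬ q ∣ N := by
    rintro ⟨c, rfl⟩
    exact hq2 ⟨c, by ring⟩
  refine ⟨relPoly (relList q), ?_, newT lam N q, ?_, ?_⟩
  · rw [relPoly_relList]
    exact IsSteinbergPoly.relLong
  · intro A hA φ hφ x hx
    exact aeval_gal_relPoly_eq_zero_on_newT_of_levelFrob hLF hq hqN A hA φ hφ lam hql.symm x hx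
  · exact hNE N q hq hqN hg lam hql S O' hlamO' chig hchig iota hlamS hMS

end Fermat.Agent.P4.S35Top
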