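/-
P4-S35, block (N4a), function level (helper10): THE KUMMER CHARACTER OF A NORM ALONG `α` IS THE
TRANSFER OF THE KUMMER CHARACTER.

`ℓ ∤ N` prime, `δ_j` a right transversal of `Γ₀(Nℓ)` in `Γ₀(N)` (`Γ₀(N) = ⊔_j Γ₀(Nℓ) δ_j`) with
coset bookkeeping `δ_j g = coc(g, j) δ_{perm(g, j)}` (`g ∈ Γ₀(N)`, `coc(g, j) ∈ Γ₀(Nℓ)`).
For `F ∈ Q̄·F_{Nℓ}` whose image `u = Φ_{Nℓ}(φ F)` in `WHField Γ₀(Nℓ)` is `n`-divisible, with root
datum `(a, b, h)`: the norm `N_α F ∈ Q̄·F_N` has the root datum `(C, D, H)`,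
`C z = ∏_j a(δ_j z)`, `D z = ∏_j b(δ_j z)`, `H z = ∏_j h(δ_j z)`, and
`H(g z) = (∏_j m(coc(g, j))) H(z)`.  Hence

  `kummerChar (N_α F) g = ∑_j kummerChar F (coc(g, j))`,

the transfer (corestriction) `Hom(Γ₀(Nℓ), ℤ/n) → Hom(Γ₀(N), ℤ/n)`.

Template: `N4F/Tors/KummerHecke.kummerChar_norm_beta` (the case `F = β f`, where the result is the
Hecke operator).
-/
import Mathlib
import Fermat.Agent.N4F.Tors.Kummer
import Fermat.Agent.N4F.Tors.NormCosets
import Fermat.Agent.N4F.Tors.KummerHecke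
import Fermat.Agent.P3LR.A.Transfer2

set_option autoImplicit false
set_option linter.style.haveILetI false
set_option linter.unusedSectionVars false

open UpperHalfPlane MatrixGroups CongruenceSubgroup ModularForm
open Matrix.SpecialLinearGroup
open scoped Manifold

noncomputable section

namespace Fermat.Agent.P4.KummerPush

open Fermat.Agent.M2 Fermat.Agent.N4F.Tors.Kummer Fermat.Agent.N4F.Tors
open Fermat.Agent.S24 Fermat.Agent.S24.FieldIso ModularCurve AlgebraicCurve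

local notation "Qb" => AlgebraicClosure ℚ

/-! ## Coset bookkeeping -/

section Cosets

variable {N ℓ : ℕ} {J : Type*}

/-- The permutation of a coset bookkeeping `δ_j g = coc(g, j) δ_{perm(g, j)}` of a right
transversal is injective. -/
theorem perm_injective (δ : J → SL(2, ℤ)) (hδ : ∀ j, δ j ∈ Gamma0 N)
    (hcos : ∀ g ∈ Gamma0 N, ∃! j, g * (δ j)⁻¹ ∈ Gamma0 (N * ℓ))
    (perm : ↥(Gamma0 N) → J → J) (coc : ↥(Gamma0 N) → J → ↥(Gamma0 (N * ℓ)))
    (hrep : ∀ (g : ↥(Gamma0 N)) (j : J),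
      δ j * (g : SL(2, ℤ)) = (coc g j : SL(2, ℤ)) * δ (perm g j))
    (g : ↥(Gamma0 N)) : Function.Injective (perm g) := by
  intro j j' hjj'
  have h1 := hrep g j
  have h2 := hrep g j'
  rw [hjj'] at h1
  -- `δ j (δ j')⁻¹ = coc g j (coc g j')⁻¹`
  have h3 : δ j * (δ j')⁻¹ = (coc g j : SL(2, ℤ)) * ((coc g j' : SL(2, ℤ)))⁻¹ := by
    have e1 : δ j = (coc g j : SL(2, ℤ)) * δ (perm g j') * ((g : SL(2, ℤ)))⁻¹ := by
      rw [← h1, mul_inv_cancel_right]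
    have e2 : δ j' = (coc g j' : SL(2, ℤ)) * δ (perm g j') * ((g : SL(2, ℤ)))⁻¹ := by
      rw [← h2, mul_inv_cancel_right]
    rw [e1]
    conv_lhs => rw [e2]
    group
  obtain ⟨i, -, huniq⟩ := hcos (δ j) (hδ j)
  have hj : δ j * (δ j)⁻¹ ∈ Gamma0 (N * ℓ) := by
    rw [mul_inv_cancel]
    exact (Gamma0 (N * ℓ)).one_mem
  have hj' : δ j * (δ j')⁻¹ ∈ Gamma0 (N * ℓ) := by
    rw [h3]
    exact (Gamma0 (N * ℓ)).mul_mem (coc g j).2 ((Gamma0 (N * ℓ)).inv_mem (coc g j').2)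
  rw [huniq j hj, huniq j' hj']

/-- The permutation of a coset bookkeeping, as an equivalence. -/
def permEquiv [Finite J] (δ : J → SL(2, ℤ)) (hδ : ∀ j, δ j ∈ Gamma0 N)
    (hcos : ∀ g ∈ Gamma0 N, ∃! j, g * (δ j)⁻¹ ∈ Gamma0 (N * ℓ))
    (perm : ↥(Gamma0 N) → J → J) (coc : ↥(Gamma0 N) → J → ↥(Gamma0 (N * ℓ)))
    (hrep : ∀ (g : ↥(Gamma0 N)) (j : J),
      δ j * (g : SL(2, ℤ)) = (coc g j : SL(2, ℤ)) * δ (perm g j))
    (g : ↥(Gamma0 N)) : J ≃ J :=
  Equiv.ofBijective (perm g)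
    (Finite.injective_iff_bijective.mp (perm_injective δ hδ hcos perm coc hrep g))

/-- Existence of a coset bookkeeping for a right transversal. -/
theorem exists_perm_coc (δ : J → SL(2, ℤ)) (hδ : ∀ j, δ j ∈ Gamma0 N)
    (hcos : ∀ g ∈ Gamma0 N, ∃! j, g * (δ j)⁻¹ ∈ Gamma0 (N * ℓ)) :
    ∃ (perm : ↥(Gamma0 N) → J → J) (coc : ↥(Gamma0 N) → J → ↥(Gamma0 (N * ℓ))),
      ∀ (g : ↥(Gamma0 N)) (j : J),
        δ j * (g : SL(2, ℤ)) = (coc g j : SL(2, ℤ)) * δ (perm g j) := by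
  have h : ∀ (g : ↥(Gamma0 N)) (j : J), ∃ i : J,
      δ j * (g : SL(2, ℤ)) * (δ i)⁻¹ ∈ Gamma0 (N * ℓ) := fun g j =>
    (hcos (δ j * (g : SL(2, ℤ))) ((Gamma0 N).mul_mem (hδ j) g.2)).exists
  choose perm hperm using h
  refine ⟨perm, fun g j => ⟨δ j * (g : SL(2, ℤ)) * (δ (perm g j))⁻¹, hperm g j⟩, fun g j => ?_⟩
  simp

end Cosets

/-! ## The root of the norm -/

section Root

variable {N ℓ : ℕ} {J : Type*} [Fintype J]

/-- The functional equation of `z ↦ ∏_j h(δ_j z)` for a function `h` with multiplier system `m` on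
`Γ₀(Nℓ)`. -/
theorem prod_smul_smul (δ : J → SL(2, ℤ)) (perm : ↥(Gamma0 N) → J → J)
    (coc : ↥(Gamma0 N) → J → ↥(Gamma0 (N * ℓ)))
    (hrep : ∀ (g : ↥(Gamma0 N)) (j : J),
      δ j * (g : SL(2, ℤ)) = (coc g j : SL(2, ℤ)) * δ (perm g j))
    (hperm : ∀ g, Function.Bijective (perm g))
    {h : ℍ → ℂ} {m : ↥(Gamma0 (N * ℓ)) → ℂ}
    (hm : ∀ (γ : ↥(Gamma0 (N * ℓ))) (z : ℍ), h ((γ : SL(2, ℤ)) • z) = m γ * h z)
    (g : ↥(Gamma0 N)) (z : ℍ) :
    ∏ j, h (δ j • ((g : SL(2, ℤ)) • z)) = (∏ j, m (coc g j)) * ∏ j, h (δ j • z) := by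
  have h1 : ∀ j, h (δ j • ((g : SL(2, ℤ)) • z)) = m (coc g j) * h (δ (perm g j) • z) := by
    intro j
    rw [← mul_smul, hrep g j, mul_smul, hm]
  rw [Finset.prod_congr rfl (fun j _ => h1 j), Finset.prod_mul_distrib]
  congr 1
  exact Equiv.prod_comp (Equiv.ofBijective (perm g) (hperm g)) (fun j => h (δ j • z))

end Root

/-! ## The Kummer character of the norm -/

section Main

variable {N ℓ : ℕ} [NeZero N] [Fact ℓ.Prime] {n : ℕ} [NeZero n] (ι : Qb →+* ℂ)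
variable {J : Type*} [Fintype J]

-- (NeZero ℓ from primality: provided by existing instances)

/-- `Φ_N (φ_N (N_α F)) = N (Φ_{Nℓ} (φ_{Nℓ} F))`: the norm along `α` on `Q̄ F_{Nℓ}` is the norm of
the extension `WHField Γ₀(Nℓ) / WHField Γ₀(N)`. -/
theorem fieldEquiv_symm_barToC_norm (hℓN : ¬ ℓ ∣ N) (F : modularFunctionFieldBar (N * ℓ)) :
    (fieldEquiv N).symm (barToC N ι (letI := algebraAlong (heckeAlphaBar Qb N ℓ);
        Algebra.norm (modularFunctionFieldBar N) F)) =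
      Algebra.norm (WHField (Gamma0 N)) ((fieldEquiv (N * ℓ)).symm (barToC (N * ℓ) ι F)) := by
  rw [NormCosets.barToC_norm N ℓ ι hℓN, NormCosets.fieldEquiv_symm_norm]

/-- The root datum of the norm. -/
theorem isRootDatum_norm (hℓN : ¬ ℓ ∣ N) (δ : J → SL(2, ℤ)) (hδ : ∀ j, δ j ∈ Gamma0 N)
    (hcos : ∀ g ∈ Gamma0 N, ∃! j, g * (δ j)⁻¹ ∈ Gamma0 (N * ℓ))
    (F : modularFunctionFieldBar (N * ℓ)) {a b : WH (Gamma0 (N * ℓ))} {h : ℍ → ℂ}
    (D : IsRootDatum (Gamma0 (N * ℓ)) n ((fieldEquiv (N * ℓ)).symm (barToC (N * ℓ) ι F)) a b h) :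
    ∃ A B : WH (Gamma0 N),
      IsRootDatum (Gamma0 N) n ((fieldEquiv N).symm (barToC N ι
        (letI := algebraAlong (heckeAlphaBar Qb N ℓ);
          Algebra.norm (modularFunctionFieldBar N) F))) A B (fun z => ∏ j, h (δ j • z)) := by
  have hb0 : algebraMap (WH (Gamma0 (N * ℓ))) (WHField (Gamma0 (N * ℓ))) b ≠ 0 := fun h0 =>
    D.hb (algebraMap_WH_injective (by rw [h0, map_zero]))
  have hab : (fieldEquiv (N * ℓ)).symm (barToC (N * ℓ) ι F) =
      algebraMap (WH (Gamma0 (N * ℓ))) (WHField (Gamma0 (N * ℓ))) a /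
        algebraMap (WH (Gamma0 (N * ℓ))) (WHField (Gamma0 (N * ℓ))) b := by
    rw [eq_div_iff hb0]
    exact D.hu
  obtain ⟨A, B, hB, hA, hBz, hn⟩ := NormCosets.exists_norm_div N ℓ δ hδ hcos a b D.hb
  have hB0 : algebraMap (WH (Gamma0 N)) (WHField (Gamma0 N)) B ≠ 0 := fun h0 =>
    hB (algebraMap_WH_injective (by rw [h0, map_zero]))
  refine ⟨A, B, hB, ?_, ?_, ?_⟩
  · rw [fieldEquiv_symm_barToC_norm ι hℓN, hab, hn, div_mul_cancel₀ _ hB0]
  · apply KummerHecke.mdiff_finset_prod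
    intro j _
    exact mdiff_comp_smul D.hh (δ j)
  · intro z
    rw [← Finset.prod_pow, hA z, hBz z, ← Finset.prod_pow, ← Finset.prod_mul_distrib]
    exact Finset.prod_congr rfl fun j _ => D.hpow _

/-- The norm along `α` of a nonzero element does not vanish. -/
theorem norm_alpha_ne_zero (hℓN : ¬ ℓ ∣ N) {F : modularFunctionFieldBar (N * ℓ)} (hF : F ≠ 0) :
    (letI := algebraAlong (heckeAlphaBar Qb N ℓ);
      Algebra.norm (modularFunctionFieldBar N) F) ≠ 0 := by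
  letI := algebraAlong (heckeAlphaBar Qb N ℓ)
  haveI : Module.Finite (modularFunctionFieldBar N) (modularFunctionFieldBar (N * ℓ)) :=
    NormCosets.finiteAlong_alpha N ℓ Qb BarToC.iota hℓN
  haveI : Module.Free (modularFunctionFieldBar N) (modularFunctionFieldBar (N * ℓ)) :=
    Module.Free.of_divisionRing _ _
  rw [Ne, Algebra.norm_eq_zero_iff]
  exact hF

/-- **(N4a), function level.** The Kummer character of `N_α F` is the transfer of the Kummer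
character of `F`: `κ(N_α F)(g) = ∑_j κ(F)(coc(g, j))`. -/
theorem kummerChar_norm_alpha (hℓN : ¬ ℓ ∣ N) (δ : J → SL(2, ℤ)) (hδ : ∀ j, δ j ∈ Gamma0 N)
    (hcos : ∀ g ∈ Gamma0 N, ∃! j, g * (δ j)⁻¹ ∈ Gamma0 (N * ℓ))
    (perm : ↥(Gamma0 N) → J → J) (coc : ↥(Gamma0 N) → J → ↥(Gamma0 (N * ℓ)))
    (hrep : ∀ (g : ↥(Gamma0 N)) (j : J),
      δ j * (g : SL(2, ℤ)) = (coc g j : SL(2, ℤ)) * δ (perm g j))
    (F : modularFunctionFieldBar (N * ℓ))
    (hu : NDiv (Gamma0 (N * ℓ)) n ((fieldEquiv (N * ℓ)).symm (barToC (N * ℓ) ι F)))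
    (hu' : NDiv (Gamma0 N) n ((fieldEquiv N).symm (barToC N ι
      (letI := algebraAlong (heckeAlphaBar Qb N ℓ);
        Algebra.norm (modularFunctionFieldBar N) F))))
    (g : ↥(Gamma0 N)) :
    kummerChar hu' (Additive.ofMul g) = ∑ j, kummerChar hu (Additive.ofMul (coc g j)) := by
  have D : IsRootDatum (Gamma0 (N * ℓ)) n ((fieldEquiv (N * ℓ)).symm (barToC (N * ℓ) ι F))
      hu.rootA hu.rootB hu.rootH := hu.isRootDatum
  obtain ⟨A, B, D'⟩ := isRootDatum_norm ι hℓN δ hδ hcos F D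
  have hm : ∀ (γ : ↥(Gamma0 (N * ℓ))) (z : ℍ),
      hu.rootH ((γ : SL(2, ℤ)) • z) = kummerMult hu γ * hu.rootH z :=
    fun γ z => kummerMult_spec hu D γ z
  obtain ⟨z₀, hz₀⟩ := (D'.isInvRoot (NeZero.ne n) hu'.1).exists_ne_zero
  apply kummerChar_eq_of_spec hu' D' g hz₀
  have hperm : ∀ g, Function.Bijective (perm g) := fun g =>
    Finite.injective_iff_bijective.mp (perm_injective δ hδ hcos perm coc hrep g)
  have e2 : ZMod.stdAddChar (∑ j, kummerChar hu (Additive.ofMul (coc g j))) =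
      ∏ j, kummerMult hu (coc g j) := by
    rw [KummerHecke.addChar_map_sum]
    exact Finset.prod_congr rfl fun j _ => stdAddChar_kummerChar hu _
  rw [e2]
  exact prod_smul_smul δ perm coc hrep hperm hm g z₀

/-- **(N4a), function level, self-contained form**: the `n`-divisibility of the norm is part of
the conclusion. -/
theorem exists_nDiv_norm_alpha (hℓN : ¬ ℓ ∣ N) (δ : J → SL(2, ℤ)) (hδ : ∀ j, δ j ∈ Gamma0 N)
    (hcos : ∀ g ∈ Gamma0 N, ∃! j, g * (δ j)⁻¹ ∈ Gamma0 (N * ℓ))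
    (perm : ↥(Gamma0 N) → J → J) (coc : ↥(Gamma0 N) → J → ↥(Gamma0 (N * ℓ)))
    (hrep : ∀ (g : ↥(Gamma0 N)) (j : J),
      δ j * (g : SL(2, ℤ)) = (coc g j : SL(2, ℤ)) * δ (perm g j))
    (F : modularFunctionFieldBar (N * ℓ))
    (hu : NDiv (Gamma0 (N * ℓ)) n ((fieldEquiv (N * ℓ)).symm (barToC (N * ℓ) ι F))) :
    ∃ hu' : NDiv (Gamma0 N) n ((fieldEquiv N).symm (barToC N ι
      (letI := algebraAlong (heckeAlphaBar Qb N ℓ);
        Algebra.norm (modularFunctionFieldBar N) F))),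
      ∀ g : ↥(Gamma0 N),
        kummerChar hu' (Additive.ofMul g) = ∑ j, kummerChar hu (Additive.ofMul (coc g j)) := by
  have hF : F ≠ 0 := by
    rintro rfl
    exact hu.1 (by rw [map_zero, map_zero])
  have hu0' : (fieldEquiv N).symm (barToC N ι
      (letI := algebraAlong (heckeAlphaBar Qb N ℓ);
        Algebra.norm (modularFunctionFieldBar N) F)) ≠ 0 := by
    rw [Ne, map_eq_zero_iff _ (fieldEquiv N).symm.injective, map_eq_zero]
    exact norm_alpha_ne_zero hℓN hF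
  obtain ⟨A, B, D'⟩ := isRootDatum_norm ι hℓN δ hδ hcos F hu.isRootDatum
  have hu' := KummerHecke.nDiv_of_isRootDatum (NeZero.ne n) D' hu0'
  exact ⟨hu', kummerChar_norm_alpha ι hℓN δ hδ hcos perm coc hrep F hu hu'⟩

/-- **(N4a), function level, in `CosetSys₂` language** (helper2's `P3LR/A/Transfer2`): for a coset
system of `Γ₀(Nℓ) ⊆ Γ₀(N)` whose representatives form a right transversal, the Kummer character of
`N_α F` is the (additive) transfer of the Kummer character of `F`. -/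
theorem kummerChar_norm_alpha_cosetSys (hℓN : ¬ ℓ ∣ N)
    (S : Fermat.Agent.P3LR.A.Transfer2.CosetSys₂ (Gamma0 N).subtype (Gamma0 (N * ℓ)).subtype J)
    (hδ : ∀ j, S.rep j ∈ Gamma0 N)
    (hcos : ∀ g ∈ Gamma0 N, ∃! j, g * (S.rep j)⁻¹ ∈ Gamma0 (N * ℓ))
    (F : modularFunctionFieldBar (N * ℓ))
    (hu : NDiv (Gamma0 (N * ℓ)) n ((fieldEquiv (N * ℓ)).symm (barToC (N * ℓ) ι F)))
    (hu' : NDiv (Gamma0 N) n ((fieldEquiv N).symm (barToC N ι
      (letI := algebraAlong (heckeAlphaBar Qb N ℓ);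
        Algebra.norm (modularFunctionFieldBar N) F))))
    (g : ↥(Gamma0 N)) :
    kummerChar hu' (Additive.ofMul g) = ∑ j, kummerChar hu (Additive.ofMul (S.coc g j)) :=
  kummerChar_norm_alpha ι hℓN S.rep hδ hcos S.perm S.coc (fun g j => S.rep_mul g j) F hu hu' g

end Main

end Fermat.Agent.P4.KummerPush
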