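/-
P4-S35, block (N4a), `J`-level (helper10): THE KUMMER MAP INTERTWINES THE PUSH-FORWARD `α_*` WITH
THE TRANSFER.

`ℓ ∤ N` prime.  For `y ∈ J_0(Nℓ)(Q̄)[n]` and any Kummer maps `κ^N`, `κ^{Nℓ}` satisfying the
specification `KummerFinal.KummerPicSpec` (e.g. helper24's `kummerCAll`), and a right transversal
`δ_j` of `Γ₀(Nℓ)` in `Γ₀(N)` with bookkeeping `δ_j g = coc(g, j) δ_{perm(g, j)}`:

  `κ^N_n (α_* y) (g) = ∑_j κ^{Nℓ}_n (y) (coc(g, j))`.

Divisor side: `y = [D]`, `n D = div f`  ⇒  `α_* y = [α_* D]`, `n α_* D = div (N_α f)`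
(`PushforwardNormFormula`); function side: `P4/KummerPush.kummerChar_norm_alpha`.
Template: `N4F/Tors/KummerFinal.hecke_of`.
-/
import Mathlib
import Fermat.Agent.P4.KummerPush
import Fermat.Agent.N4F.Tors.KummerFinal
import Fermat.Agent.N4F.Tors.KummerPlug
import Fermat.Agent.P3G.AuxPrime

set_option autoImplicit false
set_option linter.style.haveILetI false
set_option linter.unusedSectionVars false

open UpperHalfPlane MatrixGroups CongruenceSubgroup ModularForm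
open Matrix.SpecialLinearGroup
open AlgebraicCurve ModularCurve

noncomputable section

namespace Fermat.Agent.P4.KummerPushPic

open Fermat.Agent.M2 Fermat.Agent.N4F.Tors.Kummer Fermat.Agent.N4F.Tors
open Fermat.Agent.N4F.Res
open Fermat.Agent.N4F.Tors.Descent Fermat.Agent.N4F.Tors.BaseChange
open Fermat.Agent.N4F.Tors.KummerFinal Fermat.Agent.N4F.Tors.HeckeDiv
open Fermat.Agent.N4F.A.LevelMaps Fermat.Agent.N4F.A.HeckeInputsFinal
open Fermat.Agent.S24 Fermat.Agent.S24.FieldIso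
open Fermat.Agent.P3G.AuxPrime Fermat.Agent.P4.KummerPush

local notation "Qb" => AlgebraicClosure ℚ

/-! ## The divisor side -/

section Divisor

variable (N r : ℕ) [NeZero N] [NeZero r]

/-- **Divisor side of `α_*`**, over `Q̄`: if `n D = div f` then `α_* [D] = [D']` with
`n D' = div (N_α f)`. -/
theorem exists_alphaPush_divisor (n : ℕ)
    (D : Divisor.degZero (K := Qb) (F := modularFunctionFieldBar (N * r)))
    (f : modularFunctionFieldBar (N * r)) (hf : f ≠ 0)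
    (hD : ∀ P : Place Qb (modularFunctionFieldBar (N * r)),
      (n : ℤ) * (D : Divisor Qb (modularFunctionFieldBar (N * r))) P = P.ord f) :
    ∃ D' : Divisor.degZero (K := Qb) (F := modularFunctionFieldBar N),
      alphaPush N r (Pic0.mk D) = Pic0.mk D' ∧
      ∀ P : Place Qb (modularFunctionFieldBar N),
        (n : ℤ) * (D' : Divisor Qb (modularFunctionFieldBar N)) P =
          P.ord (letI := algebraAlong (heckeAlphaBar Qb N r);
            Algebra.norm (modularFunctionFieldBar N) f) := by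
  letI := algebraAlong (heckeAlphaBar Qb N r)
  haveI := isScalarTower_along (heckeAlphaBar Qb N r)
  haveI := isIntegral_along (heckeAlphaBar Qb N r) (heckeAlphaBarIntegral N r)
  haveI : Module.Finite (modularFunctionFieldBar N) (modularFunctionFieldBar (N * r)) :=
    finiteAlong_heckeAlphaBar N r
  refine ⟨Pic0.pushforwardDegZeroHom (modularFunctionFieldBar N) D, rfl, fun P => ?_⟩
  have hnD : ∀ w : Place Qb (modularFunctionFieldBar (N * r)),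
      ((n : ℤ) • (D : Divisor Qb (modularFunctionFieldBar (N * r)))) w = w.ord f := by
    intro w
    rw [Finsupp.smul_apply, smul_eq_mul]
    exact hD w
  have h2 := normFormulaAlong_heckeAlphaBar N r f hf _ hnD P
  rw [map_zsmul, Finsupp.smul_apply, smul_eq_mul] at h2
  exact h2

end Divisor

/-! ## The Kummer map of a push-forward -/

section Main

variable {N ℓ : ℕ} [NeZero N] [Fact ℓ.Prime] {J : Type*} [Fintype J]

/-- `α_*` maps `n`-torsion to `n`-torsion. -/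
theorem alphaPush_mem_torsion (N r : ℕ) [NeZero N] [NeZero r] {n : ℕ} {y : JZero (N * r)}
    (hy : y ∈ Jtors (N * r) n) : alphaPush N r y ∈ Jtors N n := by
  rw [Pic0.mem_torsion] at hy ⊢
  rw [← map_zsmul, hy, map_zero]

set_option maxHeartbeats 1000000 in
/-- **(N4a), `J`-level.** For Kummer maps satisfying `KummerPicSpec` at the levels `N` and `Nℓ`:
`κ^N_n (α_* y) (g) = ∑_j κ^{Nℓ}_n (y) (coc(g, j))`. -/
theorem kummer_alphaPush
    {κ : ∀ n : ℕ, Pic0.torsion ℂ (FC N) n →+ (Additive ↥(Gamma0 N) →+ ZMod n)}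
    {κ' : ∀ n : ℕ, Pic0.torsion ℂ (FC (N * ℓ)) n →+ (Additive ↥(Gamma0 (N * ℓ)) →+ ZMod n)}
    (hκ : KummerPicSpec N κ) (hκ' : KummerPicSpec (N * ℓ) κ')
    (hℓN : ¬ ℓ ∣ N) (δ : J → SL(2, ℤ)) (hδ : ∀ j, δ j ∈ Gamma0 N)
    (hcos : ∀ g ∈ Gamma0 N, ∃! j, g * (δ j)⁻¹ ∈ Gamma0 (N * ℓ))
    (perm : ↥(Gamma0 N) → J → J) (coc : ↥(Gamma0 N) → J → ↥(Gamma0 (N * ℓ)))
    (hrep : ∀ (g : ↥(Gamma0 N)) (j : J),
      δ j * (g : SL(2, ℤ)) = (coc g j : SL(2, ℤ)) * δ (perm g j))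
    (n : ℕ) (hn : 0 < n) (y : Jtors (N * ℓ) n) (g : ↥(Gamma0 N)) :
    κ n (bcTors N n ⟨alphaPush N ℓ (y : JZero (N * ℓ)), alphaPush_mem_torsion N ℓ y.2⟩)
        (Additive.ofMul g) =
      ∑ j, κ' n (bcTors (N * ℓ) n y) (Additive.ofMul (coc g j)) := by
  haveI : NeZero n := ⟨hn.ne'⟩
  obtain ⟨D, f, hf, hyD, hD⟩ := exists_generator y.2
  obtain ⟨D', hαD, hD'⟩ := exists_alphaPush_divisor N ℓ n D f hf hD
  obtain ⟨DC, hDC, hordC⟩ := exists_bcPicC_divisor (N * ℓ) n D f hD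
  obtain ⟨DC', hDC', hordC'⟩ := exists_bcPicC_divisor N n D' _ hD'
  have hf' : barToC (N * ℓ) ι f ≠ 0 := (map_ne_zero _).mpr hf
  have hnf' : barToC N ι (letI := algebraAlong (heckeAlphaBar Qb N ℓ);
      Algebra.norm (modularFunctionFieldBar N) f) ≠ 0 :=
    (map_ne_zero _).mpr (norm_alpha_ne_zero hℓN hf)
  have h1 : ((bcTors (N * ℓ) n y : Pic0.torsion ℂ (FC (N * ℓ)) n) : Pic0 ℂ (FC (N * ℓ))) =
      Pic0.mk DC := by
    rw [coe_bcTors, hyD, hDC]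
  have h2 : ((bcTors N n ⟨alphaPush N ℓ (y : JZero (N * ℓ)), alphaPush_mem_torsion N ℓ y.2⟩ :
      Pic0.torsion ℂ (FC N) n) : Pic0 ℂ (FC N)) = Pic0.mk DC' := by
    rw [coe_bcTors]
    show bcPicC N (alphaPush N ℓ (y : JZero (N * ℓ))) = _
    rw [hyD, hαD, hDC']
  obtain ⟨hu, hκ1⟩ := hκ'.apply_eq (bcTors (N * ℓ) n y) DC (barToC (N * ℓ) ι f) hf' h1 hordC
  obtain ⟨hu', hκ2⟩ := hκ.apply_eq
    (bcTors N n ⟨alphaPush N ℓ (y : JZero (N * ℓ)), alphaPush_mem_torsion N ℓ y.2⟩) DC'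
    (barToC N ι (letI := algebraAlong (heckeAlphaBar Qb N ℓ);
      Algebra.norm (modularFunctionFieldBar N) f)) hnf' h2 hordC'
  rw [hκ1, hκ2]
  exact kummerChar_norm_alpha ι hℓN δ hδ hcos perm coc hrep f hu hu' g

/-- **(N4a), `J`-level, for the explicit Kummer maps** `κ̄_n = kummerCAll ∘ bcTors` of block F. -/
theorem kummerCAll_alphaPush
    (hℓN : ¬ ℓ ∣ N) (δ : J → SL(2, ℤ)) (hδ : ∀ j, δ j ∈ Gamma0 N)
    (hcos : ∀ g ∈ Gamma0 N, ∃! j, g * (δ j)⁻¹ ∈ Gamma0 (N * ℓ))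
    (perm : ↥(Gamma0 N) → J → J) (coc : ↥(Gamma0 N) → J → ↥(Gamma0 (N * ℓ)))
    (hrep : ∀ (g : ↥(Gamma0 N)) (j : J),
      δ j * (g : SL(2, ℤ)) = (coc g j : SL(2, ℤ)) * δ (perm g j))
    (n : ℕ) (hn : 0 < n) (y : Jtors (N * ℓ) n) (g : ↥(Gamma0 N)) :
    KummerPic.kummerCAll N n
        (bcTors N n ⟨alphaPush N ℓ (y : JZero (N * ℓ)), alphaPush_mem_torsion N ℓ y.2⟩)
        (Additive.ofMul g) =
      ∑ j, KummerPic.kummerCAll (N * ℓ) n (bcTors (N * ℓ) n y) (Additive.ofMul (coc g j)) :=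
  kummer_alphaPush (KummerPlug.kummerPicSpec N) (KummerPlug.kummerPicSpec (N * ℓ)) hℓN δ hδ hcos
    perm coc hrep n hn y g

/-- A right transversal of `Γ₀(Nℓ)` in `Γ₀(N)` indexed by `ℙ¹(𝔽_ℓ)`, with its coset
bookkeeping. -/
theorem exists_transversal (hℓN : ¬ ℓ ∣ N) :
    ∃ (δ : OnePoint (ZMod ℓ) → SL(2, ℤ)) (perm : ↥(Gamma0 N) → OnePoint (ZMod ℓ) →
        OnePoint (ZMod ℓ)) (coc : ↥(Gamma0 N) → OnePoint (ZMod ℓ) → ↥(Gamma0 (N * ℓ))),
      (∀ j, δ j ∈ Gamma0 N) ∧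
      (∀ g ∈ Gamma0 N, ∃! j, g * (δ j)⁻¹ ∈ Gamma0 (N * ℓ)) ∧
      ∀ (g : ↥(Gamma0 N)) (j : OnePoint (ZMod ℓ)),
        δ j * (g : SL(2, ℤ)) = (coc g j : SL(2, ℤ)) * δ (perm g j) := by
  choose δ hδ using KummerHecke.exists_redMatrix_smul_infty_eq N ℓ hℓN
  have hcos := KummerHecke.existsUnique_mul_inv_mem N ℓ hℓN δ hδ
  obtain ⟨perm, coc, hrep⟩ := exists_perm_coc (fun x => ((δ x : ↥(Gamma0 N)) : SL(2, ℤ)))
    (fun x => (δ x).2) hcos
  exact ⟨fun x => ((δ x : ↥(Gamma0 N)) : SL(2, ℤ)), perm, coc, fun x => (δ x).2, hcos, hrep⟩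

end Main

end Fermat.Agent.P4.KummerPushPic
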