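/-
P4-S35, node (N4), Tate-level glue (helper7): THE COMPARISON MAP `lam` COMMUTES WITH PUSH-FORWARDS.

`M` the top level (`M = N q`), `π : J_0(M) →+ J_0(N)` a push-forward (`α_*` or `β_*`), and
`c : Hom(Γ_0(M), A) → Hom(Γ_0(N), A)` the corresponding corestriction, entering as an ABSTRACT
operation (natural for `ℤ → ℤ/n`); the only input is the `J`-level compatibility
`κ^N_n(π y) = c(κ^M_n y)` at prime powers `n = p^k` for the explicit Kummer maps of
`P4/KummerExplicit` (for `π = α_*`: `P4/KummerPushPic.kummerCAll_alphaPush`).  Then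

* `map_lam_eq_lam`  : `c ψ = ψ'` on the lattices  ⇒  `Tate.map π (lam_M ψ) = lam_N ψ'`;
* `map_lam_eq_zero` : `c ψ = 0`  ⇒  `Tate.map π (lam_M ψ) = 0`;
* `lam_mem_ker_of_forall` : a FAMILY of such pairs `(π_j, c_j)` and a submodule `K'` containing
  `⨅ j, ker (Tate.map π_j)`:  `(∀ j, c_j ψ = 0) → lam_M ψ ∈ K'`
  — the hypothesis `hK'` of `P4S35/NewFaithful.exists_new_vector`, in its binder shape.
-/
import Mathlib
import Fermat.Agent.P4.KummerExplicit

set_option autoImplicit false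
set_option linter.unusedSectionVars false

open CongruenceSubgroup ModularCurve AlgebraicCurve PadicInt
open scoped MatrixGroups

noncomputable section

namespace Fermat.Agent.P4.TatePush

open Fermat.Agent.N4F.Res Fermat.Agent.N4F.Tors.HeckeHom Fermat.Agent.N4F.Tors.Outputs
open Fermat.Agent.N4F.Adic Fermat.Agent.N4F.Adic.TateModule Fermat.Agent.N4F.Adic.TateJ
open Fermat.Agent.P4.KummerExplicit

variable {N M : ℕ} [NeZero N] [NeZero M] (p : ℕ) [hp : Fact p.Prime]

/-- A homomorphism `J_0(M) → J_0(N)` maps `n`-torsion to `n`-torsion. -/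
theorem map_mem_Jtors (π : JZero M →+ JZero N) {n : ℕ} {y : JZero M} (hy : y ∈ Jtors M n) :
    π y ∈ Jtors N n := by
  rw [mem_Jtors_iff] at hy ⊢
  rw [← map_nsmul, hy, map_zero]

/-- The restriction of a homomorphism `J_0(M) → J_0(N)` to the `n`-torsion. -/
def mapTors (π : JZero M →+ JZero N) (n : ℕ) : Jtors M n →+ Jtors N n :=
  (π.comp (Jtors M n).subtype).codRestrict (Jtors N n) (fun y => map_mem_Jtors π y.2)

@[simp] theorem coe_mapTors (π : JZero M →+ JZero N) (n : ℕ) (y : Jtors M n) :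
    ((mapTors π n y : Jtors N n) : JZero N) = π (y : JZero M) := rfl

theorem projTors_map (π : JZero M →+ JZero N) (k : ℕ) (z : TJ p M) :
    projTors N p k (Tate.map π z) = mapTors π (p ^ k) (projTors M p k z) :=
  Subtype.ext rfl

section Single

variable (π : JZero M →+ JZero N)
  (c : ∀ (A : Type) [AddCommGroup A], (Additive ↥(Gamma0 M) →+ A) → (Additive ↥(Gamma0 N) →+ A))
  (hnat : ∀ (n : ℕ) (ψ : Additive ↥(Gamma0 M) →+ ℤ),
    c (ZMod n) ((Int.castAddHom (ZMod n)).comp ψ) = (Int.castAddHom (ZMod n)).comp (c ℤ ψ))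
  (hπ : ∀ (k : ℕ) (y : Jtors M (p ^ k)),
    kappa N (p ^ k) (mapTors π (p ^ k) y) = c (ZMod (p ^ k)) (kappa M (p ^ k) y))

include hnat hπ

/-- **The comparison map commutes with push-forward / corestriction.** -/
theorem map_lam_eq_lam (ψ : parHomAdd M ℤ) (ψ' : parHomAdd N ℤ) (h : c ℤ ψ.1 = ψ'.1) :
    Tate.map π (lam M p ψ) = lam N p ψ' := by
  refine eq_lam_of_kappa N p _ _ fun k => ?_
  rw [projTors_map, hπ, kappa_projTors_lam, redHom, hnat, h]
  rfl

/-- If the corestriction of `ψ` vanishes, the push-forward of `lam ψ` vanishes. -/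
theorem map_lam_eq_zero (ψ : parHomAdd M ℤ) (h : c ℤ ψ.1 = 0) :
    Tate.map π (lam M p ψ) = 0 := by
  rw [map_lam_eq_lam p π c hnat hπ ψ 0 (by rw [h]; rfl), map_zero]

end Single

/-- **The shape of `hK'` in `P4S35/NewFaithful.exists_new_vector`**: for a family of push-forwards
`π j` with corestrictions `c j` (natural operations), any submodule `K'` containing the common
kernel of the `Tate.map (π j)` contains `lam ψ` for every `ψ` killed by all `c j`. -/
theorem lam_mem_of_forall {J : Type*} (π : J → (JZero M →+ JZero N))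
    (c : ∀ (_ : J) (A : Type) [AddCommGroup A],
      (Additive ↥(Gamma0 M) →+ A) →+ (Additive ↥(Gamma0 N) →+ A))
    (hnat : ∀ (j : J) (A B : Type) [AddCommGroup A] [AddCommGroup B] (φ : A →+ B)
      (ψ : Additive ↥(Gamma0 M) →+ A), c j B (φ.comp ψ) = φ.comp (c j A ψ))
    (hπ : ∀ (j : J) (k : ℕ) (y : Jtors M (p ^ k)),
      kappa N (p ^ k) (mapTors (π j) (p ^ k) y) = c j (ZMod (p ^ k)) (kappa M (p ^ k) y))
    (K' : Submodule ℤ_[p] (TJ p M))
    (hK' : ∀ z : TJ p M, (∀ j, Tate.map (π j) z = 0) → z ∈ K')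
    (ψ : parHomAdd M ℤ) (hψ : ∀ j, c j ℤ ψ.1 = 0) : lam M p ψ ∈ K' :=
  hK' _ fun j => map_lam_eq_zero p (π j) (fun A _ ψ => c j A ψ)
    (fun n ψ => hnat j ℤ (ZMod n) (Int.castAddHom (ZMod n)) ψ) (hπ j) ψ (hψ j)

end Fermat.Agent.P4.TatePush
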