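/-
P4-S35, block (N4b), `J`-level (helper10): THE KUMMER MAP INTERTWINES THE PUSH-FORWARD `β_*` WITH
A TRANSFER, GIVEN THE FUNCTION-LEVEL STATEMENT.

`H` (function level, helper24's `KummerPushBeta.kummerChar_norm_betaPush` in any normalisation of the
cocycle `cocβ`): for every `F ∈ Q̄ F_{Nℓ}` with `n`-divisible image, the Kummer character of the norm
`N_β F` (norm along `β = heckeBetaBar`) is `g ↦ ∑_j κ(F)(cocβ(g, j))`.

Then for `y ∈ J_0(Nℓ)(Q̄)[n]`:

  `kappa N n (β_* y) (g) = ∑_j kappa (Nℓ) n (y) (cocβ(g, j))`,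

for the explicit Kummer maps `kappa = kummerCAll ∘ bcTors` of `P4/KummerExplicit`, in the shape of
the hypothesis `hπ` of `P4/TatePush.lam_mem_of_forall` (`mapTors`).  Also the `α`-twin in the same
shape (from `P4/KummerPushPic`).
-/
import Mathlib
import Fermat.Agent.P4.KummerPushPic
import Fermat.Agent.P4.KummerExplicit
import Fermat.Agent.P4.TatePush
import Fermat.Agent.P4.Push

set_option autoImplicit false
set_option linter.style.haveILetI false
set_option linter.unusedSectionVars false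

open UpperHalfPlane MatrixGroups CongruenceSubgroup ModularForm
open Matrix.SpecialLinearGroup
open AlgebraicCurve ModularCurve

noncomputable section

namespace Fermat.Agent.P4.KummerPushBetaPic

open Fermat.Agent.M2 Fermat.Agent.N4F.Tors.Kummer Fermat.Agent.N4F.Tors
open Fermat.Agent.N4F.Res
open Fermat.Agent.N4F.Tors.Descent Fermat.Agent.N4F.Tors.BaseChange
open Fermat.Agent.N4F.Tors.KummerFinal Fermat.Agent.N4F.Tors.HeckeDiv
open Fermat.Agent.N4F.A.LevelMaps Fermat.Agent.N4F.A.HeckeInputsFinal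
open Fermat.Agent.S24 Fermat.Agent.S24.FieldIso
open Fermat.Agent.P3G.AuxPrime Fermat.Agent.P4.KummerPush Fermat.Agent.P4.KummerPushPic
open Fermat.Agent.P4.KummerExplicit Fermat.Agent.P4.TatePush Fermat.Agent.P4.Push

local notation "Qb" => AlgebraicClosure ℚ

/-! ## The divisor side of `β_*` -/

section Divisor

variable (N r : ℕ) [NeZero N] [NeZero r]

/-- **Divisor side of `β_*`**, over `Q̄`: if `n D = div f` then `β_* [D] = [D']` with
`n D' = div (N_β f)`. -/
theorem exists_betaPush_divisor (n : ℕ)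
    (D : Divisor.degZero (K := Qb) (F := modularFunctionFieldBar (N * r)))
    (f : modularFunctionFieldBar (N * r)) (hf : f ≠ 0)
    (hD : ∀ P : Place Qb (modularFunctionFieldBar (N * r)),
      (n : ℤ) * (D : Divisor Qb (modularFunctionFieldBar (N * r))) P = P.ord f) :
    ∃ D' : Divisor.degZero (K := Qb) (F := modularFunctionFieldBar N),
      betaPush N r (Pic0.mk D) = Pic0.mk D' ∧
      ∀ P : Place Qb (modularFunctionFieldBar N),
        (n : ℤ) * (D' : Divisor Qb (modularFunctionFieldBar N)) P =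
          P.ord (letI := algebraAlong (heckeBetaBar Qb N r);
            Algebra.norm (modularFunctionFieldBar N) f) := by
  letI := algebraAlong (heckeBetaBar Qb N r)
  haveI := isScalarTower_along (heckeBetaBar Qb N r)
  haveI := isIntegral_along (heckeBetaBar Qb N r) (heckeBetaBarIntegral N r)
  haveI : Module.Finite (modularFunctionFieldBar N) (modularFunctionFieldBar (N * r)) :=
    finiteAlong_heckeBetaBar N r
  refine ⟨Pic0.pushforwardDegZeroHom (modularFunctionFieldBar N) D, rfl, fun P => ?_⟩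
  have hnD : ∀ w : Place Qb (modularFunctionFieldBar (N * r)),
      ((n : ℤ) • (D : Divisor Qb (modularFunctionFieldBar (N * r)))) w = w.ord f := by
    intro w
    rw [Finsupp.smul_apply, smul_eq_mul]
    exact hD w
  have h2 := normFormulaAlong_heckeBetaBar N r f hf _ hnD P
  rw [map_zsmul, Finsupp.smul_apply, smul_eq_mul] at h2
  exact h2

/-- The norm along `β` of a nonzero element does not vanish. -/
theorem norm_beta_ne_zero' {F : modularFunctionFieldBar (N * r)} (hF : F ≠ 0) :
    (letI := algebraAlong (heckeBetaBar Qb N r);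
      Algebra.norm (modularFunctionFieldBar N) F) ≠ 0 := by
  letI := algebraAlong (heckeBetaBar Qb N r)
  haveI : Module.Finite (modularFunctionFieldBar N) (modularFunctionFieldBar (N * r)) :=
    finiteAlong_heckeBetaBar N r
  haveI : Module.Free (modularFunctionFieldBar N) (modularFunctionFieldBar (N * r)) :=
    Module.Free.of_divisionRing _ _
  rw [Ne, Algebra.norm_eq_zero_iff]
  exact hF

end Divisor

/-! ## The Kummer map of `β_* y` -/

section Main

variable {N ℓ : ℕ} [NeZero N] [NeZero ℓ] {J : Type*} [Fintype J]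

set_option maxHeartbeats 1000000 in
/-- **(N4b), `J`-level, from the function level.** -/
theorem kappa_betaPush (cocβ : ↥(Gamma0 N) → J → ↥(Gamma0 (N * ℓ)))
    (H : ∀ (n : ℕ) [NeZero n] (F : modularFunctionFieldBar (N * ℓ))
      (hu : NDiv (Gamma0 (N * ℓ)) n ((fieldEquiv (N * ℓ)).symm (barToC (N * ℓ) ι F)))
      (hu' : NDiv (Gamma0 N) n ((fieldEquiv N).symm (barToC N ι
        (letI := algebraAlong (heckeBetaBar Qb N ℓ);
          Algebra.norm (modularFunctionFieldBar N) F))))
      (g : ↥(Gamma0 N)),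
      kummerChar hu' (Additive.ofMul g) = ∑ j, kummerChar hu (Additive.ofMul (cocβ g j)))
    (n : ℕ) (hn : 0 < n) (y : Jtors (N * ℓ) n) (g : ↥(Gamma0 N)) :
    kappa N n (mapTors (betaPush N ℓ) n y) (Additive.ofMul g) =
      ∑ j, kappa (N * ℓ) n y (Additive.ofMul (cocβ g j)) := by
  haveI : NeZero n := ⟨hn.ne'⟩
  obtain ⟨D, f, hf, hyD, hD⟩ := exists_generator y.2
  obtain ⟨D', hβD, hD'⟩ := exists_betaPush_divisor N ℓ n D f hf hD
  obtain ⟨hu, hκ1⟩ := kappa_eq_kummerChar (N * ℓ) y D f hf hyD hD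
  have h2 : ((mapTors (betaPush N ℓ) n y : Jtors N n) : JZero N) = Pic0.mk D' := by
    rw [coe_mapTors, hyD, hβD]
  obtain ⟨hu', hκ2⟩ := kappa_eq_kummerChar N (mapTors (betaPush N ℓ) n y) D' _
    (norm_beta_ne_zero' N ℓ hf) h2 hD'
  rw [hκ1, hκ2]
  exact H n f hu hu' g

/-- **(N4a), `J`-level, in the same shape** (`kappa`, `mapTors`). -/
theorem kappa_alphaPush [Fact ℓ.Prime]
    (hℓN : ¬ ℓ ∣ N) (δ : J → SL(2, ℤ)) (hδ : ∀ j, δ j ∈ Gamma0 N)
    (hcos : ∀ g ∈ Gamma0 N, ∃! j, g * (δ j)⁻¹ ∈ Gamma0 (N * ℓ))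
    (perm : ↥(Gamma0 N) → J → J) (coc : ↥(Gamma0 N) → J → ↥(Gamma0 (N * ℓ)))
    (hrep : ∀ (g : ↥(Gamma0 N)) (j : J),
      δ j * (g : SL(2, ℤ)) = (coc g j : SL(2, ℤ)) * δ (perm g j))
    (n : ℕ) (hn : 0 < n) (y : Jtors (N * ℓ) n) (g : ↥(Gamma0 N)) :
    kappa N n (mapTors (alphaPush N ℓ) n y) (Additive.ofMul g) =
      ∑ j, kappa (N * ℓ) n y (Additive.ofMul (coc g j)) :=
  kummerCAll_alphaPush hℓN δ hδ hcos perm coc hrep n hn y g

end Main

end Fermat.Agent.P4.KummerPushBetaPic
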