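/-
P4-S35, node (N4), the `α`-instance of the Tate-level glue (helper7).

`q ∤ N` prime.  The explicit Kummer maps intertwine `α_* : J_0(Nq) → J_0(N)` with helper2's
corestriction `Cores.coresAdd hqN : Hom(Γ_0(Nq), A) → Hom(Γ_0(N), A)`:

* `kappa_mapTors_alphaPush` : `κ^N_n (α_* y) = coresAdd (κ^{Nq}_n y)`  (helper10's
  `KummerPushPic.kummerCAll_alphaPush` fed with helper2's explicit transversal `coresRep`);
* `alphaT_lam` : `alphaT (lam_{Nq} ψ) = lam_N (coresPar ψ)`;
* `alphaT_lam_eq_zero` : `coresAdd ψ = 0 → alphaT (lam_{Nq} ψ) = 0`;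
* `lam_mem_newT` : with the `β`-compatibility as a HYPOTHESIS (any natural operation `cβ` with
  `κ^N_n (β_* y) = cβ (κ^{Nq}_n y)`): `coresAdd ψ = 0 → cβ ψ = 0 → lam_{Nq} ψ ∈ newT p N q`.
-/
import Mathlib
import Fermat.Agent.P4.TatePush
import Fermat.Agent.P4.KummerPushPic
import Fermat.Agent.P4.Cores
import Fermat.Agent.P4.PushTate

set_option autoImplicit false
set_option linter.unusedSectionVars false

open CongruenceSubgroup ModularCurve AlgebraicCurve PadicInt
open scoped MatrixGroups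

noncomputable section

namespace Fermat.Agent.P4.TatePushAlpha

open Fermat.Agent.N4F.Res Fermat.Agent.N4F.Tors.HeckeHom Fermat.Agent.N4F.Tors.Outputs
open Fermat.Agent.N4F.Adic Fermat.Agent.N4F.Adic.TateModule Fermat.Agent.N4F.Adic.TateJ
open Fermat.Agent.P4.KummerExplicit Fermat.Agent.P4.TatePush Fermat.Agent.P4.Cores
open Fermat.Agent.P4.KummerPushPic Fermat.Agent.P3G.AuxPrime
open Fermat.Agent.P4.Push Fermat.Agent.P4.PushTate
open P2MW.S_ModularForm_heckeT_slash_eq_self_of_mem_Gamma0.ModularForm.HeckeSlashInvariance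

variable {N q : ℕ} [NeZero N] [hq : Fact q.Prime] (hqN : ¬ q ∣ N)

/-- **(N4a) for the explicit Kummer maps and helper2's corestriction.** -/
theorem kappa_mapTors_alphaPush {n : ℕ} (hn : 0 < n) (y : Jtors (N * q) n) :
    kappa N n (mapTors (alphaPush N q) n y) = coresAdd hqN (kappa (N * q) n y) := by
  refine AddMonoidHom.ext fun g => ?_
  obtain ⟨g, rfl⟩ := Additive.ofMul.surjective g
  have h := kummerCAll_alphaPush hqN (fun x => (coresRep hqN x : SL(2, ℤ)))
    (fun x => (coresRep hqN x).2)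
    (existsUnique_mul_inv_mem hqN _ (isTransversal_coresRep hqN))
    (fun g x => redMatrix q (g : SL(2, ℤ)) • x) (coresCoc hqN) (coresRep_mul hqN) n hn y g
  have e : mapTors (alphaPush N q) n y =
      ⟨alphaPush N q (y : JZero (N * q)), alphaPush_mem_torsion N q y.2⟩ := Subtype.ext rfl
  rw [coresAdd_apply, kappa_apply, e, h]
  rfl

variable (p : ℕ) [hp : Fact p.Prime]

/-- **The comparison map intertwines `α_*` on Tate modules with the corestriction on lattices.** -/
theorem alphaT_lam (ψ : parHomAdd (N * q) ℤ) :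
    alphaT p N q (lam (N * q) p ψ) = lam N p (coresPar hqN ℤ ψ) :=
  map_lam_eq_lam p (alphaPush N q) (fun _ _ φ => coresAdd hqN φ)
    (fun n φ => coresAdd_comp hqN (Int.castAddHom (ZMod n)) φ)
    (fun k y => kappa_mapTors_alphaPush hqN (KummerExplicit.pow_pos' p k) y) ψ _ rfl

theorem alphaT_lam_eq_zero (ψ : parHomAdd (N * q) ℤ) (h : coresAdd hqN ψ.1 = 0) :
    alphaT p N q (lam (N * q) p ψ) = 0 :=
  map_lam_eq_zero p (alphaPush N q) (fun _ _ φ => coresAdd hqN φ)
    (fun n φ => coresAdd_comp hqN (Int.castAddHom (ZMod n)) φ)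
    (fun k y => kappa_mapTors_alphaPush hqN (KummerExplicit.pow_pos' p k) y) ψ h

/-- **`lam ψ` lies in the `q`-new part of the Tate module** as soon as both corestrictions of `ψ`
vanish; the `β`-side compatibility is a hypothesis (to be discharged by (N4b)). -/
theorem lam_mem_newT
    (cβ : ∀ (A : Type) [AddCommGroup A],
      (Additive ↥(Gamma0 (N * q)) →+ A) → (Additive ↥(Gamma0 N) →+ A))
    (hnatβ : ∀ (n : ℕ) (φ : Additive ↥(Gamma0 (N * q)) →+ ℤ),
      cβ (ZMod n) ((Int.castAddHom (ZMod n)).comp φ) = (Int.castAddHom (ZMod n)).comp (cβ ℤ φ))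
    (hβ : ∀ (k : ℕ) (y : Jtors (N * q) (p ^ k)),
      kappa N (p ^ k) (mapTors (betaPush N q) (p ^ k) y) =
        cβ (ZMod (p ^ k)) (kappa (N * q) (p ^ k) y))
    (ψ : parHomAdd (N * q) ℤ) (h1 : coresAdd hqN ψ.1 = 0) (h2 : cβ ℤ ψ.1 = 0) :
    lam (N * q) p ψ ∈ newT p N q := by
  rw [mem_newT_iff]
  exact ⟨alphaT_lam_eq_zero hqN p ψ h1, map_lam_eq_zero p (betaPush N q) cβ hnatβ hβ ψ h2⟩

end Fermat.Agent.P4.TatePushAlpha
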