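/-
P4-S35, block (S35-0)/(N1), file 4 (bridge for (N4b)): the Atkin–Lehner matrix of
`P4/AtkinLehner.lean` in the form `W* = γ₀ · diag(q, 1)` with `γ₀ = [d, -b; -N, q] ∈ Γ₀(N)`,
`q ∣ γ₀ 1 1`, and a uniqueness lemma identifying `alConj` with any other description of the
conjugation `x ↦ W* x W*⁻¹`.
-/
import Mathlib
import Fermat.Agent.P4.AtkinLehner

set_option autoImplicit false

open scoped MatrixGroups

namespace Fermat.Agent.P4.AtkinLehnerGamma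

open Matrix.SpecialLinearGroup CongruenceSubgroup
open Fermat.Agent.N4F.Tors.HeckeHom Fermat.Agent.P3LR.A.IntMat
open Fermat.Agent.P4.Cores Fermat.Agent.P4.AtkinLehner

variable (N q : ℕ)

/-- `γ₀ = [d, -b; -N, q]` -/
def alGammaMat : MI := !![bzD N q, -bzB N q; -(N : ℤ), (q : ℤ)]

theorem alMat_eq_alGammaMat_mul : alMat N q = alGammaMat N q * etaMat q := by
  rw [alMat_eq, alGammaMat, etaMat]
  ext i j
  fin_cases i <;> fin_cases j <;> simp [Matrix.mul_apply, Fin.sum_univ_two]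
  ring

variable {N q} [Fact q.Prime]

theorem det_alGammaMat (hqN : ¬ q ∣ N) : (alGammaMat N q).det = 1 := by
  rw [alGammaMat, Matrix.det_fin_two_of]
  linear_combination bz_eq hqN

/-- `γ₀` as an element of `SL(2, ℤ)` -/
def alGammaSL (hqN : ¬ q ∣ N) : SL(2, ℤ) := ⟨alGammaMat N q, det_alGammaMat hqN⟩

theorem coe_alGammaSL (hqN : ¬ q ∣ N) : ((alGammaSL hqN : SL(2, ℤ)) : MI) = alGammaMat N q := rfl

theorem alGammaSL_mem (hqN : ¬ q ∣ N) : alGammaSL hqN ∈ Gamma0 N := by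
  rw [Gamma0_mem]
  show (((alGammaMat N q) 1 0 : ℤ) : ZMod N) = 0
  simp [alGammaMat]

theorem alGammaSL_one_one (hqN : ¬ q ∣ N) : (alGammaSL hqN) 1 1 = (q : ℤ) := rfl

theorem dvd_alGammaSL_one_one (hqN : ¬ q ∣ N) : (q : ℤ) ∣ (alGammaSL hqN) 1 1 :=
  ⟨1, by rw [alGammaSL_one_one, mul_one]⟩

/-- `W* = γ₀ · diag(q, 1)` -/
theorem alMat_eq_alGammaSL_mul (hqN : ¬ q ∣ N) :
    alMat N q = ((alGammaSL hqN : SL(2, ℤ)) : MI) * etaMat q :=
  alMat_eq_alGammaMat_mul N q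

/-- **uniqueness**: any `X ∈ SL(2, ℤ)` with `W* x = X W*` is `alConj x`. -/
theorem alConj_eq_of_mul_eq (hqN : ¬ q ∣ N) (x : ↥(Gamma0 (N * q))) (X : SL(2, ℤ))
    (h : alMat N q * ((x : SL(2, ℤ)) : MI) = (X : MI) * alMat N q) :
    (alConj hqN x : SL(2, ℤ)) = X := by
  have h1 := alMat_mul hqN x
  rw [h] at h1
  have hdet := det_alMat_ne_zero hqN
  apply mapGL_injective (R := ℤ) (S := ℝ)
  have h2 : glOf ((X : MI) * alMat N q) = glOf (((alConj hqN x : SL(2, ℤ)) : MI) * alMat N q) := by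
    rw [h1]
  rw [glOf_mul (det_coe_SL _) hdet, glOf_mul (det_coe_SL _) hdet, glOf_coe_SL, glOf_coe_SL] at h2
  exact (mul_right_cancel h2).symm

/-- the same with `W*` written as `γ₀ · diag(q, 1)` -/
theorem alConj_eq_of_gamma_mul_eq (hqN : ¬ q ∣ N) (x : ↥(Gamma0 (N * q))) (X : SL(2, ℤ))
    (h : ((alGammaSL hqN : SL(2, ℤ)) : MI) * etaMat q * ((x : SL(2, ℤ)) : MI) =
      (X : MI) * (((alGammaSL hqN : SL(2, ℤ)) : MI) * etaMat q)) :
    (alConj hqN x : SL(2, ℤ)) = X := by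
  refine alConj_eq_of_mul_eq hqN x X ?_
  rw [alMat_eq_alGammaSL_mul hqN]
  exact h

/-- conjugation by `diag(q, 1)`: if `y ∈ SL(2, ℤ)` satisfies `diag(q,1) x = y diag(q,1)`
(i.e. `y = [x₀₀, q x₀₁; x₁₀/q, x₁₁]`), then `alConj x = γ₀ y γ₀⁻¹`. -/
theorem alConj_eq_gamma_conj (hqN : ¬ q ∣ N) (x : ↥(Gamma0 (N * q))) (y : SL(2, ℤ))
    (hy : etaMat q * ((x : SL(2, ℤ)) : MI) = (y : MI) * etaMat q) :
    (alConj hqN x : SL(2, ℤ)) = alGammaSL hqN * y * (alGammaSL hqN)⁻¹ := by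
  refine alConj_eq_of_gamma_mul_eq hqN x _ ?_
  rw [Matrix.SpecialLinearGroup.coe_mul, Matrix.SpecialLinearGroup.coe_mul, Matrix.mul_assoc,
    hy]
  have hinv : (((alGammaSL hqN)⁻¹ : SL(2, ℤ)) : MI) * ((alGammaSL hqN : SL(2, ℤ)) : MI) = 1 := by
    rw [← Matrix.SpecialLinearGroup.coe_mul, inv_mul_cancel]
    rfl
  calc ((alGammaSL hqN : SL(2, ℤ)) : MI) * ((y : MI) * etaMat q)
      = ((alGammaSL hqN : SL(2, ℤ)) : MI) * (y : MI) *
          ((((alGammaSL hqN)⁻¹ : SL(2, ℤ)) : MI) * ((alGammaSL hqN : SL(2, ℤ)) : MI)) *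
            etaMat q := by
        rw [hinv, Matrix.mul_one, Matrix.mul_assoc]
    _ = _ := by simp only [Matrix.mul_assoc]

end Fermat.Agent.P4.AtkinLehnerGamma
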