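/-
P4-S35, lattice side (helper10): HECKE EQUIVARIANCE FOR FREE.

Let `D' : TateData p N'`, `D : TateData p N` and `P : D'.T →ₗ[ℤ_p] D.T` be a Galois equivariant map
(e.g. the push-forward `Tate.map α_*`, `N' = N q`).  The Eichler–Shimura relation
`σ² − T_ℓ σ + ℓ = 0` for ONE Frobenius element `σ` at `ℓ` (at both levels) gives
`T_ℓ = σ + ℓ σ⁻¹`, hence `P ∘ T_ℓ = T_ℓ ∘ P` for every prime `ℓ ∤ N N' p` — no base change square, no
coset combinatorics.  If moreover `c : D'.Λ →+ D.Λ` satisfies `D.f ∘ c = P ∘ D'.f` (the Kummer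
comparison commutes with the push-forward), the injectivity of `D.f` gives `c ∘ t_ℓ = t_ℓ ∘ c` on
the lattices.  Since the lattices and `c` do not depend on `p`, a second prime `p' ≠ ℓ` covers
`ℓ = p`.

* `hecke_eq_frob`       : `hecke ℓ = σ + ℓ σ⁻¹` on `D.T`;
* `map_hecke_of_gal`    : `P (hecke' ℓ y) = hecke ℓ (P y)`;
* `f_injective`         : `D.f` is injective;
* `lattice_comm_of_gal` : `c (t' ℓ x) = t ℓ (c x)`.
-/
import Mathlib
import Fermat.Agent.N4F.Adic.TateData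
import Fermat.Agent.S54.Frobenius

set_option autoImplicit false
set_option linter.unusedSectionVars false

noncomputable section

namespace Fermat.Agent.P4.CoresHecke

open Fermat.Agent.N4F.Adic

local notation "Qbar" => AlgebraicClosure ℚ
local notation "Γ" => (AlgebraicClosure ℚ ≃ₐ[ℚ] AlgebraicClosure ℚ)

variable {p : ℕ} [Fact p.Prime]

section One

variable {N : ℕ} [NeZero N] (D : TateData p N)

/-- `gal σ⁻¹` is a left inverse of `gal σ`. -/
theorem gal_inv_gal (σ : Γ) (y : D.T) : D.gal σ⁻¹ (D.gal σ y) = y := by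
  have h : D.gal σ⁻¹ * D.gal σ = 1 := by rw [← map_mul, inv_mul_cancel, map_one]
  exact LinearMap.congr_fun h y

/-- `gal σ⁻¹` is a right inverse of `gal σ`. -/
theorem gal_gal_inv (σ : Γ) (y : D.T) : D.gal σ (D.gal σ⁻¹ y) = y := by
  have h : D.gal σ * D.gal σ⁻¹ = 1 := by rw [← map_mul, mul_inv_cancel, map_one]
  exact LinearMap.congr_fun h y

/-- **Eichler–Shimura, solved for the Hecke operator**: `T_ℓ = σ + ℓ σ⁻¹` for a Frobenius element
`σ` at `ℓ ∤ N p`. -/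
theorem hecke_eq_frob {ℓ : ℕ} (hℓ : ℓ.Prime) (hℓN : ¬ ℓ ∣ N) (hℓp : ℓ ≠ p)
    (A : ValuationSubring Qbar) (hA : A.LiesOverPrime ℓ) (σ : Γ) (hσ : A.IsFrobeniusAt σ ℓ)
    (y : D.T) : D.hecke ℓ y = D.gal σ y + (ℓ : ℤ_[p]) • D.gal σ⁻¹ y := by
  have h := LinearMap.congr_fun (D.frob ℓ hℓ hℓN hℓp A hA σ hσ) (D.gal σ⁻¹ y)
  simp only [LinearMap.add_apply, LinearMap.sub_apply, Module.End.mul_apply,
    LinearMap.smul_apply, Module.End.one_apply, LinearMap.zero_apply, gal_gal_inv] at h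
  have h2 : D.hecke ℓ y = D.gal σ y + (ℓ : ℤ_[p]) • D.gal σ⁻¹ y := by
    rw [← sub_eq_zero]
    have : D.gal σ y + (ℓ : ℤ_[p]) • D.gal σ⁻¹ y - D.hecke ℓ y = 0 := by
      rw [← h]
      abel
    rw [← neg_eq_zero, neg_sub]
    exact this
  exact h2

/-- The comparison map of a `TateData` is injective (it is injective modulo `p` and the lattice
is finitely generated and torsion free). -/
theorem f_injective : Function.Injective D.f := by
  rw [injective_iff_map_eq_zero]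
  intro x hx
  -- `x` is divisible by every power of `p`
  have hdiv : ∀ n : ℕ, ∃ y : D.Λ, x = ((p : ℤ) ^ n) • y := by
    intro n
    induction n with
    | zero => exact ⟨x, by simp⟩
    | succ n ih =>
      obtain ⟨y, hy⟩ := ih
      have hfy : D.f y = 0 := by
        have h1 : ((p : ℤ) ^ n) • D.f y = 0 := by rw [← map_zsmul, ← hy, hx]
        have hp0 : ((p : ℤ) ^ n : ℤ) ≠ 0 := pow_ne_zero _ (by exact_mod_cast (Fact.out : p.Prime).ne_zero)
        have h2 : (((p : ℤ) ^ n : ℤ) : ℤ_[p]) • D.f y = 0 := by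
          rw [Int.cast_smul_eq_zsmul]
          exact h1
        have h3 : (((p : ℤ) ^ n : ℤ) : ℤ_[p]) ≠ 0 := by exact_mod_cast hp0
        exact (smul_eq_zero.mp h2).resolve_left h3
      obtain ⟨z, hz⟩ := D.f_mod y ⟨0, by rw [hfy, smul_zero]⟩
      refine ⟨z, ?_⟩
      rw [hy, hz, smul_smul, pow_succ]
  -- hence `x = 0` in the finite free `ℤ`-module `Λ`
  by_contra hx0
  let b := Module.Free.chooseBasis ℤ D.Λ
  have hrepr : b.repr x ≠ 0 := fun h => hx0 (b.repr.map_eq_zero_iff.mp h)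
  obtain ⟨i, hi⟩ : ∃ i, b.repr x i ≠ 0 := by
    by_contra hcon
    push Not at hcon
    exact hrepr (Finsupp.ext hcon)
  -- `p ^ n ∣ b.repr x i` for all `n`
  have hdvd : ∀ n : ℕ, ((p : ℤ) ^ n) ∣ b.repr x i := by
    intro n
    obtain ⟨y, hy⟩ := hdiv n
    refine ⟨b.repr y i, ?_⟩
    rw [hy, map_zsmul, Finsupp.smul_apply, smul_eq_mul]
  have hp1 : 1 < (p : ℤ) := by exact_mod_cast (Fact.out : p.Prime).one_lt
  -- contradiction with the size of `b.repr x i`
  have hle := Int.le_of_dvd (abs_pos.mpr hi) ((dvd_abs _ _).mpr (hdvd (|b.repr x i|).toNat))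
  have hlt : |b.repr x i| < (p : ℤ) ^ (|b.repr x i|).toNat := by
    have h1 : ((|b.repr x i|).toNat : ℤ) = |b.repr x i| := Int.toNat_of_nonneg (abs_nonneg _)
    have h2 : ((|b.repr x i|).toNat : ℤ) < (p : ℤ) ^ (|b.repr x i|).toNat := by
      have := Nat.lt_pow_self (n := (|b.repr x i|).toNat) (a := p)
        (Fact.out : p.Prime).one_lt
      exact_mod_cast this
    rw [h1] at h2
    exact h2
  exact absurd hle (not_le.mpr hlt)

end One

section Two

variable {N N' : ℕ} [NeZero N] [NeZero N'] (D' : TateData p N') (D : TateData p N)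

/-- **A Galois equivariant map between Tate modules commutes with the good Hecke operators.** -/
theorem map_hecke_of_gal (P : D'.T →ₗ[ℤ_[p]] D.T)
    (hP : ∀ (σ : Γ) (y : D'.T), P (D'.gal σ y) = D.gal σ (P y))
    {ℓ : ℕ} (hℓ : ℓ.Prime) (hℓN : ¬ ℓ ∣ N) (hℓN' : ¬ ℓ ∣ N') (hℓp : ℓ ≠ p) (y : D'.T) :
    P (D'.hecke ℓ y) = D.hecke ℓ (P y) := by
  obtain ⟨A, σ, hA, hσ⟩ := Fermat.Agent.S54.exists_isFrobeniusAt ℓ hℓ
  rw [hecke_eq_frob D' hℓ hℓN' hℓp A hA σ hσ, hecke_eq_frob D hℓ hℓN hℓp A hA σ hσ, map_add,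
    map_smul, hP, hP]

/-- **Hecke equivariance of a lattice map for free**: if `c : Λ' →+ Λ` is compatible with a Galois
equivariant map of Tate modules through the comparison maps, it commutes with `t_ℓ`,
`ℓ ∤ N N' p`. -/
theorem lattice_comm_of_gal (P : D'.T →ₗ[ℤ_[p]] D.T)
    (hP : ∀ (σ : Γ) (y : D'.T), P (D'.gal σ y) = D.gal σ (P y))
    (c : D'.Λ →+ D.Λ) (hc : ∀ x : D'.Λ, D.f (c x) = P (D'.f x))
    {ℓ : ℕ} (hℓ : ℓ.Prime) (hℓN : ¬ ℓ ∣ N) (hℓN' : ¬ ℓ ∣ N') (hℓp : ℓ ≠ p) (x : D'.Λ) :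
    c (D'.t ℓ x) = D.t ℓ (c x) := by
  apply f_injective D
  rw [hc, D'.f_t, map_hecke_of_gal D' D P hP hℓ hℓN hℓN' hℓp, ← hc, D.f_t]

end Two

end Fermat.Agent.P4.CoresHecke
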