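/-
P4-S35 (helper22, for helper20's `FrobPointsFinal` and helper17's `TwistAtGood`): **the base facts at a
good level as ONE reusable lemma** — the obtain-block of helper19's `P3G/Assembly/PointsFinal`.

At a good level `K` (`LevelStep.IsGoodLevel A q K`), `O_K = baseRing A K`, `N` prime to `q`:
`κ` algebraically closed of characteristic `q`, `GoodBase`, `N ∈ O_Kˣ`, `(∗)` on both charts
(`hprime`, `hprimeInf`), `(S)` on both charts (`hsmooth`, `hsmoothInf`), `(A2)` (`hA2`), and a second
vertical valuation `S₂ : FibreTwo.SecondVal`.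

Usage (inside `fun K hK _ => …`):
```
  haveI := hK.dvr
  haveI : IsFractionRing ↥(baseRing A K) (Lvl K) := isFractionRing_trSubring A K
  have hB := FrobPointsBase.base hA N hqN K hK
  haveI := hB.algClosed
  haveI := hB.charP
  haveI : PerfectRing (IsLocalRing.ResidueField ↥(baseRing A K)) q := inferInstance
  obtain ⟨S₂⟩ := hB.secondVal
  obtain ⟨ϖ, hϖ⟩ := IsDiscreteValuationRing.exists_irreducible ↥(baseRing A K)
```
with `ι := GammaV2.lvlToComplex K`.
-/
import Mathlib
import Fermat.Agent.P3G.Assembly.LevelStep
import Fermat.Agent.P3G.FibreTwo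
import Fermat.Agent.P3G.GammaV2
import Fermat.Agent.P3G.GammaUnits
import Fermat.Agent.N4F.C.LevelStatements
import Fermat.Agent.N4F.C.ChartReduction
import Fermat.Agent.N4F.E.NormReduction
import Fermat.Agent.N4F.E.GaussResidue

set_option autoImplicit false
set_option linter.unusedSectionVars false
set_option linter.dupNamespace false
set_option linter.style.haveILetI false

open ModularCurve AlgebraicCurve IntermediateField

noncomputable section

namespace Fermat.Agent.P4.FrobPointsBase

open Fermat.Agent.N4.Setting Fermat.Agent.N4.Chart Fermat.Agent.N4.S18Glue Fermat.Agent.N4.BigDVR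
  Fermat.Agent.N4.FibreEmbedding
  Fermat.Agent.P3G.Assembly.LevelStep
  Fermat.Agent.P3G.Gamma Fermat.Agent.P3G.GammaAut
  Fermat.Agent.N4F.C Fermat.Agent.N4F.C.Levels Fermat.Agent.N4F.C.Galois
  Fermat.Agent.N4F.E.GaussDVR

local notation "Qbar" => AlgebraicClosure ℚ
local notation "Γ" => (AlgebraicClosure ℚ ≃ₐ[ℚ] AlgebraicClosure ℚ)

/-- **The base facts at a good level** `K`, for the levels `N` and `N q` (`q ∤ N`). -/
structure Base (A : ValuationSubring Qbar) (K : IntermediateField ℚ Qbar) (N q : ℕ) [NeZero N]
    [Fact q.Prime] [IsDiscreteValuationRing ↥(baseRing A K)]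
    [IsFractionRing ↥(baseRing A K) (Lvl K)] : Prop where
  /-- the residue field of `O_K` is algebraically closed -/
  algClosed : IsAlgClosed (IsLocalRing.ResidueField ↥(baseRing A K))
  /-- of characteristic `q` -/
  charP : CharP (IsLocalRing.ResidueField ↥(baseRing A K)) q
  goodBase : GoodBase (Lvl K) N (baseRing A K) q
  /-- `N` is a unit of `O_K` -/
  hN : IsUnit ((N : ℕ) : ↥(baseRing A K))
  /-- `(∗)` on the finite chart -/
  hprime : (fibreIdeal (Lvl K) N (baseRing A K) (Rfin (Lvl K) N (baseRing A K))).IsPrime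
  /-- `(∗)` on the chart at infinity -/
  hprimeInf : (fibreIdeal (Lvl K) N (baseRing A K) (Rinf (Lvl K) N (baseRing A K))).IsPrime
  /-- `(S)` on the finite chart -/
  hsmooth : IsDedekindDomain (↥(Rfin (Lvl K) N (baseRing A K)) ⧸
    fibreIdeal (Lvl K) N (baseRing A K) (Rfin (Lvl K) N (baseRing A K)))
  /-- `(S)` on the chart at infinity -/
  hsmoothInf : IsDedekindDomain (↥(Rinf (Lvl K) N (baseRing A K)) ⧸
    fibreIdeal (Lvl K) N (baseRing A K) (Rinf (Lvl K) N (baseRing A K)))
  /-- `(A2)`: the Gauss reduction takes its values in the modular function field over `κ` -/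
  hA2 : ∀ x : ↥(gaussSubalgebra (Lvl K) N (baseRing A K)),
    theta (Lvl K) N (baseRing A K) x ∈
      modularFunctionFieldFullC (IsLocalRing.ResidueField ↥(baseRing A K)) N
  /-- a second vertical valuation of level `N q` -/
  secondVal : Nonempty (Fermat.Agent.P3G.FibreTwo.SecondVal (Lvl K) N q (baseRing A K))

set_option maxHeartbeats 1600000 in
set_option synthInstance.maxHeartbeats 400000 in
/-- **The base facts hold at every good level.** -/
theorem base {A : ValuationSubring Qbar} {q : ℕ} [Fact q.Prime] (hA : A.LiesOverPrime q)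
    (N : ℕ) [NeZero N] (hqN : ¬ q ∣ N) (K : IntermediateField ℚ Qbar) (hK : IsGoodLevel A q K)
    [IsDiscreteValuationRing ↥(baseRing A K)] [IsFractionRing ↥(baseRing A K) (Lvl K)] :
    Base A K N q := by
  have hq : q.Prime := Fact.out
  haveI : IsAlgClosed (IsLocalRing.ResidueField ↥(baseRing A K)) := hK.algClosed
  have hGB : GoodBase (Lvl K) N (baseRing A K) q := ⟨hq, hqN, inferInstance, hK.not_unit⟩
  haveI : CharP (IsLocalRing.ResidueField ↥(baseRing A K)) q :=
    Fermat.Agent.N4F.E.GaussResidue.charP_residueField (Lvl K) N (baseRing A K) hGB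
  have hstar := LevelStatements.starStatement_lvl hq hA K hGB hK.roots
  have hsmooth := LevelStatements.smoothStatement_lvl hq hA hqN K hGB hK.roots
  have hprime := hstar.1.isPrime
  have hprimeInf := hstar.2.isPrime
  have hred : PGI.RedMem (Lvl K) N (baseRing A K) := fun s hs =>
    ChartReduction.red_mem_full (Lvl K) N (baseRing A K) hGB hstar s hs
  have hA2 := Fermat.Agent.N4F.E.NormReduction.theta_mem_full (Lvl K) N (baseRing A K) hred
  exact ⟨inferInstance, inferInstance, hGB,
    Fermat.Agent.P3G.GammaUnits.isUnit_natCast_baseRing K hq hA hqN,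
    hprime, hprimeInf, hsmooth.1, hsmooth.2, hA2,
    Fermat.Agent.P3G.FibreTwo.nonempty_secondVal (Lvl K) N q (baseRing A K)
      (Fermat.Agent.P3G.GammaV2.lvlToComplex K) hqN hprime hA2⟩

/-- The discrete valuation ring instance of a good level. -/
theorem isDiscreteValuationRing_of_good {A : ValuationSubring Qbar} {q : ℕ}
    {K : IntermediateField ℚ Qbar} (hK : IsGoodLevel A q K) :
    IsDiscreteValuationRing ↥(baseRing A K) := hK.dvr

/-- The fraction ring instance of a level. -/
theorem isFractionRing_baseRing (A : ValuationSubring Qbar) (K : IntermediateField ℚ Qbar) :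
    IsFractionRing ↥(baseRing A K) (Lvl K) := isFractionRing_trSubring A K

end Fermat.Agent.P4.FrobPointsBase
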