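/-
P4-S35, block (N4b), analytic part (helper24): THE NORM ALONG `β` VIA THE ATKIN–LEHNER OPERATOR.

`ℓ ∤ N`.  An *Atkin–Lehner datum* is `γ ∈ Γ₀(N)` with `ℓ ∣ γ₁₁`; `w = γ · diag(ℓ, 1)` normalises
`Γ₀(Nℓ)`, `alH ℓ γ z = γ • (ℓ z) = w • z`, and

* `alWH hγ : WH Γ₀(Nℓ) ≃ₐ[ℂ] WH Γ₀(Nℓ)`, `c ↦ c ∘ w` (inverse: the dual datum `γ*`);
* `alField hγ` its extension to `WHField Γ₀(Nℓ)`, with `alField hγ ∘ (level raising) = scaleField`
  (`W ∘ α = β`);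
* hence `N_β (G) = N_α (W G)`: `fieldEquiv_symm_norm_beta`, and over `Q̄`:
  `fieldEquiv_symm_barToC_norm_beta`.
-/
import Mathlib
import Fermat.Agent.N4F.Tors.NormCosets

set_option autoImplicit false
set_option linter.style.haveILetI false
set_option linter.unusedSectionVars false

open UpperHalfPlane MatrixGroups CongruenceSubgroup ModularForm
open Matrix.SpecialLinearGroup
open scoped Manifold

noncomputable section

namespace Fermat.Agent.P4.NormBeta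

open Fermat.Agent.M2 Fermat.Agent.N4F.Tors
open Fermat.Agent.S24 Fermat.Agent.S24.FieldIso ModularCurve AlgebraicCurve

local notation "Δ" => ModularForm.discriminant

/-! ## Atkin–Lehner data -/

/-- An Atkin–Lehner datum for `(N, ℓ)`: `γ ∈ Γ₀(N)` whose lower right entry is divisible by `ℓ`.
Then `w = γ · diag(ℓ, 1)` normalises `Γ₀(Nℓ)`. -/
structure IsAL (N ℓ : ℕ) (γ : SL(2, ℤ)) : Prop where
  mem : γ ∈ Gamma0 N
  dvd : (ℓ : ℤ) ∣ γ 1 1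

section Matrices

variable {N ℓ : ℕ}

/-- Existence of Atkin–Lehner data for coprime `N`, `ℓ`. -/
theorem exists_isAL_of_coprime (h : Nat.Coprime ℓ N) : ∃ γ : SL(2, ℤ), IsAL N ℓ γ := by
  have hcop : IsCoprime (ℓ : ℤ) (N : ℤ) := Nat.isCoprime_iff_coprime.mpr h
  obtain ⟨u, v, huv⟩ := hcop
  -- `[1, -v; N, u ℓ]`
  let A : Matrix (Fin 2) (Fin 2) ℤ := !![1, -v; (N : ℤ), u * ℓ]
  have hdet : A.det = 1 := by
    rw [Matrix.det_fin_two_of]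
    linear_combination huv
  refine ⟨⟨A, hdet⟩, ?_, ?_⟩
  · rw [Gamma0_mem]
    show (((N : ℤ) : ℤ) : ZMod N) = 0
    simp
  · show (ℓ : ℤ) ∣ u * ℓ
    exact dvd_mul_left _ _

theorem exists_isAL [Fact ℓ.Prime] (hℓN : ¬ ℓ ∣ N) : ∃ γ : SL(2, ℤ), IsAL N ℓ γ :=
  exists_isAL_of_coprime ((Nat.Prime.coprime_iff_not_dvd (Fact.out : ℓ.Prime)).2 hℓN)

lemma Gamma0_mem_iff_dvd {M : ℕ} {g : SL(2, ℤ)} : g ∈ Gamma0 M ↔ (M : ℤ) ∣ g 1 0 := by
  rw [Gamma0_mem, ZMod.intCast_zmod_eq_zero_iff_dvd]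

/-- The dual datum `γ* = [γ₁₁/ℓ, -γ₀₁; -γ₁₀, ℓ γ₀₀]`. -/
def alDual (ℓ : ℕ) [NeZero ℓ] (γ : SL(2, ℤ)) (h : (ℓ : ℤ) ∣ γ 1 1) : SL(2, ℤ) :=
  ⟨!![γ 1 1 / ℓ, -γ 0 1; -γ 1 0, ℓ * γ 0 0], by
    obtain ⟨k, hk⟩ := h
    have hℓ : (ℓ : ℤ) ≠ 0 := Int.natCast_ne_zero.mpr (NeZero.ne ℓ)
    have hdet := γ.det_coe
    rw [Matrix.det_fin_two] at hdet
    rw [Matrix.det_fin_two_of, hk, Int.mul_ediv_cancel_left _ hℓ]
    rw [hk] at hdet
    linear_combination hdet⟩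

variable [NeZero ℓ]

lemma alDual_apply_zero_zero (γ : SL(2, ℤ)) (h : (ℓ : ℤ) ∣ γ 1 1) :
    alDual ℓ γ h 0 0 = γ 1 1 / ℓ := rfl

lemma alDual_apply_zero_one (γ : SL(2, ℤ)) (h : (ℓ : ℤ) ∣ γ 1 1) :
    alDual ℓ γ h 0 1 = -γ 0 1 := rfl

lemma alDual_apply_one_zero (γ : SL(2, ℤ)) (h : (ℓ : ℤ) ∣ γ 1 1) :
    alDual ℓ γ h 1 0 = -γ 1 0 := rfl

lemma alDual_apply_one_one (γ : SL(2, ℤ)) (h : (ℓ : ℤ) ∣ γ 1 1) :
    alDual ℓ γ h 1 1 = ℓ * γ 0 0 := rfl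

theorem isAL_alDual {γ : SL(2, ℤ)} (hγ : IsAL N ℓ γ) : IsAL N ℓ (alDual ℓ γ hγ.dvd) := by
  refine ⟨?_, ?_⟩
  · rw [Gamma0_mem_iff_dvd, alDual_apply_one_zero]
    exact (dvd_neg).mpr (Gamma0_mem_iff_dvd.mp hγ.mem)
  · rw [alDual_apply_one_one]
    exact dvd_mul_right _ _

theorem alDual_alDual {γ : SL(2, ℤ)} (hγ : IsAL N ℓ γ) :
    alDual ℓ (alDual ℓ γ hγ.dvd) (isAL_alDual hγ).dvd = γ := by
  have hℓ : (ℓ : ℤ) ≠ 0 := Int.natCast_ne_zero.mpr (NeZero.ne ℓ)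
  obtain ⟨k, hk⟩ := hγ.dvd
  apply Subtype.ext
  ext i j
  fin_cases i <;> fin_cases j
  · show alDual ℓ γ hγ.dvd 1 1 / (ℓ : ℤ) = γ 0 0
    rw [alDual_apply_one_one, Int.mul_ediv_cancel_left _ hℓ]
  · show -alDual ℓ γ hγ.dvd 0 1 = γ 0 1
    rw [alDual_apply_zero_one, neg_neg]
  · show -alDual ℓ γ hγ.dvd 1 0 = γ 1 0
    rw [alDual_apply_one_zero, neg_neg]
  · show (ℓ : ℤ) * alDual ℓ γ hγ.dvd 0 0 = γ 1 1
    rw [alDual_apply_zero_zero, hk, Int.mul_ediv_cancel_left _ hℓ]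

end Matrices

/-! ## The action of `w = γ · diag(ℓ, 1)` on the upper half plane -/

section Action

variable {N ℓ : ℕ} [NeZero ℓ]

lemma coe_SL_smul (g : SL(2, ℤ)) (z : ℍ) :
    ((g • z : ℍ) : ℂ) = ((g 0 0 : ℂ) * z + g 0 1) / ((g 1 0 : ℂ) * z + g 1 1) := by
  rw [coe_specialLinearGroup_apply]
  simp

lemma SL_denom_ne_zero (g : SL(2, ℤ)) (z : ℍ) : (g 1 0 : ℂ) * z + g 1 1 ≠ 0 := by
  have := denom_ne_zero (g : GL (Fin 2) ℝ) z
  simpa [denom] using this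

/-- `w • z = γ • (ℓ z)`, `w = γ · diag(ℓ, 1)`. -/
def alH (ℓ : ℕ) [NeZero ℓ] (γ : SL(2, ℤ)) (z : ℍ) : ℍ := γ • JN.scaleH ℓ z

lemma coe_alH (γ : SL(2, ℤ)) (z : ℍ) :
    ((alH ℓ γ z : ℍ) : ℂ) =
      ((γ 0 0 : ℂ) * ((ℓ : ℂ) * z) + γ 0 1) / ((γ 1 0 : ℂ) * ((ℓ : ℂ) * z) + γ 1 1) := by
  rw [alH, coe_SL_smul, JN.coe_scaleH]

lemma alDual_key (a b c k l z : ℂ) (hdet : a * (l * k) - b * c = 1) (hl : l ≠ 0)
    (h2 : c * z + k ≠ 0) :
    (k * (l * ((a * (l * z) + b) / (c * (l * z) + l * k))) + -b) /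
      (-c * (l * ((a * (l * z) + b) / (c * (l * z) + l * k))) + l * a) = z := by
  obtain ⟨D, hD⟩ : ∃ D, D = c * z + k := ⟨_, rfl⟩
  have hD0 : D ≠ 0 := hD ▸ h2
  have hlX : l * ((a * (l * z) + b) / (c * (l * z) + l * k)) = (a * (l * z) + b) / D := by
    have : c * (l * z) + l * k = l * D := by rw [hD]; ring
    rw [this]
    field_simp
  rw [hlX]
  have hnum : k * ((a * (l * z) + b) / D) + -b = z / D := by
    field_simp
    rw [hD]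
    linear_combination z * hdet
  have hden : -c * ((a * (l * z) + b) / D) + l * a = 1 / D := by
    field_simp
    rw [hD]
    linear_combination hdet
  rw [hnum, hden]
  field_simp

/-- `w* w = ℓ` acts trivially. -/
theorem alH_alDual {γ : SL(2, ℤ)} (hγ : IsAL N ℓ γ) (z : ℍ) :
    alH ℓ (alDual ℓ γ hγ.dvd) (alH ℓ γ z) = z := by
  have hℓ : (ℓ : ℤ) ≠ 0 := Int.natCast_ne_zero.mpr (NeZero.ne ℓ)
  have hℓc : (ℓ : ℂ) ≠ 0 := Nat.cast_ne_zero.mpr (NeZero.ne ℓ)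
  obtain ⟨k, hk⟩ := hγ.dvd
  have hdet : γ 0 0 * γ 1 1 - γ 0 1 * γ 1 0 = 1 := by
    have := γ.det_coe
    rwa [Matrix.det_fin_two] at this
  have hdetc : (γ 0 0 : ℂ) * ((ℓ : ℂ) * k) - γ 0 1 * γ 1 0 = 1 := by
    rw [hk] at hdet
    exact_mod_cast hdet
  apply UpperHalfPlane.ext
  have hd := SL_denom_ne_zero γ (JN.scaleH ℓ z)
  rw [JN.coe_scaleH] at hd
  rw [coe_alH, coe_alH]
  simp only [alDual_apply_zero_zero, alDual_apply_zero_one, alDual_apply_one_zero,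
    alDual_apply_one_one]
  simp only [hk, Int.mul_ediv_cancel_left _ hℓ] at hd ⊢
  push_cast at hd ⊢
  have h2 : (γ 1 0 : ℂ) * (z : ℂ) + (k : ℂ) ≠ 0 := by
    intro h0
    apply hd
    linear_combination (ℓ : ℂ) * h0
  exact alDual_key _ _ _ _ _ _ hdetc hℓc h2

theorem alH_alDual' {γ : SL(2, ℤ)} (hγ : IsAL N ℓ γ) (z : ℍ) :
    alH ℓ γ (alH ℓ (alDual ℓ γ hγ.dvd) z) = z := by
  have h := alH_alDual (isAL_alDual hγ) z
  rwa [alDual_alDual hγ] at h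

end Action

/-! ## `w` normalises `Γ₀(Nℓ)` -/

section Conj

variable {N ℓ : ℕ} [NeZero ℓ]

lemma SL_conj_apply_one_zero (g c : SL(2, ℤ)) :
    (g * c * g⁻¹) 1 0 = (g 1 0 * c 0 0 + g 1 1 * c 1 0) * g 1 1 -
      (g 1 0 * c 0 1 + g 1 1 * c 1 1) * g 1 0 := by
  simp [Matrix.mul_apply, Fin.sum_univ_two, Matrix.SpecialLinearGroup.coe_inv,
    Matrix.adjugate_fin_two]
  ring

lemma mem_Gamma0_right {x : SL(2, ℤ)} (hx : x ∈ Gamma0 (N * ℓ)) : x ∈ Gamma0 ℓ :=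
  FieldIso.Gamma0_le_Gamma0_of_dvd (dvd_mul_left ℓ N) hx

/-- `w x w⁻¹ ∈ Γ₀(Nℓ)` for `x ∈ Γ₀(Nℓ)`. -/
theorem alConj_mem {γ : SL(2, ℤ)} (hγ : IsAL N ℓ γ) {x : SL(2, ℤ)} (hx : x ∈ Gamma0 (N * ℓ)) :
    γ * JN.conjGamma0 ℓ x (mem_Gamma0_right hx) * γ⁻¹ ∈ Gamma0 (N * ℓ) := by
  have hℓ : (ℓ : ℤ) ≠ 0 := Int.natCast_ne_zero.mpr (NeZero.ne ℓ)
  rw [Gamma0_mem_iff_dvd]
  obtain ⟨k, hk⟩ := Gamma0_mem_iff_dvd.mp hx
  obtain ⟨C, hC⟩ := Gamma0_mem_iff_dvd.mp hγ.mem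
  obtain ⟨D, hD⟩ := hγ.dvd
  rw [SL_conj_apply_one_zero]
  have h00 : (JN.conjGamma0 ℓ x (mem_Gamma0_right hx)) 0 0 = x 0 0 := rfl
  have h01 : (JN.conjGamma0 ℓ x (mem_Gamma0_right hx)) 0 1 = ℓ * x 0 1 := rfl
  have h10 : (JN.conjGamma0 ℓ x (mem_Gamma0_right hx)) 1 0 = x 1 0 / ℓ := rfl
  have h11 : (JN.conjGamma0 ℓ x (mem_Gamma0_right hx)) 1 1 = x 1 1 := rfl
  have h10' : x 1 0 / (ℓ : ℤ) = N * k := by
    rw [hk]
    push_cast
    rw [show (N : ℤ) * ℓ * k = ℓ * (N * k) by ring, Int.mul_ediv_cancel_left _ hℓ]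
  rw [h00, h01, h10, h11, h10', hC, hD]
  refine ⟨C * D * x 0 0 + ℓ * D * D * k - N * C * C * x 0 1 - C * D * x 1 1, ?_⟩
  push_cast
  ring

/-- Conjugation by `w = γ · diag(ℓ, 1)` on `Γ₀(Nℓ)`: `x ↦ w x w⁻¹`. -/
def alConj {γ : SL(2, ℤ)} (hγ : IsAL N ℓ γ) (x : ↥(Gamma0 (N * ℓ))) : ↥(Gamma0 (N * ℓ)) :=
  ⟨γ * JN.conjGamma0 ℓ (x : SL(2, ℤ)) (mem_Gamma0_right x.2) * γ⁻¹, alConj_mem hγ x.2⟩

lemma coe_alConj {γ : SL(2, ℤ)} (hγ : IsAL N ℓ γ) (x : ↥(Gamma0 (N * ℓ))) :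
    ((alConj hγ x : ↥(Gamma0 (N * ℓ))) : SL(2, ℤ)) =
      γ * JN.conjGamma0 ℓ (x : SL(2, ℤ)) (mem_Gamma0_right x.2) * γ⁻¹ := rfl

/-- `w • (x • z) = (w x w⁻¹) • (w • z)`. -/
theorem alH_smul {γ : SL(2, ℤ)} (hγ : IsAL N ℓ γ) (x : ↥(Gamma0 (N * ℓ))) (z : ℍ) :
    alH ℓ γ ((x : SL(2, ℤ)) • z) = ((alConj hγ x : ↥(Gamma0 (N * ℓ))) : SL(2, ℤ)) • alH ℓ γ z := by
  rw [coe_alConj, alH, alH, JN.scaleH_smul ℓ (x : SL(2, ℤ)) (mem_Gamma0_right x.2) z, mul_smul,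
    mul_smul, inv_smul_smul]

/-- For `γ ∈ Γ₀(N)`, `f ∈ WH Γ₀(N)`: `f (w • z) = f (ℓ z)`. -/
lemma apply_alH_of_mem {γ : SL(2, ℤ)} (hγ : γ ∈ Gamma0 N) {f : ℍ → ℂ} (hf : IsWH (Gamma0 N) f)
    (z : ℍ) : f (alH ℓ γ z) = f (JN.scaleH ℓ z) :=
  hf.2.1 γ hγ _

end Conj

/-! ## The Atkin–Lehner operator on `WH Γ₀(Nℓ)` -/

section Operator

variable {N ℓ : ℕ} [NeZero N] [NeZero ℓ]

/-- `c ∈ WH Γ₀(Nℓ) ⇒ c ∘ w ∈ WH Γ₀(Nℓ)`. -/
theorem isWH_comp_alH {γ : SL(2, ℤ)} (hγ : IsAL N ℓ γ) {c : ℍ → ℂ}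
    (hc : IsWH (Gamma0 (N * ℓ)) c) : IsWH (Gamma0 (N * ℓ)) (c ∘ alH ℓ γ) := by
  refine ⟨?_, fun x hx z => ?_, fun δ => ?_⟩
  · exact QExp.mdiff_comp_scaleH ℓ (mdiff_comp_smul hc.1 γ)
  · show c (alH ℓ γ (x • z)) = c (alH ℓ γ z)
    rw [alH_smul hγ ⟨x, hx⟩ z]
    exact hc.2.1 _ (alConj hγ ⟨x, hx⟩).2 _
  · obtain ⟨δ', A, D, hA, hD, B, hdec⟩ := JN.exists_decomp ℓ δ
    obtain ⟨m, hm⟩ := hc.2.2 (γ * δ')
    refine ⟨m * A, ?_⟩
    have : (fun z : ℍ => (c ∘ alH ℓ γ) (δ • z) * Δ z ^ (m * A)) =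
        fun z => (fun w : ℍ => c ((γ * δ') • w)) (JN.affH A D hA hD B z) * Δ z ^ (m * A) := by
      ext z
      simp only [Function.comp_apply]
      rw [alH, hdec z, mul_smul]
    rw [this]
    exact NormCosets.isBoundedAtImInfty_comp_affH hm A D hA hD B

/-- The Atkin–Lehner operator `c ↦ c ∘ w` as an algebra homomorphism. -/
def alWHHom {γ : SL(2, ℤ)} (hγ : IsAL N ℓ γ) :
    WH (Gamma0 (N * ℓ)) →ₐ[ℂ] WH (Gamma0 (N * ℓ)) where
  toFun c := ⟨(c : ℍ → ℂ) ∘ alH ℓ γ, isWH_comp_alH hγ c.2⟩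
  map_one' := rfl
  map_mul' _ _ := rfl
  map_zero' := rfl
  map_add' _ _ := rfl
  commutes' _ := rfl

lemma coe_alWHHom {γ : SL(2, ℤ)} (hγ : IsAL N ℓ γ) (c : WH (Gamma0 (N * ℓ))) (z : ℍ) :
    ((alWHHom hγ c : WH (Gamma0 (N * ℓ))) : ℍ → ℂ) z = (c : ℍ → ℂ) (alH ℓ γ z) := rfl

/-- The Atkin–Lehner operator `c ↦ c ∘ w` on `WH Γ₀(Nℓ)`; the inverse is the operator of the dual
datum. -/
def alWH {γ : SL(2, ℤ)} (hγ : IsAL N ℓ γ) : WH (Gamma0 (N * ℓ)) ≃ₐ[ℂ] WH (Gamma0 (N * ℓ)) :=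
  AlgEquiv.ofAlgHom (alWHHom hγ) (alWHHom (isAL_alDual hγ))
    (AlgHom.ext fun c => Subtype.ext (funext fun z => by
      show (c : ℍ → ℂ) (alH ℓ (alDual ℓ γ hγ.dvd) (alH ℓ γ z)) = (c : ℍ → ℂ) z
      rw [alH_alDual hγ]))
    (AlgHom.ext fun c => Subtype.ext (funext fun z => by
      show (c : ℍ → ℂ) (alH ℓ γ (alH ℓ (alDual ℓ γ hγ.dvd) z)) = (c : ℍ → ℂ) z
      rw [alH_alDual' hγ]))

lemma coe_alWH {γ : SL(2, ℤ)} (hγ : IsAL N ℓ γ) (c : WH (Gamma0 (N * ℓ))) (z : ℍ) :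
    ((alWH hγ c : WH (Gamma0 (N * ℓ))) : ℍ → ℂ) z = (c : ℍ → ℂ) (alH ℓ γ z) := rfl

/-- `W ∘ (level raising) = scale` on `WH Γ₀(N)`. -/
theorem alWH_algebraMap {γ : SL(2, ℤ)} (hγ : IsAL N ℓ γ) (f : WH (Gamma0 N)) :
    alWH hγ (algebraMap (WH (Gamma0 N)) (WH (Gamma0 (N * ℓ))) f) = NormCosets.scaleWH N ℓ f := by
  apply Subtype.ext
  funext z
  show (f : ℍ → ℂ) (alH ℓ γ z) = (f : ℍ → ℂ) (JN.scaleH ℓ z)
  exact apply_alH_of_mem hγ.mem f.2 z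

theorem alWH_alWH_dual {γ : SL(2, ℤ)} (hγ : IsAL N ℓ γ) (c : WH (Gamma0 (N * ℓ))) :
    alWH (isAL_alDual hγ) (alWH hγ c) = c :=
  Subtype.ext (funext fun z => by
    show (c : ℍ → ℂ) (alH ℓ γ (alH ℓ (alDual ℓ γ hγ.dvd) z)) = (c : ℍ → ℂ) z
    rw [alH_alDual' hγ])

end Operator

/-! ## The Atkin–Lehner operator on the field of modular functions -/

section Field

variable {N ℓ : ℕ} [NeZero N] [NeZero ℓ]

/-- The Atkin–Lehner operator on `WHField Γ₀(Nℓ)`. -/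
def alField {γ : SL(2, ℤ)} (hγ : IsAL N ℓ γ) :
    WHField (Gamma0 (N * ℓ)) ≃+* WHField (Gamma0 (N * ℓ)) :=
  IsFractionRing.ringEquivOfRingEquiv (alWH hγ).toRingEquiv

theorem alField_algebraMap {γ : SL(2, ℤ)} (hγ : IsAL N ℓ γ) (c : WH (Gamma0 (N * ℓ))) :
    alField hγ (algebraMap (WH (Gamma0 (N * ℓ))) (WHField (Gamma0 (N * ℓ))) c) =
      algebraMap (WH (Gamma0 (N * ℓ))) (WHField (Gamma0 (N * ℓ))) (alWH hγ c) :=
  IsFractionRing.ringEquivOfRingEquiv_algebraMap _ c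

theorem alField_alField_dual {γ : SL(2, ℤ)} (hγ : IsAL N ℓ γ) (x : WHField (Gamma0 (N * ℓ))) :
    alField (isAL_alDual hγ) (alField hγ x) = x := by
  have h : ((alField (isAL_alDual hγ)).toRingHom.comp (alField hγ).toRingHom) =
      RingHom.id (WHField (Gamma0 (N * ℓ))) := by
    apply IsLocalization.ringHom_ext (nonZeroDivisors (WH (Gamma0 (N * ℓ))))
    refine RingHom.ext fun c => ?_
    show alField (isAL_alDual hγ) (alField hγ (algebraMap _ _ c)) = algebraMap _ _ c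
    rw [alField_algebraMap, alField_algebraMap, alWH_alWH_dual]
  exact congrArg (fun φ : WHField (Gamma0 (N * ℓ)) →+* WHField (Gamma0 (N * ℓ)) => φ x) h

/-- `W ∘ α = β`: the Atkin–Lehner operator carries the level raising embedding to the scale
embedding. -/
theorem alField_level {γ : SL(2, ℤ)} (hγ : IsAL N ℓ γ) (x : WHField (Gamma0 N)) :
    alField hγ (algebraMap (WHField (Gamma0 N)) (WHField (Gamma0 (N * ℓ))) x) =
      NormCosets.scaleField N ℓ x := by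
  have h : ((alField hγ).toRingHom.comp
      (algebraMap (WHField (Gamma0 N)) (WHField (Gamma0 (N * ℓ))))) =
      (NormCosets.scaleField N ℓ).toRingHom := by
    apply IsLocalization.ringHom_ext (nonZeroDivisors (WH (Gamma0 N)))
    refine RingHom.ext fun f => ?_
    show alField hγ (algebraMap (WHField (Gamma0 N)) (WHField (Gamma0 (N * ℓ)))
      (algebraMap (WH (Gamma0 N)) (WHField (Gamma0 N)) f)) =
        NormCosets.scaleField N ℓ (algebraMap (WH (Gamma0 N)) (WHField (Gamma0 N)) f)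
    rw [← IsScalarTower.algebraMap_apply (WH (Gamma0 N)) (WHField (Gamma0 N))
      (WHField (Gamma0 (N * ℓ))),
      IsScalarTower.algebraMap_apply (WH (Gamma0 N)) (WH (Gamma0 (N * ℓ)))
      (WHField (Gamma0 (N * ℓ))), alField_algebraMap, alWH_algebraMap,
      NormCosets.scaleField_algebraMap]
  exact congrArg (fun φ : WHField (Gamma0 N) →+* WHField (Gamma0 (N * ℓ)) => φ x) h

end Field

/-! ## The norm along `β` -/

section Norm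

/-- Generic: if `W : L ≃+* L` carries the structure map `K → L` to `s`, then the norm for the
`s`-structure of `W x` is the norm of `x`. -/
theorem norm_toAlgebra_apply {K L : Type*} [Field K] [Field L] [Algebra K L] (s : K →+* L)
    (W : L ≃+* L) (hW : ∀ x, W (algebraMap K L x) = s x) (x : L) :
    (letI := s.toAlgebra; Algebra.norm K (W x)) = Algebra.norm K x := by
  have h := @Algebra.norm_eq_of_equiv_equiv K L K L _ _ _ _ _ s.toAlgebra (RingEquiv.refl K) W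
    (by
      refine RingHom.ext fun y => ?_
      exact (hW y).symm) x
  rw [h]
  rfl

variable {N ℓ : ℕ} [NeZero N] [NeZero ℓ]

/-- `N_β = N_α ∘ W` on `WHField Γ₀(Nℓ)` (`N_β` = norm for the scale embedding). -/
theorem norm_scaleField {γ : SL(2, ℤ)} (hγ : IsAL N ℓ γ) (x : WHField (Gamma0 (N * ℓ))) :
    (letI := (NormCosets.scaleField N ℓ).toRingHom.toAlgebra;
      Algebra.norm (WHField (Gamma0 N)) x) =
      Algebra.norm (WHField (Gamma0 N)) (alField hγ x) := by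
  have h := norm_toAlgebra_apply (NormCosets.scaleField N ℓ).toRingHom
    (alField (isAL_alDual hγ)) (fun y => alField_level (isAL_alDual hγ) y) (alField hγ x)
  rw [alField_alField_dual] at h
  exact h

/-- The norm along `β_ℂ` corresponds to the norm for the scale embedding. -/
theorem fieldEquiv_symm_norm_scale (G : FC (N * ℓ)) :
    (fieldEquiv N).symm (letI := algebraAlong (heckeBetaBar ℂ N ℓ); Algebra.norm (FC N) G) =
      (letI := (NormCosets.scaleField N ℓ).toRingHom.toAlgebra;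
        Algebra.norm (WHField (Gamma0 N)) ((fieldEquiv (N * ℓ)).symm G)) := by
  have h := @Algebra.norm_eq_of_equiv_equiv (WHField (Gamma0 N)) (WHField (Gamma0 (N * ℓ)))
    (FC N) (FC (N * ℓ)) _ _ _ _ (NormCosets.scaleField N ℓ).toRingHom.toAlgebra
    (algebraAlong (heckeBetaBar ℂ N ℓ)) (fieldEquiv N).toRingEquiv
    (fieldEquiv (N * ℓ)).toRingEquiv (by
      refine RingHom.ext fun x => ?_
      exact (NormCosets.fieldEquiv_scaleField N ℓ x).symm) ((fieldEquiv (N * ℓ)).symm G)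
  rw [h]
  simp

/-- **The norm along `β_ℂ` is the norm along `α_ℂ` of the Atkin–Lehner transform.** -/
theorem fieldEquiv_symm_norm_beta {γ : SL(2, ℤ)} (hγ : IsAL N ℓ γ) (G : FC (N * ℓ)) :
    (fieldEquiv N).symm (letI := algebraAlong (heckeBetaBar ℂ N ℓ); Algebra.norm (FC N) G) =
      Algebra.norm (WHField (Gamma0 N)) (alField hγ ((fieldEquiv (N * ℓ)).symm G)) := by
  rw [fieldEquiv_symm_norm_scale, norm_scaleField hγ]

end Norm

/-! ## Descent `Q̄ → ℂ` -/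

section Descent

local notation "Qb" => AlgebraicClosure ℚ

open Fermat.Agent.N4F.E

variable (N ℓ : ℕ) [NeZero N] [Fact ℓ.Prime] (ι : Qb →+* ℂ)

/-- `[L·F_{Nℓ} : β(L·F_N)] = ℓ + 1` in the `Along` form. -/
theorem finrankAlong_beta (L : Type) [Field L] [Algebra ℚ L] (ι' : L →+* ℂ) (hℓN : ¬ ℓ ∣ N) :
    finrankAlong L (heckeBetaBar L N ℓ) = ℓ + 1 := by
  letI := algebraAlong (heckeBetaBar L N ℓ)
  show Module.finrank (laurentBaseChange L (modularFunctionFieldFull N))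
    (laurentBaseChange L (modularFunctionFieldFull (N * ℓ))) = ℓ + 1
  rw [DegreeLevelRaise.finrank_eq_finrank_fieldRange (heckeBetaBar L N ℓ) rfl,
    DegreeLevelRaise.finrank_heckeBetaBar_prime L N ℓ ι' hℓN]

theorem finiteAlong_beta (L : Type) [Field L] [Algebra ℚ L] (ι' : L →+* ℂ) (hℓN : ¬ ℓ ∣ N) :
    FiniteAlong L (heckeBetaBar L N ℓ) := by
  letI := algebraAlong (heckeBetaBar L N ℓ)
  show Module.Finite (laurentBaseChange L (modularFunctionFieldFull N))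
    (laurentBaseChange L (modularFunctionFieldFull (N * ℓ)))
  apply Module.finite_of_finrank_pos
  have h := finrankAlong_beta N ℓ L ι' hℓN
  rw [finrankAlong] at h
  rw [h]
  exact Nat.succ_pos _

/-- **The norm along `β` commutes with `Q̄ → ℂ`.** -/
theorem barToC_norm_beta (hℓN : ¬ ℓ ∣ N) (g : modularFunctionFieldBar (N * ℓ)) :
    barToC N ι (letI := algebraAlong (heckeBetaBar Qb N ℓ);
        Algebra.norm (modularFunctionFieldBar N) g) =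
      (letI := algebraAlong (heckeBetaBar ℂ N ℓ); Algebra.norm (FC N) (barToC (N * ℓ) ι g)) := by
  refine NormDescent.norm_map_along (heckeBetaBar Qb N ℓ) (heckeBetaBar ℂ N ℓ) (barToC N ι)
    (barToC (N * ℓ) ι) (NormCosets.barToC_beta N ℓ ι) (finiteAlong_beta N ℓ Qb ι hℓN) ?_ ?_ g
  · letI := algebraAlong (heckeBetaBar ℂ N ℓ)
    haveI := isScalarTower_along (heckeBetaBar ℂ N ℓ)
    haveI : Module.Finite (FC N) (FC (N * ℓ)) := finiteAlong_beta N ℓ ℂ (RingHom.id ℂ) hℓN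
    exact NormDescent.span_eq_top_of_adjoin' (K' := ℂ) (barToC (N * ℓ) ι)
      (adjoin_range_barToC (N * ℓ) ι)
  · rw [finrankAlong_beta N ℓ ℂ (RingHom.id ℂ) hℓN, finrankAlong_beta N ℓ Qb ι hℓN]

variable {N ℓ}

/-- **`Φ_N (φ_N (N_β F)) = N_α (W (Φ_{Nℓ} (φ_{Nℓ} F)))`**: the norm along `β` on `Q̄ F_{Nℓ}` is the
norm of the extension `WHField Γ₀(Nℓ) / WHField Γ₀(N)` applied to the Atkin–Lehner transform. -/
theorem fieldEquiv_symm_barToC_norm_beta (hℓN : ¬ ℓ ∣ N) {γ : SL(2, ℤ)} (hγ : IsAL N ℓ γ)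
    (F : modularFunctionFieldBar (N * ℓ)) :
    (fieldEquiv N).symm (barToC N ι (letI := algebraAlong (heckeBetaBar Qb N ℓ);
        Algebra.norm (modularFunctionFieldBar N) F)) =
      Algebra.norm (WHField (Gamma0 N))
        (alField hγ ((fieldEquiv (N * ℓ)).symm (barToC (N * ℓ) ι F))) := by
  rw [barToC_norm_beta N ℓ ι hℓN, fieldEquiv_symm_norm_beta hγ]

/-- The norm along `β` of a nonzero element does not vanish. -/
theorem norm_beta_ne_zero (hℓN : ¬ ℓ ∣ N) {F : modularFunctionFieldBar (N * ℓ)} (hF : F ≠ 0) :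
    (letI := algebraAlong (heckeBetaBar Qb N ℓ);
      Algebra.norm (modularFunctionFieldBar N) F) ≠ 0 := by
  letI := algebraAlong (heckeBetaBar Qb N ℓ)
  haveI : Module.Finite (modularFunctionFieldBar N) (modularFunctionFieldBar (N * ℓ)) :=
    finiteAlong_beta N ℓ Qb BarToC.iota hℓN
  haveI : Module.Free (modularFunctionFieldBar N) (modularFunctionFieldBar (N * ℓ)) :=
    Module.Free.of_divisionRing _ _
  rw [Ne, Algebra.norm_eq_zero_iff]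
  exact hF

end Descent

end Fermat.Agent.P4.NormBeta
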