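/-
P4-S35, block (N4b), function level (helper24): THE KUMMER CHARACTER OF A NORM ALONG `β` IS THE
TRANSFER OF THE ATKIN–LEHNER TWIST OF THE KUMMER CHARACTER.

`ℓ ∤ N` prime, `γ` an Atkin–Lehner datum (`P4/NormBeta.IsAL`: `γ ∈ Γ₀(N)`, `ℓ ∣ γ₁₁`,
`w = γ · diag(ℓ, 1)`), `δ_j` a right transversal of `Γ₀(Nℓ)` in `Γ₀(N)` with coset bookkeeping
`δ_j g = coc(g, j) δ_{perm(g, j)}` (exactly the data of `P4/KummerPush`).  For `F ∈ Q̄·F_{Nℓ}` whose
image `u = Φ_{Nℓ}(φ F)` is `n`-divisible with root datum `(a, b, h)`: the norm `N_β F ∈ Q̄·F_N` has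
the root datum `(C, D, H)`, `H z = ∏_j h(w δ_j z)`, and
`H(g z) = (∏_j m(w coc(g, j) w⁻¹)) H(z)`.  Hence

  `kummerChar (N_β F) g = ∑_j kummerChar F (alConj (coc(g, j)))`,

the transfer along the `ℓ + 1` cosets `Γ₀(Nℓ) w δ_j` of `Γ₀(Nℓ) \ Γ₀(Nℓ) diag(1, ℓ) Γ₀(N)`
(= `cores ∘ w`).
-/
import Mathlib
import Fermat.Agent.P4.NormBeta
import Fermat.Agent.P4.KummerPush

set_option autoImplicit false
set_option linter.style.haveILetI false
set_option linter.unusedSectionVars false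

open UpperHalfPlane MatrixGroups CongruenceSubgroup ModularForm
open Matrix.SpecialLinearGroup
open scoped Manifold

noncomputable section

namespace Fermat.Agent.P4.KummerPushBeta

open Fermat.Agent.M2 Fermat.Agent.N4F.Tors.Kummer Fermat.Agent.N4F.Tors
open Fermat.Agent.S24 Fermat.Agent.S24.FieldIso ModularCurve AlgebraicCurve
open Fermat.Agent.P4.NormBeta Fermat.Agent.P4.KummerPush

local notation "Qb" => AlgebraicClosure ℚ

/-! ## Root data under the Atkin–Lehner operator -/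

section AL

variable {N ℓ : ℕ} [NeZero N] [NeZero ℓ] {n : ℕ}

/-- The Atkin–Lehner transform of a root datum. -/
theorem isRootDatum_al {γ : SL(2, ℤ)} (hγ : IsAL N ℓ γ) {u : WHField (Gamma0 (N * ℓ))}
    {a b : WH (Gamma0 (N * ℓ))} {h : ℍ → ℂ} (D : IsRootDatum (Gamma0 (N * ℓ)) n u a b h) :
    IsRootDatum (Gamma0 (N * ℓ)) n (alField hγ u) (alWH hγ a) (alWH hγ b) (h ∘ alH ℓ γ) := by
  refine ⟨?_, ?_, ?_, ?_⟩
  · intro h0
    exact D.hb ((alWH hγ).injective (h0.trans (map_zero _).symm))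
  · rw [← alField_algebraMap, ← alField_algebraMap, ← map_mul, D.hu]
  · exact QExp.mdiff_comp_scaleH ℓ (mdiff_comp_smul D.hh γ)
  · intro z
    exact D.hpow (alH ℓ γ z)

end AL

/-! ## The Kummer character of the norm -/

section Main

variable {N ℓ : ℕ} [NeZero N] [Fact ℓ.Prime] {n : ℕ} [NeZero n] (ι : Qb →+* ℂ)
variable {J : Type*} [Fintype J]

/-- The root datum of the norm along `β`. -/
theorem isRootDatum_norm_beta (hℓN : ¬ ℓ ∣ N) {γ : SL(2, ℤ)} (hγ : IsAL N ℓ γ)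
    (δ : J → SL(2, ℤ)) (hδ : ∀ j, δ j ∈ Gamma0 N)
    (hcos : ∀ g ∈ Gamma0 N, ∃! j, g * (δ j)⁻¹ ∈ Gamma0 (N * ℓ))
    (F : modularFunctionFieldBar (N * ℓ)) {a b : WH (Gamma0 (N * ℓ))} {h : ℍ → ℂ}
    (D : IsRootDatum (Gamma0 (N * ℓ)) n ((fieldEquiv (N * ℓ)).symm (barToC (N * ℓ) ι F)) a b h) :
    ∃ A B : WH (Gamma0 N),
      IsRootDatum (Gamma0 N) n ((fieldEquiv N).symm (barToC N ι
        (letI := algebraAlong (heckeBetaBar Qb N ℓ);
          Algebra.norm (modularFunctionFieldBar N) F))) A B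
        (fun z => ∏ j, h (alH ℓ γ (δ j • z))) := by
  have D1 := isRootDatum_al hγ D
  have hb0 : algebraMap (WH (Gamma0 (N * ℓ))) (WHField (Gamma0 (N * ℓ))) (alWH hγ b) ≠ 0 :=
    fun h0 => D1.hb (algebraMap_WH_injective (by rw [h0, map_zero]))
  have hab : alField hγ ((fieldEquiv (N * ℓ)).symm (barToC (N * ℓ) ι F)) =
      algebraMap (WH (Gamma0 (N * ℓ))) (WHField (Gamma0 (N * ℓ))) (alWH hγ a) /
        algebraMap (WH (Gamma0 (N * ℓ))) (WHField (Gamma0 (N * ℓ))) (alWH hγ b) := by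
    rw [eq_div_iff hb0]
    exact D1.hu
  obtain ⟨A, B, hB, hA, hBz, hn⟩ :=
    NormCosets.exists_norm_div N ℓ δ hδ hcos (alWH hγ a) (alWH hγ b) D1.hb
  have hB0 : algebraMap (WH (Gamma0 N)) (WHField (Gamma0 N)) B ≠ 0 := fun h0 =>
    hB (algebraMap_WH_injective (by rw [h0, map_zero]))
  refine ⟨A, B, hB, ?_, ?_, ?_⟩
  · rw [fieldEquiv_symm_barToC_norm_beta ι hℓN hγ, hab, hn, div_mul_cancel₀ _ hB0]
  · apply KummerHecke.mdiff_finset_prod
    intro j _
    exact mdiff_comp_smul D1.hh (δ j)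
  · intro z
    rw [← Finset.prod_pow, hA z, hBz z, ← Finset.prod_pow, ← Finset.prod_mul_distrib]
    exact Finset.prod_congr rfl fun j _ => D1.hpow _

/-- **(N4b), function level.** The Kummer character of `N_β F` is the transfer of the
Atkin–Lehner twist of the Kummer character of `F`:
`κ(N_β F)(g) = ∑_j κ(F)(w coc(g, j) w⁻¹)`. -/
theorem kummerChar_norm_betaPush (hℓN : ¬ ℓ ∣ N) {γ : SL(2, ℤ)} (hγ : IsAL N ℓ γ)
    (δ : J → SL(2, ℤ)) (hδ : ∀ j, δ j ∈ Gamma0 N)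
    (hcos : ∀ g ∈ Gamma0 N, ∃! j, g * (δ j)⁻¹ ∈ Gamma0 (N * ℓ))
    (perm : ↥(Gamma0 N) → J → J) (coc : ↥(Gamma0 N) → J → ↥(Gamma0 (N * ℓ)))
    (hrep : ∀ (g : ↥(Gamma0 N)) (j : J),
      δ j * (g : SL(2, ℤ)) = (coc g j : SL(2, ℤ)) * δ (perm g j))
    (F : modularFunctionFieldBar (N * ℓ))
    (hu : NDiv (Gamma0 (N * ℓ)) n ((fieldEquiv (N * ℓ)).symm (barToC (N * ℓ) ι F)))
    (hu' : NDiv (Gamma0 N) n ((fieldEquiv N).symm (barToC N ι
      (letI := algebraAlong (heckeBetaBar Qb N ℓ);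
        Algebra.norm (modularFunctionFieldBar N) F))))
    (g : ↥(Gamma0 N)) :
    kummerChar hu' (Additive.ofMul g) =
      ∑ j, kummerChar hu (Additive.ofMul (alConj hγ (coc g j))) := by
  have D : IsRootDatum (Gamma0 (N * ℓ)) n ((fieldEquiv (N * ℓ)).symm (barToC (N * ℓ) ι F))
      hu.rootA hu.rootB hu.rootH := hu.isRootDatum
  obtain ⟨A, B, D'⟩ := isRootDatum_norm_beta ι hℓN hγ δ hδ hcos F D
  have hm : ∀ (x : ↥(Gamma0 (N * ℓ))) (z : ℍ),
      (hu.rootH ∘ alH ℓ γ) ((x : SL(2, ℤ)) • z) =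
        kummerMult hu (alConj hγ x) * (hu.rootH ∘ alH ℓ γ) z := by
    intro x z
    simp only [Function.comp_apply]
    rw [alH_smul hγ x z]
    exact kummerMult_spec hu D (alConj hγ x) _
  obtain ⟨z₀, hz₀⟩ := (D'.isInvRoot (NeZero.ne n) hu'.1).exists_ne_zero
  apply kummerChar_eq_of_spec hu' D' g hz₀
  have hperm : ∀ g, Function.Bijective (perm g) := fun g =>
    Finite.injective_iff_bijective.mp (perm_injective δ hδ hcos perm coc hrep g)
  have e2 : ZMod.stdAddChar (∑ j, kummerChar hu (Additive.ofMul (alConj hγ (coc g j)))) =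
      ∏ j, kummerMult hu (alConj hγ (coc g j)) := by
    rw [KummerHecke.addChar_map_sum]
    exact Finset.prod_congr rfl fun j _ => stdAddChar_kummerChar hu _
  rw [e2]
  exact prod_smul_smul δ perm coc hrep hperm (h := hu.rootH ∘ alH ℓ γ)
    (m := fun x => kummerMult hu (alConj hγ x)) hm g z₀

/-- **(N4b), function level, self-contained form**: the `n`-divisibility of the norm is part of
the conclusion. -/
theorem exists_nDiv_norm_betaPush (hℓN : ¬ ℓ ∣ N) {γ : SL(2, ℤ)} (hγ : IsAL N ℓ γ)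
    (δ : J → SL(2, ℤ)) (hδ : ∀ j, δ j ∈ Gamma0 N)
    (hcos : ∀ g ∈ Gamma0 N, ∃! j, g * (δ j)⁻¹ ∈ Gamma0 (N * ℓ))
    (perm : ↥(Gamma0 N) → J → J) (coc : ↥(Gamma0 N) → J → ↥(Gamma0 (N * ℓ)))
    (hrep : ∀ (g : ↥(Gamma0 N)) (j : J),
      δ j * (g : SL(2, ℤ)) = (coc g j : SL(2, ℤ)) * δ (perm g j))
    (F : modularFunctionFieldBar (N * ℓ))
    (hu : NDiv (Gamma0 (N * ℓ)) n ((fieldEquiv (N * ℓ)).symm (barToC (N * ℓ) ι F))) :
    ∃ hu' : NDiv (Gamma0 N) n ((fieldEquiv N).symm (barToC N ι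
      (letI := algebraAlong (heckeBetaBar Qb N ℓ);
        Algebra.norm (modularFunctionFieldBar N) F))),
      ∀ g : ↥(Gamma0 N),
        kummerChar hu' (Additive.ofMul g) =
          ∑ j, kummerChar hu (Additive.ofMul (alConj hγ (coc g j))) := by
  have hF : F ≠ 0 := by
    rintro rfl
    exact hu.1 (by rw [map_zero, map_zero])
  have hu0' : (fieldEquiv N).symm (barToC N ι
      (letI := algebraAlong (heckeBetaBar Qb N ℓ);
        Algebra.norm (modularFunctionFieldBar N) F)) ≠ 0 := by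
    rw [Ne, map_eq_zero_iff _ (fieldEquiv N).symm.injective, map_eq_zero]
    exact norm_beta_ne_zero hℓN hF
  obtain ⟨A, B, D'⟩ := isRootDatum_norm_beta ι hℓN hγ δ hδ hcos F hu.isRootDatum
  have hu' := KummerHecke.nDiv_of_isRootDatum (NeZero.ne n) D' hu0'
  exact ⟨hu', kummerChar_norm_betaPush ι hℓN hγ δ hδ hcos perm coc hrep F hu hu'⟩

end Main

end Fermat.Agent.P4.KummerPushBeta
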