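/-
P4-S35, block (N4b), instantiation (helper24): THE FUNCTION-LEVEL STATEMENT FOR helper2's
CORESTRICTION DATA.

`kummerChar_norm_betaPush` (`P4/KummerPushBeta`) at
* the Atkin–Lehner datum `γ₀ = AtkinLehnerGamma.alGammaSL hqN = [d, -b; -N, q]`,
* the transversal `Cores.coresRep hqN` with cocycle `Cores.coresCoc hqN`,
and the identification `NormBeta.alConj = AtkinLehner.alConj`:

  `κ(N_β F)(g) = ∑_{x ∈ ℙ¹(𝔽_q)} κ(F)(AtkinLehner.alConj hqN (coresCoc hqN g x))`
  `            = CoresEta.coresEtaAdd hqN (κ(F)) g`.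
-/
import Mathlib
import Fermat.Agent.P4.KummerPushBeta
import Fermat.Agent.P4.AtkinLehnerGamma
import Fermat.Agent.P4.CoresEta

set_option autoImplicit false
set_option linter.style.haveILetI false
set_option linter.unusedSectionVars false

open UpperHalfPlane MatrixGroups CongruenceSubgroup ModularForm
open Matrix.SpecialLinearGroup
open scoped OnePoint

noncomputable section

namespace Fermat.Agent.P4.KummerPushBetaCores

open P2MW.S_ModularForm_heckeT_slash_eq_self_of_mem_Gamma0.ModularForm.HeckeSlashInvariance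
open Fermat.Agent.M2 Fermat.Agent.N4F.Tors.Kummer Fermat.Agent.N4F.Tors
open Fermat.Agent.N4F.Tors.HeckeHom Fermat.Agent.P3LR.A.IntMat
open Fermat.Agent.S24 Fermat.Agent.S24.FieldIso ModularCurve AlgebraicCurve
open Fermat.Agent.P4.NormBeta Fermat.Agent.P4.KummerPushBeta
open Fermat.Agent.P4.Cores Fermat.Agent.P4.AtkinLehnerGamma

local notation "Qb" => AlgebraicClosure ℚ

variable {N q : ℕ} [Fact q.Prime]

/-- helper2's `γ₀ = [d, -b; -N, q]` is an Atkin–Lehner datum. -/
theorem isAL_alGammaSL (hqN : ¬ q ∣ N) : IsAL N q (alGammaSL hqN) :=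
  ⟨alGammaSL_mem hqN, dvd_alGammaSL_one_one hqN⟩

/-- `diag(q, 1) x = (conjGamma0 q x) diag(q, 1)`. -/
theorem etaMat_mul_eq (x : SL(2, ℤ)) (hx : x ∈ Gamma0 q) :
    AtkinLehner.etaMat q * (x : MI) = ((JN.conjGamma0 q x hx : SL(2, ℤ)) : MI) *
      AtkinLehner.etaMat q := by
  have hq : (q : ℤ) ≠ 0 := Int.natCast_ne_zero.mpr (NeZero.ne q)
  obtain ⟨k, hk⟩ := NormBeta.Gamma0_mem_iff_dvd.mp hx
  have h00 : (JN.conjGamma0 q x hx) 0 0 = x 0 0 := rfl
  have h01 : (JN.conjGamma0 q x hx) 0 1 = q * x 0 1 := rfl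
  have h10 : (JN.conjGamma0 q x hx) 1 0 = x 1 0 / q := rfl
  have h11 : (JN.conjGamma0 q x hx) 1 1 = x 1 1 := rfl
  have h10' : x 1 0 / (q : ℤ) = k := by rw [hk, Int.mul_ediv_cancel_left _ hq]
  rw [AtkinLehner.etaMat]
  ext i j
  fin_cases i <;> fin_cases j
  · show (!![(q : ℤ), 0; 0, 1] * (x : MI)) 0 0 = ((JN.conjGamma0 q x hx : MI) * !![(q : ℤ), 0; 0, 1]) 0 0
    simp only [Matrix.mul_apply, Fin.sum_univ_two, Matrix.of_apply, Matrix.cons_val', Matrix.cons_val_zero,
      Matrix.cons_val_one, Matrix.cons_val_fin_one]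
    rw [h00]; ring
  · show (!![(q : ℤ), 0; 0, 1] * (x : MI)) 0 1 = ((JN.conjGamma0 q x hx : MI) * !![(q : ℤ), 0; 0, 1]) 0 1
    simp only [Matrix.mul_apply, Fin.sum_univ_two, Matrix.of_apply, Matrix.cons_val', Matrix.cons_val_zero,
      Matrix.cons_val_one, Matrix.cons_val_fin_one]
    rw [h01]; ring
  · show (!![(q : ℤ), 0; 0, 1] * (x : MI)) 1 0 = ((JN.conjGamma0 q x hx : MI) * !![(q : ℤ), 0; 0, 1]) 1 0
    simp only [Matrix.mul_apply, Fin.sum_univ_two, Matrix.of_apply, Matrix.cons_val', Matrix.cons_val_zero,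
      Matrix.cons_val_one, Matrix.cons_val_fin_one]
    rw [h10, h10', hk]; ring
  · show (!![(q : ℤ), 0; 0, 1] * (x : MI)) 1 1 = ((JN.conjGamma0 q x hx : MI) * !![(q : ℤ), 0; 0, 1]) 1 1
    simp only [Matrix.mul_apply, Fin.sum_univ_two, Matrix.of_apply, Matrix.cons_val', Matrix.cons_val_zero,
      Matrix.cons_val_one, Matrix.cons_val_fin_one]
    rw [h11]; ring

/-- The two descriptions of the Atkin–Lehner conjugation agree. -/
theorem alConj_eq (hqN : ¬ q ∣ N) (x : ↥(Gamma0 (N * q))) :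
    NormBeta.alConj (isAL_alGammaSL hqN) x = AtkinLehner.alConj hqN x := by
  apply Subtype.ext
  rw [NormBeta.coe_alConj]
  exact (alConj_eq_gamma_conj hqN x _
    (etaMat_mul_eq (x : SL(2, ℤ)) (NormBeta.mem_Gamma0_right x.2))).symm

variable [NeZero N] {n : ℕ} [NeZero n] (ι : Qb →+* ℂ)

/-- **(N4b), function level, for helper2's data**: the Kummer character of `N_β F` is
`coresEtaAdd` of the Kummer character of `F`, pointwise. -/
theorem hBeta (hqN : ¬ q ∣ N) (F : modularFunctionFieldBar (N * q))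
    (hu : NDiv (Gamma0 (N * q)) n ((fieldEquiv (N * q)).symm (barToC (N * q) ι F)))
    (hu' : NDiv (Gamma0 N) n ((fieldEquiv N).symm (barToC N ι
      (letI := algebraAlong (heckeBetaBar Qb N q);
        Algebra.norm (modularFunctionFieldBar N) F))))
    (g : ↥(Gamma0 N)) :
    kummerChar hu' (Additive.ofMul g) =
      ∑ x : OnePoint (ZMod q),
        kummerChar hu (Additive.ofMul (AtkinLehner.alConj hqN (coresCoc hqN g x))) := by
  have h := kummerChar_norm_betaPush ι hqN (isAL_alGammaSL hqN)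
    (fun x : OnePoint (ZMod q) => ((coresRep hqN x : ↥(Gamma0 N)) : SL(2, ℤ)))
    (fun x => (coresRep hqN x).2)
    (existsUnique_mul_inv_mem hqN (coresRep hqN) (isTransversal_coresRep hqN))
    (fun g x => redMatrix q (g : SL(2, ℤ)) • x) (coresCoc hqN)
    (fun g x => coresRep_mul hqN g x) F hu hu' g
  rw [h]
  exact Finset.sum_congr rfl fun x _ => by rw [alConj_eq]

/-- The same as an equality of homomorphisms: `κ(N_β F) = coresEtaAdd (κ(F))`. -/
theorem kummerChar_norm_beta_eq_coresEtaAdd (hqN : ¬ q ∣ N) (F : modularFunctionFieldBar (N * q))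
    (hu : NDiv (Gamma0 (N * q)) n ((fieldEquiv (N * q)).symm (barToC (N * q) ι F)))
    (hu' : NDiv (Gamma0 N) n ((fieldEquiv N).symm (barToC N ι
      (letI := algebraAlong (heckeBetaBar Qb N q);
        Algebra.norm (modularFunctionFieldBar N) F)))) :
    kummerChar hu' = CoresEta.coresEtaAdd hqN (kummerChar hu) := by
  refine AddMonoidHom.ext fun g' => ?_
  obtain ⟨g, rfl⟩ : ∃ g : ↥(Gamma0 N), Additive.ofMul g = g' := ⟨Additive.toMul g', rfl⟩
  rw [CoresEta.coresEtaAdd_apply]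
  exact hBeta ι hqN F hu hu' g

end Fermat.Agent.P4.KummerPushBetaCores
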