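/-
P4-S35, last glue of the lattice side [P4-NEW] (helper2): THE NEW VECTOR FROM THE FUNCTION-LEVEL
`β`-STATEMENT.

`q ∤ N` prime.  `HBeta hqN` is the function-level statement (N4b) (helper24's
`KummerPushBeta.kummerChar_norm_betaPush`, in the normalisation of `P4/AtkinLehner`): for
`F ∈ Q̄ F_{Nq}` with `n`-divisible image, the Kummer character of the norm of `F` along `β` is
`g ↦ ∑_x κ(F)(w (coresCoc g x) w⁻¹)`.  From it:

* `kappa_mapTors_betaPush` : `κ^N_n (β_* y) = coresEtaAdd (κ^{Nq}_n y)`;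
* `betaT_lam`, `lam_mem_newT` : `coresAdd ψ = 0 → coresEtaAdd ψ = 0 → lam_{Nq} ψ ∈ newT p N q`;
* `exists_new_vector_newT` : the eigencharacter of a newform of level `N q` occurs in the image of
  `𝒪 ⊗ newT → 𝒪 ⊗ T_p J_0(N q)` (second clause of `S35Assembly.NewVectorAtPoly` with
  `K' := newT p N q`).
-/
import Mathlib
import Fermat.Agent.P4.TatePushAlpha
import Fermat.Agent.P4.KummerPushBetaPic
import Fermat.Agent.P4.CoresEta
import Fermat.Agent.P4S35.NewAssembly

set_option autoImplicit false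
set_option linter.unusedSectionVars false
set_option linter.style.haveILetI false

open UpperHalfPlane MatrixGroups CongruenceSubgroup ModularForm ModularFormClass
open Matrix.SpecialLinearGroup
open AlgebraicCurve ModularCurve PadicInt
open scoped TensorProduct

noncomputable section

namespace Fermat.Agent.P4.NewOfBeta

open Fermat.Agent.M2 Fermat.Agent.N4F.Tors.Kummer Fermat.Agent.N4F.Tors
open Fermat.Agent.N4F.Res
open Fermat.Agent.N4F.Tors.Descent Fermat.Agent.N4F.Tors.BaseChange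
open Fermat.Agent.N4F.Tors.KummerFinal Fermat.Agent.N4F.Tors.HeckeDiv
open Fermat.Agent.N4F.A.LevelMaps Fermat.Agent.N4F.A.HeckeInputsFinal
open Fermat.Agent.S24 Fermat.Agent.S24.FieldIso
open Fermat.Agent.P3G.AuxPrime Fermat.Agent.P4.KummerPush Fermat.Agent.P4.KummerPushPic
open Fermat.Agent.P4.KummerExplicit Fermat.Agent.P4.TatePush Fermat.Agent.P4.Push
open Fermat.Agent.P4.PushTate Fermat.Agent.P4.Cores Fermat.Agent.P4.CoresEta
open Fermat.Agent.P4.AtkinLehner
open Fermat.Agent.N4F.Tors.HeckeHom Fermat.Agent.N4F.Tors.Outputs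
open Fermat.Agent.N4F.Adic Fermat.Agent.N4F.Adic.TateModule Fermat.Agent.N4F.Adic.TateJ

local notation "Qb" => AlgebraicClosure ℚ

variable {N q : ℕ} [NeZero N] [hq : Fact q.Prime] (hqN : ¬ q ∣ N)

/-- The cocycle of `β_*`: `g, x ↦ w (coresCoc g x) w⁻¹`. -/
def cocBeta (g : ↥(Gamma0 N)) (x : OnePoint (ZMod q)) : ↥(Gamma0 (N * q)) :=
  alConj hqN (coresCoc hqN g x)

/-- **The function-level statement (N4b)**, in the normalisation of `P4/AtkinLehner`
(= the hypothesis `H` of `KummerPushBetaPic.kappa_betaPush` with `cocβ := cocBeta hqN`). -/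
def HBeta : Prop :=
  haveI : NeZero q := ⟨hq.out.ne_zero⟩
  ∀ (n : ℕ) [NeZero n] (F : modularFunctionFieldBar (N * q))
    (hu : NDiv (Gamma0 (N * q)) n ((fieldEquiv (N * q)).symm (barToC (N * q) ι F)))
    (hu' : NDiv (Gamma0 N) n ((fieldEquiv N).symm (barToC N ι
      (letI := algebraAlong (heckeBetaBar Qb N q);
        Algebra.norm (modularFunctionFieldBar N) F))))
    (g : ↥(Gamma0 N)),
    kummerChar hu' (Additive.ofMul g) =
      ∑ x : OnePoint (ZMod q), kummerChar hu (Additive.ofMul (cocBeta hqN g x))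

/-- **(N4b) for the explicit Kummer maps and the corestriction `coresEtaAdd`.** -/
theorem kappa_mapTors_betaPush (H : HBeta hqN) {n : ℕ} (hn : 0 < n) (y : Jtors (N * q) n) :
    haveI : NeZero q := ⟨hq.out.ne_zero⟩
    kappa N n (mapTors (betaPush N q) n y) = coresEtaAdd hqN (kappa (N * q) n y) := by
  haveI : NeZero q := ⟨hq.out.ne_zero⟩
  refine AddMonoidHom.ext fun g => ?_
  obtain ⟨g, rfl⟩ := Additive.ofMul.surjective g
  rw [coresEtaAdd_apply]
  exact KummerPushBetaPic.kappa_betaPush (cocBeta hqN) (fun n _ F hu hu' g => H n F hu hu' g)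
    n hn y g

variable (p : ℕ) [hp : Fact p.Prime]

/-- **The comparison map intertwines `β_*` on Tate modules with `coresEtaPar` on lattices.** -/
theorem betaT_lam (H : HBeta hqN) (ψ : parHomAdd (N * q) ℤ) :
    haveI : NeZero q := ⟨hq.out.ne_zero⟩
    betaT p N q (lam (N * q) p ψ) = lam N p (coresEtaPar hqN ℤ ψ) := by
  haveI : NeZero q := ⟨hq.out.ne_zero⟩
  exact map_lam_eq_lam p (betaPush N q) (fun _ _ φ => coresEtaAdd hqN φ)
    (fun n φ => coresEtaAdd_comp hqN (Int.castAddHom (ZMod n)) φ)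
    (fun k y => kappa_mapTors_betaPush hqN H (KummerExplicit.pow_pos' p k) y) ψ _ rfl

/-- **`lam ψ` lies in the `q`-new part of the Tate module** as soon as both corestrictions of `ψ`
vanish. -/
theorem lam_mem_newT (H : HBeta hqN) (ψ : parHomAdd (N * q) ℤ) (h1 : coresAdd hqN ψ.1 = 0)
    (h2 : coresEtaAdd hqN ψ.1 = 0) :
    haveI : NeZero q := ⟨hq.out.ne_zero⟩
    lam (N * q) p ψ ∈ newT p N q := by
  haveI : NeZero q := ⟨hq.out.ne_zero⟩
  exact TatePushAlpha.lam_mem_newT hqN p (fun A _ => coresEtaAdd hqN)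
    (fun n φ => coresEtaAdd_comp hqN (Int.castAddHom (ZMod n)) φ)
    (fun k y => kappa_mapTors_betaPush hqN H (KummerExplicit.pow_pos' p k) y) ψ h1 h2

/-! ### The new vector -/

/-- The two corestrictions as a `Bool`-indexed family of natural operations
(`true ↦ cores_α`, `false ↦ cores_β`). -/
def coresFam (b : Bool) (A : Type) [AddCommGroup A] :
    (Additive ↥(Gamma0 (N * q)) →+ A) →+ (Additive ↥(Gamma0 N) →+ A) :=
  bif b then coresAdd hqN else coresEtaAdd hqN

/-- The two push-forwards as a `Bool`-indexed family (`true ↦ α_*`, `false ↦ β_*`). -/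
def pushFam (N q : ℕ) [NeZero N] [NeZero q] (b : Bool) : JZero (N * q) →+ JZero N :=
  bif b then alphaPush N q else betaPush N q

theorem coresFam_nat (b : Bool) (A B : Type) [AddCommGroup A] [AddCommGroup B] (φ : A →+ B)
    (ψ : Additive ↥(Gamma0 (N * q)) →+ A) :
    coresFam hqN b B (φ.comp ψ) = φ.comp (coresFam hqN b A ψ) := by
  cases b
  · exact coresEtaAdd_comp hqN φ ψ
  · exact coresAdd_comp hqN φ ψ

theorem coresFam_par (b : Bool) (ψ : parHomAdd (N * q) ℤ) :
    coresFam hqN b ℤ ψ.1 ∈ parHomAdd N ℤ := by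
  cases b
  · exact coresEtaAdd_mem_parHomAdd hqN ψ.2
  · exact coresAdd_mem_parHomAdd hqN ψ.2

theorem coresFam_hecke (b : Bool) (ℓ : ℕ) [Fact ℓ.Prime] (hℓM : ¬ ℓ ∣ N * q) (hℓN : ¬ ℓ ∣ N)
    (ψ : parHomAdd (N * q) ℤ) :
    coresFam hqN b ℤ (heckeAdd (N * q) ℓ hℓM ψ.1) = heckeAdd N ℓ hℓN (coresFam hqN b ℤ ψ.1) := by
  cases b
  · exact coresEtaAdd_heckeAdd hqN hℓN hℓM ψ.1
  · exact coresAdd_heckeAdd hqN hℓN hℓM ψ.1

theorem kappa_pushFam (H : HBeta hqN) (b : Bool) (k : ℕ) (y : Jtors (N * q) (p ^ k)) :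
    haveI : NeZero q := ⟨hq.out.ne_zero⟩
    kappa N (p ^ k) (mapTors (pushFam N q b) (p ^ k) y) =
      coresFam hqN b (ZMod (p ^ k)) (kappa (N * q) (p ^ k) y) := by
  haveI : NeZero q := ⟨hq.out.ne_zero⟩
  cases b
  · exact kappa_mapTors_betaPush hqN H (KummerExplicit.pow_pos' p k) y
  · exact TatePushAlpha.kappa_mapTors_alphaPush hqN (KummerExplicit.pow_pos' p k) y

/-- `newT` contains the common kernel of the two push-forwards (it IS that kernel). -/
theorem mem_newT_of_pushFam :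
    haveI : NeZero q := ⟨hq.out.ne_zero⟩
    ∀ z : TJ p (N * q), (∀ b, Tate.map (pushFam N q b) z = 0) → z ∈ newT p N q := by
  haveI : NeZero q := ⟨hq.out.ne_zero⟩
  intro z hz
  exact mem_newT_iff.mpr ⟨hz true, hz false⟩

/-- **[P4-NEW]: the new vector.**  For a newform `g` of level `N q` (`q ∤ N` prime), the
eigencharacter of `g` occurs in the image of `𝒪 ⊗ newT p N q → 𝒪 ⊗ T_p J_0(N q)` — the second
clause of `S35Assembly.NewVectorAtPoly` with `K' := newT p N q`; the only open input is the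
function-level statement `HBeta hqN`. -/
theorem exists_new_vector_newT (H : HBeta hqN) (S : Finset ℕ)
    (hES : ESOnTorsionAll (N * q))
    {𝒪 : Type} [CommRing 𝒪] [IsDomain 𝒪] [CharZero 𝒪] [Algebra ℤ_[p] 𝒪]
    {g : CuspForm (Gamma0 (N * q)) 2} (hg : g.IsNewform)
    (chig : CuspForm.heckeAlgebra (N * q) 2 (↑S : Set ℕ) →+* ℂ)
    (hchig : ∀ (ℓ : ℕ) (hℓ : ℓ.Prime) (hℓM : ¬ ℓ ∣ N * q) (hℓS : ℓ ∉ (↑S : Set ℕ)),
      chig (CuspForm.heckeAlgebra.T hℓ hℓM hℓS) = qCoeff g ℓ)
    (iota : chig.range →+* 𝒪) :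
    haveI : NeZero q := ⟨hq.out.ne_zero⟩
    ∃ v ∈ LinearMap.range
        (((newT p N q : Submodule ℤ_[p] (TJ p (N * q))) :
          Submodule ℤ_[p] (tateData (N * q) p hES).T).subtype.baseChange 𝒪),
      v ≠ 0 ∧
      ∀ i, (S30Assembly.tauT (tateData (N * q) p hES) S i).baseChange 𝒪 v =
        S30Assembly.eigenvalue S 𝒪 (iota.comp chig.rangeRestrict) i • v := by
  haveI : NeZero q := ⟨hq.out.ne_zero⟩
  have hne : N ≠ N * q := by
    intro h
    have h1 : N * 1 = N * q := by rw [mul_one]; exact h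
    exact hq.out.one_lt.ne (Nat.eq_of_mul_eq_mul_left (Nat.pos_of_ne_zero (NeZero.ne N)) h1)
  exact Fermat.Agent.P4S35.NewAssembly.exists_new_vector_tateData p S hES
    (coresFam hqN) (coresFam_nat hqN) (coresFam_par hqN)
    (fun b ℓ _ hℓM hℓN ψ => coresFam_hecke hqN b ℓ hℓM hℓN ψ)
    (pushFam N q) (fun b k y => kappa_pushFam hqN p H b k y)
    hg (Dvd.intro q rfl) hne chig hchig iota (newT p N q) (mem_newT_of_pushFam p)

end Fermat.Agent.P4.NewOfBeta
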