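/-
P4-S35 (helper26): GLUE  `FrobStep` (helper11, top of the geometric chain)  +  `Push`/`PushTate`
([P4-A])  ⇒  THE FROBENIUS RELATION ON THE TATE MODULE OF THE `q`-NEW PART.

* `exists_isDivOf_pushBeta_of_betaPush` : the divisor-level hypothesis `hβ` of
  `FrobStep.relation_of_step` from `Push.betaPush N q x = 0` (twin of helper11's
  `exists_isDivOf_pushAlpha_of_alphaPush`);
* `twJ_eq_zero_of_mem_newPart`, `aeval_eq_zero_of_mem_newPart` : `FrobStepAt N q l` gives
  `∏ (φ^{e_i} − a_i) x = 0` for every `x ∈ newPart N q` killed by `p^k`, `p ≠ q`;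
* ★ `aeval_gal_relPoly_eq_zero_on_newT` : hence `relPoly l (gal φ) = 0` on
  `PushTate.newT p N q ⊆ TJ p (N q)` for EVERY Frobenius lift `φ` at `q` — the first half of the
  hypothesis `hnew` of `P4/S35Assembly` with `K' := newT p N q`;
* `aeval_gal_relPoly_eq_zero_of_frobStep` : the same from `FrobStep l` at all levels.
-/
import Mathlib
import Fermat.Agent.P4.FrobStep
import Fermat.Agent.P4.PushTate

set_option autoImplicit false
set_option linter.unusedSectionVars false

open ModularCurve AlgebraicCurve PadicInt Polynomial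

noncomputable section

namespace Fermat.Agent.P4.NewRelation

open Fermat.Agent.N4F.Adic.TateModule Fermat.Agent.N4F.Adic.TateJ Fermat.Agent.N4F.Res
  Fermat.Agent.N4F.C Fermat.Agent.N4F.C.Galois Fermat.Agent.P3G.GammaDict
  Fermat.Agent.P3G.AuxPrime Fermat.Agent.P4.Push Fermat.Agent.P4.PushTate
  Fermat.Agent.P4.FrobStep

local notation "Qbar" => AlgebraicClosure ℚ
local notation "Γ" => (AlgebraicClosure ℚ ≃ₐ[ℚ] AlgebraicClosure ℚ)

variable {N q : ℕ} [NeZero N] [NeZero q]

/-- The divisor-level hypothesis on `β` from `Push.betaPush`. -/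
theorem exists_isDivOf_pushBeta_of_betaPush {x : JZero (N * q)} (hx : betaPush N q x = 0)
    (D : Divisor.degZero (K := Qb) (F := Fb (N * q))) (hD : Pic0.mk D = x) :
    ∃ hB : Fb N, IsDivOf hB (pushBeta N q (D : Divisor Qb (Fb (N * q)))) := by
  rw [← hD] at hx
  exact (betaPush_mk_eq_zero_iff D).mp hx

/-- **The relation on the `q`-new part of `J_0(N q)[p^k]`** from the Kummer form. -/
theorem twJ_eq_zero_of_mem_newPart {l : List (ℕ × ℤ)} (h : FrobStepAt N q l)
    (A : ValuationSubring Qbar) (hA : A.LiesOverPrime q) (φ : Γ) (hφ : A.IsFrobeniusAt φ q)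
    (p : ℕ) (hp : p.Prime) (hpq : p ≠ q) (k : ℕ) {x : JZero (N * q)} (hx : p ^ k • x = 0)
    (hnew : x ∈ newPart N q) : twJ (N * q) l φ x = 0 := by
  obtain ⟨h1, h2⟩ := mem_newPart_iff.mp hnew
  exact relation_of_step h A hA φ hφ p hp hpq k x hx
    (fun D hD => exists_isDivOf_pushAlpha_of_alphaPush h1 D hD)
    (fun D hD => exists_isDivOf_pushBeta_of_betaPush h2 D hD)

/-- The same in polynomial form. -/
theorem aeval_eq_zero_of_mem_newPart {l : List (ℕ × ℤ)} (h : FrobStepAt N q l)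
    (A : ValuationSubring Qbar) (hA : A.LiesOverPrime q) (φ : Γ) (hφ : A.IsFrobeniusAt φ q)
    (p : ℕ) (hp : p.Prime) (hpq : p ≠ q) (k : ℕ) {x : JZero (N * q)} (hx : p ^ k • x = 0)
    (hnew : x ∈ newPart N q) : galPoly (N * q) φ (relPoly l) x = 0 := by
  have h1 := twJ_eq_zero_of_mem_newPart h A hA φ hφ p hp hpq k hx hnew
  rw [← aeval_relPoly_apply] at h1
  exact h1

/-- ★ **The Frobenius relation on the Tate module of the `q`-new part**: for every Frobenius lift
`φ` at `q ≠ p`, `∏ (gal(φ)^{e_i} − a_i)` kills `newT p N q`. -/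
theorem aeval_gal_relPoly_eq_zero_on_newT (p : ℕ) [hp : Fact p.Prime] {l : List (ℕ × ℤ)}
    (h : FrobStepAt N q l) (hpq : p ≠ q)
    (A : ValuationSubring Qbar) (hA : A.LiesOverPrime q) (φ : Γ) (hφ : A.IsFrobeniusAt φ q) :
    ∀ x ∈ newT p N q, aeval (gal p (N * q) φ) (relPoly l) x = 0 :=
  aeval_gal_eq_zero_on_newT φ (relPoly l) fun k _ hy hky =>
    aeval_eq_zero_of_mem_newPart h A hA φ hφ p hp.out hpq k hky hy

/-- The same from the statement at all levels. -/
theorem aeval_gal_relPoly_eq_zero_of_frobStep (p : ℕ) [hp : Fact p.Prime]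
    {l : ℕ → List (ℕ × ℤ)} (h : FrobStep l) (hq : q.Prime) (hqN : ¬ q ∣ N) (hpq : p ≠ q)
    (A : ValuationSubring Qbar) (hA : A.LiesOverPrime q) (φ : Γ) (hφ : A.IsFrobeniusAt φ q) :
    ∀ x ∈ newT p N q, aeval (gal p (N * q) φ) (relPoly (l q)) x = 0 :=
  aeval_gal_relPoly_eq_zero_on_newT p (h N q hq hqN) hpq A hA φ hφ

end Fermat.Agent.P4.NewRelation
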