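/-
P4-S35, small leaf (helper3): NORMS ALONG THE DEGENERACY MAPS ARE GALOIS-EQUIVARIANT.

* generic: `φ : F → F'` an embedding of fields, `σ`, `σ'` ring automorphisms of `F`, `F'` with
  `σ' ∘ φ = φ ∘ σ`; then `N_φ (σ' y) = σ (N_φ y)` (`norm_apply_of_comm`), also in the `normAlong`
  language of `P4/FrobStep` and for semilinear automorphisms (`normAlong_smul_of_intertwines`);
* over `Q̄`: `normAlpha N q (gal (N q) σ • f) = gal N σ • normAlpha N q f`, same for `normBeta`;
* at a Galois-stable level `K`: `normAlong (alphaF (Lvl K) N m) (levelFF K hK (N m) τ • y)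
  = levelFF K hK N τ • normAlong (alphaF (Lvl K) N m) y`, same for `betaF`, every `τ ∈ Γ`.

Consumers: the hypothesis `Nα (τ x) = τ' (Nα x)` of `P4/Toric`, the level-`K` norm equations of
`P4/FrobLevelStep`.
-/
import Mathlib
import Fermat.Agent.P4.FrobStep
import Fermat.Agent.P3G.GammaLevelMaps

set_option autoImplicit false
set_option linter.unusedSectionVars false
set_option linter.style.haveILetI false

open ModularCurve AlgebraicCurve

noncomputable section

namespace Fermat.Agent.P4.NormEquivariant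

/-! ### Generic part -/

section Generic

variable {F F' : Type*} [Field F] [Field F']

/-- The norm along an embedding commutes with a compatible pair of automorphisms. -/
theorem norm_apply_of_comm (φ : F →+* F') (σ : F ≃+* F) (σ' : F' ≃+* F')
    (h : ∀ x, σ' (φ x) = φ (σ x)) (y : F') :
    (letI := φ.toAlgebra; Algebra.norm F (σ' y)) = σ (letI := φ.toAlgebra; Algebra.norm F y) := by
  letI := φ.toAlgebra
  have he : RingHom.comp (algebraMap F F') (σ : F →+* F) =
      RingHom.comp (σ' : F' →+* F') (algebraMap F F') := by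
    ext x
    exact (h x).symm
  have := Algebra.norm_eq_of_equiv_equiv σ σ' he y
  rw [this, RingEquiv.apply_symm_apply]

variable {K : Type*} [Field K] [Algebra K F] [Algebra K F']

open Fermat.Agent.P4.FrobStep

/-- `normAlong` form. -/
theorem normAlong_apply_of_comm (φ : F →ₐ[K] F') (σ : F ≃+* F) (σ' : F' ≃+* F')
    (h : ∀ x, σ' (φ x) = φ (σ x)) (y : F') :
    normAlong φ (σ' y) = σ (normAlong φ y) :=
  norm_apply_of_comm φ.toRingHom σ σ' h y

/-- Semilinear form: if `g'` and `g` are intertwined by `φ`, the norm along `φ` is equivariant. -/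
theorem normAlong_smul_of_intertwines (φ : F →ₐ[K] F') (g : SemilinearAut K F)
    (g' : SemilinearAut K F') (h : ∀ x : F, g' • φ x = φ (g • x)) (y : F') :
    normAlong φ (g' • y) = g • normAlong φ y :=
  normAlong_apply_of_comm φ (SemilinearAut.toRingAut g) (SemilinearAut.toRingAut g') h y

end Generic

/-! ### Over `Q̄` -/

section Bar

open Fermat.Agent.N4F.C Fermat.Agent.N4F.C.Galois Fermat.Agent.N4F.A.GaloisHecke
  Fermat.Agent.P4.FrobStep

local notation "Qbar" => AlgebraicClosure ℚ
local notation "Γ" => (AlgebraicClosure ℚ ≃ₐ[ℚ] AlgebraicClosure ℚ)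

variable (N q : ℕ) [NeZero N] [NeZero q]

theorem normAlpha_gal_smul (σ : Γ) (f : Fb (N * q)) :
    normAlpha N q (gal (N * q) σ • f) = gal N σ • normAlpha N q f :=
  normAlong_smul_of_intertwines (heckeAlphaBar Qbar N q) (gal N σ) (gal (N * q) σ)
    (fun x => intertwines_heckeAlphaBar N q σ x) f

theorem normBeta_gal_smul (σ : Γ) (f : Fb (N * q)) :
    normBeta N q (gal (N * q) σ • f) = gal N σ • normBeta N q f :=
  normAlong_smul_of_intertwines (heckeBetaBar Qbar N q) (gal N σ) (gal (N * q) σ)
    (fun x => intertwines_heckeBetaBar N q σ x) f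

end Bar

/-! ### At a Galois-stable level -/

section Level

open Fermat.Agent.N4F.C Fermat.Agent.N4F.C.Levels Fermat.Agent.N4F.C.Galois
  Fermat.Agent.N4F.E.DegreeLevelRaise Fermat.Agent.P3G.GammaAut Fermat.Agent.P3G.GammaLevelMaps
  Fermat.Agent.P4.FrobStep Fermat.Agent.N4.Setting

local notation "Qbar" => AlgebraicClosure ℚ
local notation "Γ" => (AlgebraicClosure ℚ ≃ₐ[ℚ] AlgebraicClosure ℚ)

variable (K : IntermediateField ℚ Qbar) (hK : ∀ (τ : Γ) (x : Qbar), x ∈ K → τ x ∈ K)
  (N m : ℕ) [NeZero N] [NeZero m]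

theorem normAlong_alphaF_levelFF_smul (τ : Γ) (y : FF (Lvl K) (N * m)) :
    normAlong (alphaF (Lvl K) N m) (levelFF K hK (N * m) τ • y) =
      levelFF K hK N τ • normAlong (alphaF (Lvl K) N m) y :=
  normAlong_smul_of_intertwines (alphaF (Lvl K) N m) (levelFF K hK N τ)
    (levelFF K hK (N * m) τ) (fun x => levelFF_smul_alphaF K hK N m τ x) y

theorem normAlong_betaF_levelFF_smul (τ : Γ) (y : FF (Lvl K) (N * m)) :
    normAlong (betaF (Lvl K) N m) (levelFF K hK (N * m) τ • y) =
      levelFF K hK N τ • normAlong (betaF (Lvl K) N m) y :=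
  normAlong_smul_of_intertwines (betaF (Lvl K) N m) (levelFF K hK N τ)
    (levelFF K hK (N * m) τ) (fun x => levelFF_smul_betaF K hK N m τ x) y

end Level

end Fermat.Agent.P4.NormEquivariant
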