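/-
P4-S35, block [P4-E] (helper27): **the top of the chain — the frozen S35 from the two halves of
`hnew`.**

`S35Assembly.s35_of_tateData_of_new` reduces S35 to `NewVectorAtPoly D S O' χ q P` at every `q ∥ M`,
`q ≠ lam`.  Here we take

* `D := KummerExplicit.tateData M lam hES` (helper7; `T = TJ lam M`, `gal = TateJ.gal`, `f = lam`);
* `K' := PushTate.newT lam N q` (helper26) after writing `M = N * q`;
* `P := FrobStep.relPoly (l q)` for a list of factors `l` with `IsSteinbergPoly q (relPoly (l q))`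
  (e.g. `l = relList`: `(X² - q²)(X² - 1)²`);
* first half  = `FrobRelation.aeval_gal_relPoly_eq_zero_on_newT` (helper11) from `FrobStep l`;
* second half = `NewVectorInput` below (the new vector in `𝒪 ⊗ newT`; helper4's NewAssembly).
-/
import Mathlib
import Fermat.Agent.P4.S35Assembly
import Fermat.Agent.P4.FrobRelation
import Fermat.Agent.P4.KummerExplicit

set_option autoImplicit false
set_option linter.style.haveILetI false
set_option linter.unusedSectionVars false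

open Polynomial TensorProduct

namespace Fermat.Agent.P4.S35Final

open Fermat.Agent.N4F.Adic Fermat.Agent.N4F.Res Fermat.Agent.P4.S35Assembly CuspForm

local notation "Qbar" => AlgebraicClosure ℚ
local notation "Γ" => (AlgebraicClosure ℚ ≃ₐ[ℚ] AlgebraicClosure ℚ)

/-- **The lattice-side input of S35** (the "new vector"): for a newform `g` of level `N * q`
(`q ∤ N`) the character `χ = iota ∘ chig` occurs in the image of `O' ⊗ newT` inside
`O' ⊗ T_lam J₀(N q)`. -/
def NewVectorInput (hES : ∀ (M : ℕ) [NeZero M], ESOnTorsionAll M) : Prop :=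
  ∀ (N q : ℕ) [NeZero N] [NeZero q], q.Prime → ¬ q ∣ N →
    ∀ {g : CuspForm (CongruenceSubgroup.Gamma0 (N * q)) 2}, g.IsNewform →
    ∀ (lam : ℕ) [Fact lam.Prime], q ≠ lam → ∀ (S : Finset ℕ)
      (O' : Type) [CommRing O'] [IsDomain O'] [IsDiscreteValuationRing O']
      [IsAdicComplete (IsLocalRing.maximalIdeal O') O'] [Finite (IsLocalRing.ResidueField O')]
      [CharZero O'] (hlamO' : (lam : O') ∈ IsLocalRing.maximalIdeal O')
      (chig : CuspForm.heckeAlgebra (N * q) 2 (↑S : Set ℕ) →+* ℂ),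
      (∀ (ℓ : ℕ) (hℓ : ℓ.Prime) (hℓM : ¬ ℓ ∣ N * q) (hℓS : ℓ ∉ (↑S : Set ℕ)),
        chig (CuspForm.heckeAlgebra.T hℓ hℓM hℓS) = ModularFormClass.qCoeff g ℓ) →
      ∀ (iota : chig.range →+* O'), lam ∈ S → (∀ r : ℕ, r.Prime → r ∣ N * q → r ∈ S) →
        letI : Algebra ℤ_[lam] O' := padicAlgebra lam O' hlamO'
        ∃ v ∈ LinearMap.range ((PushTate.newT lam N q).subtype.baseChange O'), v ≠ 0 ∧
          ∀ i, (S30Assembly.tauT (KummerExplicit.tateData (N * q) lam (hES (N * q))) S i).baseChange O' v =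
            S30Assembly.eigenvalue S O' (iota.comp chig.rangeRestrict) i • v

/-- **The frozen S35** from Eichler–Shimura on torsion (N4-FULL), the geometric relation
`FrobStep l` for a Steinberg list of factors `l`, and the new vector. -/
theorem s35_of_frobStep_of_newVector (hES : ∀ (M : ℕ) [NeZero M], ESOnTorsionAll M)
    {l : ℕ → List (ℕ × ℤ)} (hl : ∀ q : ℕ, IsSteinbergPoly q (FrobStep.relPoly (l q)))
    (hF : FrobStep.FrobStep l) (hV : NewVectorInput hES)
    {M : ℕ} [NeZero M] {g : CuspForm (CongruenceSubgroup.Gamma0 M) 2} (hg : g.IsNewform)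
    (lam : ℕ) [Fact lam.Prime]
    (S : Finset ℕ)
    (O' : Type) [CommRing O'] [IsDomain O'] [IsDiscreteValuationRing O']
    [IsAdicComplete (IsLocalRing.maximalIdeal O') O'] [Finite (IsLocalRing.ResidueField O')]
    [CharZero O'] (hlamO' : (lam : O') ∈ IsLocalRing.maximalIdeal O')
    (chig : CuspForm.heckeAlgebra M 2 (↑S : Set ℕ) →+* ℂ)
    (hchig : ∀ (ℓ : ℕ) (hℓ : ℓ.Prime) (hℓM : ¬ ℓ ∣ M) (hℓS : ℓ ∉ (↑S : Set ℕ)),
      chig (CuspForm.heckeAlgebra.T hℓ hℓM hℓS) = ModularFormClass.qCoeff g ℓ)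
    (iota : chig.range →+* O')
    (hlamS : lam ∈ S) (hMS : ∀ q : ℕ, q.Prime → q ∣ M → q ∈ S) :
    ∃ (O'' : Type) (_ : CommRing O'') (_ : IsDomain O'') (_ : IsDiscreteValuationRing O'')
      (_ : IsAdicComplete (IsLocalRing.maximalIdeal O'') O'') (_ : Finite (IsLocalRing.ResidueField O''))
      (_ : CharZero O'') (_ : Algebra O' O'') (_ : Module.Finite O' O'') (_ : IsLocalHom (algebraMap O' O'')),
      Function.Injective (algebraMap O' O'') ∧
      ∃ ρ : GaloisRepAdic O'',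
        (∀ (ℓ : ℕ) (hℓ : ℓ.Prime) (hℓM : ¬ ℓ ∣ M) (hℓS : ℓ ∉ (↑S : Set ℕ)),
          ∀ A : ValuationSubring (AlgebraicClosure ℚ), A.LiesOverPrime ℓ →
            ∀ σ : AlgebraicClosure ℚ ≃ₐ[ℚ] AlgebraicClosure ℚ, A.IsFrobeniusAt σ ℓ →
              LinearMap.charpoly (ρ.ρ σ) =
                X ^ 2 - C (algebraMap O' O'' ((iota.comp chig.rangeRestrict) (CuspForm.heckeAlgebra.T hℓ hℓM hℓS))) * X
                  + C ((ℓ : O''))) ∧
        (∀ q : ℕ, q.Prime → q ≠ lam → q ∣ M → ¬ q ^ 2 ∣ M →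
          ∀ A : ValuationSubring (AlgebraicClosure ℚ), A.LiesOverPrime q →
            ∀ σ : AlgebraicClosure ℚ ≃ₐ[ℚ] AlgebraicClosure ℚ, A.IsFrobeniusAt σ q →
              LinearMap.charpoly (ρ.ρ σ) = X ^ 2 - C ((q : O'') + 1) * X + C ((q : O'')) ∨
              LinearMap.charpoly (ρ.ρ σ) = X ^ 2 + C ((q : O'') + 1) * X + C ((q : O''))) := by
  letI : Algebra ℤ_[lam] O' := padicAlgebra lam O' hlamO'
  refine s35_of_tateData_of_new lam S O' hlamO' chig iota hlamS hMS
    (KummerExplicit.tateData M lam (hES M)) ?_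
  intro q hq hql hqM hq2
  -- write `M = N * q`
  obtain ⟨N, rfl⟩ := exists_eq_mul_left_of_dvd hqM
  have hN0 : N ≠ 0 := fun h => NeZero.ne (N * q) (by rw [h, zero_mul])
  haveI : NeZero N := ⟨hN0⟩
  haveI : NeZero q := ⟨hq.ne_zero⟩
  have hqN : ¬ q ∣ N := by
    rintro ⟨N', rfl⟩
    exact hq2 ⟨N', by ring⟩
  refine ⟨FrobStep.relPoly (l q), hl q, PushTate.newT lam N q, ?_, ?_⟩
  · intro A hA φ hφ x hx
    exact FrobRelation.aeval_gal_relPoly_eq_zero_on_newT hF hq hqN A hA φ hφ lam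
      (fun h => hql h.symm) x hx
  · exact hV N q hq hqN hg lam hql S O' hlamO' chig hchig iota hlamS hMS

/-- **The frozen S35** from Eichler–Shimura on torsion (N4-FULL), the geometric relation at stable
levels `LevelFrob relList` (= `(φ² - q²)(φ² - 1)² = 0` on the `q`-new part; P4-Q5), and the new
vector (P4-NEW). -/
theorem s35_of_levelFrob_of_newVector (hES : ∀ (M : ℕ) [NeZero M], ESOnTorsionAll M)
    (hF : LevelFrobStep.LevelFrob FrobStep.relList) (hV : NewVectorInput hES)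
    {M : ℕ} [NeZero M] {g : CuspForm (CongruenceSubgroup.Gamma0 M) 2} (hg : g.IsNewform)
    (lam : ℕ) [Fact lam.Prime]
    (S : Finset ℕ)
    (O' : Type) [CommRing O'] [IsDomain O'] [IsDiscreteValuationRing O']
    [IsAdicComplete (IsLocalRing.maximalIdeal O') O'] [Finite (IsLocalRing.ResidueField O')]
    [CharZero O'] (hlamO' : (lam : O') ∈ IsLocalRing.maximalIdeal O')
    (chig : CuspForm.heckeAlgebra M 2 (↑S : Set ℕ) →+* ℂ)
    (hchig : ∀ (ℓ : ℕ) (hℓ : ℓ.Prime) (hℓM : ¬ ℓ ∣ M) (hℓS : ℓ ∉ (↑S : Set ℕ)),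
      chig (CuspForm.heckeAlgebra.T hℓ hℓM hℓS) = ModularFormClass.qCoeff g ℓ)
    (iota : chig.range →+* O')
    (hlamS : lam ∈ S) (hMS : ∀ q : ℕ, q.Prime → q ∣ M → q ∈ S) :
    ∃ (O'' : Type) (_ : CommRing O'') (_ : IsDomain O'') (_ : IsDiscreteValuationRing O'')
      (_ : IsAdicComplete (IsLocalRing.maximalIdeal O'') O'') (_ : Finite (IsLocalRing.ResidueField O''))
      (_ : CharZero O'') (_ : Algebra O' O'') (_ : Module.Finite O' O'') (_ : IsLocalHom (algebraMap O' O'')),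
      Function.Injective (algebraMap O' O'') ∧
      ∃ ρ : GaloisRepAdic O'',
        (∀ (ℓ : ℕ) (hℓ : ℓ.Prime) (hℓM : ¬ ℓ ∣ M) (hℓS : ℓ ∉ (↑S : Set ℕ)),
          ∀ A : ValuationSubring (AlgebraicClosure ℚ), A.LiesOverPrime ℓ →
            ∀ σ : AlgebraicClosure ℚ ≃ₐ[ℚ] AlgebraicClosure ℚ, A.IsFrobeniusAt σ ℓ →
              LinearMap.charpoly (ρ.ρ σ) =
                X ^ 2 - C (algebraMap O' O'' ((iota.comp chig.rangeRestrict) (CuspForm.heckeAlgebra.T hℓ hℓM hℓS))) * X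
                  + C ((ℓ : O''))) ∧
        (∀ q : ℕ, q.Prime → q ≠ lam → q ∣ M → ¬ q ^ 2 ∣ M →
          ∀ A : ValuationSubring (AlgebraicClosure ℚ), A.LiesOverPrime q →
            ∀ σ : AlgebraicClosure ℚ ≃ₐ[ℚ] AlgebraicClosure ℚ, A.IsFrobeniusAt σ q →
              LinearMap.charpoly (ρ.ρ σ) = X ^ 2 - C ((q : O'') + 1) * X + C ((q : O'')) ∨
              LinearMap.charpoly (ρ.ρ σ) = X ^ 2 + C ((q : O'') + 1) * X + C ((q : O''))) :=
  s35_of_frobStep_of_newVector hES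
    (fun q => by rw [FrobStep.relPoly_relList]; exact IsSteinbergPoly.relLong)
    (LevelFrobStep.frobStep_of_levelFrob hF) hV hg lam S O' hlamO' chig hchig iota hlamS hMS

end Fermat.Agent.P4.S35Final
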