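/-
P4-S35, node (N4), the `β`-instance of the Tate-level glue (helper7).

`q ∤ N` prime.  The explicit Kummer maps intertwine `β_* : J_0(Nq) → J_0(N)` with helper2's second
corestriction `CoresEta.coresEtaAdd hqN = coresAdd ∘ (· ∘ alConj)`:

* `alConj_eq` : helper24's analytic Atkin–Lehner conjugation `NormBeta.alConj` for the datum
  `γ₀ = AtkinLehnerGamma.alGammaSL hqN` IS helper2's `AtkinLehner.alConj hqN`;
* `kappa_mapTors_betaPush` : `κ^N_n (β_* y) = coresEtaAdd (κ^{Nq}_n y)`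
  (= `KummerPushBetaPic.kappa_betaPush` fed with `KummerPushBeta.kummerChar_norm_betaPush` at `γ₀`
  and helper2's transversal `coresRep`) — the hypothesis `hπβ` of `P4S35/NewInstance`;
* `betaT_lam` : `betaT (lam_{Nq} ψ) = lam_N (coresEtaPar ψ)`;
* `lam_mem_newT` : `coresAdd ψ = 0 → coresEtaAdd ψ = 0 → lam_{Nq} ψ ∈ newT p N q`, unconditionally.
-/
import Mathlib
import Fermat.Agent.P4.TatePushAlpha
import Fermat.Agent.P4.KummerPushBetaPic
import Fermat.Agent.P4.KummerPushBeta
import Fermat.Agent.P4.CoresEta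
import Fermat.Agent.P4.AtkinLehnerGamma

set_option autoImplicit false
set_option linter.unusedSectionVars false

open CongruenceSubgroup ModularCurve AlgebraicCurve PadicInt
open scoped MatrixGroups

noncomputable section

namespace Fermat.Agent.P4.TatePushBeta

open Fermat.Agent.N4F.Res Fermat.Agent.N4F.Tors.HeckeHom Fermat.Agent.N4F.Tors.Outputs
open Fermat.Agent.N4F.Adic Fermat.Agent.N4F.Adic.TateModule Fermat.Agent.N4F.Adic.TateJ
open Fermat.Agent.P4.KummerExplicit Fermat.Agent.P4.TatePush Fermat.Agent.P4.Cores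
open Fermat.Agent.P4.Push Fermat.Agent.P4.PushTate Fermat.Agent.P4.CoresEta
open Fermat.Agent.P4.AtkinLehnerGamma Fermat.Agent.P3LR.A.IntMat
open Fermat.Agent.M2
open P2MW.S_ModularForm_heckeT_slash_eq_self_of_mem_Gamma0.ModularForm.HeckeSlashInvariance

variable {N q : ℕ} [NeZero N] [hq : Fact q.Prime] (hqN : ¬ q ∣ N)

/-- helper2's `γ₀ = [d, -b; -N, q]` is an Atkin–Lehner datum in helper24's sense. -/
theorem isAL_alGammaSL : NormBeta.IsAL N q (alGammaSL hqN) :=
  ⟨alGammaSL_mem hqN, dvd_alGammaSL_one_one hqN⟩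

/-- `diag(q, 1) x = conjGamma0(x) diag(q, 1)`. -/
theorem etaMat_mul_eq (x : SL(2, ℤ)) (hx : x ∈ Gamma0 q) :
    AtkinLehner.etaMat q * (x : MI) = ((JN.conjGamma0 q x hx : SL(2, ℤ)) : MI) *
      AtkinLehner.etaMat q := by
  have hdvd : (q : ℤ) ∣ x 1 0 := by
    rw [Gamma0_mem] at hx
    exact (ZMod.intCast_zmod_eq_zero_iff_dvd _ _).mp hx
  have h10 : x 1 0 / (q : ℤ) * (q : ℤ) = x 1 0 := Int.ediv_mul_cancel hdvd
  have e : ((JN.conjGamma0 q x hx : SL(2, ℤ)) : MI) =
      !![x 0 0, (q : ℤ) * x 0 1; x 1 0 / (q : ℤ), x 1 1] := rfl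
  rw [e, AtkinLehner.etaMat]
  ext i j
  fin_cases i <;> fin_cases j <;>
    simp [Matrix.mul_apply, Fin.sum_univ_two, h10, mul_comm]

/-- **The two Atkin–Lehner conjugations agree**: helper24's analytic `NormBeta.alConj` at the datum
`γ₀` is helper2's `AtkinLehner.alConj hqN`. -/
theorem alConj_eq (c : ↥(Gamma0 (N * q))) :
    NormBeta.alConj (isAL_alGammaSL hqN) c = AtkinLehner.alConj hqN c := by
  apply Subtype.ext
  rw [NormBeta.coe_alConj]
  exact (alConj_eq_gamma_conj hqN c _ (etaMat_mul_eq _ _)).symm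

/-- **(N4b) for the explicit Kummer maps and helper2's second corestriction.** -/
theorem kappa_mapTors_betaPush {n : ℕ} (hn : 0 < n) (y : Jtors (N * q) n) :
    kappa N n (mapTors (betaPush N q) n y) = coresEtaAdd hqN (kappa (N * q) n y) := by
  refine AddMonoidHom.ext fun g => ?_
  obtain ⟨g, rfl⟩ := Additive.ofMul.surjective g
  have h := KummerPushBetaPic.kappa_betaPush
    (fun g x => NormBeta.alConj (isAL_alGammaSL hqN) (coresCoc hqN g x))
    (fun n _ F hu hu' g => KummerPushBeta.kummerChar_norm_betaPush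
      Fermat.Agent.N4F.Tors.BaseChange.ι hqN (isAL_alGammaSL hqN)
      (fun x => (coresRep hqN x : SL(2, ℤ))) (fun x => (coresRep hqN x).2)
      (existsUnique_mul_inv_mem hqN _ (isTransversal_coresRep hqN))
      (fun g x => redMatrix q (g : SL(2, ℤ)) • x) (coresCoc hqN) (coresRep_mul hqN) F hu hu' g)
    n hn y g
  rw [coresEtaAdd_apply, h]
  refine Finset.sum_congr rfl fun x _ => ?_
  rw [alConj_eq]

variable (p : ℕ) [hp : Fact p.Prime]

/-- **The comparison map intertwines `β_*` on Tate modules with the second corestriction.** -/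
theorem betaT_lam (ψ : parHomAdd (N * q) ℤ) :
    betaT p N q (lam (N * q) p ψ) = lam N p (coresEtaPar hqN ℤ ψ) :=
  map_lam_eq_lam p (betaPush N q) (fun _ _ φ => coresEtaAdd hqN φ)
    (fun n φ => coresEtaAdd_comp hqN (Int.castAddHom (ZMod n)) φ)
    (fun k y => kappa_mapTors_betaPush hqN (KummerExplicit.pow_pos' p k) y) ψ _ rfl

theorem betaT_lam_eq_zero (ψ : parHomAdd (N * q) ℤ) (h : coresEtaAdd hqN ψ.1 = 0) :
    betaT p N q (lam (N * q) p ψ) = 0 :=
  map_lam_eq_zero p (betaPush N q) (fun _ _ φ => coresEtaAdd hqN φ)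
    (fun n φ => coresEtaAdd_comp hqN (Int.castAddHom (ZMod n)) φ)
    (fun k y => kappa_mapTors_betaPush hqN (KummerExplicit.pow_pos' p k) y) ψ h

/-- **`lam ψ` lies in the `q`-new part of the Tate module as soon as both corestrictions of `ψ`
vanish.** -/
theorem lam_mem_newT (ψ : parHomAdd (N * q) ℤ) (h1 : coresAdd hqN ψ.1 = 0)
    (h2 : coresEtaAdd hqN ψ.1 = 0) : lam (N * q) p ψ ∈ newT p N q := by
  rw [mem_newT_iff]
  exact ⟨TatePushAlpha.alphaT_lam_eq_zero hqN p ψ h1, betaT_lam_eq_zero hqN p ψ h2⟩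

end Fermat.Agent.P4.TatePushBeta
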