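/-
P4-S35, abstract core of block [P4-C2] (helper23): **the local calculus of twisted differences**.

P3-G treats an inertia element `σ` (trivial on the residue fields of the vertical valuations) through the
second difference `σ²b·b/(σb)²`.  For S35 one needs the same calculus for `σ := φ²`, `φ` a Frobenius
lift: `σ` still preserves the two vertical valuations `V₁ V₂`, but it acts on the residue fields through
the `m`-th power map on constants (`m = q²`).  The function to be fed to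
`P3G.Assembly.PowCover.no_split_cover_pow` is the *twisted difference* `H := σ u / u ^ m`, where
`u = h / G ^ e` is congruent to a constant unit `c_i` modulo the maximal ideal of `V_i`.

* (T1) `IsLocGen`: local generators of divisors on the places centred at a closed point, transported by
  `(σ, τ)`; products of local equations; the operator `B ↦ σ B' / B ^ m`.
* (T2) `UnitAt`, `MaxAt`: the units and the maximal ideal of the local ring `R_𝔫 ⊆ F`; `frob_unitAt`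
  (the VALUE-1 lemma): if `σ` induces the `m`-th power map on `R ⧸ 𝔫` then `σ x / x ^ m ≡ 1` modulo
  `𝔫 R_𝔫` for every unit `x` of `R_𝔫`; `frob_of_surj`: that hypothesis from `O ↠ R ⧸ 𝔫`.
* (T3) `glue` (node gluing from `𝔫 R_𝔫 = 𝔓₁ R_𝔫 + 𝔓₂ R_𝔫`), `exists_corrector` (one-branch points).
* (T4) `crossing_root`, `branch_root`: the local `e`-th root `≡ 1` modulo both maximal ideals.
* (T5) `exists_twist_sub_one`, `localRoots_twist`: the hypotheses `hh`, `hlocp`, `hlocm` of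
  `no_split_cover_pow` for `H = σ u / u ^ m`.
-/
import Mathlib
import Fermat.Agent.P3G.LocalRootsAt

set_option autoImplicit false
set_option linter.unusedSectionVars false
set_option linter.style.haveILetI false
set_option linter.unusedVariables false

namespace Fermat.Agent.P4.TauDiff

open Fermat.Agent.N4.Chart Fermat.Agent.P3G.Cover.Lift Fermat.Agent.P3G.Cover.OfValuations
open Fermat.Agent.P3G.Assembly.PowCover Fermat.Agent.P3G.SecondDiff Fermat.Agent.P3G.UCrit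
open Fermat.Agent.P3G.LocalRootsAt
open AlgebraicCurve

/-! ## (T1) Local generators of divisors -/

section LocGen

variable {F : Type*} [Field F] {Pl : Type*} {ord : Pl → F → ℤ}

/-- `B` is a local generator of the divisor `D` on the set of places `C` (the places centred at a
closed point): `B ≠ 0` and `ord_Q B = D Q` for `Q ∈ C`. -/
def IsLocGen (ord : Pl → F → ℤ) (C : Set Pl) (D : Pl → ℤ) (B : F) : Prop :=
  B ≠ 0 ∧ ∀ Q ∈ C, ord Q B = D Q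

theorem IsLocGen.ne_zero {C : Set Pl} {D : Pl → ℤ} {B : F} (h : IsLocGen ord C D B) : B ≠ 0 := h.1

theorem IsLocGen.mono {C C' : Set Pl} (hCC' : C ⊆ C') {D : Pl → ℤ} {B : F}
    (h : IsLocGen ord C' D B) : IsLocGen ord C D B :=
  ⟨h.1, fun Q hQ => h.2 Q (hCC' hQ)⟩

theorem IsLocGen.congr {C : Set Pl} {D D' : Pl → ℤ} {B : F} (h : IsLocGen ord C D B)
    (hD : ∀ Q ∈ C, D Q = D' Q) : IsLocGen ord C D' B :=
  ⟨h.1, fun Q hQ => (h.2 Q hQ).trans (hD Q hQ)⟩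

theorem isLocGen_one (hord : OrdMul ord) (C : Set Pl) : IsLocGen ord C (fun _ => 0) (1 : F) :=
  ⟨one_ne_zero, fun Q _ => hord.one Q⟩

theorem IsLocGen.mul (hord : OrdMul ord) {C : Set Pl} {D D' : Pl → ℤ} {B B' : F}
    (h : IsLocGen ord C D B) (h' : IsLocGen ord C D' B') :
    IsLocGen ord C (fun Q => D Q + D' Q) (B * B') :=
  ⟨mul_ne_zero h.1 h'.1, fun Q hQ => by rw [hord Q h.1 h'.1, h.2 Q hQ, h'.2 Q hQ]⟩

theorem IsLocGen.inv (hord : OrdMul ord) {C : Set Pl} {D : Pl → ℤ} {B : F}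
    (h : IsLocGen ord C D B) : IsLocGen ord C (fun Q => - D Q) B⁻¹ :=
  ⟨inv_ne_zero h.1, fun Q hQ => by rw [hord.inv Q h.1, h.2 Q hQ]⟩

theorem IsLocGen.div (hord : OrdMul ord) {C : Set Pl} {D D' : Pl → ℤ} {B B' : F}
    (h : IsLocGen ord C D B) (h' : IsLocGen ord C D' B') :
    IsLocGen ord C (fun Q => D Q - D' Q) (B / B') :=
  ⟨div_ne_zero h.1 h'.1, fun Q hQ => by rw [hord.div Q h.1 h'.1, h.2 Q hQ, h'.2 Q hQ]⟩

theorem IsLocGen.pow (hord : OrdMul ord) {C : Set Pl} {D : Pl → ℤ} {B : F}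
    (h : IsLocGen ord C D B) (n : ℕ) : IsLocGen ord C (fun Q => n * D Q) (B ^ n) :=
  ⟨pow_ne_zero n h.1, fun Q hQ => by rw [hord.pow Q h.1, h.2 Q hQ]⟩

theorem IsLocGen.zpow (hord : OrdMul ord) {C : Set Pl} {D : Pl → ℤ} {B : F}
    (h : IsLocGen ord C D B) (n : ℤ) : IsLocGen ord C (fun Q => n * D Q) (B ^ n) :=
  ⟨zpow_ne_zero n h.1, fun Q hQ => by rw [hord.zpow Q h.1, h.2 Q hQ]⟩

/-- Transport of a local generator by `(σ, τ)`: if `τ⁻¹` maps `C` into `C'` and `B` generates `D` on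
`C'`, then `σ B` generates `τ_* D` on `C`. -/
theorem IsLocGen.map {σ : F ≃+* F} {τ : Equiv.Perm Pl} (hτ : Compat ord σ τ) {C C' : Set Pl}
    (hCC' : ∀ Q ∈ C, τ.symm Q ∈ C') {D : Pl → ℤ} {B : F} (h : IsLocGen ord C' D B) :
    IsLocGen ord C (fun Q => D (τ.symm Q)) (σ B) :=
  ⟨(map_ne_zero σ).2 h.1, fun Q hQ => by rw [hτ.ord_map, h.2 _ (hCC' Q hQ)]⟩

/-- **The twisted difference of local generators**: `σ B' / B ^ m` generates `τ_* D − m D` on `C`, where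
`B` generates `D` on `C` and `B'` generates `D` on a set `C'` containing `τ⁻¹ C`. -/
theorem IsLocGen.twist (hord : OrdMul ord) {σ : F ≃+* F} {τ : Equiv.Perm Pl}
    (hτ : Compat ord σ τ) {C C' : Set Pl} (hCC' : ∀ Q ∈ C, τ.symm Q ∈ C') {D : Pl → ℤ} {B B' : F}
    (h' : IsLocGen ord C' D B') (h : IsLocGen ord C D B) (m : ℕ) :
    IsLocGen ord C (fun Q => D (τ.symm Q) - m * D Q) (σ B' / B ^ m) :=
  (h'.map hτ hCC').div hord (h.pow hord m)

/-- The first difference `σ B' / B` generates `τ_* D − D`. -/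
theorem IsLocGen.firstDiff (hord : OrdMul ord) {σ : F ≃+* F} {τ : Equiv.Perm Pl}
    (hτ : Compat ord σ τ) {C C' : Set Pl} (hCC' : ∀ Q ∈ C, τ.symm Q ∈ C') {D : Pl → ℤ} {B B' : F}
    (h' : IsLocGen ord C' D B') (h : IsLocGen ord C D B) :
    IsLocGen ord C (fun Q => D (τ.symm Q) - D Q) (σ B' / B) :=
  (h'.map hτ hCC').div hord h

/-- **Local generators from local equations (Loc-P)**: `∏_{P ∈ S} b_P ^ {D P}` generates `D` on `C`. -/
theorem isLocGen_prod_zpow (hord : OrdMul ord) (C : Set Pl) (S : Finset Pl) (D : Pl → ℤ)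
    (hD : ∀ P ∈ C, P ∉ S → D P = 0) (b : Pl → F) (hb0 : ∀ P ∈ S, b P ≠ 0)
    (hb1 : ∀ P ∈ S, ord P (b P) = 1) (hb2 : ∀ P ∈ S, ∀ Q ∈ C, Q ≠ P → ord Q (b P) = 0) :
    IsLocGen ord C D (∏ P ∈ S, b P ^ D P) := by
  classical
  refine ⟨Finset.prod_ne_zero_iff.2 fun P hP => zpow_ne_zero _ (hb0 P hP), fun Q hQ => ?_⟩
  rw [hord.prod_zpow Q S _ _ hb0]
  have h1 : ∑ P ∈ S, D P * ord Q (b P) = ∑ P ∈ S, if Q = P then D P else 0 := by
    refine Finset.sum_congr rfl fun P hP => ?_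
    split_ifs with hQP
    · rw [hQP, hb1 P hP, mul_one]
    · rw [hb2 P hP Q hQ hQP, mul_zero]
  rw [h1, Finset.sum_ite_eq]
  split_ifs with hmem
  · rfl
  · exact (hD Q hQ hmem).symm

/-- A valuation preserved by `σ` takes the value `1` on `σ B / B`. -/
theorem valuation_map_div_self {V : ValuationSubring F} {σ : F ≃+* F}
    (hval : ∀ x, V.valuation (σ x) = V.valuation x) {B : F} (hB : B ≠ 0) :
    V.valuation (σ B / B) = 1 := by
  rw [map_div₀, hval, div_self ((map_ne_zero _).2 hB)]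

/-- A valuation preserved by `σ` takes the value `1` on `σ t' / t ^ m` for units `t`, `t'`. -/
theorem valuation_map_div_pow {V : ValuationSubring F} {σ : F ≃+* F}
    (hval : ∀ x, V.valuation (σ x) = V.valuation x) {t t' : F} (ht : V.valuation t = 1)
    (ht' : V.valuation t' = 1) (m : ℕ) : V.valuation (σ t' / t ^ m) = 1 := by
  rw [map_div₀, hval, ht', map_pow, ht, one_pow, div_one]

end LocGen

/-! ## (T2) The local ring `R_𝔫` inside `F` -/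

section UnitAt

variable {R F : Type*} [CommRing R] [IsDomain R] [Field F] [Algebra R F] [IsFractionRing R F]

/-- `x` is a unit of the local ring `R_𝔫 ⊆ F` (the shape used by `P3G.Cover.Main` and
`P3G.Assembly.PowCover.LocalRoots`). -/
def UnitAt (𝔫 : Ideal R) (x : F) : Prop :=
  ∃ a r : R, a ∉ 𝔫 ∧ r ∉ 𝔫 ∧ x * algebraMap R F a = algebraMap R F r

/-- `x` lies in the maximal ideal `𝔫 R_𝔫` of the local ring `R_𝔫 ⊆ F`. -/
def MaxAt (𝔫 : Ideal R) (x : F) : Prop :=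
  ∃ a n : R, a ∉ 𝔫 ∧ n ∈ 𝔫 ∧ x * algebraMap R F a = algebraMap R F n

variable {𝔫 : Ideal R}

theorem algebraMap_ne_zero_of_notMem {a : R} (ha : a ∉ 𝔫) : algebraMap R F a ≠ 0 := by
  intro h0
  apply ha
  have : a = 0 := IsFractionRing.injective R F (by rw [h0, map_zero])
  rw [this]
  exact 𝔫.zero_mem

theorem UnitAt.ne_zero {x : F} (hx : UnitAt 𝔫 x) : x ≠ 0 := by
  obtain ⟨a, r, ha, hr, h⟩ := hx
  intro h0
  rw [h0, zero_mul] at h
  exact algebraMap_ne_zero_of_notMem (F := F) hr h.symm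

theorem unitAt_algebraMap {r : R} (h𝔫 : 𝔫 ≠ ⊤) (hr : r ∉ 𝔫) : UnitAt 𝔫 (algebraMap R F r) :=
  ⟨1, r, fun h => h𝔫 ((Ideal.eq_top_iff_one _).2 h), hr, by rw [map_one, mul_one]⟩

theorem unitAt_one (h𝔫 : 𝔫 ≠ ⊤) : UnitAt 𝔫 (1 : F) := by
  have := unitAt_algebraMap (F := F) h𝔫 (r := 1) (fun h => h𝔫 ((Ideal.eq_top_iff_one _).2 h))
  rwa [map_one] at this

theorem UnitAt.mul [h𝔫 : 𝔫.IsPrime] {x y : F} (hx : UnitAt 𝔫 x) (hy : UnitAt 𝔫 y) :
    UnitAt 𝔫 (x * y) := by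
  obtain ⟨a, r, ha, hr, h⟩ := hx
  obtain ⟨b, s, hb, hs, h'⟩ := hy
  refine ⟨a * b, r * s, fun hab => (h𝔫.mem_or_mem hab).elim ha hb,
    fun hrs => (h𝔫.mem_or_mem hrs).elim hr hs, ?_⟩
  rw [map_mul, map_mul, ← h, ← h']
  ring

theorem UnitAt.inv {x : F} (hx : UnitAt 𝔫 x) : UnitAt 𝔫 x⁻¹ := by
  have hx0 := hx.ne_zero
  obtain ⟨a, r, ha, hr, h⟩ := hx
  refine ⟨r, a, hr, ha, ?_⟩
  rw [← h]
  field_simp

theorem UnitAt.div [h𝔫 : 𝔫.IsPrime] {x y : F} (hx : UnitAt 𝔫 x) (hy : UnitAt 𝔫 y) :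
    UnitAt 𝔫 (x / y) := by
  rw [div_eq_mul_inv]
  exact hx.mul hy.inv

theorem UnitAt.pow [h𝔫 : 𝔫.IsPrime] {x : F} (hx : UnitAt 𝔫 x) (k : ℕ) : UnitAt 𝔫 (x ^ k) := by
  induction k with
  | zero => rw [pow_zero]; exact unitAt_one h𝔫.ne_top
  | succ k ih => rw [pow_succ]; exact ih.mul hx

theorem UnitAt.zpow [h𝔫 : 𝔫.IsPrime] {x : F} (hx : UnitAt 𝔫 x) (k : ℤ) : UnitAt 𝔫 (x ^ k) := by
  cases k with
  | ofNat k => rw [Int.ofNat_eq_natCast, zpow_natCast]; exact hx.pow k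
  | negSucc k => rw [zpow_negSucc]; exact (hx.pow _).inv

theorem MaxAt.neg {x : F} (hx : MaxAt 𝔫 x) : MaxAt 𝔫 (-x) := by
  obtain ⟨a, n, ha, hn, h⟩ := hx
  exact ⟨a, -n, ha, 𝔫.neg_mem hn, by rw [map_neg, ← h, neg_mul]⟩

theorem MaxAt.add [h𝔫 : 𝔫.IsPrime] {x y : F} (hx : MaxAt 𝔫 x) (hy : MaxAt 𝔫 y) :
    MaxAt 𝔫 (x + y) := by
  obtain ⟨a, n, ha, hn, h⟩ := hx
  obtain ⟨b, k, hb, hk, h'⟩ := hy
  refine ⟨a * b, n * b + k * a, fun hab => (h𝔫.mem_or_mem hab).elim ha hb,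
    𝔫.add_mem (𝔫.mul_mem_right _ hn) (𝔫.mul_mem_right _ hk), ?_⟩
  rw [map_add, map_mul, map_mul, map_mul, ← h, ← h']
  ring

theorem MaxAt.sub [h𝔫 : 𝔫.IsPrime] {x y : F} (hx : MaxAt 𝔫 x) (hy : MaxAt 𝔫 y) :
    MaxAt 𝔫 (x - y) := by
  rw [sub_eq_add_neg]
  exact hx.add hy.neg

/-- A unit of `R_𝔫` plus an element of the maximal ideal is a unit. -/
theorem UnitAt.of_sub_maxAt [h𝔫 : 𝔫.IsPrime] {x y : F} (hx : UnitAt 𝔫 x) (hxy : MaxAt 𝔫 (y - x)) :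
    UnitAt 𝔫 y := by
  obtain ⟨a, r, ha, hr, h⟩ := hx
  obtain ⟨b, n, hb, hn, h'⟩ := hxy
  refine ⟨a * b, r * b + n * a, fun hab => (h𝔫.mem_or_mem hab).elim ha hb, fun hmem => ?_, ?_⟩
  · have h1 : r * b ∈ 𝔫 := by
      have := 𝔫.sub_mem hmem (𝔫.mul_mem_right a hn)
      rwa [add_sub_cancel_right] at this
    exact (h𝔫.mem_or_mem h1).elim hr hb
  · rw [map_add, map_mul, map_mul, map_mul, ← h, ← h']
    ring

/-- A unit of `R_𝔫` is a unit of every valuation ring `V ⊇ R` whose centre is contained in `𝔫`. -/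
theorem UnitAt.valuation_eq_one {V : ValuationSubring F} (hRV : ∀ r : R, algebraMap R F r ∈ V)
    (hthr : ∀ r : R, algebraMap R F r ∈ V.nonunits → r ∈ 𝔫) {x : F} (hx : UnitAt 𝔫 x) :
    V.valuation x = 1 := by
  have key : ∀ a : R, a ∉ 𝔫 → V.valuation (algebraMap R F a) = 1 := by
    intro a ha
    refine le_antisymm ((V.valuation_le_one_iff _).2 (hRV a)) (not_lt.1 fun hlt => ?_)
    exact ha (hthr a (V.mem_nonunits_iff.2 hlt))
  obtain ⟨a, r, ha, hr, h⟩ := hx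
  have h1 := congrArg V.valuation h
  rwa [map_mul, key a ha, key r hr, mul_one] at h1

/-- **VALUE-1 lemma.**  If `σ` induces the `m`-th power map on `R ⧸ 𝔫`, then for every unit `x` of
`R_𝔫` the element `σ x / x ^ m` is a unit of `R_𝔫` congruent to `1` modulo the maximal ideal. -/
theorem frob_unitAt [h𝔫 : 𝔫.IsPrime] (σ : F ≃+* F) (m : ℕ)
    (hfrob : ∀ r : R, ∃ n ∈ 𝔫, σ (algebraMap R F r) - algebraMap R F r ^ m = algebraMap R F n)
    {x : F} (hx : UnitAt 𝔫 x) : UnitAt 𝔫 (σ x / x ^ m) ∧ MaxAt 𝔫 (σ x / x ^ m - 1) := by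
  have hx0 := hx.ne_zero
  obtain ⟨a, r, ha, hr, h⟩ := hx
  obtain ⟨na, hna, hσa⟩ := hfrob a
  obtain ⟨nr, hnr, hσr⟩ := hfrob r
  have ha' : a ^ m + na ∉ 𝔫 := fun hmem => by
    have := 𝔫.sub_mem hmem hna
    rw [add_sub_cancel_right] at this
    exact ha (h𝔫.mem_of_pow_mem m this)
  have hr' : r ^ m + nr ∉ 𝔫 := fun hmem => by
    have := 𝔫.sub_mem hmem hnr
    rw [add_sub_cancel_right] at this
    exact hr (h𝔫.mem_of_pow_mem m this)
  have ham : a ^ m ∉ 𝔫 := fun hmem => ha (h𝔫.mem_of_pow_mem m hmem)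
  have hrm : r ^ m ∉ 𝔫 := fun hmem => hr (h𝔫.mem_of_pow_mem m hmem)
  have hσa' : σ (algebraMap R F a) = algebraMap R F (a ^ m + na) := by
    rw [map_add, map_pow, ← hσa]; ring
  have hσr' : σ (algebraMap R F r) = algebraMap R F (r ^ m + nr) := by
    rw [map_add, map_pow, ← hσr]; ring
  have hφa0 : algebraMap R F a ≠ 0 := algebraMap_ne_zero_of_notMem ha
  have hφa'0 : algebraMap R F (a ^ m + na) ≠ 0 := algebraMap_ne_zero_of_notMem ha'
  have hφrm0 : algebraMap R F (r ^ m) ≠ 0 := algebraMap_ne_zero_of_notMem hrm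
  have hxm0 : x ^ m ≠ 0 := pow_ne_zero m hx0
  -- the two relations
  have e1 : σ x * algebraMap R F (a ^ m + na) = algebraMap R F (r ^ m + nr) := by
    rw [← hσa', ← hσr', ← map_mul, h]
  have e2 : x ^ m * algebraMap R F (a ^ m) = algebraMap R F (r ^ m) := by
    rw [map_pow, map_pow, ← mul_pow, h]
  have e3 : σ x / x ^ m * algebraMap R F ((a ^ m + na) * r ^ m) =
      algebraMap R F ((r ^ m + nr) * a ^ m) := by
    rw [map_mul, map_mul, ← e1, ← e2]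
    field_simp
  refine ⟨⟨(a ^ m + na) * r ^ m, (r ^ m + nr) * a ^ m,
    fun hmem => (h𝔫.mem_or_mem hmem).elim ha' hrm,
    fun hmem => (h𝔫.mem_or_mem hmem).elim hr' ham, e3⟩,
    ⟨(a ^ m + na) * r ^ m, nr * a ^ m - na * r ^ m,
      fun hmem => (h𝔫.mem_or_mem hmem).elim ha' hrm,
      𝔫.sub_mem (𝔫.mul_mem_right _ hnr) (𝔫.mul_mem_right _ hna), ?_⟩⟩
  rw [sub_mul, e3, one_mul, ← map_sub]
  congr 1
  ring

/-- The Frobenius congruence on `R` from the congruence on the constants, `O ↠ R ⧸ 𝔫` and the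
stability of `𝔫`. -/
theorem frob_of_surj {O : Type*} [CommRing O] [Algebra O R] [Algebra O F] [IsScalarTower O R F]
    (σ : F ≃+* F) (m : ℕ)
    (hO : ∀ c : O, ∃ n ∈ 𝔫, σ (algebraMap O F c) - algebraMap O F c ^ m = algebraMap R F n)
    (hsurj : ∀ r : R, ∃ c : O, r - algebraMap O R c ∈ 𝔫)
    (hstab : ∀ n ∈ 𝔫, ∃ n' ∈ 𝔫, σ (algebraMap R F n) = algebraMap R F n') :
    ∀ r : R, ∃ n ∈ 𝔫, σ (algebraMap R F r) - algebraMap R F r ^ m = algebraMap R F n := by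
  intro r
  obtain ⟨c, hc⟩ := hsurj r
  obtain ⟨n₀, hn₀, h₀⟩ := hO c
  obtain ⟨n₁, hn₁, h₁⟩ := hstab _ hc
  obtain ⟨k, hk⟩ := sub_dvd_pow_sub_pow r (algebraMap O R c) m
  refine ⟨n₀ + n₁ - (r - algebraMap O R c) * k, 𝔫.sub_mem (𝔫.add_mem hn₀ hn₁)
    (𝔫.mul_mem_right _ hc), ?_⟩
  have hr : algebraMap R F r = algebraMap O F c + algebraMap R F (r - algebraMap O R c) := by
    rw [map_sub, ← IsScalarTower.algebraMap_apply O R F]; ring
  have hpow : algebraMap R F r ^ m =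
      algebraMap O F c ^ m + algebraMap R F ((r - algebraMap O R c) * k) := by
    rw [← hk, map_sub, map_pow, map_pow, ← IsScalarTower.algebraMap_apply O R F]; ring
  rw [hpow]
  conv_lhs => rw [hr]
  rw [map_add, h₁, map_sub, map_add, ← h₀]
  ring

end UnitAt

/-! ## (T3) Node gluing and the one-branch corrector -/

section Glue

variable {R F : Type*} [CommRing R] [IsDomain R] [Field F] [Algebra R F] [IsFractionRing R F]
  {𝔫 : Ideal R}

theorem nu_div_of_val_one (A : ValuationSubring F) {x y : F} (hx : x ∈ A.nonunits)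
    (hy : A.valuation y = 1) : x / y ∈ A.nonunits := by
  rw [A.mem_nonunits_iff] at hx ⊢
  rw [map_div₀, hy, div_one]
  exact hx

theorem val_one_of_sub (A : ValuationSubring F) {x u : F} (hu : A.valuation u = 1)
    (h : x - u ∈ A.nonunits) : A.valuation x = 1 := by
  have h1 : A.valuation (x - u) < A.valuation u := by
    rw [hu]
    exact (A.mem_nonunits_iff).1 h
  have h2 := Valuation.map_add_eq_of_lt_left A.valuation h1
  rwa [add_sub_cancel, hu] at h2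

theorem mem_of_val_one (A : ValuationSubring F) {x : F} (hx : A.valuation x = 1) : x ∈ A :=
  (A.valuation_le_one_iff x).1 hx.le

theorem val_one_of_notMem_nonunits (A : ValuationSubring F) {x : F} (hx : x ∈ A)
    (hx' : x ∉ A.nonunits) : A.valuation x = 1 :=
  le_antisymm ((A.valuation_le_one_iff x).2 hx)
    (not_lt.1 fun hlt => hx' (A.mem_nonunits_iff.2 hlt))

theorem ne_zero_of_val_one (A : ValuationSubring F) {x : F} (hx : A.valuation x = 1) : x ≠ 0 := by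
  intro h0
  rw [h0, map_zero] at hx
  exact zero_ne_one hx

/-- **Node gluing.**  If `𝔫 R_𝔫 = 𝔓₁ R_𝔫 + 𝔓₂ R_𝔫` (`𝔓_i` the centre of `V_i`, both through `𝔫`), two
units of `R_𝔫` with the same value at `𝔫` are the two branch residues of a unit `ν` of `R_𝔫`. -/
theorem glue [h𝔫 : 𝔫.IsPrime] {V₁ V₂ : ValuationSubring F}
    (hRV₁ : ∀ r : R, algebraMap R F r ∈ V₁) (hRV₂ : ∀ r : R, algebraMap R F r ∈ V₂)
    (hthr₁ : ∀ r : R, algebraMap R F r ∈ V₁.nonunits → r ∈ 𝔫)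
    (hthr₂ : ∀ r : R, algebraMap R F r ∈ V₂.nonunits → r ∈ 𝔫)
    (hnode : ∀ n ∈ 𝔫, ∃ a p₁ p₂ : R, a ∉ 𝔫 ∧ algebraMap R F p₁ ∈ V₁.nonunits ∧
      algebraMap R F p₂ ∈ V₂.nonunits ∧ a * n = p₁ + p₂)
    {β₁ β₂ : F} (h₁ : UnitAt 𝔫 β₁) (h₁₂ : MaxAt 𝔫 (β₁ - β₂)) :
    ∃ ν : F, UnitAt 𝔫 ν ∧ ν - β₁ ∈ V₁.nonunits ∧ ν - β₂ ∈ V₂.nonunits := by
  obtain ⟨a, n, ha, hn, h⟩ := h₁₂
  obtain ⟨a', p₁, p₂, ha', hp₁, hp₂, hsum⟩ := hnode n hn
  have haa' : a * a' ∉ 𝔫 := fun hmem => (h𝔫.mem_or_mem hmem).elim ha ha'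
  have hφ0 : algebraMap R F (a * a') ≠ 0 := algebraMap_ne_zero_of_notMem haa'
  have hφa0 : algebraMap R F a ≠ 0 := algebraMap_ne_zero_of_notMem ha
  have hφa'0 : algebraMap R F a' ≠ 0 := algebraMap_ne_zero_of_notMem ha'
  have hv₁ : V₁.valuation (algebraMap R F (a * a')) = 1 :=
    (unitAt_algebraMap h𝔫.ne_top haa').valuation_eq_one hRV₁ hthr₁
  have hv₂ : V₂.valuation (algebraMap R F (a * a')) = 1 :=
    (unitAt_algebraMap h𝔫.ne_top haa').valuation_eq_one hRV₂ hthr₂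
  have hsum' : algebraMap R F a' * algebraMap R F n = algebraMap R F p₁ + algebraMap R F p₂ := by
    rw [← map_mul, hsum, map_add]
  refine ⟨β₁ - algebraMap R F p₁ / algebraMap R F (a * a'), ?_, ?_, ?_⟩
  · refine h₁.of_sub_maxAt ⟨a * a', -p₁, haa', 𝔫.neg_mem (hthr₁ p₁ hp₁), ?_⟩
    rw [map_neg]
    field_simp
    ring
  · have h2 : β₁ - algebraMap R F p₁ / algebraMap R F (a * a') - β₁ =
        -(algebraMap R F p₁ / algebraMap R F (a * a')) := by ring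
    rw [h2]
    exact nu_neg V₁ (nu_div_of_val_one V₁ hp₁ hv₁)
  · have h2 : β₁ - algebraMap R F p₁ / algebraMap R F (a * a') - β₂ =
        algebraMap R F p₂ / algebraMap R F (a * a') := by
      have hb : β₁ - β₂ = (algebraMap R F p₁ + algebraMap R F p₂) /
          (algebraMap R F a * algebraMap R F a') := by
        rw [eq_div_iff (mul_ne_zero hφa0 hφa'0)]
        linear_combination (algebraMap R F a') * h + hsum'
      have h3 : β₁ - algebraMap R F p₁ / algebraMap R F (a * a') - β₂ =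
          (β₁ - β₂) - algebraMap R F p₁ / algebraMap R F (a * a') := by ring
      rw [h3, hb, map_mul]
      ring
    rw [h2]
    exact nu_div_of_val_one V₂ hp₂ hv₂

/-- **Representatives which are units on the other component.**  At a point on `V₁`, a unit of `R_𝔫`
can be changed modulo the maximal ideal of `V₁` into a unit of `R_𝔫` which is also a unit of `V₂`. -/
theorem exists_unitAt_rep [h𝔫 : 𝔫.IsPrime] {V₁ V₂ : ValuationSubring F}
    (hRV₁ : ∀ r : R, algebraMap R F r ∈ V₁) (hRV₂ : ∀ r : R, algebraMap R F r ∈ V₂)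
    (hthr₁ : ∀ r : R, algebraMap R F r ∈ V₁.nonunits → r ∈ 𝔫)
    (r₀ : R) (hr₀ : algebraMap R F r₀ ∈ V₁.nonunits) (hr₀' : algebraMap R F r₀ ∉ V₂.nonunits)
    {v : F} (hv : UnitAt 𝔫 v) :
    ∃ v' : F, UnitAt 𝔫 v' ∧ V₂.valuation v' = 1 ∧ v' - v ∈ V₁.nonunits := by
  have hr₀𝔫 : r₀ ∈ 𝔫 := hthr₁ r₀ hr₀
  have hr₀v : V₂.valuation (algebraMap R F r₀) = 1 := val_one_of_notMem_nonunits V₂ (hRV₂ r₀) hr₀'
  have key : ∀ x : R, x ∉ 𝔫 → ∃ x' : R, x' ∉ 𝔫 ∧ V₂.valuation (algebraMap R F x') = 1 ∧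
      algebraMap R F x' - algebraMap R F x ∈ V₁.nonunits := by
    intro x hx
    by_cases hx2 : algebraMap R F x ∈ V₂.nonunits
    · refine ⟨x + r₀, fun hmem => hx ?_, ?_, ?_⟩
      · have := 𝔫.sub_mem hmem hr₀𝔫
        rwa [add_sub_cancel_right] at this
      · refine val_one_of_sub V₂ hr₀v ?_
        rw [map_add, add_sub_cancel_right]
        exact hx2
      · rw [map_add, add_sub_cancel_left]
        exact hr₀
    · refine ⟨x, hx, val_one_of_notMem_nonunits V₂ (hRV₂ x) hx2, ?_⟩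
      rw [sub_self]
      exact nu_zero V₁
  obtain ⟨a, r, ha, hr, h⟩ := hv
  obtain ⟨a', ha', hva', hda⟩ := key a ha
  obtain ⟨r', hr', hvr', hdr⟩ := key r hr
  have hφa0 : algebraMap R F a ≠ 0 := algebraMap_ne_zero_of_notMem ha
  have hφa'0 : algebraMap R F a' ≠ 0 := algebraMap_ne_zero_of_notMem ha'
  have hv1a : V₁.valuation (algebraMap R F a) = 1 :=
    (unitAt_algebraMap h𝔫.ne_top ha).valuation_eq_one hRV₁ hthr₁
  have hv1a' : V₁.valuation (algebraMap R F a') = 1 :=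
    (unitAt_algebraMap h𝔫.ne_top ha').valuation_eq_one hRV₁ hthr₁
  refine ⟨algebraMap R F r' / algebraMap R F a', ⟨a', r', ha', hr', by field_simp⟩, ?_, ?_⟩
  · rw [map_div₀, hvr', hva', div_one]
  · have hveq : v = algebraMap R F r / algebraMap R F a := by
      rw [← h]; field_simp
    have h2 : algebraMap R F r' / algebraMap R F a' - v =
        ((algebraMap R F r' - algebraMap R F r) * algebraMap R F a -
          algebraMap R F r * (algebraMap R F a' - algebraMap R F a)) /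
          (algebraMap R F a' * algebraMap R F a) := by
      rw [hveq]
      field_simp
      ring
    rw [h2]
    refine nu_div_of_val_one V₁ (nu_sub V₁ (nu_mul' V₁ hdr (hRV₁ a)) (nu_mul V₁ (hRV₁ r) hda)) ?_
    rw [map_mul, hv1a, hv1a', one_mul]

/-- **The one-branch corrector.**  At a point `𝔫` on `V₁` and not on `V₂`, every unit `y` of `V₂` is
congruent modulo the maximal ideal of `V₂` to a unit `ξ` of `R_𝔫` with `ξ ≡ 1` modulo the maximal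
ideal of `V₁`. -/
theorem exists_corrector [h𝔫 : 𝔫.IsPrime] {V₁ V₂ : ValuationSubring F}
    (hRV₁ : ∀ r : R, algebraMap R F r ∈ V₁) (hRV₂ : ∀ r : R, algebraMap R F r ∈ V₂)
    (hthr₁ : ∀ r : R, algebraMap R F r ∈ V₁.nonunits → r ∈ 𝔫)
    (a₀ : R) (ha₀ : algebraMap R F a₀ ∈ V₂.nonunits) (ha₀𝔫 : a₀ ∉ 𝔫)
    (r₀ : R) (hr₀ : algebraMap R F r₀ ∈ V₁.nonunits) (hr₀' : algebraMap R F r₀ ∉ V₂.nonunits)
    (hdense : ∀ y : F, V₂.valuation y = 1 → ∃ a r : R, algebraMap R F a ∉ V₂.nonunits ∧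
      y * algebraMap R F a - algebraMap R F r ∈ V₂.nonunits)
    {y : F} (hy : V₂.valuation y = 1) :
    ∃ ξ : F, UnitAt 𝔫 ξ ∧ ξ - 1 ∈ V₁.nonunits ∧ ξ - y ∈ V₂.nonunits := by
  by_cases hy1 : y - 1 ∈ V₂.nonunits
  · refine ⟨1, unitAt_one h𝔫.ne_top, ?_, ?_⟩
    · rw [sub_self]; exact nu_zero V₁
    · have := nu_neg V₂ hy1
      rwa [neg_sub] at this
  have hyV : y ∈ V₂ := mem_of_val_one V₂ hy
  have hy1V : y - 1 ∈ V₂ := V₂.sub_mem hyV V₂.one_mem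
  have hy1v : V₂.valuation (y - 1) = 1 := val_one_of_notMem_nonunits V₂ hy1V hy1
  obtain ⟨a, r, ha, har⟩ := hdense (y - 1) hy1v
  have hav : V₂.valuation (algebraMap R F a) = 1 := val_one_of_notMem_nonunits V₂ (hRV₂ a) ha
  have hr₀𝔫 : r₀ ∈ 𝔫 := hthr₁ r₀ hr₀
  have hr₀v : V₂.valuation (algebraMap R F r₀) = 1 := val_one_of_notMem_nonunits V₂ (hRV₂ r₀) hr₀'
  have hd𝔫 : r₀ * a + a₀ ∉ 𝔫 := fun hmem => by
    have := 𝔫.sub_mem hmem (𝔫.mul_mem_right a hr₀𝔫)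
    rw [add_sub_cancel_left] at this
    exact ha₀𝔫 this
  have hn𝔫 : r₀ * a + a₀ + r₀ * r ∉ 𝔫 := fun hmem => by
    have := 𝔫.sub_mem hmem (𝔫.mul_mem_right r hr₀𝔫)
    rw [add_sub_cancel_right] at this
    exact hd𝔫 this
  have hφd0 : algebraMap R F (r₀ * a + a₀) ≠ 0 := algebraMap_ne_zero_of_notMem hd𝔫
  have hdv1 : V₁.valuation (algebraMap R F (r₀ * a + a₀)) = 1 :=
    (unitAt_algebraMap h𝔫.ne_top hd𝔫).valuation_eq_one hRV₁ hthr₁
  have hdv2 : V₂.valuation (algebraMap R F (r₀ * a + a₀)) = 1 := by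
    refine val_one_of_sub V₂ (u := algebraMap R F (r₀ * a)) ?_ ?_
    · rw [map_mul, map_mul, hr₀v, hav, one_mul]
    · rw [map_add, add_sub_cancel_left]
      exact ha₀
  refine ⟨algebraMap R F (r₀ * a + a₀ + r₀ * r) / algebraMap R F (r₀ * a + a₀),
    ⟨r₀ * a + a₀, r₀ * a + a₀ + r₀ * r, hd𝔫, hn𝔫, by field_simp⟩, ?_, ?_⟩
  · have h2 : algebraMap R F (r₀ * a + a₀ + r₀ * r) / algebraMap R F (r₀ * a + a₀) - 1 =
        algebraMap R F r₀ * algebraMap R F r / algebraMap R F (r₀ * a + a₀) := by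
      rw [map_add (algebraMap R F) (r₀ * a + a₀), map_mul (algebraMap R F) r₀ r]
      field_simp
      ring
    rw [h2]
    exact nu_div_of_val_one V₁ (nu_mul' V₁ hr₀ (hRV₁ r)) hdv1
  · have h2 : algebraMap R F (r₀ * a + a₀ + r₀ * r) / algebraMap R F (r₀ * a + a₀) - y =
        (-(algebraMap R F r₀ * ((y - 1) * algebraMap R F a - algebraMap R F r)) -
          (y - 1) * algebraMap R F a₀) / algebraMap R F (r₀ * a + a₀) := by
      have h3 : algebraMap R F (r₀ * a + a₀ + r₀ * r) =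
          algebraMap R F (r₀ * a + a₀) + algebraMap R F r₀ * algebraMap R F r := by
        rw [map_add, map_mul (algebraMap R F) r₀ r]
      have h4 : algebraMap R F (r₀ * a + a₀) =
          algebraMap R F r₀ * algebraMap R F a + algebraMap R F a₀ := by
        rw [map_add, map_mul]
      rw [h3]
      field_simp
      rw [h4]
      ring
    rw [h2]
    exact nu_div_of_val_one V₂
      (nu_sub V₂ (nu_neg V₂ (nu_mul V₂ (hRV₂ r₀) har)) (nu_mul V₂ hy1V ha₀)) hdv2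

end Glue

/-! ## (T4) The local roots -/

section Roots

variable {R F : Type*} [CommRing R] [IsDomain R] [Field F] [Algebra R F] [IsFractionRing R F]
  {𝔫 : Ideal R}

/-- Congruent units have congruent twisted quotients `σ x / x ^ m`. -/
theorem map_div_pow_sub_mem {V : ValuationSubring F} {σ : F ≃+* F}
    (hval : ∀ x, V.valuation (σ x) = V.valuation x) {x y : F} (hx : V.valuation x = 1)
    (hy : V.valuation y = 1) (hxy : x - y ∈ V.nonunits) (m : ℕ) :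
    σ x / x ^ m - σ y / y ^ m ∈ V.nonunits := by
  have hx0 : x ≠ 0 := ne_zero_of_val_one V hx
  have hy0 : y ≠ 0 := ne_zero_of_val_one V hy
  have h1 : σ x - σ y ∈ V.nonunits := by
    rw [← map_sub, V.mem_nonunits_iff, hval]
    exact V.mem_nonunits_iff.1 hxy
  have h2 : x ^ m - y ^ m ∈ V.nonunits :=
    pow_sub_pow_mem V (mem_of_val_one V hx) (mem_of_val_one V hy) hxy m
  have hxm : V.valuation (x ^ m) = 1 := by rw [map_pow, hx, one_pow]
  have hym : V.valuation (y ^ m) = 1 := by rw [map_pow, hy, one_pow]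
  have hσy : V.valuation (σ y) = 1 := by rw [hval, hy]
  have h3 : σ x / x ^ m - σ y / y ^ m =
      ((σ x - σ y) * y ^ m - σ y * (x ^ m - y ^ m)) / (x ^ m * y ^ m) := by
    field_simp
    ring
  rw [h3]
  refine nu_div_of_val_one V (nu_sub V (nu_mul' V h1 (mem_of_val_one V hym))
    (nu_mul V (mem_of_val_one V hσy) h2)) ?_
  rw [map_mul, hxm, hym, one_mul]

/-- **Local root at a `σ`-fixed crossing point.**

`V₁ V₂ ⊇ R` both centred inside `𝔫`; `σ` preserves both valuations and induces the `m`-th power map on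
`R ⧸ 𝔫` (`hfrob`); `𝔫 R_𝔫 = 𝔓₁ R_𝔫 + 𝔓₂ R_𝔫` (`hnode`); the two branches are normal at `𝔫`
(`hnorm₁ hnorm₂`: an element of the residue field of `V_i` whose `e`-th power is the residue of a unit
of `R_𝔫` is itself the residue of a unit of `R_𝔫`).  `u ≡ c_i` modulo the maximal ideal of `V_i` with
`c_i` units at `𝔫`, and `A` is a `V_i`-unit with `u / A ^ e` a unit at `𝔫`.  Then
`H = σ u / u ^ m` has a local `e`-th root `η ≡ 1` modulo both maximal ideals: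
`η = (σ A / A ^ m) / ν`. -/
theorem crossing_root [h𝔫 : 𝔫.IsPrime] {V₁ V₂ : ValuationSubring F}
    (hRV₁ : ∀ r : R, algebraMap R F r ∈ V₁) (hRV₂ : ∀ r : R, algebraMap R F r ∈ V₂)
    (hthr₁ : ∀ r : R, algebraMap R F r ∈ V₁.nonunits → r ∈ 𝔫)
    (hthr₂ : ∀ r : R, algebraMap R F r ∈ V₂.nonunits → r ∈ 𝔫)
    (σ : F ≃+* F) (hval₁ : ∀ x, V₁.valuation (σ x) = V₁.valuation x)
    (hval₂ : ∀ x, V₂.valuation (σ x) = V₂.valuation x) (m e : ℕ)
    (hfrob : ∀ r : R, ∃ n ∈ 𝔫, σ (algebraMap R F r) - algebraMap R F r ^ m = algebraMap R F n)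
    (hnode : ∀ n ∈ 𝔫, ∃ a p₁ p₂ : R, a ∉ 𝔫 ∧ algebraMap R F p₁ ∈ V₁.nonunits ∧
      algebraMap R F p₂ ∈ V₂.nonunits ∧ a * n = p₁ + p₂)
    (hnorm₁ : ∀ x : F, V₁.valuation x = 1 → (∃ v, UnitAt 𝔫 v ∧ x ^ e - v ∈ V₁.nonunits) →
      ∃ v, UnitAt 𝔫 v ∧ x - v ∈ V₁.nonunits)
    (hnorm₂ : ∀ x : F, V₂.valuation x = 1 → (∃ v, UnitAt 𝔫 v ∧ x ^ e - v ∈ V₂.nonunits) →
      ∃ v, UnitAt 𝔫 v ∧ x - v ∈ V₂.nonunits)
    {u A c₁ c₂ : F} (hc₁ : UnitAt 𝔫 c₁) (hc₂ : UnitAt 𝔫 c₂)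
    (hu₁ : u - c₁ ∈ V₁.nonunits) (hu₂ : u - c₂ ∈ V₂.nonunits)
    (hA₁ : V₁.valuation A = 1) (hA₂ : V₂.valuation A = 1)
    (hω : UnitAt 𝔫 (u / A ^ e)) :
    ∃ η : F, η ≠ 0 ∧ UnitAt 𝔫 (σ u / u ^ m / η ^ e) ∧ η - 1 ∈ V₁.nonunits ∧
      η - 1 ∈ V₂.nonunits := by
  have hA0 : A ≠ 0 := ne_zero_of_val_one V₁ hA₁
  have hAe0 : A ^ e ≠ 0 := pow_ne_zero e hA0
  have hω0 : u / A ^ e ≠ 0 := hω.ne_zero
  have hu0 : u ≠ 0 := fun h0 => hω0 (by rw [h0, zero_div])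
  -- the branch residues of `A` are units at `𝔫`
  have step : ∀ (V : ValuationSubring F) (c : F), (∀ r : R, algebraMap R F r ∈ V) →
      (∀ r : R, algebraMap R F r ∈ V.nonunits → r ∈ 𝔫) → UnitAt 𝔫 c → u - c ∈ V.nonunits →
      ∃ v, UnitAt 𝔫 v ∧ A ^ e - v ∈ V.nonunits := by
    intro V c hRV hthr hc huc
    refine ⟨c / (u / A ^ e), hc.div hω, ?_⟩
    have hωv : V.valuation (u / A ^ e) = 1 := hω.valuation_eq_one hRV hthr
    have h1 : A ^ e - c / (u / A ^ e) = (u - c) / (u / A ^ e) := by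
      field_simp
    rw [h1]
    exact nu_div_of_val_one V huc hωv
  obtain ⟨α₁, hα₁, hAα₁⟩ := hnorm₁ A hA₁ (step V₁ c₁ hRV₁ hthr₁ hc₁ hu₁)
  obtain ⟨α₂, hα₂, hAα₂⟩ := hnorm₂ A hA₂ (step V₂ c₂ hRV₂ hthr₂ hc₂ hu₂)
  obtain ⟨hβ₁, hβ₁m⟩ := frob_unitAt σ m hfrob hα₁
  obtain ⟨hβ₂, hβ₂m⟩ := frob_unitAt σ m hfrob hα₂
  have hTβ₁ : σ A / A ^ m - σ α₁ / α₁ ^ m ∈ V₁.nonunits :=
    map_div_pow_sub_mem hval₁ hA₁ (hα₁.valuation_eq_one hRV₁ hthr₁) hAα₁ m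
  have hTβ₂ : σ A / A ^ m - σ α₂ / α₂ ^ m ∈ V₂.nonunits :=
    map_div_pow_sub_mem hval₂ hA₂ (hα₂.valuation_eq_one hRV₂ hthr₂) hAα₂ m
  have hβ₁₂ : MaxAt 𝔫 (σ α₁ / α₁ ^ m - σ α₂ / α₂ ^ m) := by
    have h1 : σ α₁ / α₁ ^ m - σ α₂ / α₂ ^ m =
        (σ α₁ / α₁ ^ m - 1) - (σ α₂ / α₂ ^ m - 1) := by ring
    rw [h1]
    exact hβ₁m.sub hβ₂m
  obtain ⟨ν, hν, hν₁, hν₂⟩ := glue hRV₁ hRV₂ hthr₁ hthr₂ hnode hβ₁ hβ₁₂
  have hν0 : ν ≠ 0 := hν.ne_zero
  have hνv₁ : V₁.valuation ν = 1 := hν.valuation_eq_one hRV₁ hthr₁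
  have hνv₂ : V₂.valuation ν = 1 := hν.valuation_eq_one hRV₂ hthr₂
  have hσA0 : σ A ≠ 0 := (map_ne_zero σ).2 hA0
  have hσu0 : σ u ≠ 0 := (map_ne_zero σ).2 hu0
  have hT0 : σ A / A ^ m ≠ 0 := div_ne_zero hσA0 (pow_ne_zero m hA0)
  refine ⟨σ A / A ^ m / ν, div_ne_zero hT0 hν0, ?_, ?_, ?_⟩
  · have h1 : σ u / u ^ m / (σ A / A ^ m / ν) ^ e =
        σ (u / A ^ e) / (u / A ^ e) ^ m * ν ^ e := by
      rw [map_div₀, map_pow]
      simp only [div_pow, ← pow_mul]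
      have hAem : A ^ (e * m) ≠ 0 := pow_ne_zero _ hA0
      have hAme : A ^ (m * e) ≠ 0 := pow_ne_zero _ hA0
      field_simp
      rw [mul_comm e m]
    rw [h1]
    exact (frob_unitAt σ m hfrob hω).1.mul (hν.pow e)
  · have h1 : σ A / A ^ m / ν - 1 =
        ((σ A / A ^ m - σ α₁ / α₁ ^ m) - (ν - σ α₁ / α₁ ^ m)) / ν := by
      field_simp
      ring
    rw [h1]
    exact nu_div_of_val_one V₁ (nu_sub V₁ hTβ₁ hν₁) hνv₁
  · have h1 : σ A / A ^ m / ν - 1 =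
        ((σ A / A ^ m - σ α₂ / α₂ ^ m) - (ν - σ α₂ / α₂ ^ m)) / ν := by
      field_simp
      ring
    rw [h1]
    exact nu_div_of_val_one V₂ (nu_sub V₂ hTβ₂ hν₂) hνv₂

/-- **Local root at a point lying on `V₁` only.**  No hypothesis on the action of `σ` at the point:
`H ≡ 1` modulo the maximal ideal of `V₁`, `T` a unit of both valuation rings with `H / T ^ e` a unit at
`𝔫`; the branch `V₁` is normal at `𝔫` and `hcorr` is the conclusion of `exists_corrector`. -/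
theorem branch_root [h𝔫 : 𝔫.IsPrime] {V₁ V₂ : ValuationSubring F}
    (hRV₁ : ∀ r : R, algebraMap R F r ∈ V₁) (hRV₂ : ∀ r : R, algebraMap R F r ∈ V₂)
    (hthr₁ : ∀ r : R, algebraMap R F r ∈ V₁.nonunits → r ∈ 𝔫) (e : ℕ)
    (r₀ : R) (hr₀ : algebraMap R F r₀ ∈ V₁.nonunits) (hr₀' : algebraMap R F r₀ ∉ V₂.nonunits)
    (hnorm₁ : ∀ x : F, V₁.valuation x = 1 → (∃ v, UnitAt 𝔫 v ∧ x ^ e - v ∈ V₁.nonunits) →
      ∃ v, UnitAt 𝔫 v ∧ x - v ∈ V₁.nonunits)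
    (hcorr : ∀ y : F, V₂.valuation y = 1 →
      ∃ ξ : F, UnitAt 𝔫 ξ ∧ ξ - 1 ∈ V₁.nonunits ∧ ξ - y ∈ V₂.nonunits)
    {H T : F} (hH₁ : H - 1 ∈ V₁.nonunits)
    (hT₁ : V₁.valuation T = 1) (hT₂ : V₂.valuation T = 1) (hω : UnitAt 𝔫 (H / T ^ e)) :
    ∃ η : F, η ≠ 0 ∧ UnitAt 𝔫 (H / η ^ e) ∧ η - 1 ∈ V₁.nonunits ∧ η - 1 ∈ V₂.nonunits := by
  have hT0 : T ≠ 0 := ne_zero_of_val_one V₁ hT₁
  have hTe0 : T ^ e ≠ 0 := pow_ne_zero e hT0
  have hω0 : H / T ^ e ≠ 0 := hω.ne_zero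
  have hH0 : H ≠ 0 := fun h0 => hω0 (by rw [h0, zero_div])
  have hωv : V₁.valuation (H / T ^ e) = 1 := hω.valuation_eq_one hRV₁ hthr₁
  obtain ⟨v, hv, hTv⟩ := hnorm₁ T hT₁ ⟨(H / T ^ e)⁻¹, hω.inv, by
    have h1 : T ^ e - (H / T ^ e)⁻¹ = (H - 1) / (H / T ^ e) := by
      field_simp
    rw [h1]
    exact nu_div_of_val_one V₁ hH₁ hωv⟩
  obtain ⟨α, hα, hα₂, hαv⟩ := exists_unitAt_rep hRV₁ hRV₂ hthr₁ r₀ hr₀ hr₀' hv
  have hα0 : α ≠ 0 := hα.ne_zero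
  have hα₁ : V₁.valuation α = 1 := hα.valuation_eq_one hRV₁ hthr₁
  have hTα : T - α ∈ V₁.nonunits := by
    have h1 : T - α = (T - v) - (α - v) := by ring
    rw [h1]
    exact nu_sub V₁ hTv hαv
  have hy : V₂.valuation (T / α) = 1 := by rw [map_div₀, hT₂, hα₂, div_one]
  obtain ⟨ξ, hξ, hξ₁, hξ₂⟩ := hcorr (T / α) hy
  have hξ0 : ξ ≠ 0 := hξ.ne_zero
  have hξv₁ : V₁.valuation ξ = 1 := val_one_of_sub V₁ (map_one _) hξ₁
  have hξv₂ : V₂.valuation ξ = 1 := val_one_of_sub V₂ hy hξ₂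
  refine ⟨T / (α * ξ), div_ne_zero hT0 (mul_ne_zero hα0 hξ0), ?_, ?_, ?_⟩
  · have h1 : H / (T / (α * ξ)) ^ e = H / T ^ e * (α * ξ) ^ e := by
      rw [div_pow]
      have : (α * ξ) ^ e ≠ 0 := pow_ne_zero e (mul_ne_zero hα0 hξ0)
      field_simp
    rw [h1]
    exact hω.mul ((hα.mul hξ).pow e)
  · have h1 : T / (α * ξ) - 1 = ((T - α) - α * (ξ - 1)) / (α * ξ) := by
      field_simp
      ring
    rw [h1]
    refine nu_div_of_val_one V₁ (nu_sub V₁ hTα (nu_mul V₁ (mem_of_val_one V₁ hα₁) hξ₁)) ?_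
    rw [map_mul, hα₁, hξv₁, one_mul]
  · have h1 : T / (α * ξ) - 1 = -(ξ - T / α) / ξ := by
      field_simp
      ring
    rw [h1]
    exact nu_div_of_val_one V₂ (nu_neg V₂ hξ₂) hξv₂

/-- **Normalising a local generator at a one-branch point.**  `V₂` is discrete with uniformiser `ϖ`, the
point `𝔫` is not on `V₂`.  A generator `T₁` which is a unit of `V₁` can be changed by a power of an
element `a ∈ R ∖ 𝔫` into a unit of both valuation rings. -/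
theorem exists_unit_gen [h𝔫 : 𝔫.IsPrime] {V₁ V₂ : ValuationSubring F}
    (hRV₁ : ∀ r : R, algebraMap R F r ∈ V₁)
    (hthr₁ : ∀ r : R, algebraMap R F r ∈ V₁.nonunits → r ∈ 𝔫)
    (a₀ : R) (ha₀ : algebraMap R F a₀ ∈ V₂.nonunits) (ha₀𝔫 : a₀ ∉ 𝔫)
    {ϖ : R} (hϖ𝔫 : ϖ ∈ 𝔫) (hϖ0 : algebraMap R F ϖ ≠ 0)
    (hunif₂ : ∀ x ∈ V₂.nonunits, x * (algebraMap R F ϖ)⁻¹ ∈ V₂)
    (hdisc₂ : ∀ x : F, x ≠ 0 → ∃ k : ℤ, V₂.valuation x = V₂.valuation (algebraMap R F ϖ) ^ k)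
    (e : ℕ) {H T₁ : F} (hT₁ : V₁.valuation T₁ = 1) (hω : UnitAt 𝔫 (H / T₁ ^ e)) :
    ∃ T : F, V₁.valuation T = 1 ∧ V₂.valuation T = 1 ∧ UnitAt 𝔫 (H / T ^ e) := by
  have hϖv0 : V₂.valuation (algebraMap R F ϖ) ≠ 0 := (map_ne_zero _).2 hϖ0
  -- an element of `R ∖ 𝔫` which is a uniformiser of `V₂`
  have hex : ∃ a : R, a ∉ 𝔫 ∧ V₂.valuation (algebraMap R F a) = V₂.valuation (algebraMap R F ϖ) := by
    have hle : V₂.valuation (algebraMap R F a₀) ≤ V₂.valuation (algebraMap R F ϖ) := by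
      have h1 := (V₂.valuation_le_one_iff _).2 (hunif₂ _ ha₀)
      rwa [map_mul, map_inv₀, ← div_eq_mul_inv, div_le_one₀ (zero_lt_iff.2 hϖv0)] at h1
    rcases hle.eq_or_lt with heq | hlt
    · exact ⟨a₀, ha₀𝔫, heq⟩
    · refine ⟨ϖ + a₀, fun hmem => ha₀𝔫 ?_, ?_⟩
      · have := 𝔫.sub_mem hmem hϖ𝔫
        rwa [add_sub_cancel_left] at this
      · rw [map_add]
        exact Valuation.map_add_eq_of_lt_left V₂.valuation hlt
  obtain ⟨a, ha, hav⟩ := hex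
  have hT₁0 : T₁ ≠ 0 := ne_zero_of_val_one V₁ hT₁
  obtain ⟨k, hk⟩ := hdisc₂ T₁ hT₁0
  have haU : UnitAt 𝔫 (algebraMap R F a) := unitAt_algebraMap h𝔫.ne_top ha
  have hav₁ : V₁.valuation (algebraMap R F a) = 1 := haU.valuation_eq_one hRV₁ hthr₁
  have hφa0 : algebraMap R F a ≠ 0 := algebraMap_ne_zero_of_notMem ha
  refine ⟨T₁ / algebraMap R F a ^ k, ?_, ?_, ?_⟩
  · rw [map_div₀, map_zpow₀, hT₁, hav₁, one_zpow, div_one]
  · rw [map_div₀, map_zpow₀, hk, hav, div_self (zpow_ne_zero k hϖv0)]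
  · have h1 : H / (T₁ / algebraMap R F a ^ k) ^ e = H / T₁ ^ e * (algebraMap R F a ^ k) ^ e := by
      have : (algebraMap R F a ^ k) ^ e ≠ 0 := pow_ne_zero e (zpow_ne_zero k hφa0)
      rw [div_pow]
      field_simp
    rw [h1]
    exact hω.mul ((haU.zpow k).pow e)

end Roots

/-! ## (T5) Assembly: the hypotheses of `no_split_cover_pow` for `H = σ u / u ^ m` -/

section Points

variable {K R F : Type*} [Field K] [Field F] [Algebra K F] [CommRing R] [IsDomain R] [Algebra R F]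
  [IsFractionRing R F]

/-- **The data at a `σ`-fixed crossing point `𝔫`** (both vertical components through `𝔫`): `σ` induces
the `m`-th power map on `R ⧸ 𝔫`, `𝔫 R_𝔫 = 𝔓₁ R_𝔫 + 𝔓₂ R_𝔫`, both branches are normal at `𝔫`, and the
divisor `div u / e` has near `𝔫` a local generator `A` which is a unit of both vertical valuation
rings (a `σ`-difference of products of local equations). -/
structure CrossingPt (K : Type*) [Field K] [Algebra K F] (V₁ V₂ : ValuationSubring F)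
    (σ : F ≃+* F) (m e : ℕ) (u : F) (𝔫 : Ideal R) : Prop where
  thr₁ : ∀ r : R, algebraMap R F r ∈ V₁.nonunits → r ∈ 𝔫
  thr₂ : ∀ r : R, algebraMap R F r ∈ V₂.nonunits → r ∈ 𝔫
  frob : ∀ r : R, ∃ n ∈ 𝔫, σ (algebraMap R F r) - algebraMap R F r ^ m = algebraMap R F n
  node : ∀ n ∈ 𝔫, ∃ a p₁ p₂ : R, a ∉ 𝔫 ∧ algebraMap R F p₁ ∈ V₁.nonunits ∧
    algebraMap R F p₂ ∈ V₂.nonunits ∧ a * n = p₁ + p₂
  norm₁ : ∀ x : F, V₁.valuation x = 1 → (∃ v, UnitAt 𝔫 v ∧ x ^ e - v ∈ V₁.nonunits) →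
    ∃ v, UnitAt 𝔫 v ∧ x - v ∈ V₁.nonunits
  norm₂ : ∀ x : F, V₂.valuation x = 1 → (∃ v, UnitAt 𝔫 v ∧ x ^ e - v ∈ V₂.nonunits) →
    ∃ v, UnitAt 𝔫 v ∧ x - v ∈ V₂.nonunits
  gen : ∃ A : F, V₁.valuation A = 1 ∧ V₂.valuation A = 1 ∧
    ∀ Q ∈ centredSet K 𝔫, Q.ord u = e * Q.ord A

/-- **The data at a point `𝔫` lying on the component `V` and not on `V'`** (no hypothesis on the action
of `σ` at `𝔫`): the branch `V` is normal at `𝔫`, `R` is dense in the residue field of `V'`, and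
`div u / e` has local generators `A` near `𝔫` and `A'` near `τ⁻¹ 𝔫`. -/
structure BranchPt (K : Type*) [Field K] [Algebra K F] (V V' : ValuationSubring F)
    (τ : Equiv.Perm (Place K F)) (e : ℕ) (u : F) (𝔫 : Ideal R) : Prop where
  thr : ∀ r : R, algebraMap R F r ∈ V.nonunits → r ∈ 𝔫
  off : ∃ a₀ : R, algebraMap R F a₀ ∈ V'.nonunits ∧ a₀ ∉ 𝔫
  sep : ∃ r₀ : R, algebraMap R F r₀ ∈ V.nonunits ∧ algebraMap R F r₀ ∉ V'.nonunits
  norm : ∀ x : F, V.valuation x = 1 → (∃ v, UnitAt 𝔫 v ∧ x ^ e - v ∈ V.nonunits) →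
    ∃ v, UnitAt 𝔫 v ∧ x - v ∈ V.nonunits
  dense : ∀ y : F, V'.valuation y = 1 → ∃ a r : R, algebraMap R F a ∉ V'.nonunits ∧
    y * algebraMap R F a - algebraMap R F r ∈ V'.nonunits
  gen : ∃ A A' : F, A ≠ 0 ∧ A' ≠ 0 ∧ (∀ Q ∈ centredSet K 𝔫, Q.ord u = e * Q.ord A) ∧
    ∀ Q ∈ centredSet K 𝔫, (τ.symm Q).ord u = e * (τ.symm Q).ord A'

end Points

section Assembly

universe u

variable {O K R : Type*} {F : Type u}
  [CommRing O] [IsDomain O] [IsDiscreteValuationRing O]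
  [Field K] [Algebra O K] [IsFractionRing O K]
  [Field F] [Algebra K F] [Algebra O F] [IsScalarTower O K F]
  [CommRing R] [IsDomain R] [IsNoetherianRing R]
  [Algebra R F] [IsFractionRing R F] [Algebra O R] [IsScalarTower O R F]

/-- Nonzero constants of `O` have order zero at every place of `F / K`. -/
theorem ord_algebraMap_base (Q : Place K F) {c : O} (hc : c ≠ 0) : Q.ord (algebraMap O F c) = 0 := by
  have hc' : algebraMap O K c ≠ 0 := fun h0 =>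
    hc (IsFractionRing.injective O K (by rw [h0, map_zero]))
  rw [IsScalarTower.algebraMap_apply O K F]
  have hu : IsUnit (⟨algebraMap K F (algebraMap O K c), Q.algebraMap_mem' _⟩ :
      Q.toValuationSubring) := by
    refine isUnit_iff_exists_inv.mpr ⟨⟨algebraMap K F (algebraMap O K c)⁻¹,
      Q.algebraMap_mem' _⟩, ?_⟩
    apply Subtype.ext
    show algebraMap K F (algebraMap O K c) * algebraMap K F (algebraMap O K c)⁻¹ = 1
    rw [← map_mul, mul_inv_cancel₀ hc', map_one]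
  exact Q.ord_coe_unit hu.unit

/-- A unit of `O` is a unit of every valuation ring containing the image of `O`. -/
theorem val_base_unit {V : ValuationSubring F} (hOV : ∀ c : O, algebraMap O F c ∈ V) {c : O}
    (hc : IsUnit c) : V.valuation (algebraMap O F c) = 1 := by
  obtain ⟨c', hcc'⟩ := isUnit_iff_exists_inv.1 hc
  have h1 : algebraMap O F c * algebraMap O F c' = 1 := by rw [← map_mul, hcc', map_one]
  have h2 := congrArg V.valuation h1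
  rw [map_mul, map_one] at h2
  have h3 := (V.valuation_le_one_iff _).2 (hOV c)
  have h4 := (V.valuation_le_one_iff _).2 (hOV c')
  refine le_antisymm h3 ?_
  calc (1 : _) = V.valuation (algebraMap O F c) * V.valuation (algebraMap O F c') := h2.symm
    _ ≤ V.valuation (algebraMap O F c) * 1 := by gcongr
    _ = V.valuation (algebraMap O F c) := mul_one _

/-- The twisted difference of a function congruent to a constant unit is a principal unit. -/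
theorem twist_sub_one_mem {V : ValuationSubring F} (hOV : ∀ c : O, algebraMap O F c ∈ V) {π : O}
    (hπV : algebraMap O F π ∈ V.nonunits) (σ : F ≃+* F)
    (hval : ∀ x, V.valuation (σ x) = V.valuation x) (m : ℕ)
    (hfrobO : ∀ c : O, ∃ d : O,
      σ (algebraMap O F c) - algebraMap O F c ^ m = algebraMap O F (π * d))
    {u : F} {c : O} (hc : IsUnit c) (hu : u - algebraMap O F c ∈ V.nonunits) :
    σ u / u ^ m - 1 ∈ V.nonunits := by
  have hcv : V.valuation (algebraMap O F c) = 1 := val_base_unit hOV hc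
  have huv : V.valuation u = 1 := val_one_of_sub V hcv hu
  have h1 := map_div_pow_sub_mem hval huv hcv hu m
  obtain ⟨d, hd⟩ := hfrobO c
  have hcm : V.valuation (algebraMap O F c ^ m) = 1 := by rw [map_pow, hcv, one_pow]
  have hc0 : algebraMap O F c ≠ 0 := ne_zero_of_val_one V hcv
  have h2 : σ (algebraMap O F c) / algebraMap O F c ^ m - 1 ∈ V.nonunits := by
    have h3 : σ (algebraMap O F c) / algebraMap O F c ^ m - 1 =
        algebraMap O F π * algebraMap O F d / algebraMap O F c ^ m := by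
      rw [← map_mul, ← hd]
      field_simp
    rw [h3]
    exact nu_div_of_val_one V (nu_mul' V hπV (hOV d)) hcm
  have h4 : σ u / u ^ m - 1 = (σ u / u ^ m - σ (algebraMap O F c) / algebraMap O F c ^ m) +
      (σ (algebraMap O F c) / algebraMap O F c ^ m - 1) := by ring
  rw [h4]
  exact nu_add V h1 h2

/-- **`hh` of `no_split_cover_pow`**: `H = σ u / u ^ m ≡ 1` modulo `π W`. -/
theorem exists_twist_sub_one {π : O} {W : Subring F} {V₁ V₂ : ValuationSubring F}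
    (hT : TwoVal π W V₁ V₂) (hOW : ∀ c : O, algebraMap O F c ∈ W) (σ : F ≃+* F)
    (hval₁ : ∀ x, V₁.valuation (σ x) = V₁.valuation x)
    (hval₂ : ∀ x, V₂.valuation (σ x) = V₂.valuation x) (m : ℕ)
    (hfrobO : ∀ c : O, ∃ d : O,
      σ (algebraMap O F c) - algebraMap O F c ^ m = algebraMap O F (π * d))
    {u : F} {c₁ c₂ : O} (hc₁ : IsUnit c₁) (hc₂ : IsUnit c₂)
    (hu₁ : u - algebraMap O F c₁ ∈ V₁.nonunits) (hu₂ : u - algebraMap O F c₂ ∈ V₂.nonunits) :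
    ∃ w ∈ W, σ u / u ^ m - 1 = algebraMap O F π * w :=
  hT.exists_eq_mul
    (twist_sub_one_mem (fun c => hT.mem₁ (hOW c)) hT.pi_mem₁ σ hval₁ m hfrobO hc₁ hu₁)
    (twist_sub_one_mem (fun c => hT.mem₂ (hOW c)) hT.pi_mem₂ σ hval₂ m hfrobO hc₂ hu₂)

variable [IsIntegrallyClosed R] {ϖ : O} (hϖ : Irreducible ϖ) {V₁ V₂ : ValuationSubring F}
  (hRV₁ : ∀ r : R, algebraMap R F r ∈ V₁) (hRV₂ : ∀ r : R, algebraMap R F r ∈ V₂)
  (hϖV₁ : algebraMap O F ϖ ∈ V₁.nonunits) (hϖV₂ : algebraMap O F ϖ ∈ V₂.nonunits)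
  (hsat : ∀ r : R, algebraMap R F r ∈ V₁.nonunits → algebraMap R F r ∈ V₂.nonunits →
    algebraMap O R ϖ ∣ r)
  (𝔫 : Ideal R) [h𝔫 : 𝔫.IsPrime]

include hRV₁ hRV₂ in
theorem fam_mem (b : Bool) (r : R) : algebraMap R F r ∈ fam V₁ V₂ b := by
  cases b
  · exact hRV₂ r
  · exact hRV₁ r

include hϖV₁ hϖV₂ in
theorem fam_pi_mem (b : Bool) :
    algebraMap R F (algebraMap O R ϖ) ∈ (fam V₁ V₂ b).nonunits := by
  rw [← IsScalarTower.algebraMap_apply O R F]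
  cases b
  · exact hϖV₂
  · exact hϖV₁

include hsat in
theorem fam_sat (r : R) (hr : ∀ b, algebraMap R F r ∈ (fam V₁ V₂ b).nonunits) :
    algebraMap O R ϖ ∣ r :=
  hsat r (hr true) (hr false)

theorem unitAt_base {c : O} (hc : IsUnit c) : UnitAt 𝔫 (algebraMap O F c) := by
  rw [IsScalarTower.algebraMap_apply O R F]
  refine unitAt_algebraMap h𝔫.ne_top fun hmem => h𝔫.ne_top ?_
  exact Ideal.eq_top_of_isUnit_mem _ hmem (hc.map (algebraMap O R))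

include hϖ hRV₁ hRV₂ hϖV₁ hϖV₂ hsat in
/-- **The local root at a crossing point**, with the unit criterion discharged. -/
theorem crossingPt_root (σ : F ≃+* F) (hval₁ : ∀ x, V₁.valuation (σ x) = V₁.valuation x)
    (hval₂ : ∀ x, V₂.valuation (σ x) = V₂.valuation x) (m e : ℕ)
    {u : F} {c₁ c₂ : O} (hc₁ : IsUnit c₁) (hc₂ : IsUnit c₂)
    (hu₁ : u - algebraMap O F c₁ ∈ V₁.nonunits) (hu₂ : u - algebraMap O F c₂ ∈ V₂.nonunits)
    (hpt : CrossingPt K V₁ V₂ σ m e u 𝔫) :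
    ∃ η : F, η ≠ 0 ∧ UnitAt 𝔫 (σ u / u ^ m / η ^ e) ∧ η - 1 ∈ V₁.nonunits ∧
      η - 1 ∈ V₂.nonunits := by
  obtain ⟨A, hA₁, hA₂, hAord⟩ := hpt.gen
  have hOV₁ : ∀ c : O, algebraMap O F c ∈ V₁ := fun c => by
    rw [IsScalarTower.algebraMap_apply O R F]; exact hRV₁ _
  have hOV₂ : ∀ c : O, algebraMap O F c ∈ V₂ := fun c => by
    rw [IsScalarTower.algebraMap_apply O R F]; exact hRV₂ _
  have huv₁ : V₁.valuation u = 1 := val_one_of_sub V₁ (val_base_unit hOV₁ hc₁) hu₁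
  have huv₂ : V₂.valuation u = 1 := val_one_of_sub V₂ (val_base_unit hOV₂ hc₂) hu₂
  have hu0 : u ≠ 0 := ne_zero_of_val_one V₁ huv₁
  have hA0 : A ≠ 0 := ne_zero_of_val_one V₁ hA₁
  have hAe0 : A ^ e ≠ 0 := pow_ne_zero e hA0
  have hord : OrdMul (fun (Q : Place K F) (x : F) => Q.ord x) := fun Q f g hf hg =>
    Q.ord_mul hf hg
  have hω : UnitAt 𝔫 (u / A ^ e) := by
    refine hcrit_strong (K := K) (fam V₁ V₂) (fam_mem hRV₁ hRV₂) hϖ (fam_pi_mem hϖV₁ hϖV₂)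
      (fam_sat hsat) 𝔫 (u / A ^ e) (div_ne_zero hu0 hAe0) (fun Q hQ => ?_) (fun b => ?_)
    · have h1 := hord.div Q hu0 hAe0
      have h2 := hord.pow Q hA0 e
      rw [h1, h2, hAord Q hQ, sub_self]
    · cases b
      · show V₂.valuation (u / A ^ e) = 1
        rw [map_div₀, map_pow, huv₂, hA₂, one_pow, div_one]
      · show V₁.valuation (u / A ^ e) = 1
        rw [map_div₀, map_pow, huv₁, hA₁, one_pow, div_one]
  exact crossing_root hRV₁ hRV₂ hpt.thr₁ hpt.thr₂ σ hval₁ hval₂ m e hpt.frob hpt.node hpt.norm₁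
    hpt.norm₂ (unitAt_base 𝔫 hc₁) (unitAt_base 𝔫 hc₂) hu₁ hu₂ hA₁ hA₂ hω

include hϖ hRV₁ hRV₂ hϖV₁ hϖV₂ hsat in
/-- **The local root at a point lying on `V₁` only**, with the unit criterion and the normalisation of
the generator discharged. -/
theorem branchPt_root (hϖ𝔫 : algebraMap O R ϖ ∈ 𝔫)
    (hunif₂ : ∀ x ∈ V₂.nonunits, x * (algebraMap O F ϖ)⁻¹ ∈ V₂)
    (hdisc₁ : ∀ x : F, x ≠ 0 → ∃ k : ℤ, V₁.valuation x = V₁.valuation (algebraMap O F ϖ) ^ k)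
    (hdisc₂ : ∀ x : F, x ≠ 0 → ∃ k : ℤ, V₂.valuation x = V₂.valuation (algebraMap O F ϖ) ^ k)
    (σ : F ≃+* F) {τ : Equiv.Perm (Place K F)}
    (hτ : Compat (fun (Q : Place K F) (x : F) => Q.ord x) σ τ) (m e : ℕ)
    {u : F} (hu0 : u ≠ 0) (hH₁ : σ u / u ^ m - 1 ∈ V₁.nonunits)
    (hpt : BranchPt K V₁ V₂ τ e u 𝔫) :
    ∃ η : F, η ≠ 0 ∧ UnitAt 𝔫 (σ u / u ^ m / η ^ e) ∧ η - 1 ∈ V₁.nonunits ∧
      η - 1 ∈ V₂.nonunits := by
  obtain ⟨A, A', hA0, hA'0, hAord, hA'ord⟩ := hpt.gen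
  obtain ⟨a₀, ha₀, ha₀𝔫⟩ := hpt.off
  obtain ⟨r₀, hr₀, hr₀'⟩ := hpt.sep
  have hϖ0 : ϖ ≠ 0 := hϖ.ne_zero
  have hϖF0 : algebraMap O F ϖ ≠ 0 := by
    intro h0
    have h1 : algebraMap O K ϖ = 0 := by
      have := (algebraMap K F).injective (a₁ := algebraMap O K ϖ) (a₂ := 0)
      apply this
      rw [← IsScalarTower.algebraMap_apply O K F, h0, map_zero]
    exact hϖ0 (IsFractionRing.injective O K (by rw [h1, map_zero]))
  have hord : OrdMul (fun (Q : Place K F) (x : F) => Q.ord x) := fun Q f g hf hg =>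
    Q.ord_mul hf hg
  have hσu0 : σ u ≠ 0 := (map_ne_zero σ).2 hu0
  have hum0 : u ^ m ≠ 0 := pow_ne_zero m hu0
  have hH0 : σ u / u ^ m ≠ 0 := div_ne_zero hσu0 hum0
  have hHv₁ : V₁.valuation (σ u / u ^ m) = 1 := val_one_of_sub V₁ (map_one _) hH₁
  -- the generator, normalised at `V₁`
  have hσA'0 : σ A' ≠ 0 := (map_ne_zero σ).2 hA'0
  have hAm0 : A ^ m ≠ 0 := pow_ne_zero m hA0
  have hT₀0 : σ A' / A ^ m ≠ 0 := div_ne_zero hσA'0 hAm0
  obtain ⟨k₁, hk₁⟩ := hdisc₁ _ hT₀0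
  have hϖk0 : algebraMap O F ϖ ^ k₁ ≠ 0 := zpow_ne_zero k₁ hϖF0
  have hϖv0 : V₁.valuation (algebraMap O F ϖ) ≠ 0 := (map_ne_zero _).2 hϖF0
  have hT₁v : V₁.valuation (σ A' / A ^ m / algebraMap O F ϖ ^ k₁) = 1 := by
    rw [map_div₀, hk₁, map_zpow₀, div_self (zpow_ne_zero k₁ hϖv0)]
  have hT₁0 : σ A' / A ^ m / algebraMap O F ϖ ^ k₁ ≠ 0 := div_ne_zero hT₀0 hϖk0
  have hT₁e0 : (σ A' / A ^ m / algebraMap O F ϖ ^ k₁) ^ e ≠ 0 := pow_ne_zero e hT₁0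
  have hω : UnitAt 𝔫 (σ u / u ^ m / (σ A' / A ^ m / algebraMap O F ϖ ^ k₁) ^ e) := by
    refine hcrit_weak (K := K) (fam V₁ V₂) (fam_mem hRV₁ hRV₂) hϖ (fam_pi_mem hϖV₁ hϖV₂)
      (fam_sat hsat) 𝔫 _ (div_ne_zero hH0 hT₁e0) (fun Q hQ => ?_) (fun b hb => ?_)
    · have h1 := hord.div Q hH0 hT₁e0
      have h2 := hord.pow Q hT₁0 e
      have h3 := hord.div Q hT₀0 hϖk0
      have h4 := hord.div Q hσA'0 hAm0
      have h5 := hord.pow Q hA0 m
      have h6 := hord.zpow Q hϖF0 k₁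
      have h7 := hord.div Q hσu0 hum0
      have h8 := hord.pow Q hu0 m
      have h9 := hτ.ord_map Q u
      have h10 := hτ.ord_map Q A'
      rw [h1, h2, h3, h4, h5, h6, h7, h8, h9, h10, ord_algebraMap_base Q hϖ0, hAord Q hQ,
        hA'ord Q hQ]
      ring
    · cases b
      · exfalso
        exact ha₀𝔫 ((mem_throughSet_iff (fam V₁ V₂) (fam_mem hRV₁ hRV₂)).1 hb a₀ ha₀)
      · show V₁.valuation _ = 1
        rw [map_div₀, map_pow, hHv₁, hT₁v, one_pow, div_one]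
  have hϖR0 : algebraMap R F (algebraMap O R ϖ) ≠ 0 := by
    rwa [← IsScalarTower.algebraMap_apply O R F]
  obtain ⟨T, hTv₁, hTv₂, hTω⟩ := exists_unit_gen hRV₁ hpt.thr a₀ ha₀ ha₀𝔫 hϖ𝔫 hϖR0
    (by rwa [← IsScalarTower.algebraMap_apply O R F])
    (by rwa [← IsScalarTower.algebraMap_apply O R F]) e hT₁v hω
  exact branch_root hRV₁ hRV₂ hpt.thr e r₀ hr₀ hr₀' hpt.norm
    (fun y hy => exists_corrector hRV₁ hRV₂ hpt.thr a₀ ha₀ ha₀𝔫 r₀ hr₀ hr₀' hpt.dense hy)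
    hH₁ hTv₁ hTv₂ hTω

end Assembly

/-! ## (T5') The chart statement, in the shape of `P3G.Assembly.PowCover.LocalRoots` -/

section Chart

universe u

variable {O K₀ : Type*} [CommRing O] [IsDomain O] [IsDiscreteValuationRing O]
  [Field K₀] [Algebra O K₀] [IsFractionRing O K₀]
variable {F₀ : Type u} [Field F₀] [Algebra K₀ F₀] [Algebra O F₀] [IsScalarTower O K₀ F₀]
variable {π : O} {W : Subring F₀} {V₁ V₂ : ValuationSubring F₀}
variable (s : F₀)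
  [IsNoetherianRing (chartAlg O F₀ {s})] [IsFractionRing (chartAlg O F₀ {s}) F₀]
  [IsIntegrallyClosed (chartAlg O F₀ {s})]

/-- **`LocalRoots` for the twisted difference** (`hlocp`, `hlocm` of `no_split_cover_pow` with
`h := σ u / u ^ m`).  `σ` preserves the two vertical valuations and induces the `m`-th power map on the
constants modulo `π`; `u ≡ c_i` (constant units) modulo the maximal ideal of `V_i`; every closed point of
the special fibre of the chart is either a `σ`-fixed crossing point (`CrossingPt`) or lies on exactly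
one of the two components (`BranchPt`). -/
theorem localRoots_twist (hπ : Irreducible π) (hT : TwoVal π W V₁ V₂)
    (hW : IsSemiGaussRing W (algebraMap O (chartAlg O F₀ {s}) π))
    (hdisc₁ : ∀ x : F₀, x ≠ 0 → ∃ k : ℤ, V₁.valuation x = V₁.valuation (algebraMap O F₀ π) ^ k)
    (hdisc₂ : ∀ x : F₀, x ≠ 0 → ∃ k : ℤ, V₂.valuation x = V₂.valuation (algebraMap O F₀ π) ^ k)
    (σ : F₀ ≃+* F₀) (hval₁ : ∀ x, V₁.valuation (σ x) = V₁.valuation x)
    (hval₂ : ∀ x, V₂.valuation (σ x) = V₂.valuation x)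
    {τ : Equiv.Perm (Place K₀ F₀)}
    (hτ : Compat (fun (Q : Place K₀ F₀) (x : F₀) => Q.ord x) σ τ) (m e : ℕ)
    (hfrobO : ∀ c : O, ∃ d : O,
      σ (algebraMap O F₀ c) - algebraMap O F₀ c ^ m = algebraMap O F₀ (π * d))
    {u : F₀} {c₁ c₂ : O} (hc₁ : IsUnit c₁) (hc₂ : IsUnit c₂)
    (hu₁ : u - algebraMap O F₀ c₁ ∈ V₁.nonunits) (hu₂ : u - algebraMap O F₀ c₂ ∈ V₂.nonunits)
    (hpt : ∀ 𝔫 : Ideal (chartAlg O F₀ {s}), 𝔫.IsMaximal →
      algebraMap O (chartAlg O F₀ {s}) π ∈ 𝔫 →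
      CrossingPt K₀ V₁ V₂ σ m e u 𝔫 ∨ BranchPt K₀ V₁ V₂ τ e u 𝔫 ∨ BranchPt K₀ V₂ V₁ τ e u 𝔫) :
    LocalRoots π W s (σ u / u ^ m) e := by
  intro 𝔫 h𝔫max hπ𝔫
  haveI : 𝔫.IsPrime := h𝔫max.isPrime
  have hRV₁ : ∀ r : chartAlg O F₀ {s}, algebraMap (chartAlg O F₀ {s}) F₀ r ∈ V₁ := fun r =>
    ((hT.mem_iff _).1 (hW.le r)).1
  have hRV₂ : ∀ r : chartAlg O F₀ {s}, algebraMap (chartAlg O F₀ {s}) F₀ r ∈ V₂ := fun r =>
    ((hT.mem_iff _).1 (hW.le r)).2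
  have hsat : ∀ r : chartAlg O F₀ {s}, algebraMap (chartAlg O F₀ {s}) F₀ r ∈ V₁.nonunits →
      algebraMap (chartAlg O F₀ {s}) F₀ r ∈ V₂.nonunits →
      algebraMap O (chartAlg O F₀ {s}) π ∣ r := by
    intro r h1 h2
    obtain ⟨w, hw, hrw⟩ := hT.exists_eq_mul h1 h2
    exact hW.sat r ⟨w, hw, by rw [hrw]; rfl⟩
  have hOV₁ : ∀ c : O, algebraMap O F₀ c ∈ V₁ := fun c => hRV₁ (algebraMap O _ c)
  have hOV₂ : ∀ c : O, algebraMap O F₀ c ∈ V₂ := fun c => hRV₂ (algebraMap O _ c)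
  have hH₁ : σ u / u ^ m - 1 ∈ V₁.nonunits :=
    twist_sub_one_mem hOV₁ hT.pi_mem₁ σ hval₁ m hfrobO hc₁ hu₁
  have hH₂ : σ u / u ^ m - 1 ∈ V₂.nonunits :=
    twist_sub_one_mem hOV₂ hT.pi_mem₂ σ hval₂ m hfrobO hc₂ hu₂
  have hu0 : u ≠ 0 := ne_zero_of_val_one V₁ (val_one_of_sub V₁ (val_base_unit hOV₁ hc₁) hu₁)
  -- the common conclusion
  have fin : ∀ η : F₀, η ≠ 0 → UnitAt 𝔫 (σ u / u ^ m / η ^ e) → η - 1 ∈ V₁.nonunits →
      η - 1 ∈ V₂.nonunits →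
      ∃ τ' : F₀, τ' ≠ 0 ∧
        (∃ a r : chartAlg O F₀ {s}, a ∉ 𝔫 ∧ r ∉ 𝔫 ∧
          σ u / u ^ m * algebraMap (chartAlg O F₀ {s}) F₀ a =
            τ' ^ e * algebraMap (chartAlg O F₀ {s}) F₀ r) ∧
        ∃ w ∈ W, τ' - 1 = algebraMap O F₀ π * w := by
    intro η hη0 hunit h1 h2
    obtain ⟨a, r, ha, hr, har⟩ := hunit
    refine ⟨η, hη0, ⟨a, r, ha, hr, ?_⟩, hT.exists_eq_mul h1 h2⟩
    rw [← har]
    have : η ^ e ≠ 0 := pow_ne_zero e hη0
    field_simp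
  rcases hpt 𝔫 h𝔫max hπ𝔫 with hX | hB | hB
  · obtain ⟨η, hη0, hunit, h1, h2⟩ := crossingPt_root (K := K₀) hπ hRV₁ hRV₂ hT.pi_mem₁ hT.pi_mem₂
      hsat 𝔫 σ hval₁ hval₂ m e hc₁ hc₂ hu₁ hu₂ hX
    exact fin η hη0 hunit h1 h2
  · obtain ⟨η, hη0, hunit, h1, h2⟩ := branchPt_root (K := K₀) hπ hRV₁ hRV₂ hT.pi_mem₁ hT.pi_mem₂
      hsat 𝔫 hπ𝔫 hT.unif₂ hdisc₁ hdisc₂ σ hτ m e hu0 hH₁ hB
    exact fin η hη0 hunit h1 h2
  · obtain ⟨η, hη0, hunit, h2, h1⟩ := branchPt_root (K := K₀) hπ hRV₂ hRV₁ hT.pi_mem₂ hT.pi_mem₁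
      (fun r h2 h1 => hsat r h1 h2) 𝔫 hπ𝔫 hT.unif₁ hdisc₂ hdisc₁ σ hτ m e hu0 hH₂ hB
    exact fin η hη0 hunit h1 h2

end Chart

/-! ## (T6) The cover statement (interface check against `no_split_cover_pow`) -/

section Final

open Polynomial IntermediateField

universe u

variable {O K₀ : Type*} [CommRing O] [IsDomain O] [IsDiscreteValuationRing O]
  [Field K₀] [CharZero K₀] [Algebra O K₀] [IsFractionRing O K₀]
variable {F₀ : Type u} [Field F₀] [Algebra K₀ F₀] [Algebra O F₀] [IsScalarTower O K₀ F₀]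
variable {F' : Type*} [Field F'] [Algebra F₀ F'] [Algebra K₀ F'] [Algebra O F']
  [IsScalarTower K₀ F₀ F'] [IsScalarTower O K₀ F'] [IsScalarTower O F₀ F']

/-- **No split cyclic cover for a twisted difference.**  `σ` (in the application the square of a
Frobenius lift, `m = q²`) preserves the two vertical valuations and is the `m`-th power map on the
constants modulo `π`; `u ≡ c_i` modulo the maximal ideal of `V_i`; every closed point of the special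
fibre of both charts is a `σ`-fixed crossing point or lies on exactly one component.  Then a
`p ^ n`-th root `k` of `H = σ u / u ^ m` cannot generate an irreducible Kummer cover of degree `p` in
which `K₀` is algebraically closed. -/
theorem no_split_cover_twist (j : F₀) (hj : Transcendental K₀ j) [FiniteDimensional K₀⟮j⟯ F₀]
    {π : O} (hπ : Irreducible π)
    (W : Subring F₀) [IsIntegrallyClosed W] [IsFractionRing W F₀]
    (V₁ V₂ : ValuationSubring F₀) (hT : TwoVal π W V₁ V₂)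
    (hWp : IsSemiGaussRing W (algebraMap O (chartAlg O F₀ {j}) π))
    (hWm : IsSemiGaussRing W (algebraMap O (chartAlg O F₀ {j⁻¹}) π))
    {p : ℕ} (hp : p.Prime) (hpO : IsUnit ((p : ℕ) : O)) (n : ℕ) {ζ : O}
    (hζ : IsPrimitiveRoot ζ (p ^ (n + 1)))
    (hdisc₁ : ∀ x : F₀, x ≠ 0 → ∃ k : ℤ, V₁.valuation x = V₁.valuation (algebraMap O F₀ π) ^ k)
    (hdisc₂ : ∀ x : F₀, x ≠ 0 → ∃ k : ℤ, V₂.valuation x = V₂.valuation (algebraMap O F₀ π) ^ k)
    (σ : F₀ ≃+* F₀) (hval₁ : ∀ x, V₁.valuation (σ x) = V₁.valuation x)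
    (hval₂ : ∀ x, V₂.valuation (σ x) = V₂.valuation x)
    {τ : Equiv.Perm (Place K₀ F₀)}
    (hτ : Compat (fun (Q : Place K₀ F₀) (x : F₀) => Q.ord x) σ τ) (m : ℕ)
    (hfrobO : ∀ c : O, ∃ d : O,
      σ (algebraMap O F₀ c) - algebraMap O F₀ c ^ m = algebraMap O F₀ (π * d))
    {u k : F₀} {c₁ c₂ : O} (hc₁ : IsUnit c₁) (hc₂ : IsUnit c₂)
    (hu₁ : u - algebraMap O F₀ c₁ ∈ V₁.nonunits) (hu₂ : u - algebraMap O F₀ c₂ ∈ V₂.nonunits)
    (hk : k ^ (p ^ n) = σ u / u ^ m)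
    {t : F'} (ht : t ^ p = algebraMap F₀ F' k) (htop : F₀⟮t⟯ = ⊤)
    (hirr : Irreducible (X ^ p - C k : F₀[X]))
    (halg : ∀ x : F', IsAlgebraic K₀ x → x ∈ (algebraMap K₀ F').range)
    (hptp : ∀ 𝔫 : Ideal (chartAlg O F₀ {j}), 𝔫.IsMaximal →
      algebraMap O (chartAlg O F₀ {j}) π ∈ 𝔫 →
      CrossingPt K₀ V₁ V₂ σ m (p ^ (n + 1)) u 𝔫 ∨ BranchPt K₀ V₁ V₂ τ (p ^ (n + 1)) u 𝔫 ∨
        BranchPt K₀ V₂ V₁ τ (p ^ (n + 1)) u 𝔫)
    (hptm : ∀ 𝔫 : Ideal (chartAlg O F₀ {j⁻¹}), 𝔫.IsMaximal →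
      algebraMap O (chartAlg O F₀ {j⁻¹}) π ∈ 𝔫 →
      CrossingPt K₀ V₁ V₂ σ m (p ^ (n + 1)) u 𝔫 ∨ BranchPt K₀ V₁ V₂ τ (p ^ (n + 1)) u 𝔫 ∨
        BranchPt K₀ V₂ V₁ τ (p ^ (n + 1)) u 𝔫) : False := by
  have hjinv : Transcendental K₀ j⁻¹ := fun h => hj (by simpa using h.inv)
  haveI : FiniteDimensional K₀⟮j⁻¹⟯ F₀ := by
    rw [Fermat.Agent.N4.Cover.Main.adjoin_inv_eq]; infer_instance
  haveI : IsNoetherianRing (chartAlg O F₀ {j}) :=
    Fermat.Agent.N4.IntClosure.isNoetherianRing_chartAlg (K := K₀) j hj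
  haveI : IsNoetherianRing (chartAlg O F₀ {j⁻¹}) :=
    Fermat.Agent.N4.IntClosure.isNoetherianRing_chartAlg (K := K₀) j⁻¹ hjinv
  haveI : IsFractionRing (chartAlg O F₀ {j}) F₀ :=
    Fermat.Agent.N4.Cover.Main.isFractionRing_chartAlg (O := O) (K₀ := K₀) j hj
  haveI : IsFractionRing (chartAlg O F₀ {j⁻¹}) F₀ :=
    Fermat.Agent.N4.Cover.Main.isFractionRing_chartAlg (O := O) (K₀ := K₀) j⁻¹ hjinv
  haveI : IsIntegrallyClosed (chartAlg O F₀ {j}) :=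
    Fermat.Agent.N4.Cover.Main.isIntegrallyClosed_chartAlg (O := O) (K₀ := K₀) j hj
  haveI : IsIntegrallyClosed (chartAlg O F₀ {j⁻¹}) :=
    Fermat.Agent.N4.Cover.Main.isIntegrallyClosed_chartAlg (O := O) (K₀ := K₀) j⁻¹ hjinv
  have hOW : ∀ c : O, algebraMap O F₀ c ∈ W := fun c => hWp.le (algebraMap O _ c)
  exact no_split_cover_pow (K₀ := K₀) j hj hπ W V₁ V₂ hT hWp hWm hp hpO n hζ hk
    (exists_twist_sub_one hT hOW σ hval₁ hval₂ m hfrobO hc₁ hc₂ hu₁ hu₂) ht htop hirr halg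
    (localRoots_twist (K₀ := K₀) j hπ hT hWp hdisc₁ hdisc₂ σ hval₁ hval₂ hτ m (p ^ (n + 1))
      hfrobO hc₁ hc₂ hu₁ hu₂ hptp)
    (localRoots_twist (K₀ := K₀) j⁻¹ hπ hT hWm hdisc₁ hdisc₂ σ hval₁ hval₂ hτ m (p ^ (n + 1))
      hfrobO hc₁ hc₂ hu₁ hu₂ hptm)

end Final

end Fermat.Agent.P4.TauDiff
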