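/-
P4-S35, node [P4-C1L-base] (helper12): **the STATIC hypotheses of `Toric.exists_toric` at a level
`(K, O)` of block E**, i.e. everything that does not involve the automorphism `τ`.

Instantiation (for `S : FibreTwo.SecondVal K N ℓ O`):
`F' := FF K N`, `F := FF K (N ℓ)`, `Λ := LaurentSeries κ`, `V' := gaussVS K N O`,
`V₁ := gaussVS K (N ℓ) O`, `V₂ := S.V`, `θ := thetaV K N O`, `θ₁ := thetaV K (N ℓ) O`,
`θ₂ := S.ev`, `Fr := FrL K ℓ O` (coefficientwise Frobenius), `C := constL K O` (constants),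
`Nα := FrobStep.normAlong (alphaF K N ℓ)`, `Nβ := FrobStep.normAlong (betaF K N ℓ)`.

* `thetaV`, `res_thetaV_iff`, `FrL`, `constL`;
* `hker₁`, `hker₂`, `hresα`, `hresβ`, `hroot`, `hFrC`, `hC₁`, `hC₂`, `hα`, `hβ`, `hFrθ`, `hCRT`
  : the hypotheses of `Toric.exists_toric` with these names;
* `exists_toric_level` : `Toric.exists_toric` with all static hypotheses discharged — what remains
  are the `τ`-dependent ones (`hτ' hτ₁ hτ₂ hθτ₁ hθτ₂ hNα hNβ`, and `hcA hcB`).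
-/
import Mathlib
import Fermat.Agent.P4.Toric
import Fermat.Agent.P4.NormResidue
import Fermat.Agent.P4.FrobStep
import Fermat.Agent.P3G.SecondValBridge

set_option autoImplicit false
set_option linter.unusedSectionVars false
set_option linter.style.haveILetI false

open ModularCurve AlgebraicCurve Polynomial
open Fermat.Agent.S28.Gauss Fermat.Agent.N4.Setting Fermat.Agent.N4.FibreEmbedding
open Fermat.Agent.N4F.E.DegreeLevelRaise Fermat.Agent.N4F.E.GaussDVR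
open Fermat.Agent.N4F.E
open Fermat.Agent.P4.Toric Fermat.Agent.P4.FrobStep
open Fermat.Agent.P3G Fermat.Agent.P3G.SecondValBridge

noncomputable section

namespace Fermat.Agent.P4.ToricLevelBase

variable (K : Type) [Field K] [CharZero K]
  (O : Subring K) [IsDiscreteValuationRing ↥O] [IsFractionRing ↥O K]

set_option quotPrecheck false in
local notation "κ" => IsLocalRing.ResidueField ↥O

/-! ### The residue maps on the valuation subrings -/

section Theta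

variable (M : ℕ) [NeZero M]

/-- The Gauss reduction as a ring homomorphism on the Gauss valuation subring. -/
def thetaV : ↥(gaussVS K M O) →+* LaurentSeries κ :=
  (theta K M O).comp
    (RingHom.codRestrict (gaussVS K M O).subtype (gaussSubalgebra K M O) (fun x => x.2))

theorem thetaV_mk {x : FF K M} (h : x ∈ gaussVS K M O) :
    thetaV K O M ⟨x, h⟩ = theta K M O ⟨x, h⟩ := rfl

theorem res_thetaV_iff {x : FF K M} {r : LaurentSeries κ} :
    Res (gaussVS K M O) (thetaV K O M) x r ↔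
      ∃ h : x ∈ gaussSubalgebra K M O, theta K M O ⟨x, h⟩ = r := Iff.rfl

theorem res_thetaV {x : FF K M} (h : x ∈ gaussSubalgebra K M O) :
    Res (gaussVS K M O) (thetaV K O M) x (theta K M O ⟨x, h⟩) := ⟨h, rfl⟩

/-- `hker₁` of `Toric.exists_toric` (any level). -/
theorem hker₁ (y : ↥(gaussVS K M O)) :
    thetaV K O M y = 0 ↔ (y : FF K M) ∈ (gaussVS K M O).nonunits := by
  rw [FibreTwo.mem_nonunits_gaussVS_iff K M O y.2]
  rfl

/-- The constants. -/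
def constL : κ →+* LaurentSeries κ := HahnSeries.C

/-- every constant is the residue of a constant of `O` (any level). -/
theorem exists_res_const (c : κ) :
    ∃ x : FF K M, Res (gaussVS K M O) (thetaV K O M) x (constL K O c) := by
  obtain ⟨a, rfl⟩ := IsLocalRing.residue_surjective c
  exact ⟨algebraMap ↥O (FF K M) a, (gaussSubalgebra K M O).algebraMap_mem a,
    theta_algebraMap K M O a⟩

end Theta

/-! ### The static hypotheses at level `N ℓ` -/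

section Level

variable (N : ℕ) [NeZero N] (ℓ : ℕ) [Fact ℓ.Prime] [CharP (IsLocalRing.ResidueField ↥O) ℓ]
  (S : FibreTwo.SecondVal K N ℓ O)
  (ι : K →+* ℂ) (hℓN : ¬ ℓ ∣ N)
  (hA2 : ∀ x : ↥(gaussSubalgebra K N O),
    theta K N O x ∈ modularFunctionFieldFullC (IsLocalRing.ResidueField ↥O) N)

/-- The coefficientwise Frobenius of `κ((q))`. -/
def FrL : LaurentSeries κ →+* LaurentSeries κ := coeffMap (frobenius κ ℓ)

theorem FrL_apply (x : LaurentSeries κ) : FrL K O ℓ x = coeffMap (frobenius κ ℓ) x := rfl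

/-- `hker₂`. -/
theorem hker₂ (y : ↥S.V) : S.ev y = 0 ↔ (y : FF K (N * ℓ)) ∈ S.V.nonunits :=
  S.ev_eq_zero_iff y

include ι hℓN hA2 in
/-- `hresα`: the norm–residue formula along `α` in `Res`-language (units not required). -/
theorem hresα (b : FF K (N * ℓ)) (r₁ r₂ : LaurentSeries κ)
    (h₁ : Res (gaussVS K (N * ℓ) O) (thetaV K O (N * ℓ)) b r₁) (h₂ : Res S.V S.ev b r₂) :
    Res (gaussVS K N O) (thetaV K O N) (normAlong (alphaF K N ℓ) b) (r₁ * FrL K O ℓ r₂) := by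
  obtain ⟨hb₁, rfl⟩ := h₁
  obtain ⟨hb₂, rfl⟩ := h₂
  obtain ⟨hmem, h⟩ := NormResidue.norm_alpha_residue_along K N ℓ O (ofTwo S) ι hℓN hA2 hb₁ hb₂
  exact ⟨hmem, h⟩

include ι hℓN hA2 in
/-- `hresβ`: the norm–residue formula along `β` in `Res`-language. -/
theorem hresβ (b : FF K (N * ℓ)) (r₁ r₂ : LaurentSeries κ)
    (h₁ : Res (gaussVS K (N * ℓ) O) (thetaV K O (N * ℓ)) b r₁) (h₂ : Res S.V S.ev b r₂) :
    Res (gaussVS K N O) (thetaV K O N) (normAlong (betaF K N ℓ) b) (FrL K O ℓ r₁ * r₂) := by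
  obtain ⟨hb₁, rfl⟩ := h₁
  obtain ⟨hb₂, rfl⟩ := h₂
  obtain ⟨hmem, h⟩ := NormResidue.norm_beta_residue_along K N ℓ O (ofTwo S) ι hℓN hA2 hb₁ hb₂
  exact ⟨hmem, h⟩

/-- `hroot`. -/
theorem hroot [IsAlgClosed κ] {e : ℕ} (he : e ≠ 0) (c : κ) : ∃ d : κ, d ^ e = c :=
  IsAlgClosed.exists_pow_nat_eq c (Nat.pos_of_ne_zero he)

/-- `hFrC`. -/
theorem hFrC (c : κ) : ∃ d : κ, FrL K O ℓ (constL K O c) = constL K O d :=
  ⟨frobenius κ ℓ c, coeffMap_single (frobenius κ ℓ) 0 c⟩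

/-- `hC₁`. -/
theorem hC₁ (c : κ) :
    ∃ x : FF K (N * ℓ), Res (gaussVS K (N * ℓ) O) (thetaV K O (N * ℓ)) x (constL K O c) :=
  exists_res_const K O (N * ℓ) c

/-- `hβ`: residues of level `N` are residues of `V₂` (through `β`). -/
theorem hβ (y : FF K N) (r : LaurentSeries κ)
    (h : Res (gaussVS K N O) (thetaV K O N) y r) : ∃ x : FF K (N * ℓ), Res S.V S.ev x r := by
  obtain ⟨hy, rfl⟩ := h
  exact ⟨betaF K N ℓ y, S.beta_mem y hy, S.ev_beta y hy⟩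

/-- `hα`: residues of level `N` are residues of `V₁` (through `α`). -/
theorem hα (y : FF K N) (r : LaurentSeries κ)
    (h : Res (gaussVS K N O) (thetaV K O N) y r) :
    ∃ x : FF K (N * ℓ), Res (gaussVS K (N * ℓ) O) (thetaV K O (N * ℓ)) x r := by
  obtain ⟨hy, rfl⟩ := h
  exact ⟨alphaF K N ℓ y, alphaF_mem K O N ℓ hy, theta_alphaF K O N ℓ ⟨y, hy⟩⟩

/-- `hC₂`. -/
theorem hC₂ (c : κ) : ∃ x : FF K (N * ℓ), Res S.V S.ev x (constL K O c) := by
  obtain ⟨y, hy⟩ := exists_res_const K O N c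
  exact hβ K O N ℓ S y _ hy

include hA2 in
/-- `hFrθ`: the residues of level `N` are stable under the coefficientwise Frobenius. -/
theorem hFrθ (y : FF K N) (r : LaurentSeries κ)
    (h : Res (gaussVS K N O) (thetaV K O N) y r) :
    ∃ y' : FF K N, Res (gaussVS K N O) (thetaV K O N) y' (FrL K O ℓ r) := by
  obtain ⟨hy, rfl⟩ := h
  obtain ⟨c, hc⟩ := GaussResidue.theta_surjective K N O
    (GaussResidueQ.coeffMap_frobenius_mem_full κ N ℓ (hA2 ⟨y, hy⟩))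
  exact ⟨(c : FF K N), c.2, hc⟩

include S ι hℓN in
/-- residue degree one of `V₁` along `α` in `Res`-language. -/
theorem exists_res_eq_theta₁ (x : FF K (N * ℓ)) (r : LaurentSeries κ)
    (h : Res (gaussVS K (N * ℓ) O) (thetaV K O (N * ℓ)) x r) :
    ∃ g : ↥(gaussSubalgebra K N O), r = theta K N O g := by
  obtain ⟨hx, rfl⟩ := h
  obtain ⟨a, ha⟩ := (gauss_alpha K N ℓ O S ι hℓN).1 x hx
  refine ⟨a, ?_⟩
  have hα := alphaF_mem K O N ℓ a.2
  have h0 : thetaV K O (N * ℓ) (⟨x, hx⟩ - ⟨alphaF K N ℓ (a : FF K N), hα⟩) = 0 :=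
    (hker₁ K O (N * ℓ) _).2 ha
  rw [map_sub, sub_eq_zero] at h0
  exact h0.trans (theta_alphaF K O N ℓ a)

/-- residue degree one of `V₂` along `β` in `Res`-language. -/
theorem exists_res_eq_theta₂ (x : FF K (N * ℓ)) (r : LaurentSeries κ)
    (h : Res S.V S.ev x r) : ∃ g : ↥(gaussSubalgebra K N O), r = theta K N O g := by
  obtain ⟨hx, rfl⟩ := h
  exact NormResidue.exists_ev_eq_theta K N ℓ O (ofTwo S) ⟨x, hx⟩

include ι hℓN in
/-- `hCRT`: the Chinese remainder theorem in `W = V₁ ∩ V₂`. -/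
theorem hCRT (x₁ : FF K (N * ℓ)) (r₁ : LaurentSeries κ) (x₂ : FF K (N * ℓ))
    (r₂ : LaurentSeries κ)
    (h₁ : Res (gaussVS K (N * ℓ) O) (thetaV K O (N * ℓ)) x₁ r₁) (h₂ : Res S.V S.ev x₂ r₂) :
    ∃ G : FF K (N * ℓ), Res (gaussVS K (N * ℓ) O) (thetaV K O (N * ℓ)) G r₁ ∧
      Res S.V S.ev G r₂ := by
  obtain ⟨g₁, rfl⟩ := exists_res_eq_theta₁ K O N ℓ S ι hℓN x₁ r₁ h₁
  obtain ⟨g₂, rfl⟩ := exists_res_eq_theta₂ K O N ℓ S x₂ r₂ h₂
  obtain ⟨G, hG₁, hG₂, e₁, e₂⟩ :=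
    NormResidue.exists_mem_of_residues K N ℓ O (ofTwo S) ι hℓN g₁ g₂
  exact ⟨G, ⟨hG₁, e₁⟩, ⟨hG₂, e₂⟩⟩

include ι hℓN hA2 in
/-- **`Toric.exists_toric` at a level, with all static hypotheses discharged.** -/
theorem exists_toric_level [IsAlgClosed κ]
    (τ' : FF K N ≃+* FF K N) (τ : FF K (N * ℓ) ≃+* FF K (N * ℓ))
    (hτ' : ∀ x, (gaussVS K N O).valuation (τ' x) = (gaussVS K N O).valuation x)
    (hτ₁ : ∀ x, (gaussVS K (N * ℓ) O).valuation (τ x) = (gaussVS K (N * ℓ) O).valuation x)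
    (hτ₂ : ∀ x, S.V.valuation (τ x) = S.V.valuation x)
    (hθτ₁ : ∀ x r, Res (gaussVS K (N * ℓ) O) (thetaV K O (N * ℓ)) x r →
      Res (gaussVS K (N * ℓ) O) (thetaV K O (N * ℓ)) (τ x) (FrL K O ℓ (FrL K O ℓ r)))
    (hθτ₂ : ∀ x r, Res S.V S.ev x r → Res S.V S.ev (τ x) (FrL K O ℓ (FrL K O ℓ r)))
    (hNα : ∀ x, normAlong (alphaF K N ℓ) (τ x) = τ' (normAlong (alphaF K N ℓ) x))
    (hNβ : ∀ x, normAlong (betaF K N ℓ) (τ x) = τ' (normAlong (betaF K N ℓ) x))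
    {e : ℕ} (he : e ≠ 0)
    {f : FF K (N * ℓ)} (hf : f ≠ 0) {hA hB cA cB : FF K N} (hA0 : hA ≠ 0) (hB0 : hB ≠ 0)
    (hcA0 : cA ≠ 0) (hcB0 : cB ≠ 0)
    (hcA : ∃ c : κ, Res (gaussVS K N O) (thetaV K O N) (τ' cA / cA) (constL K O c))
    (hcB : ∃ c : κ, Res (gaussVS K N O) (thetaV K O N) (τ' cB / cB) (constL K O c))
    (hNf : normAlong (alphaF K N ℓ) f = cA * hA ^ e)
    (hNf' : normAlong (betaF K N ℓ) f = cB * hB ^ e) :
    ∃ G : FF K (N * ℓ), (gaussVS K (N * ℓ) O).valuation G = 1 ∧ S.V.valuation G = 1 ∧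
      (τ (τ f / f) / (τ f / f)) / G ^ e - 1 ∈ (gaussVS K (N * ℓ) O).nonunits ∧
      (τ (τ f / f) / (τ f / f)) / G ^ e - 1 ∈ S.V.nonunits :=
  exists_toric (gaussVS K N O) (gaussVS K (N * ℓ) O) S.V (thetaV K O N) (thetaV K O (N * ℓ))
    S.ev (hker₁ K O (N * ℓ)) (hker₂ K O N ℓ S) (FrL K O ℓ) (constL K O) τ' τ hτ' hτ₁ hτ₂
    hθτ₁ hθτ₂ (normAlong (alphaF K N ℓ)) (normAlong (betaF K N ℓ)) hNα hNβ
    (fun b r₁ r₂ _ _ h₁ h₂ => hresα K O N ℓ S ι hℓN hA2 b r₁ r₂ h₁ h₂)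
    (fun b r₁ r₂ _ _ h₁ h₂ => hresβ K O N ℓ S ι hℓN hA2 b r₁ r₂ h₁ h₂)
    he (hroot K O he) (hFrC K O ℓ) (hC₁ K O N ℓ) (hC₂ K O N ℓ S) (hα K O N ℓ) (hβ K O N ℓ S)
    (hFrθ K O N ℓ hA2) (hCRT K O N ℓ S ι hℓN) hf hA0 hB0 hcA0 hcB0 hcA hcB hNf hNf'

end Level

end Fermat.Agent.P4.ToricLevelBase
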