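/-
P4-S35, node P4-C2L (d), part 3 (helper17): **the `TwistAt` conjunct of `FrobPointsAt` on the finite
chart at a stable level, from good-level data** — `V₁ = gaussVS`, `V₂ = S.V`, `W = FibreSatBridge.W`:

* `Setup`, `BranchNormal₁`, `BranchNormal₂` : helper29's `BranchNormalLevel.setup_branchNormal_fin`
  (= `SetupOfTheta` + `crossingData_fin`);
* (Loc-P) : helper13's `TwoComponentsFinal.locPRat_fin`;
* `TwoVal`, `hval_i` : helper20's `VertFrobLevel.vertFrob` (for `φ² ∈ D_A`);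
* `ρ`, `hρ`, `hcross : CrossingFrob ρ (q²) V₁ V₂` : HYPOTHESES (helper5's `CrossingFrobLevel`).
-/
import Mathlib
import Fermat.Agent.P4.TwistAtOfInputs
import Fermat.Agent.P4.BranchNormalLevel
import Fermat.Agent.P4.VertFrobLevel

set_option autoImplicit false
set_option linter.unusedSectionVars false
set_option linter.style.haveILetI false
set_option linter.style.longLine false

open ModularCurve AlgebraicCurve IntermediateField

noncomputable section

namespace Fermat.Agent.P4.TwistAtGood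

open Fermat.Agent.N4.Setting Fermat.Agent.N4.Chart Fermat.Agent.N4.S18Glue Fermat.Agent.N4.BigDVR
  Fermat.Agent.N4.FibreEmbedding
  Fermat.Agent.P3G.Gamma Fermat.Agent.P3G.GammaAut
  Fermat.Agent.N4F.C Fermat.Agent.N4F.C.Levels Fermat.Agent.N4F.C.Galois
  Fermat.Agent.N4F.E.GaussDVR Fermat.Agent.N4F.E
  Fermat.Agent.P3G.Cover.Lift Fermat.Agent.P3G.Assembly.PowCover
  Fermat.Agent.P4.LevelFrobOfPoints Fermat.Agent.P4.TwistRoots

local notation "Qbar" => AlgebraicClosure ℚ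
local notation "Γ" => (AlgebraicClosure ℚ ≃ₐ[ℚ] AlgebraicClosure ℚ)

variable (K : IntermediateField ℚ Qbar) (hK : ∀ (τ : Γ) (x : Qbar), x ∈ K → τ x ∈ K)
  (N : ℕ) [NeZero N] (q : ℕ) [Fact q.Prime]
  {A : ValuationSubring Qbar} [IsDiscreteValuationRing ↥(baseRing A K)]
  [IsFractionRing ↥(baseRing A K) (Lvl K)]
  [CharP (IsLocalRing.ResidueField ↥(baseRing A K)) q]
  [PerfectRing (IsLocalRing.ResidueField ↥(baseRing A K)) q]
  (hN : IsUnit ((N : ℕ) : ↥(baseRing A K))) (ι : Lvl K →+* ℂ) (hqN : ¬ q ∣ N)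
  (hprime : (fibreIdeal (Lvl K) N (baseRing A K) (Rfin (Lvl K) N (baseRing A K))).IsPrime)
  (hprimeInf : (fibreIdeal (Lvl K) N (baseRing A K) (Rinf (Lvl K) N (baseRing A K))).IsPrime)
  (hsmooth : IsDedekindDomain
    (↥(Rfin (Lvl K) N (baseRing A K)) ⧸ fibreIdeal (Lvl K) N (baseRing A K)
      (Rfin (Lvl K) N (baseRing A K))))
  (hA2 : ∀ x : ↥(gaussSubalgebra (Lvl K) N (baseRing A K)),
    theta (Lvl K) N (baseRing A K) x ∈
      modularFunctionFieldFullC (IsLocalRing.ResidueField ↥(baseRing A K)) N)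
  (S : Fermat.Agent.P3G.FibreTwo.SecondVal (Lvl K) N q (baseRing A K))

include hN ι hqN hprime hprimeInf hsmooth hA2 in
/-- **(I3) on the finite chart at a stable level.** -/
theorem twistAt_fin_good {ϖ : ↥(baseRing A K)} (hϖ : Irreducible ϖ) (φ : Γ)
    (hφ2 : φ ^ 2 ∈ A.decompositionSubgroup ℚ)
    (ρ : ↥(Rfin (Lvl K) (N * q) (baseRing A K)) ≃+* ↥(Rfin (Lvl K) (N * q) (baseRing A K)))
    (hρ : ∀ r : ↥(Rfin (Lvl K) (N * q) (baseRing A K)),
      algebraMap ↥(Rfin (Lvl K) (N * q) (baseRing A K)) (FF (Lvl K) (N * q)) (ρ r) =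
        tauK K hK (N * q) φ
          (algebraMap ↥(Rfin (Lvl K) (N * q) (baseRing A K)) (FF (Lvl K) (N * q)) r))
    (m : ℕ)
    (hcross : CrossingFrob ρ m (gaussVS (Lvl K) (N * q) (baseRing A K)) S.V) :
    TwistAt A K hK φ (N * q) m ϖ
      (Fermat.Agent.P3G.FibreSatBridge.W (Lvl K) N q (baseRing A K) S)
      (gaussVS (Lvl K) (N * q) (baseRing A K)) S.V (jF (Lvl K) (N * q)) := by
  have hV := Fermat.Agent.P4.VertFrobLevel.vertFrob K hK N q ι hqN hprime hprimeInf S hϖ hφ2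
  have hS := Fermat.Agent.P4.BranchNormalLevel.setup_fin (Lvl K) N q (baseRing A K) hN ι hqN
    hprime hsmooth hA2 S hϖ
  have hLocP := Fermat.Agent.P3G.TwoComponentsFinal.locPRat_fin (Lvl K) N q (baseRing A K) hN ι
    hqN hprime hsmooth hA2 hϖ
  exact Fermat.Agent.P4.TwistAtOfInputs.twistAt_fin_of_inputs (N * q) K hK A φ hϖ hV.twoVal hS ρ hρ
    hV.val₁ hV.val₂ m hcross hLocP
    (fun e he => Fermat.Agent.P4.BranchNormalLevel.branchNormal₁_fin (Lvl K) N q (baseRing A K) hN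
      ι hqN hprime hsmooth hA2 hϖ he)
    (fun e he => Fermat.Agent.P4.BranchNormalLevel.branchNormal₂_fin (Lvl K) N q (baseRing A K) hN
      ι hqN hprime hsmooth hA2 S hϖ he)

end Fermat.Agent.P4.TwistAtGood
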