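/-
P4-S35, node P4-C2L (d), part 4 (helper17): **the two `TwistAt` conjuncts of
`LevelFrobOfPoints.FrobPointsAt` at a stable level, with NO geometric hypothesis left** beyond the
good-level base facts (`hN ι hqN hprime hprimeInf hsmooth hsmoothInf hA2`, a `SecondVal`, a uniformiser).

* finite chart: `TwistAtGood.twistAt_fin_good` + helper5's `CrossingFrobLevel.rfinAut / crossingFrob_fin`;
* chart at infinity: `TwistAtOfInputs.twistAt_inf_of_inputs` + helper29's
  `BranchNormalLevelInf.setup_inf / branchNormal_i_inf` + `TwoComponentsInfFinal.locPRat_inf` +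
  `CrossingFrobLevel.rinfAut / crossingFrob_inf`.
-/
import Mathlib
import Fermat.Agent.P4.TwistAtGood
import Fermat.Agent.P4.CrossingFrobLevel
import Fermat.Agent.P4.BranchNormalLevelInf

set_option autoImplicit false
set_option linter.unusedSectionVars false
set_option linter.style.haveILetI false
set_option linter.style.longLine false

open ModularCurve AlgebraicCurve IntermediateField

noncomputable section

namespace Fermat.Agent.P4.TwistAtFinal

open Fermat.Agent.N4.Setting Fermat.Agent.N4.Chart Fermat.Agent.N4.S18Glue Fermat.Agent.N4.BigDVR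
  Fermat.Agent.N4.FibreEmbedding
  Fermat.Agent.P3G.Gamma Fermat.Agent.P3G.GammaAut
  Fermat.Agent.N4F.C Fermat.Agent.N4F.C.Levels Fermat.Agent.N4F.C.Galois
  Fermat.Agent.N4F.E.GaussDVR Fermat.Agent.N4F.E
  Fermat.Agent.P3G.Cover.Lift Fermat.Agent.P3G.Assembly.PowCover
  Fermat.Agent.P4.LevelFrobOfPoints Fermat.Agent.P4.TwistRoots Fermat.Agent.P4.FrobLevel
  Fermat.Agent.P4.CrossingFrobLevel

local notation "Qbar" => AlgebraicClosure ℚ
local notation "Γ" => (AlgebraicClosure ℚ ≃ₐ[ℚ] AlgebraicClosure ℚ)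

variable (K : IntermediateField ℚ Qbar) (hK : ∀ (τ : Γ) (x : Qbar), x ∈ K → τ x ∈ K)
  (N : ℕ) [NeZero N] (q : ℕ) [Fact q.Prime]
  {A : ValuationSubring Qbar} [IsDiscreteValuationRing ↥(baseRing A K)]
  [IsFractionRing ↥(baseRing A K) (Lvl K)]
  [IsAlgClosed (IsLocalRing.ResidueField ↥(baseRing A K))]
  [CharP (IsLocalRing.ResidueField ↥(baseRing A K)) q]
  [PerfectRing (IsLocalRing.ResidueField ↥(baseRing A K)) q]
  (hN : IsUnit ((N : ℕ) : ↥(baseRing A K))) (ι : Lvl K →+* ℂ) (hqN : ¬ q ∣ N)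
  (hprime : (fibreIdeal (Lvl K) N (baseRing A K) (Rfin (Lvl K) N (baseRing A K))).IsPrime)
  (hprimeInf : (fibreIdeal (Lvl K) N (baseRing A K) (Rinf (Lvl K) N (baseRing A K))).IsPrime)
  (hsmooth : IsDedekindDomain
    (↥(Rfin (Lvl K) N (baseRing A K)) ⧸ fibreIdeal (Lvl K) N (baseRing A K)
      (Rfin (Lvl K) N (baseRing A K))))
  (hA2 : ∀ x : ↥(gaussSubalgebra (Lvl K) N (baseRing A K)),
    theta (Lvl K) N (baseRing A K) x ∈
      modularFunctionFieldFullC (IsLocalRing.ResidueField ↥(baseRing A K)) N)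
  (S : Fermat.Agent.P3G.FibreTwo.SecondVal (Lvl K) N q (baseRing A K))

include hN ι hqN hprime hprimeInf hsmooth hA2 in
/-- **(I3) on the finite chart at a stable level, for a Frobenius element `φ` at `q`.** -/
theorem twistAt_fin_final {ϖ : ↥(baseRing A K)} (hϖ : Irreducible ϖ) {φ : Γ}
    (hφ : A.IsFrobeniusAt φ q) :
    TwistAt A K hK φ (N * q) (q ^ 2) ϖ
      (Fermat.Agent.P3G.FibreSatBridge.W (Lvl K) N q (baseRing A K) S)
      (gaussVS (Lvl K) (N * q) (baseRing A K)) S.V (jF (Lvl K) (N * q)) := by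
  have hφ2 : φ ^ 2 ∈ A.decompositionSubgroup ℚ := (isPowFrob_pow_of_isFrobeniusAt hφ 2).1
  exact Fermat.Agent.P4.TwistAtGood.twistAt_fin_good K hK N q hN ι hqN hprime hprimeInf hsmooth
    hA2 S hϖ φ hφ2 (rfinAut K hK (N * q) hφ2) (fun r => rfl) (q ^ 2)
    (crossingFrob_fin K hK N q hN ι hqN hprime hsmooth hA2 S hϖ hφ _ (fun r => rfl))

variable (hsmoothInf : IsDedekindDomain
    (↥(Rinf (Lvl K) N (baseRing A K)) ⧸ fibreIdeal (Lvl K) N (baseRing A K)
      (Rinf (Lvl K) N (baseRing A K))))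

include hN ι hqN hprime hprimeInf hsmoothInf hA2 in
/-- **(I3) on the chart at infinity at a stable level, for a Frobenius element `φ` at `q`**, with the
`Setup`/`BranchNormal` package of the chart at infinity as hypotheses (helper29's
`BranchNormalLevelInf.setup_inf`, `branchNormal₁_inf`, `branchNormal₂_inf`). -/
theorem twistAt_inf_of_setup {ϖ : ↥(baseRing A K)} (hϖ : Irreducible ϖ) {φ : Γ}
    (hφ : A.IsFrobeniusAt φ q)
    (hS : Setup (↥(Rinf (Lvl K) (N * q) (baseRing A K))) ϖ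
      (gaussVS (Lvl K) (N * q) (baseRing A K)) S.V)
    (hBN₁ : ∀ e : ℕ, e ≠ 0 → BranchNormal (↥(Rinf (Lvl K) (N * q) (baseRing A K))) ϖ
      (gaussVS (Lvl K) (N * q) (baseRing A K)) e)
    (hBN₂ : ∀ e : ℕ, e ≠ 0 → BranchNormal (↥(Rinf (Lvl K) (N * q) (baseRing A K))) ϖ S.V e) :
    TwistAt A K hK φ (N * q) (q ^ 2) ϖ
      (Fermat.Agent.P3G.FibreSatBridge.W (Lvl K) N q (baseRing A K) S)
      (gaussVS (Lvl K) (N * q) (baseRing A K)) S.V (jF (Lvl K) (N * q))⁻¹ := by
  have hφ2 : φ ^ 2 ∈ A.decompositionSubgroup ℚ := (isPowFrob_pow_of_isFrobeniusAt hφ 2).1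
  have hV := Fermat.Agent.P4.VertFrobLevel.vertFrob K hK N q ι hqN hprime hprimeInf S hϖ hφ2
  have hLocP := Fermat.Agent.P3G.TwoComponentsInfFinal.locPRat_inf (Lvl K) N q (baseRing A K) hN ι
    hqN hprime hprimeInf hsmoothInf hA2 hϖ
  exact Fermat.Agent.P4.TwistAtOfInputs.twistAt_inf_of_inputs (N * q) K hK A φ hϖ hV.twoVal hS
    (rinfAut K hK (N * q) hφ2) (fun r => rfl) hV.val₁ hV.val₂ (q ^ 2)
    (crossingFrob_inf K hK N q hN ι hqN hprime hprimeInf hsmoothInf hA2 S hϖ hφ _ (fun r => rfl))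
    hLocP hBN₁ hBN₂

include hN ι hqN hprime hprimeInf hsmoothInf hA2 in
/-- **(I3) on the chart at infinity at a stable level, for a Frobenius element `φ` at `q`.** -/
theorem twistAt_inf_final {ϖ : ↥(baseRing A K)} (hϖ : Irreducible ϖ) {φ : Γ}
    (hφ : A.IsFrobeniusAt φ q) :
    TwistAt A K hK φ (N * q) (q ^ 2) ϖ
      (Fermat.Agent.P3G.FibreSatBridge.W (Lvl K) N q (baseRing A K) S)
      (gaussVS (Lvl K) (N * q) (baseRing A K)) S.V (jF (Lvl K) (N * q))⁻¹ :=
  twistAt_inf_of_setup K hK N q hN ι hqN hprime hprimeInf hA2 S hsmoothInf hϖ hφ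
    (Fermat.Agent.P4.BranchNormalLevelInf.setup_inf (Lvl K) N q (baseRing A K) hN ι hqN hprime
      hprimeInf hsmoothInf hA2 S hϖ)
    (fun _ he => Fermat.Agent.P4.BranchNormalLevelInf.branchNormal₁_inf (Lvl K) N q (baseRing A K)
      hN ι hqN hprime hprimeInf hsmoothInf hA2 hϖ he)
    (fun _ he => Fermat.Agent.P4.BranchNormalLevelInf.branchNormal₂_inf (Lvl K) N q (baseRing A K)
      hN ι hqN hprime hprimeInf hsmoothInf hA2 S hϖ he)

include hN ι hqN hprime hprimeInf hsmooth hsmoothInf hA2 in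
/-- **Both `TwistAt` conjuncts of `FrobPointsAt` at a stable level.** -/
theorem twistAt_both_final {ϖ : ↥(baseRing A K)} (hϖ : Irreducible ϖ) {φ : Γ}
    (hφ : A.IsFrobeniusAt φ q) :
    TwistAt A K hK φ (N * q) (q ^ 2) ϖ
        (Fermat.Agent.P3G.FibreSatBridge.W (Lvl K) N q (baseRing A K) S)
        (gaussVS (Lvl K) (N * q) (baseRing A K)) S.V (jF (Lvl K) (N * q)) ∧
      TwistAt A K hK φ (N * q) (q ^ 2) ϖ
        (Fermat.Agent.P3G.FibreSatBridge.W (Lvl K) N q (baseRing A K) S)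
        (gaussVS (Lvl K) (N * q) (baseRing A K)) S.V (jF (Lvl K) (N * q))⁻¹ :=
  ⟨twistAt_fin_final K hK N q hN ι hqN hprime hprimeInf hsmooth hA2 S hϖ hφ,
    twistAt_inf_final K hK N q hN ι hqN hprime hprimeInf hA2 S hsmoothInf hϖ hφ⟩

end Fermat.Agent.P4.TwistAtFinal
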